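import Fermat.Agent.Twists.KroneckerChar
import Fermat.Agent.Deform.EigenLift
import Fermat.Agent.Root.LFunctionEntire
import Fermat.Agent.HasseBound.Series

/-!
# Lemmas shared by the curves with complex multiplication

Additive reduction read off the exponents of `c₄` and the discriminant, the twist with a given
`j`-invariant, the L-function of a twist from a recursion of its coefficients, and the continuation
from a form with the same coefficients.
-/

set_option autoImplicit false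

noncomputable section

open WeierstrassCurve IsDedekindDomain NumberField IsLocalRing IsDedekindDomain.HeightOneSpectrum
  IsDiscreteValuationRing
open Rat.HeightOneSpectrum (primesEquiv)
open FA.Twists

namespace FA.CM

/-- A quadratic twist of an equation is of additive reduction at `p` if the exponent of `p` in the
discriminant is no multiple of `6` and that in `c₄` is large against it or odd. -/
theorem localPolynomial_eq_one_of_exponents {R K : Type*} [CommRing R] [IsDomain R]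
    [IsDiscreteValuationRing R] [Field K] [Algebra R K] [IsFractionRing R K] {p : ℕ}
    [Fact p.Prime] (hϖ : Irreducible (p : R)) (e : ResidueField R ≃+* ZMod p)
    (E : WeierstrassCurve K) {z : K} (hz : z ≠ 0) {A B : ℤ} {β : ℕ} (hB : ¬ (p : ℤ) ∣ B)
    (hβ : ¬ 6 ∣ β)
    (hA : A = 0 ∨ ∃ (α : ℕ) (A' : ℤ), A = (p : ℤ) ^ α * A' ∧ ¬ (p : ℤ) ∣ A' ∧ (β < 3 * α ∨ ¬ 2 ∣ α))
    (h4 : E.c₄ = z ^ 2 * (A : K)) (hΔ : E.Δ = z ^ 6 * ((p : K) ^ β * (B : K))) :
    E.localPolynomial R = 1 := by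
  set M := E.minimal R with hM
  set val := valuation K (IsDiscreteValuationRing.maximalIdeal R)
  suffices hno : val M.Δ ≠ 1 ∧ val M.c₄ ≠ 1 by
    rw [localPolynomial, if_neg fun h : M.HasGoodReduction R => hno.1 h.goodReduction,
      if_neg fun h : M.HasSplitMultiplicativeReduction R =>
        hno.2 h.toHasMultiplicativeReduction.multiplicativeReduction,
      if_neg fun h : M.HasMultiplicativeReduction R => hno.2 h.multiplicativeReduction]
  set J := integralModel R M with hJ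
  have hJK : J.map (algebraMap R K) = M := baseChange_integralModel_eq R _
  have hM4 : val M.c₄ ≤ 1 := by rw [← hJK, map_c₄]; exact valuation_le_one _ _
  have hMΔ : val M.Δ ≤ 1 := by rw [← hJK, map_Δ]; exact valuation_le_one _ _
  obtain ⟨y, hy, hy4, hyΔ⟩ : ∃ y : K, y ≠ 0 ∧ M.c₄ = y ^ 2 * (A : K) ∧
      M.Δ = y ^ 6 * ((p : K) ^ β * (B : K)) := by
    refine ⟨(((E.exists_isMinimal R).choose.u⁻¹ : Kˣ) : K) ^ 2 * z,
      mul_ne_zero (pow_ne_zero _ (Units.ne_zero _)) hz, ?_, ?_⟩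
    · rw [hM, WeierstrassCurve.minimal, variableChange_c₄, h4]; ring
    · rw [hM, WeierstrassCurve.minimal, variableChange_Δ, hΔ]; ring
  have hvp : val (p : K) = WithZero.exp (-1 : ℤ) := by
    rw [← map_natCast (algebraMap R K)]
    show valuation K _ (algebraMap R K (p : R)) = _
    rw [valuation_of_algebraMap]
    exact intValuation_singleton _ hϖ.ne_zero hϖ.maximalIdeal_eq
  have hunit : ∀ n : ℤ, ¬ (p : ℤ) ∣ n → val (n : K) = 1 := fun n hn => by
    rw [← map_intCast (algebraMap R K), FA.Root.valuation_eq_one_iff_residue, ne_eq,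
      FA.Root.residue_intCast_eq_zero_iff e]
    exact hn
  have hvy : val y ≠ 0 := (map_ne_zero _).mpr hy
  have eΔ : val M.Δ = WithZero.exp (6 * WithZero.log (val y) + (β : ℤ) * -1) := by
    conv_lhs => rw [hyΔ, map_mul, map_mul, map_pow, map_pow, hvp, hunit B hB, mul_one,
      ← WithZero.exp_log hvy, ← WithZero.exp_nsmul, ← WithZero.exp_nsmul, ← WithZero.exp_add]
    congr 1
  rw [eΔ, ← WithZero.exp_zero, WithZero.exp_le_exp] at hMΔ
  rcases hA with rfl | ⟨α, A', rfl, hA', hlt⟩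
  · refine ⟨?_, by rw [hy4, Int.cast_zero, mul_zero, map_zero]; exact zero_ne_one⟩
    rw [eΔ, ← WithZero.exp_zero, Ne, WithZero.exp_inj]
    omega
  have e4 : val M.c₄ = WithZero.exp (2 * WithZero.log (val y) + (α : ℤ) * -1) := by
    conv_lhs => rw [hy4, Int.cast_mul, Int.cast_pow, Int.cast_natCast, map_mul, map_mul, map_pow,
      map_pow, hvp, hunit A' hA', mul_one, ← WithZero.exp_log hvy, ← WithZero.exp_nsmul,
      ← WithZero.exp_nsmul, ← WithZero.exp_add]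
    congr 1
  rw [e4, ← WithZero.exp_zero, WithZero.exp_le_exp] at hM4
  rw [e4, eΔ, ← WithZero.exp_zero, Ne, Ne, WithZero.exp_inj, WithZero.exp_inj]
  omega

/-- The coefficients at the powers of such a prime. -/
theorem LFunction_prime_pow_of_exponents {p : ℕ} (hp : p.Prime) (E : WeierstrassCurve ℚ) {z : ℚ}
    (hz : z ≠ 0) {A B : ℤ} {β : ℕ} (hB : ¬ (p : ℤ) ∣ B) (hβ : ¬ 6 ∣ β)
    (hA : A = 0 ∨ ∃ (α : ℕ) (A' : ℤ), A = (p : ℤ) ^ α * A' ∧ ¬ (p : ℤ) ∣ A' ∧ (β < 3 * α ∨ ¬ 2 ∣ α))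
    (h4 : E.c₄ = z ^ 2 * (A : ℚ)) (hΔ : E.Δ = z ^ 6 * ((p : ℚ) ^ β * (B : ℚ))) (k : ℕ) :
    E.LFunction (p ^ (k + 1)) = 0 := by
  obtain ⟨v, rfl⟩ : ∃ v : HeightOneSpectrum (𝓞 ℚ), (primesEquiv v : ℕ) = p :=
    ⟨primesEquiv.symm (⟨p, hp⟩ : Nat.Primes),
      congrArg Subtype.val (primesEquiv.apply_symm_apply (⟨p, hp⟩ : Nat.Primes))⟩
  have := Fact.mk hp
  have hϖ : Irreducible (((primesEquiv v : ℕ)) : v.adicCompletionIntegers ℚ) := by
    rw [← MulEquiv.irreducible_iff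
      (Rat.HeightOneSpectrum.adicCompletionIntegers.padicIntEquiv v).toRingEquiv, map_natCast]
    exact PadicInt.irreducible_p
  rw [FA.Root.LFunction_apply_prime_pow, localPowerSeries,
    localPolynomial_eq_one_of_exponents hϖ (FA.Root.residueEquivZMod v) _
      (z := algebraMap ℚ (v.adicCompletion ℚ) z) ((map_ne_zero _).mpr hz) hB hβ hA
      (by show (E.map (algebraMap ℚ (v.adicCompletion ℚ))).c₄ = _; rw [map_c₄, h4]; simp)
      (by show (E.map (algebraMap ℚ (v.adicCompletion ℚ))).Δ = _; rw [map_Δ, hΔ]; simp),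
    show (1 : Polynomial ℤ) = 1 - Polynomial.C 0 * Polynomial.X by simp,
    FA.Root.coeff_invOfUnit_linear, zero_pow (Nat.succ_ne_zero k)]

/-- The discriminant of a twist. -/
theorem twist_Δ {E : WeierstrassCurve ℚ} {W : WeierstrassCurve ℤ} {x : ℚ} {D : ℤ}
    (h4 : E.c₄ = x ^ 4 * (D : ℚ) ^ 2 * (W.c₄ : ℚ)) (h6 : E.c₆ = x ^ 6 * (D : ℚ) ^ 3 * (W.c₆ : ℚ)) :
    E.Δ = x ^ 12 * (D : ℚ) ^ 6 * (W.Δ : ℚ) := by
  have hrel : (1728 : ℚ) * W.Δ = (W.c₄ : ℚ) ^ 3 - (W.c₆ : ℚ) ^ 2 := by exact_mod_cast W.c_relation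
  refine mul_left_cancel₀ (show (1728 : ℚ) ≠ 0 by norm_num) ?_
  rw [E.c_relation, h4, h6]
  linear_combination -(x ^ 12 * (D : ℚ) ^ 6) * hrel

/-- A curve with the `j`-invariant of an equation with nonzero `c₄` and `c₆` has its invariants up
to scaling. -/
theorem exists_scaling_of_j (E : WeierstrassCurve ℚ) [E.IsElliptic] (W : WeierstrassCurve ℤ)
    (h4W : W.c₄ ≠ 0) (h6W : W.c₆ ≠ 0) (hjW : (W.c₄ : ℚ) ^ 3 = E.j * (W.Δ : ℚ)) :
    ∃ z : ℚ, z ≠ 0 ∧ E.c₄ = z ^ 2 * (W.c₄ : ℚ) ∧ E.c₆ = z ^ 3 * (W.c₆ : ℚ) ∧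
      E.Δ = z ^ 6 * (W.Δ : ℚ) := by
  have h4W' : (W.c₄ : ℚ) ≠ 0 := Int.cast_ne_zero.mpr h4W
  have h6W' : (W.c₆ : ℚ) ≠ 0 := Int.cast_ne_zero.mpr h6W
  have hΔ0 : E.Δ ≠ 0 := E.isUnit_Δ.ne_zero
  have ej : E.c₄ ^ 3 = E.j * E.Δ := by
    rw [WeierstrassCurve.j, Units.val_inv_eq_inv_val, coe_Δ']; field_simp
  have hj0 : E.j ≠ 0 := fun e => pow_ne_zero 3 h4W' (by rw [hjW, e, zero_mul])
  have hc4 : E.c₄ ≠ 0 := fun e => by
    rw [e, zero_pow three_ne_zero] at ej
    exact mul_ne_zero hj0 hΔ0 ej.symm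
  have hrel : (1728 : ℚ) * W.Δ = (W.c₄ : ℚ) ^ 3 - (W.c₆ : ℚ) ^ 2 := by exact_mod_cast W.c_relation
  have key : E.c₆ ^ 2 * (W.c₄ : ℚ) ^ 3 = E.c₄ ^ 3 * (W.c₆ : ℚ) ^ 2 := by
    linear_combination (W.c₄ : ℚ) ^ 3 * E.c_relation - E.c₄ ^ 3 * hrel +
      1728 * (W.Δ : ℚ) * ej - 1728 * E.Δ * hjW
  have hc6 : E.c₆ ≠ 0 := fun e => by
    rw [e, zero_pow two_ne_zero, zero_mul] at key
    exact mul_ne_zero (pow_ne_zero 3 hc4) (pow_ne_zero 2 h6W') key.symm
  set z : ℚ := E.c₆ * W.c₄ / (W.c₆ * E.c₄) with hz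
  have h4 : E.c₄ = z ^ 2 * (W.c₄ : ℚ) := by
    rw [hz]; field_simp
    linear_combination -key
  have h6 : E.c₆ = z ^ 3 * (W.c₆ : ℚ) := by
    rw [pow_succ, show z ^ 2 = E.c₄ / W.c₄ by rw [h4]; field_simp, hz]; field_simp
  refine ⟨z, div_ne_zero (mul_ne_zero hc6 h4W') (mul_ne_zero h6W' hc4), h4, h6, ?_⟩
  refine mul_left_cancel₀ (show (1728 : ℚ) ≠ 0 by norm_num) ?_
  rw [E.c_relation, h4, h6]
  linear_combination -z ^ 6 * hrel

/-- Such a curve is a quadratic twist of the equation. -/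
theorem exists_twist_of_j (E : WeierstrassCurve ℚ) [E.IsElliptic] (W : WeierstrassCurve ℤ)
    (h4W : W.c₄ ≠ 0) (h6W : W.c₆ ≠ 0) (hjW : (W.c₄ : ℚ) ^ 3 = E.j * (W.Δ : ℚ)) :
    ∃ (x : ℚ) (D : ℤ), Squarefree D ∧ x ≠ 0 ∧
      E.c₄ = x ^ 4 * (D : ℚ) ^ 2 * (W.c₄ : ℚ) ∧ E.c₆ = x ^ 6 * (D : ℚ) ^ 3 * (W.c₆ : ℚ) := by
  obtain ⟨z, hz, h4, h6, -⟩ := exists_scaling_of_j E W h4W h6W hjW
  obtain ⟨D, t, hD, ht, rfl⟩ := exists_squarefree_mul_sq hz
  exact ⟨t, D, hD, ht, by rw [h4]; ring, by rw [h6]; ring⟩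

/-- **The L-function of a twist from a recursion**: if the `c n` satisfy the recursion of the traces
of `W` at the primes other than `P` and vanish at the multiples of `P`, and the twist `E` is
additive at `P`, the coefficients of `E` are `ψ (n) c (n)`. -/
theorem LFunction_twist_eq_of_recursion {W : WeierstrassCurve ℤ} {P : ℕ} (hΔ : W.Δ ≠ 0)
    {c : ℕ → ℂ} (h0 : c 0 = 0) (h1 : c 1 = 1) (hbad : ∀ m, c (P * m) = 0)
    (hgood : ∀ l : ℕ, l.Prime → l ≠ P → ¬ (l : ℤ) ∣ W.Δ)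
    (hrec : ∀ l : ℕ, l.Prime → l ≠ P → ∀ m,
      c (l * m) + (if l ∣ m then (l : ℂ) * c (m / l) else 0) = (W.apOfModel l : ℂ) * c m)
    {E : WeierstrassCurve ℚ} {x : ℚ} {D : ℤ} (hD : Squarefree D) (hx : x ≠ 0)
    (h4 : E.c₄ = x ^ 4 * (D : ℚ) ^ 2 * (W.c₄ : ℚ)) (h6 : E.c₆ = x ^ 6 * (D : ℚ) ^ 3 * (W.c₆ : ℚ))
    (hbadE : ∀ k, E.LFunction (P ^ (k + 1)) = 0)
    {q : ℕ} (ψ : DirichletCharacter ℂ q)
    (hψ : ∀ l : ℕ, l.Prime → ψ (l : ZMod q) = (twistSign D l : ℂ)) (n : ℕ) :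
    (E.LFunction n : ℂ) = ψ (n : ZMod q) * c n := by
  set F := W.map (Int.castRingHom ℚ)
  have hWF : W.IsIntegralModelOf F := ⟨1, by rw [one_smul]⟩
  have hF := FA.Root.isMultiplicative_LFunction F
  have hE := FA.Root.isMultiplicative_LFunction E
  have hpow : ∀ l : ℕ, l.Prime → l ≠ P → ∀ r, (F.LFunction (l ^ r) : ℂ) = c (l ^ r) := by
    intro l hl hlP r
    have hg := hgood l hl hlP
    induction r using Nat.twoStepInduction with
    | zero => rw [pow_zero, hF.map_one, h1, Int.cast_one]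
    | one =>
      have h := hrec l hl hlP 1
      rw [if_neg hl.not_dvd_one, add_zero, mul_one, h1, mul_one] at h
      rw [pow_one, h, FA.Root.LFunction_apply_prime F W hWF hl hg]
    | more r ih₀ ih₁ =>
      have h := hrec l hl hlP (l ^ (r + 1))
      rw [if_pos (dvd_pow_self l (Nat.succ_ne_zero r)), ← pow_succ',
        show l ^ (r + 1) / l = l ^ r by rw [pow_succ, Nat.mul_div_cancel _ hl.pos]] at h
      rw [eq_sub_of_add_eq h, ← ih₀, ← ih₁,
        FA.Root.LFunction_apply_prime_pow_good F W hWF hl hg]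
      push_cast
      ring
  have hmul : ∀ a b : ℕ, a.Coprime b → c (a * b) = c a * c b := fun a b hab => by
    refine FA.Deform.mul_of_coprime_of_rec (c := c) (e := fun p => if p = P then 0 else (p : ℂ))
      (lam := fun p => if p = P then 0 else (W.apOfModel p : ℂ)) h0 h1 (fun p hp k => ?_) a b hab
    rcases eq_or_ne p P with rfl | hpP
    · simp only [if_pos, zero_mul, ite_self, add_zero]
      first
        | exact hbad k
        | rw [mul_comm]; exact hbad k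
    · simp only [if_neg hpP]
      first
        | exact hrec p hp hpP k
        | rw [mul_comm k p]; exact hrec p hp hpP k
  induction n using Nat.recOnPosPrimePosCoprime with
  | prime_pow l r hl hr =>
    rcases eq_or_ne l P with rfl | hlP
    · obtain ⟨r, rfl⟩ : ∃ r', r = r' + 1 := ⟨r - 1, by omega⟩
      rw [hbadE, pow_succ', hbad, mul_zero, Int.cast_zero]
    rw [LFunction_twist_prime_pow (W := W) (F := F) (D := D) hWF hΔ hD hx h4 h6 hl
        (fun h => absurd h (hgood l hl hlP)) r,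
      show ((l ^ r : ℕ) : ZMod q) = (l : ZMod q) ^ r from Nat.cast_pow l r, map_pow ψ, hψ l hl,
      ← hpow l hl hlP r]
    push_cast
    rfl
  | zero => simp [h0]
  | one => rw [hE.map_one, Nat.cast_one, map_one, h1, Int.cast_one, one_mul]
  | coprime a b _ _ hab iha ihb =>
    rw [hE.map_mul_of_coprime hab, hmul a b hab, Int.cast_mul, iha, ihb, Nat.cast_mul, map_mul]
    ring

/-- The L-series of a curve with the coefficients of a cusp form is entire. -/
theorem exists_entire_of_qCoeff (E : WeierstrassCurve ℚ) {N : ℕ} (hN : 0 < N)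
    (f : CuspForm (CongruenceSubgroup.Gamma0 N) 2)
    (hf : ∀ n : ℕ, ModularFormClass.qCoeff f n = (E.LFunction n : ℂ)) :
    ∃ g : ℂ → ℂ, Differentiable ℂ g ∧ ∀ s : ℂ, 3 / 2 < s.re → E.LSeries s = g s := by
  have : NeZero N := ⟨hN.ne'⟩
  obtain ⟨g, hg, hgs⟩ := FA.Root.exists_differentiable_eq_LSeries_qCoeff f
  refine ⟨g, hg, fun s hs => FA.HasseBound.eqOn_threeHalves (FA.HasseBound.analyticOnNhd_LSeries _)
    (fun z _ => hg.analyticAt z) (fun z hz => ?_) hs⟩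
  rw [← (hgs z hz).LSeries_eq, WeierstrassCurve.LSeries]
  exact congrArg (LSeries · z) (funext fun k => (hf k).symm)

end FA.CM

end
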