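import Fermat.Agent.Twists.Count
import Fermat.Prelude.Def_FLTPrelim_Modularity
import Mathlib.NumberTheory.LegendreSymbol.QuadraticChar.Basic
import Mathlib.GroupTheory.Coset.Card
import Mathlib.NumberTheory.LegendreSymbol.Basic

/-!
# The points of `y² = x³ - x` over `𝔽_p`

For `p ≡ 3 (mod 4)` there are `p + 1`; for `p ≡ 1 (mod 4)` there are `p + 1 - 2a` with
`p = a² + 4b²`, `a = 2k + 1` and `k + b` even.
-/

set_option autoImplicit false
set_option linter.unusedSectionVars false

noncomputable section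

open WeierstrassCurve

namespace FA.CM

/-- `y² = x³ - x`. -/
def curve32 {R : Type*} [CommRing R] : WeierstrassCurve R := ⟨0, 0, 0, -1, 0⟩

theorem curve32_map {R S : Type*} [CommRing R] [CommRing S] (f : R →+* S) :
    (curve32 : WeierstrassCurve R).map f = curve32 := by
  ext <;> simp [curve32]

theorem curve32_Δ {R : Type*} [CommRing R] : (curve32 : WeierstrassCurve R).Δ = 64 := by
  simp only [curve32, WeierstrassCurve.Δ, b₂, b₄, b₆, b₈]; ring

theorem curve32_c₄ {R : Type*} [CommRing R] : (curve32 : WeierstrassCurve R).c₄ = 48 := by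
  simp only [curve32, c₄, b₂, b₄]; ring

variable {F : Type*} [Field F] [Fintype F] [DecidableEq F]

/-- `∑ χ(x³ - k x)`. -/
def jacobsthal (k : F) : ℤ := ∑ x : F, quadraticChar F (x ^ 3 - k * x)

theorem sum_char_shift (hF : ringChar F ≠ 2) (a b : F) :
    ∑ k : F, quadraticChar F ((a - k) * (b - k)) =
      (if a = b then (Fintype.card F : ℤ) else 0) - 1 := by
  classical
  rw [Fintype.sum_equiv (Equiv.subLeft a) (fun k => quadraticChar F ((a - k) * (b - k)))
    (fun u => quadraticChar F (u * (u + (b - a)))) fun k => by simp]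
  rw [← Finset.add_sum_erase _ _ (Finset.mem_univ (0 : F)), zero_mul, MulChar.map_zero, zero_add]
  have e : ∀ u ∈ Finset.univ.erase (0 : F), quadraticChar F (u * (u + (b - a))) =
      quadraticChar F (1 + (b - a) / u) := fun u hu => by
    have hu0 : u ≠ 0 := Finset.ne_of_mem_erase hu
    rw [show u * (u + (b - a)) = u ^ 2 * (1 + (b - a) / u) by field_simp, map_mul,
      quadraticChar_sq_one' hu0, one_mul]
  rw [Finset.sum_congr rfl e]
  rcases eq_or_ne a b with rfl | hab
  · simp [Finset.card_erase_of_mem, Nat.cast_sub (Fintype.card_pos (α := F))]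
  · rw [if_neg hab, zero_sub]
    have hd : b - a ≠ 0 := sub_ne_zero.mpr hab.symm
    have h : ∑ u ∈ Finset.univ.erase (0 : F), quadraticChar F (1 + (b - a) / u) =
        ∑ t ∈ Finset.univ.erase (1 : F), quadraticChar F t := by
      refine Finset.sum_bij' (fun u _ => 1 + (b - a) / u) (fun t _ => (b - a) / (t - 1))
        (fun u hu => ?_) (fun t ht => ?_) (fun u hu => ?_) (fun t ht => ?_) fun u _ => rfl
      · have := Finset.ne_of_mem_erase hu
        simp [hd, this]
      · have := sub_ne_zero.mpr (Finset.ne_of_mem_erase ht)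
        simp [hd, this]
      · rw [add_sub_cancel_left, div_div_cancel₀ hd]
      · rw [div_div_cancel₀ hd, add_sub_cancel]
    rw [h, Finset.sum_erase_eq_sub (Finset.mem_univ _), quadraticChar_sum_zero hF, map_one]
    rfl

theorem sum_jacobsthal_sq (hF : ringChar F ≠ 2) (hneg : quadraticChar F (-1) = 1) :
    ∑ k : F, jacobsthal k ^ 2 = 2 * (Fintype.card F : ℤ) * (Fintype.card F - 1) := by
  classical
  set χ := quadraticChar F
  have h0 : ∑ x : F, χ x = 0 := quadraticChar_sum_zero hF
  calc ∑ k : F, jacobsthal k ^ 2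
      = ∑ x : F, ∑ y : F, χ x * χ y * ∑ k : F, χ ((x ^ 2 - k) * (y ^ 2 - k)) := by
        simp only [jacobsthal, sq, Finset.sum_mul, Finset.mul_sum]
        rw [Finset.sum_comm]
        refine Finset.sum_congr rfl fun x _ => ?_
        rw [Finset.sum_comm]
        refine Finset.sum_congr rfl fun y _ => Finset.sum_congr rfl fun k _ => ?_
        simp only [← map_mul]
        congr 1
        ring
    _ = ∑ x : F, (Fintype.card F : ℤ) * (2 * χ x ^ 2) := by
        refine Finset.sum_congr rfl fun x _ => ?_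
        have hshift : ∀ a b : F, ∑ k : F, χ ((a - k) * (b - k)) =
            (if a = b then (Fintype.card F : ℤ) else 0) - 1 := sum_char_shift hF
        simp only [hshift]
        simp only [mul_sub, mul_one, mul_ite, mul_zero, Finset.sum_sub_distrib,
          ← Finset.sum_filter, ← Finset.mul_sum, ← Finset.sum_mul, h0, sub_zero]
        rcases eq_or_ne x 0 with rfl | hx
        · simp [χ]
        rw [show Finset.univ.filter (fun y : F => x ^ 2 = y ^ 2) = {x, -x} by
            ext y
            rw [Finset.mem_filter, sq_eq_sq_iff_eq_or_eq_neg, Finset.mem_insert,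
              Finset.mem_singleton]
            exact ⟨fun ⟨_, h⟩ => h.imp (fun e => e.symm) fun e => by rw [e, neg_neg],
              fun h => ⟨Finset.mem_univ y, h.imp (fun e => e.symm) fun e => by rw [e, neg_neg]⟩⟩,
          Finset.sum_pair (fun h => hx ((Ring.eq_self_iff_eq_zero_of_char_ne_two hF).mp h.symm)),
          ← neg_one_mul x, map_mul, hneg, one_mul]
        ring
    _ = _ := by
        rw [← Finset.mul_sum, ← Finset.mul_sum, ← Finset.add_sum_erase _ _ (Finset.mem_univ (0 : F)),
          Finset.sum_congr rfl fun x hx => quadraticChar_sq_one (Finset.ne_of_mem_erase hx)]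
        simp [χ, Finset.card_erase_of_mem, Nat.cast_sub (Fintype.card_pos (α := F))]
        ring

theorem jacobsthal_sq_mul (k : F) {d : F} (hd : d ≠ 0) :
    jacobsthal (d ^ 2 * k) ^ 2 = jacobsthal k ^ 2 := by
  have h : jacobsthal (d ^ 2 * k) = quadraticChar F d * jacobsthal k := by
    rw [jacobsthal, jacobsthal, Finset.mul_sum]
    refine (Fintype.sum_equiv (Equiv.mulLeft₀ d hd) _ _ fun x => ?_).symm
    rw [show Equiv.mulLeft₀ d hd x = d * x from rfl,
      show (d * x) ^ 3 - d ^ 2 * k * (d * x) = d ^ 2 * (d * (x ^ 3 - k * x)) by ring, map_mul,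
      quadraticChar_sq_one' hd, one_mul, map_mul]
  rw [h, mul_pow, quadraticChar_sq_one hd, one_mul]

/-- **Jacobsthal**: the sums for `1` and a non-square give a representation of `4q`. -/
theorem jacobsthal_sq_add (hF : ringChar F ≠ 2) (hneg : quadraticChar F (-1) = 1) {n : F}
    (hn : quadraticChar F n = -1) :
    jacobsthal (1 : F) ^ 2 + jacobsthal n ^ 2 = 4 * (Fintype.card F : ℤ) := by
  classical
  have hn0 : n ≠ 0 := fun h => by simp [h] at hn
  have h0 : jacobsthal (0 : F) = 0 := by
    simp only [jacobsthal, zero_mul, sub_zero, map_pow]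
    rw [← quadraticChar_sum_zero hF]
    refine Finset.sum_congr rfl fun x _ => ?_
    rcases eq_or_ne x 0 with rfl | hx
    · simp
    · rw [pow_succ, quadraticChar_sq_one hx, one_mul]
  have hk : ∀ k ∈ Finset.univ.erase (0 : F), 2 * jacobsthal k ^ 2 =
      (1 + quadraticChar F k) * jacobsthal (1 : F) ^ 2 +
        (1 - quadraticChar F k) * jacobsthal n ^ 2 := fun k hk => by
    have hk0 : k ≠ 0 := Finset.ne_of_mem_erase hk
    rcases quadraticChar_dichotomy hk0 with h | h
    · obtain ⟨d, rfl⟩ := (quadraticChar_one_iff_isSquare hk0).mp h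
      have hd : d ≠ 0 := fun e => hk0 (by rw [e, mul_zero])
      rw [h, show d * d = d ^ 2 * (1 : F) by ring, jacobsthal_sq_mul 1 hd]
      ring
    · have hsq : quadraticChar F (k / n) = 1 := by
        have e : quadraticChar F (k / n) * quadraticChar F n = quadraticChar F k := by
          rw [← map_mul, div_mul_cancel₀ k hn0]
        rw [hn, h] at e
        linarith
      obtain ⟨d, hd⟩ := (quadraticChar_one_iff_isSquare (div_ne_zero hk0 hn0)).mp hsq
      have hd0 : d ≠ 0 := fun e => div_ne_zero hk0 hn0 (by rw [hd, e, mul_zero])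
      rw [h, show k = d ^ 2 * n by rw [sq, ← hd, div_mul_cancel₀ k hn0], jacobsthal_sq_mul n hd0]
      ring
  have h := sum_jacobsthal_sq (F := F) hF hneg
  rw [← Finset.add_sum_erase _ _ (Finset.mem_univ (0 : F)), h0, zero_pow two_ne_zero, zero_add] at h
  have hsum := Finset.sum_congr rfl hk
  rw [← Finset.mul_sum, h] at hsum
  simp only [add_mul, sub_mul, one_mul, Finset.sum_add_distrib, Finset.sum_sub_distrib,
    ← Finset.sum_mul, Finset.sum_const, nsmul_eq_mul,
    Finset.sum_erase_eq_sub (Finset.mem_univ (0 : F)), quadraticChar_sum_zero hF,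
    quadraticChar_zero, sub_zero, zero_mul, Finset.card_univ, add_zero] at hsum
  have hq : (Fintype.card F : ℤ) - 1 ≠ 0 := by
    have := Fintype.one_lt_card (α := F)
    omega
  refine mul_left_cancel₀ hq ?_
  linarith

/-- The sums are even. -/
theorem even_jacobsthal (hF : ringChar F ≠ 2) {k : F} (hk : k ≠ 0) : Even (jacobsthal k) := by
  classical
  have hodd : Odd (Fintype.card F) :=
    Nat.odd_iff.mpr (FiniteField.odd_card_of_char_ne_two hF)
  rw [← ZMod.intCast_eq_zero_iff_even, jacobsthal]
  push_cast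
  have h : ∀ x : F, ((quadraticChar F (x ^ 3 - k * x) : ℤ) : ZMod 2) =
      1 - (if x ^ 3 - k * x = 0 then 1 else 0) := fun x => by
    by_cases hx : x ^ 3 - k * x = 0
    · simp [hx]
    · rcases quadraticChar_dichotomy hx with h | h <;> simp [hx, h]
  simp only [h, Finset.sum_sub_distrib, Finset.sum_const, Finset.card_univ, nsmul_one,
    Finset.sum_boole]
  by_cases hsq : IsSquare k
  · obtain ⟨d, rfl⟩ := hsq
    have hd : d ≠ 0 := fun e => hk (by rw [e, mul_zero])
    have hne : d ≠ -d := fun h => hd ((Ring.eq_self_iff_eq_zero_of_char_ne_two hF).mp h.symm)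
    rw [show Finset.univ.filter (fun x : F => x ^ 3 - d * d * x = 0) = {0, d, -d} by
        ext x
        rw [Finset.mem_filter, show x ^ 3 - d * d * x = x * ((x - d) * (x + d)) by ring]
        simp [sub_eq_zero, add_eq_zero_iff_eq_neg],
      Finset.card_insert_of_notMem (by simp [hd.symm, hd]), Finset.card_pair hne]
    obtain ⟨m, hm⟩ := hodd
    rw [hm]
    push_cast
    ring_nf
    simp [show (2 : ZMod 2) = 0 from rfl]
  · rw [show Finset.univ.filter (fun x : F => x ^ 3 - k * x = 0) = {0} by
        ext x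
        rw [Finset.mem_filter, show x ^ 3 - k * x = x * (x ^ 2 - k) by ring]
        simp only [Finset.mem_univ, true_and, mul_eq_zero, Finset.mem_singleton]
        exact ⟨fun h => h.resolve_right fun e => hsq ⟨x, by linear_combination -e⟩, Or.inl⟩,
      Finset.card_singleton]
    obtain ⟨m, hm⟩ := hodd
    rw [hm]
    push_cast
    simp [show (2 : ZMod 2) = 0 from rfl]

theorem curve32_Δ_ne_zero (hF : ringChar F ≠ 2) : (curve32 : WeierstrassCurve F).Δ ≠ 0 := by
  rw [curve32_Δ, show (64 : F) = 2 ^ 6 by norm_num]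
  exact pow_ne_zero _ (Ring.two_ne_zero hF)

/-- The number of points. -/
theorem natCard_point_32 (hF : ringChar F ≠ 2) :
    (Nat.card (curve32 : WeierstrassCurve F).toAffine.Point : ℤ) =
      Fintype.card F + 1 + jacobsthal (1 : F) := by
  rw [FA.Twists.natCard_point_eq_sum hF _ (curve32_Δ_ne_zero hF), jacobsthal]
  congr 1
  refine Finset.sum_congr rfl fun x _ => ?_
  rw [← one_mul (quadraticChar F (x ^ 3 - _)),
    ← quadraticChar_sq_one' (Ring.two_ne_zero hF), ← map_mul]
  congr 1
  simp only [curve32, b₂, b₄, b₆]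
  ring

/-- If `-1` is a square the points contain a group of order `8`. -/
theorem eight_dvd_natCard (hF : ringChar F ≠ 2) {i : F} (hi : i ^ 2 = -1) :
    8 ∣ Nat.card (curve32 : WeierstrassCurve F).toAffine.Point := by
  classical
  set W : WeierstrassCurve F := curve32 with hW
  have h2 : (2 : F) ≠ 0 := Ring.two_ne_zero hF
  have hns : ∀ x y : F, y ^ 2 = x ^ 3 - x → W.toAffine.Nonsingular x y := fun x y h =>
    (Affine.equation_iff_nonsingular_of_Δ_ne_zero (curve32_Δ_ne_zero hF)).1 (by
      rw [Affine.equation_iff]; simp only [curve32]; linear_combination h)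
  have hnegY : ∀ x y : F, W.toAffine.negY x y = -y := fun x y => by
    simp [Affine.negY, hW, curve32]
  let P : W.toAffine.Point :=
    .some i (1 - i) (hns _ _ (by linear_combination (1 - i) * hi))
  let T : W.toAffine.Point := .some 1 0 (hns _ _ (by ring))
  let Z : W.toAffine.Point := .some 0 0 (hns _ _ (by ring))
  have hTT : T + T = 0 := Affine.Point.add_self_of_Y_eq (by rw [hnegY, neg_zero])
  have hZZ : Z + Z = 0 := Affine.Point.add_self_of_Y_eq (by rw [hnegY, neg_zero])
  have hy : (1 : F) - i ≠ W.toAffine.negY i (1 - i) := fun h => by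
    rw [hnegY] at h
    have h' : (1 : F) - i = 0 := by
      have : 2 * (1 - i) = 0 := by linear_combination h
      exact (mul_eq_zero.mp this).resolve_left h2
    exact h2 (by linear_combination hi + (1 + i) * h')
  have hPP : P + P = Z := by
    refine (Affine.Point.add_self_of_Y_ne hy).trans ?_
    have hs : W.toAffine.slope i i (1 - i) (1 - i) = -(1 + i) := by
      rw [Affine.slope_of_Y_ne rfl hy, hnegY, div_eq_iff (fun h => hy (by
        rw [hnegY]; linear_combination h))]
      simp only [hW, curve32]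
      linear_combination hi
    simp only [Z, Affine.Point.some.injEq, hs]
    constructor <;> simp only [Affine.addX, Affine.addY, Affine.negAddY, Affine.negY, hW, curve32]
    · linear_combination hi
    · linear_combination i * hi
  have hT4 : (4 : ℤ) • P = 0 := by
    rw [show (4 : ℤ) = 2 + 2 from rfl, add_zsmul, two_zsmul, hPP, hZZ]
  have hT2 : (2 : ℤ) • T = 0 := by rw [two_zsmul, hTT]
  let f : ZMod 4 →+ W.toAffine.Point := ZMod.lift 4 ⟨zmultiplesHom _ P, by simpa using hT4⟩
  let g : ZMod 2 →+ W.toAffine.Point := ZMod.lift 2 ⟨zmultiplesHom _ T, by simpa using hT2⟩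
  let φ : ZMod 4 × ZMod 2 →+ W.toAffine.Point := f.coprod g
  have hinj : Function.Injective φ := by
    refine (injective_iff_map_eq_zero φ).mpr fun v => ?_
    have hf : ∀ n : ℤ, f n = n • P := fun n => ZMod.lift_coe _ _ n
    have hg : ∀ n : ℤ, g n = n • T := fun n => ZMod.lift_coe _ _ n
    have hZ : Z ≠ 0 := Affine.Point.some_ne_zero _
    have hT : T ≠ 0 := Affine.Point.some_ne_zero _
    have hP : P ≠ 0 := Affine.Point.some_ne_zero _
    have hZT : Z ≠ T := fun h => by
      simp only [Z, T, Affine.Point.some.injEq] at h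
      exact zero_ne_one h.1
    have two : f 2 = Z := by rw [show (2 : ZMod 4) = ((2 : ℤ) : ZMod 4) by norm_num, hf, two_zsmul, hPP]
    have hg1 : g 1 = T := by rw [show (1 : ZMod 2) = ((1 : ℤ) : ZMod 2) by norm_num, hg, one_zsmul]
    obtain ⟨a, b⟩ := v
    intro hv
    change f a + g b = 0 at hv
    have hdbl : f a + f a = 0 := by
      have hb : g b + g b = 0 := by
        rw [← map_add, (by decide : ∀ b : ZMod 2, b + b = 0) b, map_zero]
      have := congrArg₂ (· + ·) hv hv
      simp only [add_zero] at this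
      rwa [add_add_add_comm, hb, add_zero] at this
    rw [← map_add] at hdbl
    have ha : a = 0 ∨ a = 2 := by
      rcases (by decide : ∀ a : ZMod 4, a = 0 ∨ a = 2 ∨ a + a = 2) a with h | h | h
      · exact Or.inl h
      · exact Or.inr h
      · exact absurd (by rw [← two, ← h, hdbl]) hZ
    rcases (by decide : ∀ b : ZMod 2, b = 0 ∨ b = 1) b with rfl | rfl <;> rcases ha with rfl | rfl
    · rfl
    · simp [two, hZ] at hv
    · simp [hg1, hT] at hv
    · rw [two, hg1, ← eq_neg_iff_add_eq_zero, neg_eq_of_add_eq_zero_left hTT] at hv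
      exact absurd hv hZT
  have h8 : Nat.card φ.range = 8 := by
    rw [← Nat.card_congr (AddMonoidHom.ofInjective hinj).toEquiv]
    simp
  exact h8 ▸ AddSubgroup.card_addSubgroup_dvd_card _

section prime

variable {p : ℕ} [hp : Fact p.Prime]

theorem apOfModel_curve32 (hp2 : p ≠ 2) :
    (curve32 : WeierstrassCurve ℤ).apOfModel p = -jacobsthal (1 : ZMod p) := by
  rw [apOfModel, reductionMod, curve32_map, traceOfFrobenius, WeierstrassCurve.card,
    natCard_point_32 ((ZMod.ringChar_zmod_n p).trans_ne hp2), Nat.card_eq_fintype_card]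
  ring

/-- No twist at `p ≡ 3 (mod 4)`. -/
theorem apOfModel_curve32_three (hp3 : p % 4 = 3) :
    (curve32 : WeierstrassCurve ℤ).apOfModel p = 0 := by
  classical
  have hp2 : p ≠ 2 := by omega
  have hneg : quadraticChar (ZMod p) (-1) = -1 :=
    quadraticChar_neg_one_iff_not_isSquare.mpr fun h =>
      ((ZMod.exists_sq_eq_neg_one_iff (p := p)).mp h) hp3
  rw [apOfModel_curve32 hp2, neg_eq_zero]
  have h : jacobsthal (1 : ZMod p) = -jacobsthal (1 : ZMod p) := by
    rw [jacobsthal, ← Finset.sum_neg_distrib]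
    refine Fintype.sum_equiv (Equiv.neg _) _ _ fun x => ?_
    rw [Equiv.neg_apply, show (-x) ^ 3 - 1 * -x = -1 * (x ^ 3 - 1 * x) by ring, map_mul, hneg]
    ring
  omega

/-- **Gauss**: the trace at `p ≡ 1 (mod 4)`. -/
theorem exists_apOfModel_curve32 (hp1 : p % 4 = 1) :
    ∃ k b : ℤ, (p : ℤ) = (2 * k + 1) ^ 2 + 4 * b ^ 2 ∧ Even (k + b) ∧
      (curve32 : WeierstrassCurve ℤ).apOfModel p = 2 * (2 * k + 1) := by
  classical
  have hp2 : p ≠ 2 := by omega
  have hF : ringChar (ZMod p) ≠ 2 := (ZMod.ringChar_zmod_n p).trans_ne hp2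
  obtain ⟨i, hi⟩ := (ZMod.exists_sq_eq_neg_one_iff (p := p)).mpr (show p % 4 ≠ 3 by omega)
  have hi2 : i ^ 2 = -1 := by rw [sq, ← hi]
  have hneg : quadraticChar (ZMod p) (-1) = 1 :=
    (quadraticChar_one_iff_isSquare (neg_ne_zero.mpr one_ne_zero)).mpr ⟨i, hi⟩
  obtain ⟨n, hn⟩ := quadraticChar_exists_neg_one hF
  have hn0 : n ≠ 0 := fun h => by simp [h] at hn
  have h4 := jacobsthal_sq_add hF hneg hn
  rw [ZMod.card] at h4
  obtain ⟨u, hu⟩ := even_jacobsthal hF (one_ne_zero (α := ZMod p))
  obtain ⟨v, hv⟩ := even_jacobsthal hF hn0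
  have hsum : (p : ℤ) = u ^ 2 + v ^ 2 := by
    rw [hu, hv] at h4
    linarith
  obtain ⟨m, hm⟩ := Int.natCast_dvd_natCast.mpr (eight_dvd_natCard hF hi2)
  rw [natCard_point_32 hF, ZMod.card, hu] at hm
  push_cast at hm
  obtain ⟨k, hk⟩ : ∃ k, -u = 2 * k + 1 := ⟨(-u - 1) / 2, by omega⟩
  obtain ⟨b, hb⟩ : ∃ b, v = 2 * b := by
    rcases Int.even_or_odd v with ⟨b, hb⟩ | ⟨b, hb⟩
    · exact ⟨b, by omega⟩
    · exfalso
      have : (p : ℤ) = 4 * (k ^ 2 + k + b ^ 2 + b) + 2 := by
        rw [hsum, hb, show u = -(2 * k + 1) by omega]; ring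
      omega
  have hp' : (p : ℤ) = (2 * k + 1) ^ 2 + 4 * b ^ 2 := by
    rw [hsum, hb, show u = -(2 * k + 1) by omega]; ring
  refine ⟨k, b, hp', ?_, by rw [apOfModel_curve32 hp2, hu]; omega⟩
  obtain ⟨r, hr⟩ := Int.even_mul_succ_self k
  obtain ⟨r', hr'⟩ := Int.even_mul_succ_self b
  have : (p : ℤ) = 8 * r + 8 * r' - 4 * b + 1 := by
    rw [hp']; linear_combination 4 * hr + 4 * hr'
  rw [Int.even_iff]
  omega

end prime

end FA.CM

end
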