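import Fermat.Agent.CM.Eigen32
import Fermat.Agent.CM.Count
import Fermat.Agent.CM.Common

/-!
# Modularity of `y² = x³ - x`

All coefficients of the L-function of this curve with complex multiplication by `ℤ[i]` are those
of `η(4z)² η(8z)²`, so the curve is modular of level 32 and its L-series is entire.
-/

set_option autoImplicit false

noncomputable section

open WeierstrassCurve IsDedekindDomain NumberField
open Rat.HeightOneSpectrum (primesEquiv)

namespace FA.CM

open IsLocalRing IsDedekindDomain.HeightOneSpectrum in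
/-- The reduction at `2` is additive. -/
theorem localPolynomial_curve32 {R K : Type*} [CommRing R] [IsDomain R]
    [IsDiscreteValuationRing R] [Field K] [Algebra R K] [IsFractionRing R K]
    (h2 : ¬ IsUnit (2 : R)) (hdvd : ∀ x : R, ¬ IsUnit x → (2 : R) ∣ x)
    (E : WeierstrassCurve K) (C : VariableChange K)
    (hC : C • E = (curve32 : WeierstrassCurve K)) : E.localPolynomial R = 1 := by
  obtain ⟨D, hD⟩ := FA.Root.exists_change_minimal (R := R) (curve32 : WeierstrassCurve ℤ) E C
    (by rw [curve32_map]; exact hC)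
  rw [curve32_map, curve32_map] at hD
  set w : K := ((D.u⁻¹ : Kˣ) : K) with hw
  have hΔ : (E.minimal R).Δ = w ^ 12 * 64 := by rw [← hD, variableChange_Δ, curve32_Δ]
  have hc₄ : (E.minimal R).c₄ = w ^ 4 * 48 := by rw [← hD, variableChange_c₄, curve32_c₄]
  obtain ⟨b, hb⟩ : ∃ b : R, algebraMap R K b = w := by
    by_contra hne
    -- otherwise `w⁻¹` is divisible by `2` in `R` and the discriminant is not integral
    obtain ⟨x, hx⟩ : ∃ x : R, algebraMap R K x = w⁻¹ := by
      rcases ValuationRing.isInteger_or_isInteger R w with ⟨x, hx⟩ | ⟨x, hx⟩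
      · exact absurd ⟨x, hx⟩ hne
      · exact ⟨x, hx⟩
    have hw0 : w ≠ 0 := Units.ne_zero _
    have hxu : ¬ IsUnit x := fun ⟨u, hu⟩ => hne ⟨((u⁻¹ : Rˣ) : R), by
      rw [map_units_inv, hu, hx, inv_inv]⟩
    obtain ⟨y, rfl⟩ := hdvd x hxu
    have hi := integralModel_Δ_eq R (E.minimal R)
    rw [hΔ] at hi
    refine h2 (isUnit_of_dvd_one ⟨2 ^ 5 * (integralModel R (E.minimal R)).Δ * y ^ 12, ?_⟩)
    apply IsFractionRing.injective R K
    simp only [map_mul, map_pow, map_ofNat, map_one] at hx ⊢
    rw [hi]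
    have e : ((2 : K) * algebraMap R K y) * w = 1 := by rw [hx, inv_mul_cancel₀ hw0]
    have e12 : ((2 : K) * algebraMap R K y) ^ 12 * w ^ 12 = 1 := by rw [← mul_pow, e, one_pow]
    linear_combination -e12
  have hlt : ∀ n : R, (2 : R) ∣ n →
      valuation K (IsDiscreteValuationRing.maximalIdeal R) (algebraMap R K n) < 1 := fun n hn =>
    (valuation_lt_one_iff_mem _ n).mpr ((mem_maximalIdeal n).mpr fun hu =>
      h2 (isUnit_of_dvd_unit hn hu))
  have hnd : ¬ (E.minimal R).HasGoodReduction R := fun h => by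
    have e := ((hasGoodReduction_iff R _).mp h).2
    rw [hΔ, ← hb, show (64 : K) = algebraMap R K 64 by rw [map_ofNat], ← map_pow, ← map_mul] at e
    exact (hlt _ (dvd_mul_of_dvd_right ⟨32, by norm_num⟩ _)).ne e
  have hnm : ¬ (E.minimal R).HasMultiplicativeReduction R := fun h => by
    have e := ((hasMultiplicativeReduction_iff R _).mp h).2.2
    rw [hc₄, ← hb, show (48 : K) = algebraMap R K 48 by rw [map_ofNat], ← map_pow, ← map_mul] at e
    exact (hlt _ (dvd_mul_of_dvd_right ⟨24, by norm_num⟩ _)).ne e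
  rw [localPolynomial, if_neg hnd, if_neg (fun h => hnm ((hasSplitMultiplicativeReduction_iff R _).mp h).1),
    if_neg hnm]

theorem isIntegralModelOf_curve32 :
    (curve32 : WeierstrassCurve ℤ).IsIntegralModelOf (curve32 : WeierstrassCurve ℚ) :=
  ⟨1, by rw [one_smul, curve32_map]⟩

theorem good_curve32 {p : ℕ} (hp : p.Prime) (hp2 : p ≠ 2) :
    ¬ (p : ℤ) ∣ (curve32 : WeierstrassCurve ℤ).Δ := by
  rw [curve32_Δ]
  intro h
  have h' : p ∣ 2 ^ 6 := by exact_mod_cast h
  exact hp2 ((Nat.prime_dvd_prime_iff_eq hp Nat.prime_two).mp (hp.dvd_of_dvd_pow h'))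

/-- The L-function at the powers of `2`. -/
theorem LFunction_two_pow (k : ℕ) :
    (curve32 : WeierstrassCurve ℚ).LFunction (2 ^ k) = if k = 0 then 1 else 0 := by
  obtain ⟨v, hv⟩ : ∃ v : HeightOneSpectrum (𝓞 ℚ), (primesEquiv v : ℕ) = 2 :=
    ⟨primesEquiv.symm (⟨2, Nat.prime_two⟩ : Nat.Primes),
      congrArg Subtype.val (primesEquiv.apply_symm_apply (⟨2, Nat.prime_two⟩ : Nat.Primes))⟩
  rw [← hv, FA.Root.LFunction_apply_prime_pow, localPowerSeries]
  have := Fact.mk (primesEquiv v).2
  let e := (Rat.HeightOneSpectrum.adicCompletionIntegers.padicIntEquiv v).toRingEquiv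
  have hmax : ∀ x : v.adicCompletionIntegers ℚ, ¬ IsUnit x ↔ ((primesEquiv v : ℕ) :
      v.adicCompletionIntegers ℚ) ∣ x := fun x => by
    have h := Ideal.ext_iff.mp (PadicInt.maximalIdeal_eq_span_p (p := (primesEquiv v : ℕ))) (e x)
    rw [IsLocalRing.mem_maximalIdeal, mem_nonunits_iff, Ideal.mem_span_singleton] at h
    rw [← map_dvd_iff e (a := ((primesEquiv v : ℕ) : v.adicCompletionIntegers ℚ)), map_natCast, ← h,
      isUnit_map_iff]
  simp only [hv, Nat.cast_ofNat] at hmax
  rw [localPolynomial_curve32 ((hmax 2).mpr dvd_rfl) (fun x hx => (hmax x).mp hx)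
    _ 1 (by rw [one_smul]; exact curve32_map _)]
  have h := FA.Root.coeff_invOfUnit_linear 0 k
  rw [map_zero, zero_mul, sub_zero] at h
  rw [h, zero_pow_eq]

/-- **Every coefficient**: the L-function of `y² = x³ - x` is `η(4z)² η(8z)²`. -/
theorem qCoeff_form32_eq_LFunction (n : ℕ) :
    ModularFormClass.qCoeff form32 n = ((curve32 : WeierstrassCurve ℚ).LFunction n : ℂ) := by
  set E : WeierstrassCurve ℚ := curve32
  have hf := form32_isNormalizedEigenform
  have hL := FA.Root.isMultiplicative_LFunction E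
  have hpow : ∀ p : ℕ, p.Prime → ∀ k : ℕ,
      ModularFormClass.qCoeff form32 (p ^ k) = (E.LFunction (p ^ k) : ℂ) := by
    intro p hp k
    rcases eq_or_ne p 2 with rfl | hp2
    · rw [LFunction_two_pow]
      rcases k with _ | k
      · rw [pow_zero, hf.qCoeff_one]; simp
      · rw [if_neg (Nat.succ_ne_zero k), qCoeff_form32, coeff32_eq_zero]
        have : 2 ∣ 2 ^ (k + 1) := dvd_pow_self 2 (Nat.succ_ne_zero k)
        omega
    have := Fact.mk hp
    have hgood := good_curve32 hp hp2
    have hpN : ¬ p ∣ 32 := fun h => hp2 ((Nat.prime_dvd_prime_iff_eq hp Nat.prime_two).mp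
      (hp.dvd_of_dvd_pow (show p ∣ 2 ^ 5 from h)))
    have h1 : ModularFormClass.qCoeff form32 p = (E.LFunction p : ℂ) := by
      rw [FA.Root.LFunction_apply_prime E curve32 isIntegralModelOf_curve32 hp hgood, qCoeff_form32]
      congr 1
      rcases (show p % 4 = 1 ∨ p % 4 = 3 by have := hp.eq_two_or_odd; omega) with h | h
      · obtain ⟨a, b, hab, heven, hap⟩ := exists_apOfModel_curve32 h
        rw [hap, coeff32_prime hp hab, (Int.natAbs_even.mpr heven).neg_one_pow, mul_one]
      · rw [apOfModel_curve32_three h, coeff32_eq_zero (by omega)]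
    induction k using Nat.twoStepInduction with
    | zero => rw [pow_zero, hf.qCoeff_one, hL.map_one, Int.cast_one]
    | one => rwa [pow_one]
    | more r ih₀ ih₁ =>
      rw [hf.qCoeff_prime_pow_of_not_dvd p r hp hpN, h1, ih₀, ih₁,
        FA.Root.LFunction_apply_prime_pow_good E curve32 isIntegralModelOf_curve32 hp hgood r,
        FA.Root.LFunction_apply_prime E curve32 isIntegralModelOf_curve32 hp hgood]
      push_cast
      ring
  induction n using Nat.recOnPosPrimePosCoprime with
  | prime_pow p k hp _ => exact hpow p hp k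
  | zero => rw [FA.Root.qCoeff_zero_cuspForm, ArithmeticFunction.map_zero, Int.cast_zero]
  | one => rw [hf.qCoeff_one, hL.map_one, Int.cast_one]
  | coprime a b _ _ hab iha ihb =>
    rw [hf.qCoeff_mul_of_coprime a b hab, iha, ihb, hL.map_mul_of_coprime hab, Int.cast_mul]

/-- The curve is modular of level 32. -/
theorem isModularModelOfLevel_curve32 :
    (curve32 : WeierstrassCurve ℤ).IsModularModelOfLevel 32 :=
  ⟨form32, form32_isNormalizedEigenform, fun p hp hgood _ => by
    rw [qCoeff_form32_eq_LFunction,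
      FA.Root.LFunction_apply_prime _ curve32 isIntegralModelOf_curve32 hp hgood]⟩

end FA.CM

namespace FA.Summary

open FA.CM

/-- **Modularity of `y² = x³ - x`**: `WeierstrassCurve.LFunction` of this curve with complex
multiplication has the coefficients of a normalised eigenform of weight two on `Γ₀(32)`. -/
theorem modularity_32a :
    ∃ f : CuspForm (CongruenceSubgroup.Gamma0 32) 2, f.IsNormalizedEigenform ∧
      ∀ n : ℕ, ModularFormClass.qCoeff f n =
        ((⟨0, 0, 0, -1, 0⟩ : WeierstrassCurve ℚ).LFunction n : ℂ) :=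
  ⟨form32, form32_isNormalizedEigenform, qCoeff_form32_eq_LFunction⟩

/-- `y² = x³ - x` is modular. -/
theorem isModular_32a : (⟨0, 0, 0, -1, 0⟩ : WeierstrassCurve ℚ).IsModular :=
  ⟨curve32, isIntegralModelOf_curve32, 32, by norm_num, isModularModelOfLevel_curve32⟩

/-- Its L-series, absolutely convergent for `3/2 < re s`, is entire. -/
theorem entire_continuation_32a :
    ∃ g : ℂ → ℂ, Differentiable ℂ g ∧ ∀ s : ℂ, 3 / 2 < s.re →
      (⟨0, 0, 0, -1, 0⟩ : WeierstrassCurve ℚ).LSeries s = g s := by
  exact exists_entire_of_qCoeff _ (by norm_num) form32 qCoeff_form32_eq_LFunction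

end FA.Summary

end
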