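import Fermat.Agent.CM.Form32
import Fermat.Agent.Twists.KroneckerChar
import Fermat.Agent.Twists.FrickeTwist

/-!
# The involutions of level 32 and 64

`η(4z)² η(8z)²` goes to minus itself under `τ ↦ -1 / (32 τ)`. Its twist by the character `(2 / ·)`
is a multiple of its translate by `1 / 8`, which is invariant under `Γ₀(64)` and goes to minus
itself under `τ ↦ -1 / (64 τ)`.
-/

set_option autoImplicit false

noncomputable section

open UpperHalfPlane hiding I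
open Complex CongruenceSubgroup ModularForm
open FA.ModField FA.ModField.EtaQ FA.Period FA.Weight1 FA.Twists
open FA.LTReduce (twistWeight)
open scoped Real MatrixGroups

namespace FA.CM

/-- **The Fricke involution of level 32.** -/
theorem cm32_fricke (τ w : ℍ) (hw : (w : ℂ) = -1 / ((32 : ℕ) * (τ : ℂ))) :
    cm32 w = -1 * ((32 : ℕ) * (τ : ℂ) ^ 2) * cm32 τ := by
  have hτ := τ.ne_zero
  simp only [cm32, coe_scaleH, hw]
  push_cast
  rw [show (4 : ℂ) * (-1 / (32 * τ)) = -1 / (8 * τ) by field_simp; ring,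
    show (8 : ℂ) * (-1 / (32 * τ)) = -1 / (4 * τ) by field_simp; ring,
    eta_S_sq (τ := 8 * τ) (by simpa using τ.im_pos),
    eta_S_sq (τ := 4 * τ) (by simpa using τ.im_pos)]
  linear_combination (32 * (τ : ℂ) ^ 2 * η (4 * τ) ^ 2 * η (8 * τ) ^ 2) * Complex.I_sq

theorem cm32_quarter (z : ℍ) : cm32 (((1 : ℝ) / 4) +ᵥ z) = I * cm32 z := by
  simp only [cm32, coe_scaleH, UpperHalfPlane.coe_vadd]
  push_cast
  rw [show (4 : ℂ) * (1 / 4 + z) = 4 * z + 1 by ring,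
    show (8 : ℂ) * (1 / 4 + z) = 8 * z + 1 + 1 by ring]
  simp only [eta_add_one, mul_pow]
  have e : cexp (2 * π * I / 24) ^ 2 * (cexp (2 * π * I / 24) ^ 2 * cexp (2 * π * I / 24) ^ 2) =
      I := by
    rw [← pow_add, ← pow_add, ← Complex.exp_nat_mul,
      show ((2 + (2 + 2) : ℕ) : ℂ) * (2 * π * I / 24) = π / 2 * I by push_cast; ring,
      Complex.exp_pi_div_two_mul_I]
  linear_combination (η (4 * z) ^ 2 * η (8 * z) ^ 2) * e

theorem cm32_quarters (i : ℕ) (z : ℍ) : cm32 (((i : ℝ) / 4) +ᵥ z) = I ^ i * cm32 z := by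
  induction i with
  | zero => simp
  | succ i ih =>
    rw [show ((i + 1 : ℕ) : ℝ) / 4 = 1 / 4 + (i : ℝ) / 4 by push_cast; ring, add_vadd,
      cm32_quarter, ih, pow_succ]
    ring

/-- The translate of the form by `1 / 8`. -/
def cm64 : ℍ → ℂ := cm32 ∣[(2 : ℤ)] mR (shiftX 8 1)

theorem cm64_apply (z : ℍ) : cm64 z = cm32 (((1 : ℝ) / 8) +ᵥ z) := by
  rw [cm64, slash_shiftX_two_apply]; norm_num

theorem zmod_eight_inverse : ∀ a d : ZMod 8, a * d = 1 → a = d := by decide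

/-- It is invariant under `Γ₀(64)`. -/
theorem cm64_slash {γ : SL(2, ℤ)} (hγ : γ ∈ Gamma0 64) : cm64 ∣[(2 : ℤ)] γ = cm64 := by
  rw [Gamma0_mem, ZMod.intCast_zmod_eq_zero_iff_dvd] at hγ
  obtain ⟨e, he⟩ := hγ
  push_cast at he
  obtain ⟨g, hg⟩ : (8 : ℤ) ∣ γ.1 1 1 - γ.1 0 0 := by
    have h := det_cast_mul (L := 8) (γ := γ) (by
      rw [Gamma0_mem, ZMod.intCast_zmod_eq_zero_iff_dvd, he]; exact ⟨8 * e, by push_cast; ring⟩)
    exact ((ZMod.intCast_eq_intCast_iff_dvd_sub _ _ 8).mp (zmod_eight_inverse _ _ h))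
  have hdet : γ.1 0 0 * γ.1 1 1 - γ.1 0 1 * γ.1 1 0 = 1 := by
    have := γ.2; rwa [Matrix.det_fin_two] at this
  let γ' : SL(2, ℤ) := ⟨!![γ.1 0 0 + 8 * e, γ.1 0 1 + g - e; γ.1 1 0, γ.1 1 1 - 8 * e], by
    rw [Matrix.det_fin_two_of]
    linear_combination hdet + (8 * e) * hg + (e - g) * he⟩
  have hγ' : γ' ∈ Gamma0 32 := by
    rw [Gamma0_mem, ZMod.intCast_zmod_eq_zero_iff_dvd]
    exact ⟨2 * e, by show γ.1 1 0 = _; rw [he]; push_cast; ring⟩
  have hX : (shiftX 8 1).det ≠ 0 := (shiftX_det_pos _).ne'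
  have hXY : shiftX 8 1 * γ.1 = γ'.1 * shiftX 8 1 := by
    ext r s
    fin_cases r <;> fin_cases s <;> simp [γ', shiftX, Matrix.mul_apply, Fin.sum_univ_two] <;>
      first
        | ring1
        | linear_combination he
        | linear_combination hg
        | linear_combination -he
  rw [cm64, ← slash_mR_mul' γ hX, hXY, slash_mR_mul γ' hX, cm32_slash hγ']

/-- **The involution of level 64.** -/
theorem cm64_fricke (τ w : ℍ) (hw : (w : ℂ) = -1 / ((64 : ℕ) * (τ : ℂ))) :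
    cm64 w = -1 * ((64 : ℕ) * (τ : ℂ) ^ 2) * cm64 τ := by
  set z : ℍ := (-(1 / 8) : ℝ) +ᵥ τ with hz
  have hzc : (z : ℂ) = τ - 1 / 8 := by rw [hz, UpperHalfPlane.coe_vadd]; push_cast; ring
  have hz0 : 8 * (τ : ℂ) - 1 ≠ 0 := fun h => z.ne_zero (by rw [hzc]; linear_combination h / 8)
  let v : ℍ := ⟨-1 / ((32 : ℕ) * (z : ℂ)), im_neg_one_div (by simpa using z.im_pos)⟩
  set p : ℍ := (-(1 / 4) : ℝ) +ᵥ v with hp
  have hz8 : (z : ℂ) = (8 * τ - 1) / 8 := by rw [hzc]; ring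
  have hpc : (p : ℂ) = -2 * τ / (8 * τ - 1) := by
    rw [hp, UpperHalfPlane.coe_vadd]
    show _ + -1 / ((32 : ℕ) * (z : ℂ)) = _
    rw [hz8]
    push_cast
    field_simp
    ring
  have h1 : cm32 (((1 : ℝ) / 8) +ᵥ w) = -1 * ((32 : ℕ) * (p : ℂ) ^ 2) * cm32 p := by
    refine cm32_fricke p _ ?_
    have hτ := τ.ne_zero
    rw [UpperHalfPlane.coe_vadd, hw, hpc]
    push_cast
    field_simp
    ring
  have hneg : ∀ y : ℍ, cm32 ((-(1 / 4) : ℝ) +ᵥ y) = -I * cm32 y := fun y => by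
    have := cm32_quarter ((-(1 / 4) : ℝ) +ᵥ y)
    rw [vadd_vadd, show (1 : ℝ) / 4 + -(1 / 4) = 0 by ring, zero_vadd] at this
    rw [this, ← mul_assoc, neg_mul, Complex.I_mul_I, neg_neg, one_mul]
  have h2 : cm32 v = -1 * ((32 : ℕ) * (z : ℂ) ^ 2) * cm32 z := cm32_fricke z v rfl
  have h3 : cm32 z = -I * cm64 τ := by
    rw [cm64_apply, ← hneg, vadd_vadd, hz]; norm_num
  have e : 32 * (p : ℂ) ^ 2 * (32 * (z : ℂ) ^ 2) = 64 * (τ : ℂ) ^ 2 := by
    rw [hpc, hz8]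
    clear_value z p
    generalize 8 * (τ : ℂ) - 1 = A at hz0 ⊢
    field_simp
    ring
  rw [cm64_apply, h1, hp, hneg, h2, h3, ← hp]
  push_cast
  linear_combination (I ^ 2 * cm64 τ) * e + (64 * (τ : ℂ) ^ 2 * cm64 τ) * Complex.I_sq

/-- The character `(2 / ·)`. -/
def chi2 : DirichletCharacter ℂ 8 := twistChar (D := 2) (q := 8) (by norm_num)

theorem chi2_sq (u : (ZMod 8)ˣ) : chi2 u * chi2 u = 1 := twistChar_sq _ u

theorem chi2_natCast {n : ℕ} (hn : Odd n) : chi2 (n : ZMod 8) = (jacobiSym 2 n : ℂ) :=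
  twistChar_natCast _ (Nat.Coprime.pow_right 3 (Nat.coprime_two_right.mpr hn))

theorem chi2_nondegenerate (p : ℕ) (hp : p.Prime) (hp8 : p ∣ 8) :
    ∃ n : ℕ, ((8 / p : ℕ) : ℤ) ∣ (n : ℤ) - 1 ∧ chi2 (n : ZMod 8) = -1 := by
  obtain rfl := (Nat.prime_dvd_prime_iff_eq hp Nat.prime_two).mp
    (hp.dvd_of_dvd_pow (show p ∣ 2 ^ 3 from hp8))
  refine ⟨5, by norm_num, ?_⟩
  rw [chi2_natCast (n := 5) (by decide), jacobiSym.at_two (show Odd 5 by decide)]
  norm_num [ZMod.χ₈_nat_eq_if_mod_eight]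

/-- The factor between the twist and the translate. -/
def twistFactor : ℂ := (8 : ℂ)⁻¹ * ∑ j : ZMod 8, twistWeight chi2 j * I ^ (j.val / 2)

theorem twistTwo_chi2 : twistTwo chi2 cm32 = twistFactor • cm64 := by
  funext z
  rw [twistTwo, Pi.smul_apply, Finset.sum_apply, Pi.smul_apply, smul_eq_mul, smul_eq_mul,
    twistFactor, Nat.cast_ofNat, mul_assoc, Finset.sum_mul]
  congr 1
  refine Finset.sum_congr rfl fun j _ => ?_
  rw [Pi.smul_apply, smul_eq_mul]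
  by_cases hj : IsUnit j
  · obtain ⟨i, hi⟩ : Odd j.val := Nat.coprime_two_right.mp
      ((hj.unit_spec ▸ ZMod.val_coe_unit_coprime hj.unit).coprime_dvd_right
        (by norm_num : (2 : ℕ) ∣ 8))
    rw [slash_shiftX_two_apply, cm64_apply, hi, show (2 * i + 1) / 2 = i by omega,
      show (((2 * i + 1 : ℕ) : ℤ) : ℝ) / (8 : ℕ) = (i : ℝ) / 4 + 1 / 8 by push_cast; ring,
      add_vadd, cm32_quarters]
    ring
  · rw [twistWeight_eq_zero chi2_sq chi2_nondegenerate hj]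
    ring

/-- The twist by `(2 / ·)`. -/
def twist64 : ℍ → ℂ := twistTwo chi2 cm32

theorem twist64_mem : twist64 ∈ cuspForms (32 * 8 ^ 2) 2 :=
  twistTwo_mem (coe_mem_cuspForms form32) chi2_sq

theorem qExp_twist64 (n : ℕ) :
    (qExp twist64).coeff n = chi2 (n : ZMod 8) * ModularFormClass.qCoeff form32 n :=
  qExp_twistTwo (coe_mem_cuspForms form32) chi2_sq n

theorem twist64_slash {γ : SL(2, ℤ)} (hγ : γ ∈ Gamma0 64) : twist64 ∣[(2 : ℤ)] γ = twist64 := by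
  rw [twist64, twistTwo_chi2, ModularForm.SL_smul_slash, cm64_slash hγ]

theorem twist64_fricke (τ w : ℍ) (hw : (w : ℂ) = -1 / ((64 : ℕ) * (τ : ℂ))) :
    twist64 w = -1 * ((64 : ℕ) * (τ : ℂ) ^ 2) * twist64 τ := by
  rw [twist64, twistTwo_chi2, Pi.smul_apply, Pi.smul_apply, cm64_fricke τ w hw, smul_eq_mul,
    smul_eq_mul]
  ring

end FA.CM

end
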