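import Fermat.Agent.CM.Curve32
import Fermat.Agent.CM.Form32Twist
import Fermat.Agent.Twists.KroneckerChar

/-!
# The curves `y² = x³ - n² x`

They are the quadratic twists of `y² = x³ - x` by square classes. For the class of an odd squarefree
`m` the L-function is the twist of `η(4z)² η(8z)²` by `(· / m)`, for that of `2 m` the twist by
`(· / m)` of its twist by `(2 / ·)`. So all are modular, the L-series are entire and satisfy the
functional equation with conductor `32 m²`, `16 (2 m)²` and the known root number.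
-/

set_option autoImplicit false

noncomputable section

open UpperHalfPlane hiding I
open WeierstrassCurve CongruenceSubgroup ModularForm
open IsDedekindDomain NumberField IsLocalRing IsDedekindDomain.HeightOneSpectrum
  IsDiscreteValuationRing
open Rat.HeightOneSpectrum (primesEquiv)
open FA.ModField (coe_smul_int)
open FA.Period FA.Twists
open scoped Real MatrixGroups

namespace FA.CM

/-! ### Translates -/

/-- An eigenvector of the Fricke involution of level `N` sends the translate by `u / q` to that by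
`v / q` when `N u v ≡ -1` modulo `q`. -/
theorem translate_of_fricke {f : ℍ → ℂ} {N q : ℕ} [NeZero N] [NeZero q] {c : ℂ}
    (hinv : ∀ γ ∈ Gamma0 N, f ∣[(2 : ℤ)] γ = f)
    (hfr : ∀ τ w : ℍ, (w : ℂ) = -1 / ((N : ℕ) * (τ : ℂ)) →
      f w = c * ((N : ℕ) * (τ : ℂ) ^ 2) * f τ)
    (τ w : ℍ) (hw : (w : ℂ) = -1 / (((N * q ^ 2 : ℕ) : ℂ) * (τ : ℂ))) (u v : ℤ)
    (huv : (q : ℤ) ∣ u * N * v + 1) :
    f (((u : ℝ) / q) +ᵥ w) =
      c * (((N * q ^ 2 : ℕ) : ℂ) * (τ : ℂ) ^ 2) * f (((v : ℝ) / q) +ᵥ τ) := by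
  obtain ⟨e, he⟩ := huv
  set z : ℍ := ((v : ℝ) / q) +ᵥ τ with hz
  have hN : (N : ℂ) ≠ 0 := NeZero.ne _
  have hq : (q : ℂ) ≠ 0 := NeZero.ne _
  let y : ℍ := ⟨-1 / ((N : ℕ) * (z : ℂ)),
    im_neg_one_div (by simpa using mul_pos (Nat.cast_pos.mpr (NeZero.pos N)) z.im_pos)⟩
  let γ : SL(2, ℤ) := ⟨!![e, u; (N : ℤ) * v, (q : ℤ)], by
    rw [Matrix.det_fin_two_of]; linear_combination -he⟩
  have hγ : γ ∈ Gamma0 N := by rw [Gamma0_mem]; simp [γ]
  have hzc : (z : ℂ) = v / q + τ := by rw [hz, UpperHalfPlane.coe_vadd]; push_cast; rfl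
  have hz0 := z.ne_zero
  have hτ := τ.ne_zero
  have he' : (u : ℂ) * N * v + 1 = q * e := by exact_mod_cast congrArg (Int.cast : ℤ → ℂ) he
  have hden : denom γ y * (z : ℂ) = q * τ := by
    rw [FA.ModField.EtaQ.denom_SL]
    simp only [γ, y, Matrix.of_apply, Matrix.cons_val', Matrix.cons_val_zero, Matrix.cons_val_one,
      Matrix.empty_val', Matrix.cons_val_fin_one]
    push_cast
    field_simp
    rw [hzc]
    field_simp
    ring
  have hd0 : denom γ y ≠ 0 := denom_ne_zero _ _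
  have hpt : γ • y = ((u : ℝ) / q) +ᵥ w := by
    apply UpperHalfPlane.ext
    rw [coe_smul_int, UpperHalfPlane.coe_vadd, hw]
    rw [show ((γ 1 0 : ℤ) : ℂ) * y + (γ 1 1 : ℤ) = q * τ / z by
      rw [eq_div_iff hz0, ← hden, FA.ModField.EtaQ.denom_SL]]
    simp only [γ, y, Matrix.of_apply, Matrix.cons_val', Matrix.cons_val_zero, Matrix.cons_val_one,
      Matrix.empty_val', Matrix.cons_val_fin_one]
    push_cast
    field_simp
    rw [hzc]
    field_simp
    linear_combination he'
  have h := congrFun (hinv γ hγ) y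
  rw [ModularForm.SL_slash_apply, hpt, hfr z y rfl, zpow_neg, zpow_two] at h
  field_simp at h
  rw [h]
  push_cast
  linear_combination ((c * N * f z) * (denom γ y * (z : ℂ) + q * τ)) * hden

/-- The Jacobi symbol at an integer. -/
theorem symbolChar_intCast (m : ℕ) [NeZero m] (a : ℤ) :
    symbolChar m (a : ZMod m) = (jacobiSym a m : ℂ) := by
  show ((jacobiSym ((a : ZMod m).val : ℤ) m : ℤ) : ℂ) = _
  rw [ZMod.val_intCast, ← jacobiSym.mod_left]

/-- The twist by `(· / m)`, with its involution of level `N m²`. -/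
theorem exists_twist_form {L N m : ℕ} [NeZero L] [NeZero N] {f : ℍ → ℂ} (hf : f ∈ cuspForms L 2)
    (hinv : ∀ γ ∈ Gamma0 N, f ∣[(2 : ℤ)] γ = f)
    (hfr : ∀ τ w : ℍ, (w : ℂ) = -1 / ((N : ℕ) * (τ : ℂ)) →
      f w = -1 * ((N : ℕ) * (τ : ℂ) ^ 2) * f τ)
    (hm : Odd m) (hsq : Squarefree m) (hcop : N.Coprime m) :
    ∃ g : CuspForm (Gamma0 (L * m ^ 2)) 2,
      (∀ k, ModularFormClass.qCoeff g k = (jacobiSym k m : ℂ) * (qExp f).coeff k) ∧
      ∀ τ w : ℍ, (w : ℂ) = -1 / (((N * m ^ 2 : ℕ) : ℂ) * (τ : ℂ)) →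
        g w = -(jacobiSym (-(N : ℤ)) m : ℂ) * (((N * m ^ 2 : ℕ) : ℂ) * (τ : ℂ) ^ 2) * g τ := by
  have : NeZero m := ⟨hm.pos.ne'⟩
  have hψ : ∀ u : (ZMod m)ˣ, symbolChar m u * symbolChar m u = 1 := fun u => by
    have h := ZMod.val_coe_unit_coprime u
    rw [← ZMod.natCast_zmod_val (u : ZMod m), symbolChar_natCast, ← Int.cast_mul, ← pow_two,
      jacobiSym.sq_one (by rwa [Int.gcd_natCast_natCast]), Int.cast_one]
  have hnd : ∀ p : ℕ, p.Prime → p ∣ m → ∃ n : ℕ, ((m / p : ℕ) : ℤ) ∣ (n : ℤ) - 1 ∧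
      symbolChar m (n : ZMod m) = -1 := fun p hp hpm => by
    have := Fact.mk hp
    obtain ⟨n, hn, hs⟩ := exists_symbol_eq_neg_one (c := 1) hm hsq hpm hp.not_dvd_one
    exact ⟨n, by simpa using hn, by rw [symbolChar_natCast, hs]; norm_num⟩
  refine ⟨toCuspForm' (twistTwo (symbolChar m) f) (twistTwo_mem hf hψ), fun k => ?_,
    fun τ w hw => ?_⟩
  · exact (qExp_twistTwo hf hψ k).trans (by rw [symbolChar_natCast])
  show twistTwo (symbolChar m) f w = _ * twistTwo (symbolChar m) f τ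
  rw [twistTwo_eigen_of_translate hcop (translate_of_fricke hinv hfr τ w hw) hψ hnd,
    show (-(N : ZMod m)) = ((-(N : ℤ) : ℤ) : ZMod m) by push_cast; rfl, symbolChar_intCast]
  ring

/-! ### Coefficients -/

/-- At the prime `2` a curve with `c₆ = 0` has additive reduction. -/
theorem localPolynomial_eq_one_of_c₆ {R K : Type*} [CommRing R] [IsDomain R]
    [IsDiscreteValuationRing R] [Field K] [Algebra R K] [IsFractionRing R K]
    (hϖ : Irreducible (2 : R)) (e : ResidueField R ≃+* ZMod 2) (E : WeierstrassCurve K)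
    (h6 : E.c₆ = 0) : E.localPolynomial R = 1 := by
  set M := E.minimal R with hM
  set val := valuation K (IsDiscreteValuationRing.maximalIdeal R)
  suffices hno : val M.Δ ≠ 1 ∧ val M.c₄ ≠ 1 by
    rw [localPolynomial, if_neg fun h : M.HasGoodReduction R => hno.1 h.goodReduction,
      if_neg fun h : M.HasSplitMultiplicativeReduction R =>
        hno.2 h.toHasMultiplicativeReduction.multiplicativeReduction,
      if_neg fun h : M.HasMultiplicativeReduction R => hno.2 h.multiplicativeReduction]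
  by_contra hno
  rw [not_and_or, not_not, not_not] at hno
  set J := integralModel R M with hJ
  have hJK : J.map (algebraMap R K) = M := baseChange_integralModel_eq R _
  have hJ6 : J.c₆ = 0 := IsFractionRing.injective R K (by
    rw [map_zero, ← map_c₆, hJK, hM, WeierstrassCurve.minimal, variableChange_c₆, h6, mul_zero])
  have hdvd : ∀ r : R, (2 : R) ∣ r ↔ residue R r = 0 := fun r => by
    rw [residue_eq_zero_iff, hϖ.maximalIdeal_eq, Ideal.mem_span_singleton]
  have h1 : ¬ (2 : R) ∣ 1 := fun h => hϖ.not_isUnit (isUnit_of_dvd_one h)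
  have h2 : ∀ r : R, (2 : R) ∣ r ∨ (2 : R) ∣ r - 1 := fun r => by
    simp only [hdvd, map_sub, map_one, ← map_eq_zero_iff e e.injective, sub_eq_zero]
    exact zmod_two_cases _
  have hJ2 : ¬ ((2 : R) ∣ J.Δ ∧ (2 : R) ∣ J.c₄) := by
    rw [hdvd, hdvd, ← FA.Root.valuation_lt_one_iff_residue (K := K),
      ← FA.Root.valuation_lt_one_iff_residue (K := K), ← map_Δ, ← map_c₄, hJK]
    rintro ⟨a, b⟩
    rcases hno with h | h
    exacts [a.ne h, b.ne h]
  rcases c₆_mod_two h1 h2 J hJ2 with ⟨-, h⟩ | ⟨-, h⟩ <;> rw [hJ6] at h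
  · rw [zero_add] at h
    exact h1 ((dvd_mul_right (2 : R) 2).trans (by rwa [show (2 : R) * 2 = 4 by norm_num]))
  · have h' : (2 : R) ^ 3 * 4 ∣ 2 ^ 3 * 1 := by
      rw [zero_sub, dvd_neg] at h
      convert h using 1 <;> norm_num
    exact h1 ((dvd_mul_right (2 : R) 2).trans (by
      rw [show (2 : R) * 2 = 4 by norm_num]
      exact (mul_dvd_mul_iff_left (pow_ne_zero 3 hϖ.ne_zero)).mp h'))

/-- The coefficients at the powers of `2` of a curve with `j = 1728`. -/
theorem LFunction_two_pow_of_c₆ (E : WeierstrassCurve ℚ) (h6 : E.c₆ = 0) (k : ℕ) :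
    E.LFunction (2 ^ (k + 1)) = 0 := by
  obtain ⟨v, hv⟩ : ∃ v : HeightOneSpectrum (𝓞 ℚ), (primesEquiv v : ℕ) = 2 :=
    ⟨primesEquiv.symm (⟨2, Nat.prime_two⟩ : Nat.Primes),
      congrArg Subtype.val (primesEquiv.apply_symm_apply (⟨2, Nat.prime_two⟩ : Nat.Primes))⟩
  have := Fact.mk (primesEquiv v).2
  have hϖ : Irreducible (((primesEquiv v : ℕ)) : v.adicCompletionIntegers ℚ) := by
    rw [← MulEquiv.irreducible_iff
      (Rat.HeightOneSpectrum.adicCompletionIntegers.padicIntEquiv v).toRingEquiv, map_natCast]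
    exact PadicInt.irreducible_p
  have e := (FA.Root.residueEquivZMod v).trans (ZMod.ringEquivCongr hv)
  rw [hv, Nat.cast_ofNat] at hϖ
  rw [← hv, FA.Root.LFunction_apply_prime_pow, localPowerSeries,
    localPolynomial_eq_one_of_c₆ hϖ e _ (by
      show (E.map (algebraMap ℚ (v.adicCompletion ℚ))).c₆ = 0
      rw [map_c₆, h6, map_zero]),
    show (1 : Polynomial ℤ) = 1 - Polynomial.C 0 * Polynomial.X by simp,
    FA.Root.coeff_invOfUnit_linear, zero_pow (Nat.succ_ne_zero k)]

/-- `y² = x³ - n² x`. -/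
abbrev congruentCurve (n : ℚ) : WeierstrassCurve ℚ := ⟨0, 0, 0, -n ^ 2, 0⟩

theorem congruentCurve_invariants (n : ℚ) :
    (congruentCurve n).c₄ = 48 * n ^ 2 ∧ (congruentCurve n).c₆ = 0 := by
  refine ⟨?_, ?_⟩ <;> simp only [c₄, c₆, b₂, b₄, b₆] <;> ring

/-- The twisted coefficients. -/
theorem LFunction_congruentCurve {n t : ℚ} {D : ℤ} (hD : Squarefree D) (ht : t ≠ 0)
    (hn : n ^ 2 = (t ^ 2 * D) ^ 2) (φ : ℕ → ℂ) (hone : φ 1 = 1)
    (hmul : ∀ a b : ℕ, φ (a * b) = φ a * φ b)
    (hφ : ∀ l : ℕ, l.Prime → l ≠ 2 → φ l = (jacobiSym D l : ℂ)) (k : ℕ) :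
    ((congruentCurve n).LFunction k : ℂ) = φ k * ModularFormClass.qCoeff form32 k := by
  rw [qCoeff_form32_eq_LFunction]
  have hE := FA.Root.isMultiplicative_LFunction (congruentCurve n)
  have hF := FA.Root.isMultiplicative_LFunction (curve32 : WeierstrassCurve ℚ)
  obtain ⟨e4, e6⟩ := congruentCurve_invariants n
  have hpow : ∀ l r : ℕ, φ (l ^ r) = φ l ^ r := fun l r => by
    induction r with
    | zero => exact hone
    | succ r ih => rw [pow_succ, hmul, ih, pow_succ]
  induction k using Nat.recOnPosPrimePosCoprime with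
  | prime_pow l r hl hr =>
    rcases eq_or_ne l 2 with rfl | hl2
    · obtain ⟨r, rfl⟩ : ∃ r', r = r' + 1 := ⟨r - 1, by omega⟩
      rw [LFunction_two_pow_of_c₆ _ e6, LFunction_two_pow, if_neg (Nat.succ_ne_zero r)]
      simp
    rw [LFunction_twist_prime_pow (W := curve32) (D := D) isIntegralModelOf_curve32
      (by rw [curve32_Δ]; norm_num) hD ht
      (by rw [e4, hn, curve32_c₄]; push_cast; ring)
      (by
        rw [e6, show (curve32 : WeierstrassCurve ℤ).c₆ = 0 by
          simp [curve32, c₆, b₂, b₄, b₆]]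
        simp)
      hl (fun h => absurd h (good_curve32 hl hl2)) r, twistSign, if_neg hl2, hpow, hφ l hl hl2]
    push_cast
    rfl
  | zero => simp
  | one => rw [hE.map_one, hF.map_one, hone, Int.cast_one, one_mul]
  | coprime a b _ _ hab iha ihb =>
    rw [hE.map_mul_of_coprime hab, hF.map_mul_of_coprime hab, Int.cast_mul, Int.cast_mul, hmul,
      iha, ihb]
    ring

/-- `(D / l) = (l / |D|)` for `D ≡ 1` modulo `4` and odd `l`. -/
theorem jacobiSym_natAbs_reciprocity {D : ℤ} (hD : D % 4 = 1) {l : ℕ} (hl : Odd l) :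
    jacobiSym D l = jacobiSym l D.natAbs := by
  have hqo : Odd D.natAbs := Nat.odd_iff.mpr (by omega)
  rcases le_total 0 D with h | h
  · have e : (D.natAbs : ℤ) = D := Int.natAbs_of_nonneg h
    conv_lhs => rw [← e]
    exact jacobiSym.quadratic_reciprocity_one_mod_four (by omega) hl
  · have e : -(D.natAbs : ℤ) = D := by omega
    conv_lhs => rw [← e]
    rw [jacobiSym.neg _ hl]
    rcases Nat.odd_mod_four_iff.mp (Nat.odd_iff.mp hl) with h4 | h4
    · rw [ZMod.χ₄_nat_one_mod_four h4, one_mul,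
        jacobiSym.quadratic_reciprocity_one_mod_four' hqo h4]
    · rw [ZMod.χ₄_nat_three_mod_four h4, neg_one_mul,
        jacobiSym.quadratic_reciprocity_three_mod_four (a := D.natAbs) (by omega) h4, neg_neg]

/-- An odd number with a sign is `1` modulo `4`. -/
theorem exists_sign_one_mod_four {m : ℕ} (hm : Odd m) :
    ∃ D : ℤ, D % 4 = 1 ∧ D.natAbs = m ∧ (D : ℚ) ^ 2 = (m : ℚ) ^ 2 := by
  rcases Nat.odd_mod_four_iff.mp (Nat.odd_iff.mp hm) with h | h
  · exact ⟨m, by omega, by simp, by simp⟩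
  · exact ⟨-m, by omega, by simp, by simp⟩

/-- The conductor for the class of `m`. -/
def congruentLevel (m : ℕ) : ℕ := if Odd m then 32 * m ^ 2 else 16 * m ^ 2

/-- The root number for the class of `m`. -/
def congruentSign (m : ℕ) : ℤ := if m % 8 = 1 ∨ m % 8 = 2 ∨ m % 8 = 3 then 1 else -1

/-- **The form of a congruent number curve.** -/
theorem exists_congruent_form {m : ℕ} (hm : Squarefree m) {n t : ℚ} (ht : t ≠ 0)
    (hn : n ^ 2 = (t ^ 2 * m) ^ 2) :
    ∃ (L : ℕ) (g : CuspForm (Gamma0 L) 2), 0 < L ∧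
      (∀ k, ModularFormClass.qCoeff g k = ((congruentCurve n).LFunction k : ℂ)) ∧
      ∀ τ w : ℍ, (w : ℂ) = -1 / (((congruentLevel m : ℕ) : ℂ) * (τ : ℂ)) →
        g w = -(congruentSign m : ℂ) * (((congruentLevel m : ℕ) : ℂ) * (τ : ℂ) ^ 2) * g τ := by
  rcases Nat.even_or_odd m with hev | hodd
  · obtain ⟨m', rfl⟩ : 2 ∣ m := hev.two_dvd
    have hm' : Squarefree m' := hm.squarefree_of_dvd (dvd_mul_left _ _)
    have hodd : Odd m' := Nat.not_even_iff_odd.mp fun ⟨r, hr⟩ =>
      Nat.prime_two.not_isUnit (hm 2 ⟨r, by omega⟩)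
    obtain ⟨D, hD4, hDm, hD2⟩ := exists_sign_one_mod_four hodd
    have hcop : Nat.Coprime 64 m' := (Nat.coprime_two_left.mpr hodd).pow_left 6
    obtain ⟨g, hg, hfe⟩ := exists_twist_form twist64_mem (N := 64)
      (fun γ hγ => twist64_slash hγ) twist64_fricke hodd hm' hcop
    refine ⟨_, g, Nat.mul_pos (by norm_num) (pow_pos hodd.pos 2), fun k => ?_, fun τ w hw => ?_⟩
    · rw [hg, qExp_twist64, LFunction_congruentCurve (D := 2 * D)
        (Int.squarefree_natAbs.mp (by simpa [Int.natAbs_mul, hDm] using hm)) ht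
        (by rw [hn]; push_cast; linear_combination (-4 * t ^ 4) * hD2)
        (fun k => chi2 (k : ZMod 8) * (jacobiSym k m' : ℂ)) (by simp)
        (fun a b => by
          simp only [Nat.cast_mul, map_mul, jacobiSym.mul_left, Int.cast_mul]; ring)
        (fun l hl hl2 => by
          have hlo := hl.odd_of_ne_two hl2
          rw [chi2_natCast hlo, jacobiSym.mul_left, jacobiSym_natAbs_reciprocity hD4 hlo, hDm,
            Int.cast_mul]) k]
      ring
    have e : congruentLevel (2 * m') = 64 * m' ^ 2 := by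
      rw [congruentLevel, if_neg (by simp)]; ring
    have hs : congruentSign (2 * m') = jacobiSym (-((64 : ℕ) : ℤ)) m' := by
      rw [show -((64 : ℕ) : ℤ) = -1 * (8 : ℤ) ^ 2 by norm_num, jacobiSym.mul_left,
        jacobiSym.sq_one' (by
          simpa [Int.gcd] using (Nat.coprime_two_left.mpr hodd).pow_left 3),
        mul_one, jacobiSym.at_neg_one hodd, congruentSign]
      rcases Nat.odd_mod_four_iff.mp (Nat.odd_iff.mp hodd) with h | h
      · rw [ZMod.χ₄_nat_one_mod_four h, if_pos (by omega)]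
      · rw [ZMod.χ₄_nat_three_mod_four h, if_neg (by omega)]
    rw [e, hs]
    rw [e] at hw
    exact hfe τ w hw
  · obtain ⟨D, hD4, hDm, hD2⟩ := exists_sign_one_mod_four hodd
    have hcop : Nat.Coprime 32 m := (Nat.coprime_two_left.mpr hodd).pow_left 5
    obtain ⟨g, hg, hfe⟩ := exists_twist_form (coe_mem_cuspForms form32) (N := 32)
      (fun γ hγ => cm32_slash hγ) cm32_fricke hodd hm hcop
    refine ⟨_, g, Nat.mul_pos (by norm_num) (pow_pos hodd.pos 2), fun k => ?_, fun τ w hw => ?_⟩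
    · rw [hg, LFunction_congruentCurve (D := D)
        (Int.squarefree_natAbs.mp (hDm.symm ▸ hm)) ht
        (by rw [hn]; linear_combination (-t ^ 4) * hD2)
        (fun k => (jacobiSym k m : ℂ)) (by simp)
        (fun a b => by simp only [Nat.cast_mul, jacobiSym.mul_left, Int.cast_mul])
        (fun l hl hl2 => by
          rw [jacobiSym_natAbs_reciprocity hD4 (hl.odd_of_ne_two hl2), hDm]) k]
      rfl
    have e : congruentLevel m = 32 * m ^ 2 := if_pos hodd
    have hs : congruentSign m = jacobiSym (-((32 : ℕ) : ℤ)) m := by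
      rw [show -((32 : ℕ) : ℤ) = -2 * (4 : ℤ) ^ 2 by norm_num, jacobiSym.mul_left,
        jacobiSym.sq_one' (by
          simpa [Int.gcd] using (Nat.coprime_two_left.mpr hodd).pow_left 2),
        mul_one, jacobiSym.at_neg_two hodd, ZMod.χ₈'_nat_eq_if_mod_eight, congruentSign,
        if_neg (by have := Nat.odd_iff.mp hodd; omega : ¬ m % 2 = 0)]
      have := Nat.odd_iff.mp hodd
      split_ifs <;> omega
    rw [e, hs]
    rw [e] at hw
    exact hfe τ w hw

theorem congruentLevel_pos {m : ℕ} (hm : Squarefree m) : 0 < congruentLevel m := by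
  have := Nat.pos_of_ne_zero hm.ne_zero
  unfold congruentLevel
  split_ifs <;> positivity

/-- The squarefree class of a nonzero rational up to sign. -/
theorem exists_congruent_class {n : ℚ} (hn : n ≠ 0) :
    ∃ (m : ℕ) (t : ℚ), Squarefree m ∧ t ≠ 0 ∧ n ^ 2 = (t ^ 2 * m) ^ 2 := by
  obtain ⟨D, t, hD, ht, rfl⟩ := exists_squarefree_mul_sq hn
  refine ⟨D.natAbs, t, Int.squarefree_natAbs.mpr hD, ht, ?_⟩
  have h : (D : ℚ) ^ 2 = ((D.natAbs : ℕ) : ℚ) ^ 2 := by
    rw [← Int.cast_natCast, ← Int.cast_pow, ← Int.cast_pow, Int.natAbs_sq]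
  linear_combination t ^ 4 * h

end FA.CM

namespace FA.Summary

/-- **All congruent number curves are modular**: every coefficient of the L-function of
`y² = x³ - n² x` is that of a cusp form of weight two. -/
theorem congruentCurve_modular (n : ℚ) (hn : n ≠ 0) :
    ∃ (N : ℕ) (f : CuspForm (CongruenceSubgroup.Gamma0 N) 2), 0 < N ∧
      ∀ k : ℕ, (UpperHalfPlane.qExpansion 1 f).coeff k =
        ((⟨0, 0, 0, -n ^ 2, 0⟩ : WeierstrassCurve ℚ).LFunction k : ℂ) := by
  obtain ⟨m, t, hm, ht, h⟩ := FA.CM.exists_congruent_class hn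
  obtain ⟨L, g, hL, hg, -⟩ := FA.CM.exists_congruent_form hm ht h
  exact ⟨L, g, hL, hg⟩

/-- **The functional equation of a congruent number curve**: for the class of the squarefree `m`
the conductor is `32 m²` or, for even `m`, `16 m²` and the root number is `1` exactly for
`m ≡ 1, 2, 3` modulo `8`. -/
theorem functionalEquation_congruentCurve {m : ℕ} (hm : Squarefree m) {n t : ℚ} (ht : t ≠ 0)
    (hn : n ^ 2 = (t ^ 2 * m) ^ 2) :
    ∃ Λ : ℂ → ℂ, Differentiable ℂ Λ ∧
      (∀ s : ℂ, 3 / 2 < s.re → Λ s = ((if Odd m then 32 * m ^ 2 else 16 * m ^ 2 : ℕ) : ℂ) ^ (s / 2) *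
        (2 * (π : ℂ)) ^ (-s) * Complex.Gamma s *
          (⟨0, 0, 0, -n ^ 2, 0⟩ : WeierstrassCurve ℚ).LSeries s) ∧
      ∀ s : ℂ, Λ (2 - s) =
        ((if m % 8 = 1 ∨ m % 8 = 2 ∨ m % 8 = 3 then 1 else -1 : ℤ) : ℂ) * Λ s := by
  obtain ⟨L, g, hL, hg, hfe⟩ := FA.CM.exists_congruent_form hm ht hn
  have : NeZero L := ⟨hL.ne'⟩
  have : NeZero (FA.CM.congruentLevel m) := ⟨(FA.CM.congruentLevel_pos hm).ne'⟩
  refine ⟨FA.Twists.completedAt (FA.CM.congruentLevel m) g,
    FA.Twists.differentiable_completedAt _ g, fun s hs => ?_, fun s => ?_⟩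
  · refine FA.HasseBound.eqOn_threeHalves
      (G := fun s => (FA.CM.congruentLevel m : ℂ) ^ (s / 2) * (2 * (π : ℂ)) ^ (-s) *
        Complex.Gamma s * (⟨0, 0, 0, -n ^ 2, 0⟩ : WeierstrassCurve ℚ).LSeries s)
      (fun z _ => (FA.Twists.differentiable_completedAt _ g).analyticAt z)
      (AnalyticOnNhd.mul ?_ (FA.HasseBound.analyticOnNhd_LSeries _)) (fun z hz => ?_) hs
    · refine DifferentiableOn.analyticOnNhd
        (fun z hz => DifferentiableAt.differentiableWithinAt ?_)
        (isOpen_lt continuous_const Complex.continuous_re)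
      have hG : DifferentiableAt ℂ Complex.Gamma z :=
        Complex.differentiableAt_Gamma z fun i e => by
          have : (3 / 2 : ℝ) < z.re := hz
          rw [e, Complex.neg_re, Complex.natCast_re] at this
          linarith [(Nat.cast_nonneg i : (0 : ℝ) ≤ i)]
      refine DifferentiableAt.mul (DifferentiableAt.mul ?_ ?_) hG
      · exact (differentiableAt_id.div_const 2).const_cpow
          (Or.inl (Nat.cast_ne_zero.mpr (NeZero.ne _)))
      · exact differentiableAt_id.neg.const_cpow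
          (Or.inl (mul_ne_zero two_ne_zero (Complex.ofReal_ne_zero.mpr Real.pi_ne_zero)))
    · rw [FA.Twists.completedAt_eq_LSeries g hz, WeierstrassCurve.LSeries]
      congr 1
      exact congrArg (LSeries · z) (funext hg)
  · rw [FA.Twists.completedAt_two_sub g hfe s, neg_neg]
    rfl

/-- **The L-series of a congruent number curve** is the restriction to `3/2 < re s` of an entire
function. -/
theorem entire_continuation_congruentCurve (n : ℚ) (hn : n ≠ 0) :
    ∃ g : ℂ → ℂ, Differentiable ℂ g ∧ ∀ s : ℂ, 3 / 2 < s.re →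
      (⟨0, 0, 0, -n ^ 2, 0⟩ : WeierstrassCurve ℚ).LSeries s = g s := by
  obtain ⟨m, t, hm, ht, h⟩ := FA.CM.exists_congruent_class hn
  obtain ⟨L, f, hL, hf, -⟩ := FA.CM.exists_congruent_form hm ht h
  exact FA.CM.exists_entire_of_qCoeff _ hL f hf

end FA.Summary

end
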