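import Fermat.Agent.Theta.Modular
import Mathlib.NumberTheory.LSeries.PrimesInAP

/-!
# Theta series of `x² + D y²` with a linear weight

For `w` periodic modulo `M = e M'`, supported where `e` divides `x² + D y²` and with
`w (d v) = (-D / d) w v`, the series `∑ w(v) (x + √-D y) q^((x² + D y²)/e)` is a cusp form of weight
two on `Γ₀(4 D M M')`.
-/

set_option autoImplicit false
set_option linter.unusedSectionVars false

noncomputable section

open UpperHalfPlane hiding I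
open Complex Filter Topology CongruenceSubgroup
open FA.Theta
open scoped Real MatrixGroups ModularForm

local notation "𝕢" => Function.Periodic.qParam

namespace FA.CM

/-- `x² + D y²`. -/
def latQ (D : ℕ) {R : Type*} [CommRing R] (v : R × R) : R := v.1 ^ 2 + (D : R) * v.2 ^ 2

/-- `x + √-D y`. -/
def latLam (D : ℕ) (v : ℂ × ℂ) : ℂ := v.1 + I * (Real.sqrt D : ℝ) * v.2

theorem hasSum_prod_mul {f g : ℤ → ℂ} {a b : ℂ} (hf : HasSum f a) (hg : HasSum g b) :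
    HasSum (fun v : ℤ × ℤ => f v.1 * g v.2) (a * b) :=
  hf.mul hg (summable_mul_of_summable_norm hf.summable.norm hg.summable.norm)

/-- The shifted Gaussian sum after inversion. -/
theorem hasSum_gauss_shift {a : ℂ} (ha : 0 < a.re) (t : ℂ) :
    HasSum (fun n : ℤ => cexp (-π * a * ((n : ℂ) + t) ^ 2))
      (1 / a ^ (1 / 2 : ℂ) * jacobiTheta₂ t (I / a)) := by
  have ha0 : a ≠ 0 := fun h => by simp [h] at ha
  have him : 0 < (I * a).im := by simpa using ha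
  have h := (hasSum_jacobiTheta₂_term (I * a * t) him).mul_left (cexp (-π * a * t ^ 2))
  rw [jacobiTheta₂_functional_equation, show -I * (I * a) = a by linear_combination (-a) * I_sq,
    show I * a * t / (I * a) = t by field_simp, show -1 / (I * a) = I / a by field_simp; rw [I_sq],
    show -(π : ℂ) * I * (I * a * t) ^ 2 / (I * a) = -(-π * a * t ^ 2) by
      field_simp; linear_combination (-(t ^ 2)) * I_sq,
    Complex.exp_neg] at h
  have he := Complex.exp_ne_zero (-(π : ℂ) * a * t ^ 2)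
  rw [show cexp (-π * a * t ^ 2) * (1 / a ^ (1 / 2 : ℂ) * (cexp (-π * a * t ^ 2))⁻¹ *
      jacobiTheta₂ t (I / a)) = 1 / a ^ (1 / 2 : ℂ) * jacobiTheta₂ t (I / a) by field_simp] at h
  refine h.congr_fun fun n => ?_
  rw [jacobiTheta₂_term, ← Complex.exp_add]
  congr 1
  linear_combination (-(π * a * n ^ 2) - 2 * π * a * n * t) * I_sq

/-- The shifted Gaussian sum with linear weight after inversion. -/
theorem hasSum_gauss_shift_linear {a : ℂ} (ha : 0 < a.re) (t : ℂ) :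
    HasSum (fun n : ℤ => ((n : ℂ) + t) * cexp (-π * a * ((n : ℂ) + t) ^ 2))
      (-I / a / a ^ (1 / 2 : ℂ) * (jacobiTheta₂' t (I / a) / (2 * π * I))) := by
  have ha0 : a ≠ 0 := fun h => by simp [h] at ha
  have him : 0 < (I * a).im := by simpa using ha
  have h := (((hasSum_jacobiTheta₂'_term (I * a * t) him).div_const (2 * π * I)).add
    ((hasSum_jacobiTheta₂_term (I * a * t) him).mul_left t)).mul_left (cexp (-π * a * t ^ 2))
  rw [jacobiTheta₂'_functional_equation, jacobiTheta₂_functional_equation (I * a * t),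
    show -I * (I * a) = a by linear_combination (-a) * I_sq,
    show I * a * t / (I * a) = t by field_simp, show -1 / (I * a) = I / a by field_simp; rw [I_sq],
    show -(π : ℂ) * I * (I * a * t) ^ 2 / (I * a) = -(-π * a * t ^ 2) by
      field_simp; linear_combination (-(t ^ 2)) * I_sq,
    Complex.exp_neg] at h
  have he := Complex.exp_ne_zero (-(π : ℂ) * a * t ^ 2)
  have hpi : (π : ℂ) ≠ 0 := Complex.ofReal_ne_zero.mpr Real.pi_ne_zero
  have hI := I_ne_zero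
  generalize hc : a ^ (1 / 2 : ℂ) = c at h ⊢
  have hc0 : c ≠ 0 := by
    rw [← hc, Complex.cpow_def_of_ne_zero ha0]; exact Complex.exp_ne_zero _
  generalize jacobiTheta₂' t (I / a) = T' at h ⊢
  generalize jacobiTheta₂ t (I / a) = T at h
  generalize hE : cexp (-(π : ℂ) * a * t ^ 2) = E at h he
  rw [show E * ((1 / c * E⁻¹ / (I * a) * (T' - 2 * π * I * (I * a * t) * T)) / (2 * π * I) +
      t * (1 / c * E⁻¹ * T)) = -I / a / c * (T' / (2 * π * I)) by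
    field_simp
    linear_combination T' * I_sq] at h
  refine h.congr_fun fun n => ?_
  rw [← hE, jacobiTheta₂'_term, jacobiTheta₂_term]
  rw [show -(π : ℂ) * a * ((n : ℂ) + t) ^ 2 = -π * a * t ^ 2 +
      (2 * π * I * n * (I * a * t) + π * I * n ^ 2 * (I * a)) by
    linear_combination (-(π * a * n ^ 2) - 2 * π * a * n * t) * I_sq, Complex.exp_add]
  field_simp

variable {D : ℕ} [NeZero D]

/-- **Poisson summation with linear weight.** -/
theorem lat_poisson {z : ℂ} (hz : 0 < z.im) (s : ℝ × ℝ) : ∃ S : ℂ,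
    HasSum (fun v : ℤ × ℤ => latLam D ((v.1 : ℂ) + s.1, (v.2 : ℂ) + s.2) *
      ex (z * latQ D ((v.1 : ℂ) + s.1, (v.2 : ℂ) + s.2))) S ∧
    HasSum (fun w : ℤ × ℤ => I / (4 * D * z ^ 2) *
      (((Real.sqrt D : ℝ) * (w.1 : ℂ) + I * w.2) *
        ex (-((D : ℂ) * w.1 ^ 2 + (w.2 : ℂ) ^ 2) / (4 * D * z) +
          ((w.1 : ℂ) * s.1 + (w.2 : ℂ) * s.2)))) S := by
  have hDr : (0 : ℝ) < D := Nat.cast_pos.mpr (NeZero.pos D)
  have hz0 : z ≠ 0 := fun h => by simp [h] at hz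
  set a₁ : ℂ := -2 * I * z with ha₁
  set a₂ : ℂ := ((D : ℝ) : ℂ) * a₁ with ha₂
  have h₁ : 0 < a₁.re := by simp [ha₁]; positivity
  have h₂ : 0 < a₂.re := by rw [ha₂, Complex.re_ofReal_mul]; exact mul_pos hDr h₁
  have him : ∀ {a : ℂ}, 0 < a.re → 0 < (I / a).im := fun {a} ha => by
    rw [Complex.div_im]; simp only [Complex.I_im, Complex.I_re, zero_mul, zero_div, one_mul, sub_zero]
    exact div_pos ha (Complex.normSq_pos.mpr fun h => by simp [h] at ha)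
  have hL := ((hasSum_prod_mul (hasSum_gauss_shift_linear h₁ (s.1 : ℂ))
    (hasSum_gauss_shift h₂ (s.2 : ℂ)))).add
    ((hasSum_prod_mul (hasSum_gauss_shift h₁ (s.1 : ℂ))
      (hasSum_gauss_shift_linear h₂ (s.2 : ℂ))).mul_left (I * (Real.sqrt D : ℝ)))
  refine ⟨_, hL.congr_fun fun v => ?_, ?_⟩
  · rw [latLam, latQ, ex, ha₂, ha₁]
    rw [show 2 * (π : ℂ) * I * (z * (((v.1 : ℂ) + s.1) ^ 2 + (D : ℂ) * ((v.2 : ℂ) + s.2) ^ 2)) =
      -π * (-2 * I * z) * ((v.1 : ℂ) + s.1) ^ 2 +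
        -π * (((D : ℝ) : ℂ) * (-2 * I * z)) * ((v.2 : ℂ) + s.2) ^ 2 by push_cast; ring,
      Complex.exp_add]
    ring
  -- the dual series
  have hpi : (2 * π * I : ℂ) ≠ 0 := Complex.two_pi_I_ne_zero
  have hT' : ∀ {a : ℂ} (t : ℂ), 0 < a.re → HasSum (fun m : ℤ => (m : ℂ) *
      jacobiTheta₂_term m t (I / a)) (jacobiTheta₂' t (I / a) / (2 * π * I)) := fun t ha =>
    ((hasSum_jacobiTheta₂'_term t (him ha)).div_const _).congr_fun fun m => by
      rw [jacobiTheta₂'_term, jacobiTheta₂_term, eq_div_iff hpi]; ring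
  have hR := ((hasSum_prod_mul (hT' (s.1 : ℂ) h₁)
      (hasSum_jacobiTheta₂_term (s.2 : ℂ) (him h₂))).mul_left
        (-I / a₁ / a₁ ^ (1 / 2 : ℂ) * (1 / a₂ ^ (1 / 2 : ℂ)))).add
    ((hasSum_prod_mul (hasSum_jacobiTheta₂_term (s.1 : ℂ) (him h₁))
      (hT' (s.2 : ℂ) h₂)).mul_left
        (I * (Real.sqrt D : ℝ) * (1 / a₁ ^ (1 / 2 : ℂ) * (-I / a₂ / a₂ ^ (1 / 2 : ℂ)))))
  suffices key : ∀ w : ℤ × ℤ, I / (4 * D * z ^ 2) *
      (((Real.sqrt D : ℝ) * (w.1 : ℂ) + I * w.2) *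
        ex (-((D : ℂ) * w.1 ^ 2 + (w.2 : ℂ) ^ 2) / (4 * D * z) +
          ((w.1 : ℂ) * s.1 + (w.2 : ℂ) * s.2))) =
      -I / a₁ / a₁ ^ (1 / 2 : ℂ) * (1 / a₂ ^ (1 / 2 : ℂ)) * ((w.1 : ℂ) *
          jacobiTheta₂_term w.1 (s.1 : ℂ) (I / a₁) * jacobiTheta₂_term w.2 (s.2 : ℂ) (I / a₂)) +
        I * (Real.sqrt D : ℝ) * (1 / a₁ ^ (1 / 2 : ℂ) * (-I / a₂ / a₂ ^ (1 / 2 : ℂ))) *
          (jacobiTheta₂_term w.1 (s.1 : ℂ) (I / a₁) *
            ((w.2 : ℂ) * jacobiTheta₂_term w.2 (s.2 : ℂ) (I / a₂))) by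
    convert hR.congr_fun key using 1
    all_goals first | rfl | ring
  intro w
  have hne₁ : a₁ ≠ 0 := fun h => by simp [h] at h₁
  have hD0 : (D : ℂ) ≠ 0 := Nat.cast_ne_zero.mpr (NeZero.ne D)
  have e : a₂ ^ (1 / 2 : ℂ) = (Real.sqrt D : ℝ) * a₁ ^ (1 / 2 : ℂ) := by
    rw [ha₂, Complex.cpow_def_of_ne_zero (mul_ne_zero (by exact_mod_cast hD0) hne₁),
      Complex.cpow_def_of_ne_zero hne₁, Complex.log_ofReal_mul hDr hne₁, add_mul,
      Complex.exp_add, Real.sqrt_eq_rpow, Real.rpow_def_of_pos hDr, Complex.ofReal_exp]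
    simp
  have e2 : a₁ ^ (1 / 2 : ℂ) * a₁ ^ (1 / 2 : ℂ) = a₁ := by
    rw [← Complex.cpow_add _ _ hne₁]; norm_num
  have eE : ex (-((D : ℂ) * w.1 ^ 2 + (w.2 : ℂ) ^ 2) / (4 * D * z) +
      ((w.1 : ℂ) * s.1 + (w.2 : ℂ) * s.2)) =
      jacobiTheta₂_term w.1 (s.1 : ℂ) (I / a₁) * jacobiTheta₂_term w.2 (s.2 : ℂ) (I / a₂) := by
    rw [ex, jacobiTheta₂_term, jacobiTheta₂_term, ← Complex.exp_add, ha₂, ha₁]
    congr 1
    push_cast
    field_simp
    ring
  rw [eE, e]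
  have hs : ((Real.sqrt D : ℝ) : ℂ) ^ 2 = D := by
    rw [← Complex.ofReal_pow, Real.sq_sqrt hDr.le, Complex.ofReal_natCast]
  have hs0 : ((Real.sqrt D : ℝ) : ℂ) ≠ 0 :=
    Complex.ofReal_ne_zero.mpr (Real.sqrt_ne_zero'.mpr hDr)
  have hc0 : a₁ ^ (1 / 2 : ℂ) ≠ 0 := fun h => hne₁ (by rw [← e2, h, mul_zero])
  generalize jacobiTheta₂_term w.1 (s.1 : ℂ) (I / a₁) = A
  generalize jacobiTheta₂_term w.2 (s.2 : ℂ) (I / a₂) = B
  generalize ((Real.sqrt D : ℝ) : ℂ) = r at hs hs0 ⊢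
  generalize a₁ ^ (1 / 2 : ℂ) = c at e2 hc0 ⊢
  rw [show -I / a₁ / c * (1 / (r * c)) = -I / (r * (a₁ * (c * c))) by field_simp,
    show I * r * (1 / c * (-I / a₂ / (r * c))) = 1 / (a₂ * (c * c)) by
      field_simp; rw [I_sq]; ring,
    e2, ha₂, ha₁]
  simp only [Complex.ofReal_natCast]
  field_simp
  ring_nf
  linear_combination (I * r ^ 2 * (w.1 : ℂ) * A * B * 4 + (I ^ 2 - 1) * r * (w.2 : ℂ) * A * B * 4) *
    I_sq - I * (w.1 : ℂ) * A * B * 4 * hs

/-- The series over a residue class. -/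
def latG (D M : ℕ) (a : ℤ × ℤ) (τ : ℂ) : ℂ :=
  ∑' u : ℤ × ℤ, latLam D (((a.1 + M * u.1 : ℤ) : ℂ), ((a.2 + M * u.2 : ℤ) : ℂ)) *
    ex (τ * (latQ D (a.1 + M * u.1, a.2 + M * u.2) : ℤ) / M)

theorem latQ_intCast (v : ℤ × ℤ) :
    ((latQ D v : ℤ) : ℂ) = latQ D ((v.1 : ℂ), (v.2 : ℂ)) := by
  simp [latQ]

theorem ex_eq_of_sub_int {x y : ℂ} (k : ℤ) (h : x = y + k) : ex x = ex y := by
  rw [h, ex_add, ex_intCast, mul_one]

variable {M : ℕ} [NeZero M]

theorem summable_latG (a : ℤ × ℤ) {τ : ℂ} (hτ : 0 < τ.im) :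
    Summable fun u : ℤ × ℤ =>
      latLam D (((a.1 + M * u.1 : ℤ) : ℂ), ((a.2 + M * u.2 : ℤ) : ℂ)) *
        ex (τ * (latQ D (a.1 + M * u.1, a.2 + M * u.2) : ℤ) / M) := by
  have hM : (M : ℂ) ≠ 0 := Nat.cast_ne_zero.mpr (NeZero.ne M)
  obtain ⟨S, h, -⟩ := lat_poisson (D := D) (z := (M : ℂ) * τ)
    (by simpa using mul_pos (Nat.cast_pos.mpr (NeZero.pos M)) hτ)
    ((a.1 : ℝ) / M, (a.2 : ℝ) / M)
  refine (h.mul_left (M : ℂ)).summable.congr fun u => ?_
  rw [latQ_intCast, latLam, latLam, ← mul_assoc]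
  congr 1
  · push_cast; field_simp; ring
  · congr 1; simp only [latQ]; push_cast; field_simp; ring

/-- Only the class modulo `M` matters. -/
theorem latG_congr {a a' : ℤ × ℤ} (h₁ : (M : ℤ) ∣ a'.1 - a.1) (h₂ : (M : ℤ) ∣ a'.2 - a.2)
    (τ : ℂ) : latG D M a' τ = latG D M a τ := by
  obtain ⟨i, hi⟩ := h₁
  obtain ⟨j, hj⟩ := h₂
  rw [latG, latG, ← (Equiv.addRight ((i, j) : ℤ × ℤ)).tsum_eq (fun u : ℤ × ℤ =>
    latLam D (((a.1 + M * u.1 : ℤ) : ℂ), ((a.2 + M * u.2 : ℤ) : ℂ)) *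
      ex (τ * (latQ D (a.1 + M * u.1, a.2 + M * u.2) : ℤ) / M))]
  refine tsum_congr fun u => ?_
  simp only [Equiv.coe_addRight, Prod.fst_add, Prod.snd_add]
  rw [show a'.1 + M * u.1 = a.1 + M * (u.1 + i) by linear_combination hi,
    show a'.2 + M * u.2 = a.2 + M * (u.2 + j) by linear_combination hj]

/-- The term of the dual series. -/
def latDual (D M : ℕ) (z : ℂ) (w : ℤ × ℤ) : ℂ :=
  ((Real.sqrt D : ℝ) * (w.1 : ℂ) + I * w.2) *
    ex (-((D : ℂ) * w.1 ^ 2 + (w.2 : ℂ) ^ 2) / (4 * D * M * z))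

/-- The dual series near a rational. -/
theorem hasSum_latG_rat (a : ℤ × ℤ) {d : ℕ} [NeZero d] (β : ℤ) {z : ℂ} (hz : 0 < z.im) :
    HasSum (fun w : ℤ × ℤ => d * I / (4 * D * M * z ^ 2) * (latDual D M z w *
      ∑ r : ZMod d × ZMod d, ex ((β : ℂ) *
          (latQ D (a.1 + M * (r.1.val : ℤ), a.2 + M * (r.2.val : ℤ)) : ℤ) / (d * M) +
        ((w.1 : ℂ) * (a.1 + M * (r.1.val : ℂ)) + (w.2 : ℂ) * (a.2 + M * (r.2.val : ℂ))) / (M * d))))
      (latG D M a ((β : ℂ) / d + z / (d : ℂ) ^ 2)) := by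
  have hd : (d : ℂ) ≠ 0 := Nat.cast_ne_zero.mpr (NeZero.ne d)
  have hM : (M : ℂ) ≠ 0 := Nat.cast_ne_zero.mpr (NeZero.ne M)
  set σ : ℂ := (β : ℂ) / d + z / (d : ℂ) ^ 2 with hσ
  have him : 0 < σ.im := by
    rw [hσ, show (d : ℂ) ^ 2 = (((d : ℝ) ^ 2 : ℝ) : ℂ) by push_cast; ring, Complex.add_im,
      show (β : ℂ) / d = (((β : ℝ) / d : ℝ) : ℂ) by push_cast; ring, Complex.ofReal_im, zero_add,
      Complex.div_ofReal_im]
    have := NeZero.pos d
    positivity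
  set f : ℤ × ℤ → ℂ := fun u =>
    latLam D (((a.1 + M * u.1 : ℤ) : ℂ), ((a.2 + M * u.2 : ℤ) : ℂ)) *
      ex (σ * (latQ D (a.1 + M * u.1, a.2 + M * u.2) : ℤ) / M)
  have hf : Summable f := summable_latG a him
  choose S hS hT using fun r : ZMod d × ZMod d => lat_poisson (D := D) (z := (M : ℂ) * z)
    (by simpa using mul_pos (Nat.cast_pos.mpr (NeZero.pos M)) hz)
    ((((a.1 : ℝ) + M * r.1.val) / (M * d)), (((a.2 : ℝ) + M * r.2.val) / (M * d)))
  set P : ZMod d × ZMod d → ℂ := fun r => (M : ℂ) * d * ex ((β : ℂ) *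
    (latQ D (a.1 + M * (r.1.val : ℤ), a.2 + M * (r.2.val : ℤ)) : ℤ) / (d * M)) with hP
  have hval : latG D M a σ = ∑ r, P r * S r := by
    show ∑' u, f u = _
    rw [← (resEquiv d).tsum_eq f,
      Summable.tsum_prod (f := fun p => f (resEquiv d p)) ((resEquiv d).summable_iff.mpr hf),
      tsum_fintype]
    refine Finset.sum_congr rfl fun r _ => ((hS r).mul_left (P r)).tsum_eq ▸ tsum_congr fun m => ?_
    set x₁ : ℤ := a.1 + M * (r.1.val : ℤ) with hx₁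
    set x₂ : ℤ := a.2 + M * (r.2.val : ℤ) with hx₂
    simp only [f, resEquiv, Equiv.coe_fn_mk, hP, latLam]
    rw [show (M : ℂ) * d * ex ((β : ℂ) * (latQ D (x₁, x₂) : ℤ) / (d * M)) =
      (M : ℂ) * d * ex ((β : ℂ) * (latQ D (x₁, x₂) : ℤ) / (d * M) +
        ((β * (2 * (x₁ * m.1 + D * x₂ * m.2) + M * d * latQ D m) : ℤ) : ℂ)) by
      rw [ex_add, ex_intCast, mul_one]]
    rw [mul_mul_mul_comm, ← ex_add]
    congr 1
    · push_cast; field_simp; ring
    · congr 1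
      simp only [hσ, hx₁, hx₂, latQ]
      push_cast
      field_simp
      ring
  rw [hval]
  refine (hasSum_sum fun r _ => (hT r).mul_left (P r)).congr_fun fun w => ?_
  rw [Finset.mul_sum, Finset.mul_sum]
  refine Finset.sum_congr rfl fun r _ => ?_
  simp only [hP, latDual, add_div, ex_add]
  push_cast
  have hz0 : z ≠ 0 := fun h => by simp [h] at hz
  simp only [show (4 : ℂ) * D * ((M : ℂ) * z) = 4 * D * M * z by ring]
  field_simp

/-- The inversion of the series of a class. -/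
theorem hasSum_latG (a : ℤ × ℤ) {τ : ℂ} (hτ : 0 < τ.im) :
    HasSum (fun w : ℤ × ℤ => I / (4 * D * M * τ ^ 2) * (latDual D M τ w *
      ex (((w.1 : ℂ) * a.1 + (w.2 : ℂ) * a.2) / M))) (latG D M a τ) := by
  have h := hasSum_latG_rat (D := D) (M := M) a (d := 1) 0 hτ
  simpa [show (Finset.univ : Finset (ZMod 1 × ZMod 1)) = {0} from rfl] using h

/-- **The transformation of the series of a class.** -/
theorem latG_smul {α₀ b' e' : ℤ} {d : ℕ} [NeZero d]
    (hdet : α₀ * d - M * b' * (4 * D * M * e') = 1) (v : ℤ × ℤ) (τ σ : ℍ)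
    (hσ : (σ : ℂ) = ((α₀ : ℂ) * τ + (M * b' : ℤ)) / ((4 * D * M * e' : ℤ) * (τ : ℂ) + d)) :
    latG D M v σ = ((4 * D * M * e' : ℤ) * (τ : ℂ) + d) ^ 2 * (BQF.gaussOne D d / d) *
      latG D M (α₀ * v.1, α₀ * v.2) τ := by
  have hd : (d : ℂ) ≠ 0 := Nat.cast_ne_zero.mpr (NeZero.ne d)
  have hD : (D : ℂ) ≠ 0 := Nat.cast_ne_zero.mpr (NeZero.ne D)
  have hM : (M : ℂ) ≠ 0 := Nat.cast_ne_zero.mpr (NeZero.ne M)
  set den : ℂ := (4 * D * M * e' : ℤ) * (τ : ℂ) + d with hden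
  have hden0 : den ≠ 0 := by
    intro h
    have := σ.ne_zero
    rw [hσ, h, div_zero] at this
    exact this rfl
  set z : ℂ := (τ : ℂ) * d / den with hzd
  have hdetC : (α₀ : ℂ) * d - M * b' * (4 * D * M * e' : ℤ) = 1 := by exact_mod_cast hdet
  have hσz : (σ : ℂ) = ((M * b' : ℤ) : ℂ) / d + z / (d : ℂ) ^ 2 := by
    rw [hσ, hzd]
    field_simp
    rw [hden]
    push_cast at hdetC ⊢
    linear_combination (τ : ℂ) * hdetC
  have hz : 0 < z.im := by
    have h : z = (((d : ℝ) ^ 2 : ℝ) : ℂ) * (σ : ℂ) - (((d : ℝ) * (M * b' : ℤ) : ℝ) : ℂ) := by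
      rw [hσz]; push_cast; field_simp; ring
    rw [h, Complex.sub_im, Complex.im_ofReal_mul, Complex.ofReal_im, sub_zero]
    have := NeZero.pos d
    exact mul_pos (by positivity) σ.im_pos
  let P : BQF D := BQF.princ D (NeZero.pos D)
  set al : ℤ := -(4 * D * M * b' * e') with hal
  have hbez : al * M + α₀ * d = 1 := by rw [hal]; linear_combination hdet
  have hadm : Adm D d := by
    rw [Adm, ← Nat.isCoprime_iff_coprime]
    exact ⟨α₀, -(2 * M * b' * M * e'), by push_cast; linear_combination hdet⟩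
  have hi : 4 * ((b' : ℤ) : ZMod d) * (D : ZMod d) * ((-(M ^ 2 * e') : ℤ) : ZMod d) = 1 := by
    have := congrArg (Int.cast : ℤ → ZMod d) hdet
    push_cast at this ⊢
    rw [ZMod.natCast_self, mul_zero, zero_sub] at this
    linear_combination this
  have hb : IsUnit ((b' : ℤ) : ZMod d) :=
    IsUnit.of_mul_eq_one (4 * (D : ZMod d) * ((-(M ^ 2 * e') : ℤ) : ZMod d))
      (by linear_combination hi)
  have hMu : (M : ZMod d) * (al : ZMod d) = 1 := by
    have := congrArg (Int.cast : ℤ → ZMod d) hbez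
    push_cast at this
    rw [ZMod.natCast_self, mul_zero, add_zero] at this
    linear_combination this
  have key : ∀ w : ℤ × ℤ, d * I / (4 * D * M * z ^ 2) * (latDual D M z w *
      ∑ r : ZMod d × ZMod d, ex (((M * b' : ℤ) : ℂ) *
          (latQ D (v.1 + M * (r.1.val : ℤ), v.2 + M * (r.2.val : ℤ)) : ℤ) / (d * M) +
        ((w.1 : ℂ) * (v.1 + M * (r.1.val : ℂ)) + (w.2 : ℂ) * (v.2 + M * (r.2.val : ℂ))) / (M * d))) =
      den ^ 2 * (BQF.gaussOne D d / d) * (I / (4 * D * M * (τ : ℂ) ^ 2) * (latDual D M τ w *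
        ex (((w.1 : ℂ) * ((α₀ * v.1 : ℤ) : ℂ) + (w.2 : ℂ) * ((α₀ * v.2 : ℤ) : ℂ)) / M))) := by
    intro w
    -- split the character modulo `M d`
    have hterm : ∀ r : ZMod d × ZMod d, ex (((M * b' : ℤ) : ℂ) *
          (latQ D (v.1 + M * (r.1.val : ℤ), v.2 + M * (r.2.val : ℤ)) : ℤ) / (d * M) +
        ((w.1 : ℂ) * (v.1 + M * (r.1.val : ℂ)) + (w.2 : ℂ) * (v.2 + M * (r.2.val : ℂ))) / (M * d)) =
        ex (((w.1 : ℂ) * ((α₀ * v.1 : ℤ) : ℂ) + (w.2 : ℂ) * ((α₀ * v.2 : ℤ) : ℂ)) / M) *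
          ZMod.stdAddChar ((b' : ZMod d) * P.val ((v.1 : ZMod d) + (M : ZMod d) * r.1, (v.2 : ZMod d) + (M : ZMod d) * r.2) +
            (((al * w.1 : ℤ) : ZMod d) * ((v.1 : ZMod d) + (M : ZMod d) * r.1) +
              ((al * w.2 : ℤ) : ZMod d) * ((v.2 : ZMod d) + (M : ZMod d) * r.2))) := by
      intro r
      set x₁ : ℤ := v.1 + M * (r.1.val : ℤ) with hx₁
      set x₂ : ℤ := v.2 + M * (r.2.val : ℤ) with hx₂
      rw [show ((v.1 : ZMod d) + (M : ZMod d) * r.1) = (x₁ : ZMod d) by simp [hx₁],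
        show ((v.2 : ZMod d) + (M : ZMod d) * r.2) = (x₂ : ZMod d) by simp [hx₂],
        show (b' : ZMod d) * P.val ((x₁ : ZMod d), (x₂ : ZMod d)) +
          (((al * w.1 : ℤ) : ZMod d) * (x₁ : ZMod d) + ((al * w.2 : ℤ) : ZMod d) * (x₂ : ZMod d)) =
          ((b' * latQ D (x₁, x₂) + (al * w.1 * x₁ + al * w.2 * x₂) : ℤ) : ZMod d) by
            simp [P, BQF.val_princ, latQ], stdAddChar_ex, ← ex_add]
      refine ex_eq_of_sub_int (α₀ * (w.1 * r.1.val + w.2 * r.2.val)) ?_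
      have hbezC : (al : ℂ) * M + α₀ * d = 1 := by exact_mod_cast hbez
      simp only [hx₁, hx₂]
      push_cast
      field_simp
      linear_combination
        -((w.1 : ℂ) * (v.1 + M * (r.1.val : ℂ)) + (w.2 : ℂ) * (v.2 + M * (r.2.val : ℂ))) * hbezC
    simp only [hterm, ← Finset.mul_sum]
    have hsum : ∑ r : ZMod d × ZMod d, ZMod.stdAddChar ((b' : ZMod d) *
        P.val ((v.1 : ZMod d) + (M : ZMod d) * r.1, (v.2 : ZMod d) + (M : ZMod d) * r.2) +
          (((al * w.1 : ℤ) : ZMod d) * ((v.1 : ZMod d) + (M : ZMod d) * r.1) +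
            ((al * w.2 : ℤ) : ZMod d) * ((v.2 : ZMod d) + (M : ZMod d) * r.2))) =
        P.gauss d (b' : ZMod d) (((al * w.1 : ℤ) : ZMod d), ((al * w.2 : ℤ) : ZMod d)) := by
      refine Finset.sum_nbij' (fun r => ((v.1 : ZMod d) + (M : ZMod d) * r.1, (v.2 : ZMod d) + (M : ZMod d) * r.2))
        (fun x => ((al : ZMod d) * (x.1 - v.1), (al : ZMod d) * (x.2 - v.2)))
        (by simp) (by simp) (fun r _ => ?_) (fun x _ => ?_) (fun r _ => rfl) <;> ext <;> simp only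
      · linear_combination r.1 * hMu
      · linear_combination r.2 * hMu
      · linear_combination (x.1 - v.1) * hMu
      · linear_combination (x.2 - v.2) * hMu
    rw [hsum, P.gauss_linear hi, P.gauss_unit hadm hb]
    have hadj : P.adj.val (((al * w.1 : ℤ) : ZMod d), ((al * w.2 : ℤ) : ZMod d)) =
        ((al ^ 2 * (D * w.1 ^ 2 + w.2 ^ 2) : ℤ) : ZMod d) := by
      simp [P, BQF.val_adj, BQF.princ]; ring
    rw [hadj, show -(((-(M ^ 2 * e') : ℤ) : ZMod d) *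
        ((al ^ 2 * (D * w.1 ^ 2 + w.2 ^ 2) : ℤ) : ZMod d)) =
        ((-(-(M ^ 2 * e') * (al ^ 2 * (D * w.1 ^ 2 + w.2 ^ 2))) : ℤ) : ZMod d) by push_cast; ring,
      stdAddChar_ex]
    have hexp : ex (-((D : ℂ) * w.1 ^ 2 + (w.2 : ℂ) ^ 2) / (4 * D * M * z)) *
        ex (((-(-(M ^ 2 * e') * (al ^ 2 * (D * w.1 ^ 2 + w.2 ^ 2))) : ℤ) : ℂ) / d) =
        ex (-((D : ℂ) * w.1 ^ 2 + (w.2 : ℂ) ^ 2) / (4 * D * M * (τ : ℂ))) := by
      rw [← ex_add]
      refine ex_eq_of_sub_int (-(e' * α₀ * (1 + M * al) * (D * w.1 ^ 2 + w.2 ^ 2))) ?_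
      have hbezC : (al : ℂ) * M + α₀ * d = 1 := by exact_mod_cast hbez
      rw [hzd, hden]
      have hτ := τ.ne_zero
      push_cast
      field_simp
      linear_combination (4 * (D : ℂ) * M * τ * e' * (1 + M * al) *
        (D * (w.1 : ℂ) ^ 2 + (w.2 : ℂ) ^ 2)) * hbezC
    have hzinv : (d : ℂ) * I / (4 * D * M * z ^ 2) =
        den ^ 2 * (1 / (d : ℂ)) * (I / (4 * D * M * (τ : ℂ) ^ 2)) := by
      rw [hzd]
      have hτ := τ.ne_zero
      field_simp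
    simp only [latDual]
    linear_combination
      (den ^ 2 * (BQF.gaussOne D d / d) * (I / (4 * D * M * (τ : ℂ) ^ 2)) *
        ((Real.sqrt D : ℝ) * (w.1 : ℂ) + I * w.2) *
        ex (((w.1 : ℂ) * ((α₀ * v.1 : ℤ) : ℂ) + (w.2 : ℂ) * ((α₀ * v.2 : ℤ) : ℂ)) / M)) * hexp +
      (((Real.sqrt D : ℝ) * (w.1 : ℂ) + I * w.2) *
        ex (-((D : ℂ) * w.1 ^ 2 + (w.2 : ℂ) ^ 2) / (4 * D * M * z)) *
        (ex (((w.1 : ℂ) * ((α₀ * v.1 : ℤ) : ℂ) + (w.2 : ℂ) * ((α₀ * v.2 : ℤ) : ℂ)) / M) *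
          (BQF.gaussOne D d *
            ex (((-(-(M ^ 2 * e') * (al ^ 2 * (D * w.1 ^ 2 + w.2 ^ 2))) : ℤ) : ℂ) / d)))) * hzinv
  have h := hasSum_latG_rat (D := D) (M := M) v (d := d) (M * b') hz
  rw [← hσz] at h
  exact (h.unique (((hasSum_latG (D := D) (M := M) (α₀ * v.1, α₀ * v.2) τ.im_pos).mul_left
    (den ^ 2 * (BQF.gaussOne D d / d))).congr_fun key))

/-! ### The sign -/

/-- `G(d) / d` depends on `d` modulo `4 D` only. -/
theorem gaussOne_div_add {d : ℕ} [NeZero d] (hd : Adm D d) (j : ℕ) [NeZero (d + 4 * D * j)] :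
    BQF.gaussOne D (d + 4 * D * j) / (d + 4 * D * j : ℕ) = BQF.gaussOne D d / d := by
  let Q : BQF D := BQF.princ D (NeZero.pos D)
  obtain ⟨x, y, hxy⟩ : IsCoprime (d : ℤ) ((4 * D : ℕ) : ℤ) := by
    rw [Nat.isCoprime_iff_coprime]
    exact Nat.Coprime.mul_right
      (show Nat.Coprime d (2 ^ 2) from Nat.Coprime.pow_right 2 (hd.coprime_dvd_right (dvd_mul_right 2 D)))
      (hd.coprime_dvd_right (dvd_mul_left D 2))
  push_cast at hxy
  let τ : ℍ := ((-(j : ℝ))) +ᵥ UpperHalfPlane.I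
  let γ : SL(2, ℤ) := ⟨!![x, -y; 4 * D * 1, d], by
    rw [Matrix.det_fin_two_of]; linear_combination hxy⟩
  let w₀ : ℍ := (j : ℝ) +ᵥ τ
  have hw₀ : w₀ = UpperHalfPlane.I := by simp [w₀, τ, vadd_vadd]
  have hσ : ((γ • w₀ : ℍ) : ℂ) = ((x : ℂ) * (w₀ : ℂ) + (-y : ℤ)) /
      ((4 * D * 1 : ℤ) * (w₀ : ℂ) + d) := by
    rw [UpperHalfPlane.coe_specialLinearGroup_apply]
    simp [γ]
  have h1 := Q.theta_smul_of_pos (a := x) (b := -y) (c' := 1) (d := d)
    (by linear_combination hxy) w₀ (γ • w₀) hσ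
  have h2 := Q.theta_smul_of_pos (a := x) (b := -y + x * j) (c' := 1) (d := d + 4 * D * j)
    (by push_cast; linear_combination hxy) τ (γ • w₀) (by
      rw [hσ, UpperHalfPlane.coe_vadd]; push_cast; ring_nf)
  rw [h1] at h2
  have hper : Q.theta τ = Q.theta w₀ := by
    simp only [BQF.theta]
    refine tsum_congr fun v => ex_eq_of_sub_int (-(j * Q.val v)) ?_
    rw [show Q.val ((v.1 : ℂ), (v.2 : ℂ)) = ((Q.val v : ℤ) : ℂ) from
      (Q.map_val (Int.castRingHom ℂ) v).symm]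
    simp only [w₀, UpperHalfPlane.coe_vadd]
    push_cast
    ring
  have hne : Q.theta w₀ ≠ 0 := by
    rw [hw₀]
    intro h0
    have hterm : ∀ v : ℤ × ℤ, ex ((UpperHalfPlane.I : ℂ) * Q.val ((v.1 : ℂ), (v.2 : ℂ))) =
        ((Real.exp (-(2 * π * Q.val ((v.1 : ℝ), (v.2 : ℝ)))) : ℝ) : ℂ) := fun v => by
      rw [ex, Complex.ofReal_exp]
      congr 1
      simp [BQF.val]
      ring_nf
      simp only [I_sq]
      ring
    have hs : Summable fun v : ℤ × ℤ =>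
        ((Real.exp (-(2 * π * Q.val ((v.1 : ℝ), (v.2 : ℝ)))) : ℝ) : ℂ) :=
      (Q.summable_theta UpperHalfPlane.I.im_pos).congr hterm
    rw [BQF.theta, tsum_congr hterm, ← Complex.ofReal_tsum, Complex.ofReal_eq_zero] at h0
    exact (Summable.tsum_pos (Complex.summable_ofReal.mp hs) (fun v => (Real.exp_pos _).le)
      (0, 0) (Real.exp_pos _)).ne' h0
  rw [hper] at h2
  have hden : ((4 * D * 1 : ℤ) : ℂ) * (τ : ℂ) + ((d + 4 * D * j : ℕ) : ℂ) =
      ((4 * D * 1 : ℤ) : ℂ) * (w₀ : ℂ) + d := by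
    simp only [w₀, UpperHalfPlane.coe_vadd]; push_cast; ring
  rw [hden] at h2
  have hne2 : ((4 * D * 1 : ℤ) : ℂ) * (w₀ : ℂ) + d ≠ 0 := fun h => by
    have := congrArg Complex.im h
    simp [hw₀, NeZero.ne D] at this
  exact (mul_left_cancel₀ hne2 (mul_right_cancel₀ hne h2)).symm

/-- The value at a prime. -/
theorem gaussOne_prime {p : ℕ} [hp : Fact p.Prime] (hadm : Adm D p) :
    BQF.gaussOne D p = (jacobiSym (-(D : ℤ)) p : ℂ) * p := by
  classical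
  have h2 : ringChar (ZMod p) ≠ 2 := fun h => by
    obtain rfl : p = 2 := (ZMod.ringChar_zmod_n p).symm.trans h
    exact absurd (Nat.eq_one_of_dvd_coprimes hadm dvd_rfl (dvd_mul_right 2 D)) (by norm_num)
  have hD0 : (D : ZMod p) ≠ 0 := hadm.isUnit_det.ne_zero
  set χ := quadraticChar (ZMod p)
  -- the zeros of the form
  have hzero : ((Finset.univ.filter fun v : ZMod p × ZMod p =>
      v.1 ^ 2 + (D : ZMod p) * v.2 ^ 2 = 0).card : ℤ) = p + (p - 1) * χ (-(D : ZMod p)) := by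
    rw [show (Finset.univ.filter fun v : ZMod p × ZMod p => v.1 ^ 2 + (D : ZMod p) * v.2 ^ 2 = 0) =
        (Finset.univ : Finset (ZMod p)).biUnion (fun y => (Finset.univ.filter fun x : ZMod p =>
          x ^ 2 = -(D : ZMod p) * y ^ 2).map (Function.Embedding.sectL (ZMod p) y)) by
      ext ⟨x, y⟩
      simp [eq_neg_iff_add_eq_zero]]
    rw [Finset.card_biUnion (by
      intro a _ b _ hab
      simp [Finset.disjoint_left, hab.symm])]
    simp only [Finset.card_map, Nat.cast_sum]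
    have hy : ∀ y : ZMod p, ((Finset.univ.filter fun x : ZMod p =>
        x ^ 2 = -(D : ZMod p) * y ^ 2).card : ℤ) = χ (-(D : ZMod p) * y ^ 2) + 1 := fun y => by
      rw [← quadraticChar_card_sqrts h2, Set.toFinset_ofPred]
    simp only [hy, Finset.sum_add_distrib, Finset.sum_const, Finset.card_univ, ZMod.card,
      nsmul_one, map_mul, ← Finset.mul_sum]
    rw [← Finset.add_sum_erase _ _ (Finset.mem_univ (0 : ZMod p)),
      Finset.sum_congr rfl fun y hy => quadraticChar_sq_one' (Finset.ne_of_mem_erase hy)]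
    simp [χ, Finset.card_erase_of_mem, Nat.cast_sub hp.out.one_le]
    ring
  have hsum : ∑ u : ZMod p, ∑ v : ZMod p × ZMod p,
      ZMod.stdAddChar (u * (v.1 ^ 2 + (D : ZMod p) * v.2 ^ 2)) =
      (p : ℂ) * (((Finset.univ.filter fun v : ZMod p × ZMod p =>
        v.1 ^ 2 + (D : ZMod p) * v.2 ^ 2 = 0).card : ℤ) : ℂ) := by
    rw [Finset.sum_comm]
    simp only [mul_comm _ (_ + _ : ZMod p), BQF.sum_char_mul, ← Finset.sum_filter, Finset.sum_const,
      nsmul_eq_mul]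
    push_cast
    ring
  rw [← Finset.add_sum_erase _ _ (Finset.mem_univ (0 : ZMod p)),
    Finset.sum_congr rfl fun u hu => BQF.gauss_princ_unit hadm
      (IsUnit.mk0 u (Finset.ne_of_mem_erase hu)), hzero] at hsum
  simp [Finset.card_erase_of_mem, Nat.cast_sub hp.out.one_le] at hsum
  have hne : (p : ℂ) - 1 ≠ 0 := sub_ne_zero.mpr (by exact_mod_cast hp.out.ne_one)
  rw [← jacobiSym.legendreSym.to_jacobiSym,
    show legendreSym p (-(D : ℤ)) = χ (-(D : ZMod p)) by simp [legendreSym, χ]]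
  refine mul_left_cancel₀ hne ?_
  linear_combination hsum

/-- **The value of the Gauss sum.** -/
theorem gaussOne_eq {d : ℕ} [NeZero d] (hd : Adm D d) :
    BQF.gaussOne D d = (jacobiSym (-(D : ℤ)) d : ℂ) * d := by
  have h2 : Odd d := Nat.coprime_two_right.mp (hd.coprime_dvd_right (dvd_mul_right 2 D))
  have hcop : d.Coprime (4 * D) := Nat.Coprime.mul_right
    (show Nat.Coprime d (2 ^ 2) from Nat.Coprime.pow_right 2 (hd.coprime_dvd_right (dvd_mul_right 2 D)))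
    (hd.coprime_dvd_right (dvd_mul_left D 2))
  obtain ⟨p, hpd, hp, hmod⟩ := Nat.forall_exists_prime_gt_and_modEq d
    (mul_ne_zero (by norm_num) (NeZero.ne D)) hcop
  have := Fact.mk hp
  obtain ⟨j, rfl⟩ : ∃ j, p = d + 4 * D * j := by
    obtain ⟨j, hj⟩ := (Nat.modEq_iff_dvd' hpd.le).mp hmod.symm
    exact ⟨j, by omega⟩
  have : NeZero (d + 4 * D * j) := ⟨hp.ne_zero⟩
  have h := gaussOne_div_add hd j
  rw [gaussOne_prime (p := d + 4 * D * j) (by
      rw [Adm, show d + 4 * D * j = d + 2 * D * (2 * j) by ring, Nat.coprime_add_mul_left_left]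
      exact hd),
    mul_div_cancel_right₀ _ (Nat.cast_ne_zero.mpr (NeZero.ne _)),
    eq_div_iff (Nat.cast_ne_zero.mpr (NeZero.ne d))] at h
  rw [← h]
  congr 2
  have ho : Odd (d + 4 * D * j) := h2.add_even (by simp [show Even 4 by decide])
  rw [jacobiSym.mod_right _ ho, jacobiSym.mod_right _ h2, Int.natAbs_neg, Int.natAbs_natCast,
    Nat.add_mul_mod_self_left]

/-! ### Bounds -/

theorem exp_sq_le {k : ℝ} (hk : 0 ≤ k) (n : ℝ) :
    Real.exp (-k * n ^ 2) ≤ Real.exp 1 * Real.exp (-(2 * Real.sqrt k) * |n|) := by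
  rw [← Real.exp_add]
  apply Real.exp_le_exp.mpr
  nlinarith [sq_nonneg (Real.sqrt k * |n| - 1), Real.sq_sqrt hk, sq_abs n]

/-- `∑ e^(-k n²) ≤ C / √k`. -/
theorem gauss_bound {k : ℝ} (hk : 0 < k) (hk1 : k ≤ 1) :
    Summable (fun n : ℤ => Real.exp (-k * (n : ℝ) ^ 2)) ∧
      ∑' n : ℤ, Real.exp (-k * (n : ℝ) ^ 2) ≤ Real.exp 1 * (3 / Real.sqrt k) := by
  set s := Real.sqrt k with hs
  have hs0 : 0 < s := Real.sqrt_pos.mpr hk
  have hs1 : s ≤ 1 := by rw [hs]; simpa using Real.sqrt_le_sqrt hk1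
  set r := Real.exp (-(2 * s)) with hr
  have hr0 : 0 < r := Real.exp_pos _
  have hr1 : r < 1 := by rw [hr, Real.exp_lt_one_iff]; linarith
  have hrs : r ≤ 1 / (1 + 2 * s) := by
    rw [hr, Real.exp_neg, ← one_div]
    exact one_div_le_one_div_of_le (by positivity) (by linarith [Real.add_one_le_exp (2 * s)])
  have hg := hasSum_geometric_of_lt_one hr0.le hr1
  have h : HasSum (fun n : ℤ => r ^ n.natAbs) ((1 - r)⁻¹ + r * (1 - r)⁻¹) :=
    HasSum.of_nat_of_neg_add_one (f := fun n : ℤ => r ^ n.natAbs) (by simpa using hg)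
      ((hg.mul_left r).congr_fun fun n => by
        rw [show (-((n : ℤ) + 1)).natAbs = n + 1 by omega, pow_succ'])
  have hle : ∀ n : ℤ, Real.exp (-k * (n : ℝ) ^ 2) ≤ Real.exp 1 * r ^ n.natAbs := fun n => by
    refine (exp_sq_le hk.le n).trans (le_of_eq ?_)
    rw [hr, ← Real.exp_nat_mul, Nat.cast_natAbs, Int.cast_abs]
    congr 2
    ring
  have hsum := Summable.of_nonneg_of_le (fun n : ℤ => (Real.exp_pos _).le) hle
    (h.summable.mul_left _)
  refine ⟨hsum, (hsum.tsum_le_tsum hle (h.summable.mul_left _)).trans ?_⟩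
  rw [tsum_mul_left, h.tsum_eq]
  refine mul_le_mul_of_nonneg_left ?_ (Real.exp_pos _).le
  have h1r : 0 < 1 - r := by linarith
  rw [show (1 - r)⁻¹ + r * (1 - r)⁻¹ = (1 + r) / (1 - r) by ring, div_le_div_iff₀ h1r hs0]
  have : r * (1 + 2 * s) ≤ 1 := by rwa [le_div_iff₀ (by positivity)] at hrs
  nlinarith

/-- `∑ |n| e^(-k n²) ≤ C / k`. -/
theorem gauss_bound_linear {k : ℝ} (hk : 0 < k) (hk1 : k ≤ 1) :
    Summable (fun n : ℤ => |(n : ℝ)| * Real.exp (-k * (n : ℝ) ^ 2)) ∧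
      ∑' n : ℤ, |(n : ℝ)| * Real.exp (-k * (n : ℝ) ^ 2) ≤ Real.exp 1 * (6 / k) := by
  obtain ⟨hsum, hle⟩ := gauss_bound (k := k / 2) (by positivity) (by linarith)
  set s := Real.sqrt k
  have hs0 : 0 < s := Real.sqrt_pos.mpr hk
  have hterm : ∀ n : ℤ, |(n : ℝ)| * Real.exp (-k * (n : ℝ) ^ 2) ≤
      1 / s * Real.exp (-(k / 2) * (n : ℝ) ^ 2) := fun n => by
    rw [show -k * (n : ℝ) ^ 2 = -(k / 2) * (n : ℝ) ^ 2 + -(k / 2) * (n : ℝ) ^ 2 by ring,
      Real.exp_add, ← mul_assoc]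
    refine mul_le_mul_of_nonneg_right ?_ (Real.exp_pos _).le
    rw [le_div_iff₀ hs0, neg_mul, Real.exp_neg]
    have h := Real.add_one_le_exp (k / 2 * (n : ℝ) ^ 2)
    have hx : |(n : ℝ)| * s ≤ k / 2 * (n : ℝ) ^ 2 + 1 := by
      nlinarith [sq_nonneg (|(n : ℝ)| * s - 1), Real.sq_sqrt hk.le, sq_abs (n : ℝ)]
    rw [mul_right_comm, ← div_eq_mul_inv, div_le_one (Real.exp_pos _)]
    linarith
  have hsum' := Summable.of_nonneg_of_le (fun n : ℤ => mul_nonneg (abs_nonneg _) (Real.exp_pos _).le)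
    hterm (hsum.mul_left _)
  refine ⟨hsum', (hsum'.tsum_le_tsum hterm (hsum.mul_left _)).trans ?_⟩
  rw [tsum_mul_left]
  refine (mul_le_mul_of_nonneg_left hle (by positivity)).trans (le_of_le_of_eq ?_ rfl)
  have h2 : s / 2 ≤ Real.sqrt (k / 2) := by
    rw [← Real.sqrt_sq (by positivity : (0 : ℝ) ≤ s / 2), div_pow, Real.sq_sqrt hk.le]
    exact Real.sqrt_le_sqrt (by linarith)
  calc 1 / s * (Real.exp 1 * (3 / Real.sqrt (k / 2)))
      ≤ 1 / s * (Real.exp 1 * (3 / (s / 2))) := by gcongr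
    _ = Real.exp 1 * (6 / (s * s)) := by field_simp; ring
    _ = _ := by rw [Real.mul_self_sqrt hk.le]

/-! ### The form -/

variable {e M' : ℕ} [NeZero e] [NeZero M'] (wt : ZMod M × ZMod M → ℂ)

/-- The term of `v`. -/
def latTerm (D e : ℕ) {M : ℕ} (wt : ZMod M × ZMod M → ℂ) (z : ℂ) (v : ℤ × ℤ) : ℂ :=
  wt ((v.1 : ZMod M), (v.2 : ZMod M)) *
    (latLam D ((v.1 : ℂ), (v.2 : ℂ)) * ex (z * (latQ D v : ℤ) / e))

/-- The series. -/
def latSum (D e : ℕ) {M : ℕ} (wt : ZMod M × ZMod M → ℂ) (τ : ℍ) : ℂ :=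
  ∑' v : ℤ × ℤ, latTerm D e wt τ v

theorem norm_latTerm_le {B : ℝ} (hB : ∀ v, ‖wt v‖ ≤ B) {z : ℂ} (hz : 0 < z.im) (v : ℤ × ℤ) :
    ‖latTerm D e wt z v‖ ≤ B * D *
      (|(v.1 : ℝ)| * Real.exp (-(2 * π * z.im / e) * (v.1 : ℝ) ^ 2) *
          Real.exp (-(2 * π * z.im / e) * (v.2 : ℝ) ^ 2) +
        Real.exp (-(2 * π * z.im / e) * (v.1 : ℝ) ^ 2) *
          (|(v.2 : ℝ)| * Real.exp (-(2 * π * z.im / e) * (v.2 : ℝ) ^ 2))) := by
  have hD1 : (1 : ℝ) ≤ D := Nat.one_le_cast.mpr NeZero.one_le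
  have hB0 : 0 ≤ B := (norm_nonneg _).trans (hB 0)
  have h1 : ‖latLam D ((v.1 : ℂ), (v.2 : ℂ))‖ ≤ D * (|(v.1 : ℝ)| + |(v.2 : ℝ)|) := by
    refine (norm_add_le _ _).trans ?_
    rw [norm_mul, norm_mul, norm_I, one_mul, Complex.norm_intCast, Complex.norm_intCast,
      Complex.norm_real, Real.norm_eq_abs, abs_of_nonneg (Real.sqrt_nonneg _), mul_add]
    refine add_le_add (le_mul_of_one_le_left (abs_nonneg _) hD1)
      (mul_le_mul_of_nonneg_right ?_ (abs_nonneg _))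
    rw [Real.sqrt_le_left (by linarith)]
    nlinarith
  have h2 : ‖ex (z * (latQ D v : ℤ) / e)‖ ≤
      Real.exp (-(2 * π * z.im / e) * (v.1 : ℝ) ^ 2) *
        Real.exp (-(2 * π * z.im / e) * (v.2 : ℝ) ^ 2) := by
    rw [norm_ex, ← Real.exp_add, show z * (latQ D v : ℤ) / (e : ℂ) =
      z * ((((latQ D v : ℤ) : ℝ) / e : ℝ) : ℂ) by push_cast; ring, Complex.im_mul_ofReal]
    apply Real.exp_le_exp.mpr
    simp only [latQ]
    push_cast
    have hk : 0 ≤ 2 * π * z.im / e := by positivity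
    have := mul_le_mul_of_nonneg_left
      (le_mul_of_one_le_left (sq_nonneg (v.2 : ℝ)) hD1) hk
    rw [show 2 * π * (z.im * (((v.1 : ℝ) ^ 2 + D * (v.2 : ℝ) ^ 2) / e)) =
      2 * π * z.im / e * (v.1 : ℝ) ^ 2 + 2 * π * z.im / e * (D * (v.2 : ℝ) ^ 2) by ring]
    linarith
  rw [latTerm, norm_mul, norm_mul]
  calc ‖wt _‖ * (‖latLam D ((v.1 : ℂ), (v.2 : ℂ))‖ * ‖ex (z * (latQ D v : ℤ) / e)‖)
      ≤ B * ((D * (|(v.1 : ℝ)| + |(v.2 : ℝ)|)) *
        (Real.exp (-(2 * π * z.im / e) * (v.1 : ℝ) ^ 2) *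
          Real.exp (-(2 * π * z.im / e) * (v.2 : ℝ) ^ 2))) :=
        mul_le_mul (hB _) (mul_le_mul h1 h2 (norm_nonneg _) (by positivity)) (by positivity) hB0
    _ = _ := by ring

theorem summable_latTerm {z : ℂ} (hz : 0 < z.im) : Summable (latTerm D e wt z) := by
  have he0 : (0 : ℝ) < e := Nat.cast_pos.mpr (NeZero.pos e)
  have h1 : Summable fun n : ℤ => Real.exp (-(2 * π * z.im / e) * (n : ℝ) ^ 2) := by
    simpa using summable_gauss (k := 2 * π * z.im / e) (by positivity) 0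
  have hlin : Summable fun n : ℤ => |(n : ℝ)| * Real.exp (-(2 * π * z.im / e) * (n : ℝ) ^ 2) := by
    have := summable_pow_mul_jacobiTheta₂_term_bound 0 (T := 2 * z.im / e) (by positivity) 1
    refine this.congr fun n => ?_
    rw [pow_one, Int.cast_abs]
    congr 2
    ring
  refine Summable.of_norm_bounded (g := _) ?_
    (norm_latTerm_le wt (B := ∑ v, ‖wt v‖)
      (fun v => Finset.single_le_sum (fun u _ => norm_nonneg (wt u)) (Finset.mem_univ v)) hz)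
  exact ((hlin.mul_of_nonneg h1 (fun _ => by positivity) fun _ => (Real.exp_pos _).le).add
    (h1.mul_of_nonneg hlin (fun _ => (Real.exp_pos _).le) fun _ => by positivity)).mul_left _

/-- Near the real axis the series is `O(y^(-3/2))`. -/
theorem exists_latSum_bound : ∃ K : ℝ, ∀ τ : ℍ, 2 * π * τ.im / e ≤ 1 →
    ‖latSum D e wt τ‖ ≤ K / (τ.im * Real.sqrt τ.im) := by
  obtain ⟨B, hB0, hB⟩ : ∃ B : ℝ, 0 ≤ B ∧ ∀ v, ‖wt v‖ ≤ B :=
    ⟨∑ v, ‖wt v‖, Finset.sum_nonneg fun u _ => norm_nonneg _, fun v =>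
      Finset.single_le_sum (fun u _ => norm_nonneg (wt u)) (Finset.mem_univ v)⟩
  refine ⟨B * D * (36 * Real.exp 1 * Real.exp 1) / ((2 * π / e) * Real.sqrt (2 * π / e)),
    fun τ hk1 => ?_⟩
  have he0 : (0 : ℝ) < e := Nat.cast_pos.mpr (NeZero.pos e)
  obtain ⟨k, hkdef⟩ : ∃ k : ℝ, k = 2 * π * (τ : ℂ).im / e := ⟨_, rfl⟩
  rw [show 2 * π * τ.im / (e : ℝ) = k by rw [hkdef, UpperHalfPlane.coe_im]] at hk1
  have hk : 0 < k := by rw [hkdef]; have : 0 < (τ : ℂ).im := τ.im_pos; positivity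
  obtain ⟨s0, b0⟩ := gauss_bound hk hk1
  obtain ⟨s1, b1⟩ := gauss_bound_linear hk hk1
  have n0 : (0 : ℤ → ℝ) ≤ fun n : ℤ => Real.exp (-k * (n : ℝ) ^ 2) := fun n => (Real.exp_pos _).le
  have n1 : (0 : ℤ → ℝ) ≤ fun n : ℤ => |(n : ℝ)| * Real.exp (-k * (n : ℝ) ^ 2) := fun n =>
    mul_nonneg (abs_nonneg _) (Real.exp_pos _).le
  have p1 := s1.hasSum.mul s0.hasSum (s1.mul_of_nonneg s0 n1 n0)
  have p2 := s0.hasSum.mul s1.hasSum (s0.mul_of_nonneg s1 n0 n1)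
  rw [latSum]
  have p4 := fun v => norm_latTerm_le (D := D) (e := e) wt hB τ.im_pos v
  simp only [← hkdef] at p4
  refine (tsum_of_norm_bounded ((p1.add p2).mul_left (B * D)) p4).trans ?_
  have hpos : ∀ {f : ℤ → ℝ}, (∀ n, 0 ≤ f n) → 0 ≤ ∑' n, f n := fun h => tsum_nonneg h
  have hm : (∑' n : ℤ, |(n : ℝ)| * Real.exp (-k * (n : ℝ) ^ 2)) *
      (∑' n : ℤ, Real.exp (-k * (n : ℝ) ^ 2)) ≤
      Real.exp 1 * (6 / k) * (Real.exp 1 * (3 / Real.sqrt k)) :=
    mul_le_mul b1 b0 (hpos fun n => (Real.exp_pos _).le) (by positivity)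
  rw [mul_comm (∑' n : ℤ, Real.exp (-k * (n : ℝ) ^ 2))]
  refine (mul_le_mul_of_nonneg_left (add_le_add hm hm) (by positivity)).trans (le_of_eq ?_)
  have hk' : k = 2 * π / e * τ.im := by rw [hkdef, UpperHalfPlane.coe_im]; ring
  rw [hk', Real.sqrt_mul (by positivity)]
  have := τ.im_pos
  field_simp
  ring

variable (D e)

/-- The indices of the `n`-th coefficient. -/
def latSet (n : ℕ) : Finset (ℤ × ℤ) :=
  ((BQF.princ D (NeZero.pos D)).finite_val_eq ((e : ℤ) * n)).toFinset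

/-- The coefficient. -/
def latCoeff (n : ℕ) : ℂ :=
  ∑ v ∈ latSet D e n, wt ((v.1 : ZMod M), (v.2 : ZMod M)) * latLam D ((v.1 : ℂ), (v.2 : ℂ))

variable {D e}

theorem mem_latSet {n : ℕ} {v : ℤ × ℤ} : v ∈ latSet D e n ↔ latQ D v = (e : ℤ) * n := by
  rw [latSet, Set.Finite.mem_toFinset, Set.mem_ofPred_eq, BQF.val_princ, latQ]

theorem hasQ_latSum
    (hsupp : ∀ v : ℤ × ℤ, wt ((v.1 : ZMod M), (v.2 : ZMod M)) ≠ 0 → (e : ℤ) ∣ latQ D v) :
    FA.Eis.HasQ 1 (latSum D e wt) (PowerSeries.mk (latCoeff D e wt)) := by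
  intro τ
  have hg : ∀ v : ℤ × ℤ, wt ((v.1 : ZMod M), (v.2 : ZMod M)) ≠ 0 →
      latQ D v = (e : ℤ) * ((latQ D v / e).toNat : ℕ) := fun v hv => by
    rw [Int.toNat_of_nonneg (Int.ediv_nonneg (by simp [latQ]; positivity) (by positivity)),
      Int.mul_ediv_cancel' (hsupp v hv)]
  refine ((Equiv.sigmaFiberEquiv fun v : ℤ × ℤ => (latQ D v / e).toNat).hasSum_iff.mpr
    (summable_latTerm wt τ.im_pos).hasSum).sigma fun n => ?_
  rw [PowerSeries.coeff_mk, latCoeff, Finset.sum_mul]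
  have hterm : ∀ v ∈ latSet D e n,
      wt ((v.1 : ZMod M), (v.2 : ZMod M)) * latLam D ((v.1 : ℂ), (v.2 : ℂ)) * 𝕢 1 (τ : ℂ) ^ n =
        latTerm D e wt τ v := fun v hv => by
    rw [latTerm, mem_latSet.mp hv, Function.Periodic.qParam, ← Complex.exp_nat_mul, ex, mul_assoc]
    congr 3
    have : (e : ℂ) ≠ 0 := Nat.cast_ne_zero.mpr (NeZero.ne e)
    push_cast
    field_simp
  rw [Finset.sum_congr rfl hterm]
  let S : Finset {v : ℤ × ℤ // (latQ D v / e).toNat = n} := (latSet D e n).subtype _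
  have e1 : ∑ v ∈ latSet D e n, latTerm D e wt τ v = ∑ v ∈ S, latTerm D e wt τ v.1 := by
    rw [Finset.sum_subtype_eq_sum_filter, Finset.filter_true_of_mem fun v hv => ?_]
    rw [mem_latSet.mp hv, Int.mul_ediv_cancel_left _ (by exact_mod_cast NeZero.ne e),
      Int.toNat_natCast]
  rw [e1]
  refine hasSum_sum_of_ne_finset_zero fun v hv => ?_
  by_contra h0
  refine hv (Finset.mem_subtype.mpr (mem_latSet.mpr ?_))
  have hw : wt ((v.1.1 : ZMod M), (v.1.2 : ZMod M)) ≠ 0 := fun h => h0 (by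
    simp [latTerm, h])
  rw [hg _ hw, v.2]

/-- The series is a combination of the series of the classes. -/
theorem latSum_eq (hM : M = e * M') (τ : ℂ) (hτ : 0 < τ.im) :
    ∑' v, latTerm D e wt τ v =
      ∑ r : ZMod M × ZMod M, wt r * latG D M ((r.1.val : ℤ), (r.2.val : ℤ)) ((M' : ℂ) * τ) := by
  have hf := summable_latTerm (D := D) (e := e) wt hτ
  rw [← (resEquiv M).tsum_eq, Summable.tsum_prod
    (f := fun p => latTerm D e wt τ (resEquiv M p)) ((resEquiv M).summable_iff.mpr hf), tsum_fintype]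
  refine Finset.sum_congr rfl fun r _ => ?_
  rw [latG, ← tsum_mul_left]
  refine tsum_congr fun m => ?_
  simp only [latTerm, resEquiv, Equiv.coe_fn_mk]
  push_cast
  rw [ZMod.natCast_self, zero_mul, zero_mul, add_zero, add_zero, ZMod.natCast_zmod_val,
    ZMod.natCast_zmod_val]
  congr 3
  have : (e : ℂ) ≠ 0 := Nat.cast_ne_zero.mpr (NeZero.ne e)
  have : (M' : ℂ) ≠ 0 := Nat.cast_ne_zero.mpr (NeZero.ne M')
  rw [show (M : ℂ) = e * M' by rw [← Nat.cast_mul, ← hM]]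
  field_simp

theorem latSum_slash (hM : M = e * M')
    (hsupp : ∀ v : ℤ × ℤ, wt ((v.1 : ZMod M), (v.2 : ZMod M)) ≠ 0 → (e : ℤ) ∣ latQ D v)
    (hw : ∀ d : ℕ, d.Coprime (2 * D * M) → ∀ v : ZMod M × ZMod M,
      wt ((d : ZMod M) * v.1, (d : ZMod M) * v.2) = (jacobiSym (-(D : ℤ)) d : ℂ) * wt v)
    {γ : SL(2, ℤ)} (hγ : γ ∈ Gamma0 (4 * D * M * M')) :
    latSum D e wt ∣[(2 : ℤ)] γ = latSum D e wt := by
  have hper : ∀ (j : ℤ) (τ : ℍ), latSum D e wt ((j : ℝ) +ᵥ τ) = latSum D e wt τ := fun j τ => by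
    refine tsum_congr fun v => ?_
    rw [latTerm, latTerm]
    by_cases h0 : wt ((v.1 : ZMod M), (v.2 : ZMod M)) = 0
    · rw [h0, zero_mul, zero_mul]
    obtain ⟨k, hk⟩ := hsupp v h0
    congr 2
    refine ex_eq_of_sub_int (j * k) ?_
    have : (e : ℂ) ≠ 0 := Nat.cast_ne_zero.mpr (NeZero.ne e)
    rw [UpperHalfPlane.coe_vadd, hk]
    push_cast
    field_simp
    ring
  obtain ⟨c₁, hc⟩ := (ZMod.intCast_zmod_eq_zero_iff_dvd (γ 1 0) _).mp (Gamma0_mem.mp hγ)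
  have hdet : γ 0 0 * γ 1 1 - γ 0 1 * γ 1 0 = 1 := by
    have := γ.2; rwa [Matrix.det_fin_two] at this
  push_cast at hc
  obtain ⟨s, d, hs, hd⟩ : ∃ (s : ℤ) (d : ℕ), (s = 1 ∨ s = -1) ∧ s * γ 1 1 = d := by
    rcases le_total 0 (γ 1 1) with h | h
    · exact ⟨1, (γ 1 1).natAbs, Or.inl rfl, by omega⟩
    · exact ⟨-1, (γ 1 1).natAbs, Or.inr rfl, by omega⟩
  have hs2 : s * s = 1 := by rcases hs with rfl | rfl <;> rfl
  have hdet' : s * γ 0 0 * d - s * γ 0 1 * (s * γ 1 0) = 1 := by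
    rw [← hd]; linear_combination hdet + (γ 0 0 * γ 1 1 - γ 0 1 * γ 1 0) * hs2
  have hdcop : IsCoprime (d : ℤ) ((4 * D * M * M' : ℕ) : ℤ) :=
    ⟨s * γ 0 0, -(s * γ 0 1 * s * c₁), by push_cast; rw [hc] at hdet'; linear_combination hdet'⟩
  have hd1 : d ≠ 0 := by
    rintro rfl
    rw [Nat.cast_zero, isCoprime_zero_left, Int.isUnit_iff_natAbs_eq] at hdcop
    rw [Int.natAbs_natCast] at hdcop
    have h4 : 4 ∣ 4 * D * M * M' := ((dvd_mul_right 4 D).mul_right M).mul_right M'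
    rw [hdcop] at h4
    norm_num at h4
  have : NeZero d := ⟨hd1⟩
  rw [Nat.isCoprime_iff_coprime] at hdcop
  have hde : IsCoprime (d : ℤ) (e : ℤ) := Nat.isCoprime_iff_coprime.mpr
    (hdcop.coprime_dvd_right (by rw [hM]; exact Dvd.intro (4 * D * M' * M') (by ring)))
  -- move the upper right entry into `e ℤ` by a translation
  obtain ⟨u, u', hu⟩ := hde
  set j : ℤ := s * γ 0 1 * u with hj
  have hjb : s * γ 0 1 - j * d = e * (s * γ 0 1 * u') := by rw [hj]; linear_combination -(s * γ 0 1) * hu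
  set α₀ : ℤ := s * γ 0 0 - j * (s * γ 1 0) with hα
  funext τ
  let τ' : ℍ := γ • τ
  let σ₀ : ℍ := ((-j : ℤ) : ℝ) +ᵥ τ'
  have hM'C : (M' : ℂ) ≠ 0 := Nat.cast_ne_zero.mpr (NeZero.ne M')
  let σ : ℍ := ⟨(M' : ℂ) * σ₀, by simpa using mul_pos (Nat.cast_pos.mpr (NeZero.pos M')) σ₀.im_pos⟩
  let τM : ℍ := ⟨(M' : ℂ) * τ, by simpa using mul_pos (Nat.cast_pos.mpr (NeZero.pos M')) τ.im_pos⟩
  have hdenγ : UpperHalfPlane.denom γ τ = (γ 1 0 : ℂ) * τ + γ 1 1 := by simp [UpperHalfPlane.denom]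
  have hne : (γ 1 0 : ℂ) * τ + γ 1 1 ≠ 0 := hdenγ ▸ UpperHalfPlane.denom_ne_zero γ τ
  have hsC : (s : ℂ) * s = 1 := by exact_mod_cast hs2
  have hsd : (s : ℂ) * γ 1 1 = d := by exact_mod_cast hd
  have hc' : s * γ 1 0 = 4 * D * M * (s * c₁) * M' := by rw [hc]; ring
  have hden : ((4 * D * M * (s * c₁) : ℤ) : ℂ) * (τM : ℂ) + d =
      s * ((γ 1 0 : ℂ) * τ + γ 1 1) := by
    show _ * ((M' : ℂ) * τ) + _ = _
    rw [← hsd, show ((4 * D * M * (s * c₁) : ℤ) : ℂ) * ((M' : ℂ) * τ) =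
      ((4 * D * M * (s * c₁) * M' : ℤ) : ℂ) * τ by push_cast; ring, ← hc']
    push_cast
    ring
  have hσeq : (σ : ℂ) = ((α₀ : ℂ) * (τM : ℂ) + (M * (s * γ 0 1 * u') : ℤ)) /
      ((4 * D * M * (s * c₁) : ℤ) * (τM : ℂ) + d) := by
    rw [hden]
    show (M' : ℂ) * (((-j : ℤ) : ℝ) +ᵥ τ' : ℍ) = _
    rw [UpperHalfPlane.coe_vadd, UpperHalfPlane.coe_specialLinearGroup_apply]
    simp only [algebraMap_int_eq, eq_intCast]
    have hb : ((M : ℤ) * (s * γ 0 1 * u') : ℤ) = M' * (s * γ 0 1 - j * d) := by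
      rw [hjb, hM]; push_cast; ring
    rw [hb, hα]
    show _ = (_ * ((M' : ℂ) * τ) + _) / _
    push_cast
    rw [← hsd]
    have hs0 : (s : ℂ) ≠ 0 := left_ne_zero_of_mul_eq_one hsC
    have hne' : (τ : ℂ) * (γ 1 0 : ℂ) + γ 1 1 ≠ 0 := by rwa [mul_comm]
    field_simp
    ring
  have hkey := fun v : ℤ × ℤ => latG_smul (D := D) (M := M) (α₀ := α₀)
    (b' := s * γ 0 1 * u') (e' := s * c₁) (d := d) (by
      have e1 : (M : ℤ) * (s * γ 0 1 * u') = M' * (s * γ 0 1 - j * d) := by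
        rw [hjb, hM]; push_cast; ring
      rw [e1, hα]
      linear_combination hdet' + (s * γ 0 1 - j * d) * hc') v τM σ hσeq
  rw [ModularForm.SL_slash_apply, hdenγ, ← hper (-j) (γ • τ), latSum, latSum,
    latSum_eq (M' := M') wt hM _ σ₀.im_pos, latSum_eq (M' := M') wt hM _ τ.im_pos]
  have hadm : Adm D d := hdcop.coprime_dvd_right (Dvd.intro (2 * M * M') (by ring))
  have hαd : ((α₀ : ℤ) : ZMod M) * (d : ZMod M) = 1 := by
    have h1 : α₀ * d = 1 + (s * γ 0 1 - j * d) * (s * γ 1 0) := by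
      rw [hα]; linear_combination hdet'
    have := congrArg (Int.cast : ℤ → ZMod M) h1
    rw [hc'] at this
    push_cast at this
    rw [ZMod.natCast_self] at this
    simpa using this
  have hG : ∀ r : ZMod M × ZMod M, latG D M ((r.1.val : ℤ), (r.2.val : ℤ)) σ =
      ((4 * D * M * (s * c₁) : ℤ) * (τM : ℂ) + d) ^ 2 * (jacobiSym (-(D : ℤ)) d : ℂ) *
        latG D M ((((α₀ : ZMod M) * r.1).val : ℤ), (((α₀ : ZMod M) * r.2).val : ℤ)) τM := fun r => by
    rw [hkey, gaussOne_eq hadm, mul_div_cancel_right₀ _ (Nat.cast_ne_zero.mpr hd1)]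
    congr 1
    refine (latG_congr ?_ ?_ _).symm <;>
      simp [← ZMod.intCast_zmod_eq_zero_iff_dvd]
  show (∑ r, wt r * latG D M ((r.1.val : ℤ), (r.2.val : ℤ)) σ) * _ =
    ∑ r, wt r * latG D M ((r.1.val : ℤ), (r.2.val : ℤ)) τM
  simp only [hG, hden]
  rw [zpow_neg, zpow_two, Finset.sum_mul]
  have hdcop' : d.Coprime (2 * D * M) := hdcop.coprime_dvd_right (Dvd.intro (2 * M') (by ring))
  have hj2 : ((jacobiSym (-(D : ℤ)) d : ℤ) : ℂ) * (jacobiSym (-(D : ℤ)) d : ℂ) = 1 := by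
    rw [← Int.cast_mul, ← pow_two, jacobiSym.sq_one, Int.cast_one]
    rw [Int.neg_gcd, Int.gcd_natCast_natCast]
    exact (hdcop'.coprime_dvd_right ((dvd_mul_left D 2).mul_right M)).symm
  refine (Finset.sum_nbij' (fun r => ((d : ZMod M) * r.1, (d : ZMod M) * r.2))
    (fun r => ((α₀ : ZMod M) * r.1, (α₀ : ZMod M) * r.2)) (by simp) (by simp)
    (fun r _ => ?_) (fun r _ => ?_) fun r _ => ?_).symm
  · ext <;> simp only <;> rw [← mul_assoc, hαd, one_mul]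
  · ext <;> simp only <;> rw [← mul_assoc, mul_comm (d : ZMod M), hαd, one_mul]
  · simp only [← mul_assoc (α₀ : ZMod M), hαd, one_mul, hw d hdcop']
    field_simp
    linear_combination -(wt r * latG D M ((r.1.val : ℤ), (r.2.val : ℤ)) (τM : ℂ) * (s : ℂ) * s) * hj2 -
      (wt r * latG D M ((r.1.val : ℤ), (r.2.val : ℤ)) (τM : ℂ)) * hsC

/-- **The lattice sum is a cusp form.** -/
theorem exists_latForm (hM : M = e * M')
    (hsupp : ∀ v : ℤ × ℤ, wt ((v.1 : ZMod M), (v.2 : ZMod M)) ≠ 0 → (e : ℤ) ∣ latQ D v)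
    (hw : ∀ d : ℕ, d.Coprime (2 * D * M) → ∀ v : ZMod M × ZMod M,
      wt ((d : ZMod M) * v.1, (d : ZMod M) * v.2) = (jacobiSym (-(D : ℤ)) d : ℂ) * wt v) :
    ∃ f : CuspForm (Gamma0 (4 * D * M * M')) 2,
      ∀ n : ℕ, ModularFormClass.qCoeff f n = latCoeff D e wt n := by
  set N := 4 * D * M * M' with hN
  have : NeZero N := ⟨by simp [hN, NeZero.ne D, NeZero.ne M, NeZero.ne M']⟩
  have hq := hasQ_latSum (D := D) (e := e) wt hsupp
  have hinv : ∀ γ ∈ Gamma0 N, latSum D e wt ∣[(2 : ℤ)] γ = latSum D e wt := fun γ hγ =>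
    latSum_slash wt hM hsupp hw hγ
  have hz : ∀ γ : SL(2, ℤ), IsZeroAtImInfty (latSum D e wt ∣[(2 : ℤ)] γ) := fun γ => by
    by_cases hc : γ 1 0 = 0
    · rw [hinv γ (by rw [Gamma0_mem, hc, Int.cast_zero])]
      have h := hq.tendsto one_pos
      rw [PowerSeries.coeff_mk, show latCoeff D e wt 0 = 0 from Finset.sum_eq_zero fun v hv => by
        have h0 : latQ D v = 0 := by simpa using mem_latSet.mp hv
        rw [latQ] at h0
        have hD : (0 : ℤ) < D := Nat.cast_pos.mpr (NeZero.pos D)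
        have h2 : v.2 = 0 := by
          by_contra h2
          nlinarith [sq_nonneg v.1, sq_pos_of_ne_zero h2, mul_pos hD (sq_pos_of_ne_zero h2)]
        have h1 : v.1 = 0 := by simpa [h2] using h0
        simp [latLam, h1, h2]] at h
      exact h
    obtain ⟨K, hK⟩ := exists_latSum_bound (D := D) (e := e) wt
    have hshift : ∀ τ : ℍ, (latSum D e wt ∣[(2 : ℤ)] γ) ((N : ℝ) +ᵥ τ) =
        (latSum D e wt ∣[(2 : ℤ)] γ) τ := fun τ => by
      have hT : ModularGroup.T ^ (N : ℤ) ∈ CongruenceSubgroup.Gamma N := by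
        rw [Gamma_mem, ModularGroup.coe_T_zpow]
        simp
      have hmem : γ * ModularGroup.T ^ (N : ℤ) * γ⁻¹ ∈ Gamma0 N := by
        have h := (Gamma_normal N).conj_mem _ hT γ
        rw [Gamma_mem] at h
        exact Gamma0_mem.mpr h.2.2.1
      have h := congrFun (congrArg (fun f => f ∣[(2 : ℤ)] γ) (hinv _ hmem)) τ
      simp only [← SlashAction.slash_mul, inv_mul_cancel_right] at h
      rw [SlashAction.slash_mul, ModularForm.SL_slash_apply] at h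
      rw [← h]
      have hden : UpperHalfPlane.denom (ModularGroup.T ^ (N : ℤ) : SL(2, ℤ)) τ = 1 := by
        rw [ModularGroup.denom_apply, ModularGroup.coe_T_zpow]; simp
      rw [hden, one_zpow, mul_one, UpperHalfPlane.modular_T_zpow_smul]
      norm_num
    have hfloor : ∀ τ : ℍ, ∀ i : ℕ, (latSum D e wt ∣[(2 : ℤ)] γ) (((N * i : ℕ) : ℝ) +ᵥ τ) =
        (latSum D e wt ∣[(2 : ℤ)] γ) τ := fun τ i => by
      induction i with
      | zero => simp
      | succ i ih =>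
        rw [show ((N * (i + 1) : ℕ) : ℝ) = (N : ℝ) + ((N * i : ℕ) : ℝ) by push_cast; ring, add_vadd,
          hshift, ih]
    rw [UpperHalfPlane.isZeroAtImInfty_iff]
    intro ε hε
    set C : ℝ := |(γ 1 0 : ℝ)| * (1 + N) + |(γ 1 1 : ℝ)| with hC
    have hc1 : (1 : ℝ) ≤ |(γ 1 0 : ℝ)| := by exact_mod_cast Int.one_le_abs hc
    have hC0 : 0 < C := by rw [hC]; positivity
    refine ⟨max (max 1 (2 * π / e)) ((|K| * C / ε) ^ 2), fun τ hτ => ?_⟩
    have hy1 : 1 ≤ τ.im := ((le_max_left _ _).trans (le_max_left _ _)).trans hτ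
    have hy2 : 2 * π / e ≤ τ.im := ((le_max_right _ _).trans (le_max_left _ _)).trans hτ
    have hy3 : |K| * C / ε ≤ Real.sqrt τ.im := Real.le_sqrt_of_sq_le ((le_max_right _ _).trans hτ)
    have hy0 : 0 < τ.im := τ.im_pos
    have hN0 : (0 : ℝ) < N := Nat.cast_pos.mpr (NeZero.pos N)
    -- reduce the real part into `[0, N]`
    obtain ⟨x, τ₀, hx, hx0, hxN, hval⟩ : ∃ (x : ℝ) (τ₀ : ℍ), (τ₀ : ℂ) = x + τ.im * I ∧ 0 ≤ x ∧
        x ≤ N ∧ (latSum D e wt ∣[(2 : ℤ)] γ) τ = (latSum D e wt ∣[(2 : ℤ)] γ) τ₀ := by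
      set k := ⌊τ.re / N⌋ with hk
      have h1 := mul_le_mul_of_nonneg_right (Int.floor_le (τ.re / N)) hN0.le
      have h2 := mul_le_mul_of_nonneg_right (Int.lt_floor_add_one (τ.re / N)).le hN0.le
      rw [div_mul_cancel₀ _ hN0.ne'] at h1 h2
      refine ⟨τ.re - k * N, ((-((k : ℝ) * N))) +ᵥ τ, ?_, by linarith, by linarith, ?_⟩
      · apply Complex.ext <;> simp [UpperHalfPlane.coe_vadd]; ring
      · rcases Int.eq_nat_or_neg k with ⟨i, hi | hi⟩
        · rw [← hfloor (((-((k : ℝ) * N))) +ᵥ τ) i, vadd_vadd, hi]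
          simp [mul_comm]
        · rw [← hfloor τ i, hi]
          push_cast
          ring_nf
    rw [hval, ModularForm.SL_slash_apply, zpow_neg, zpow_two]
    set w : ℍ := γ • τ₀
    set den : ℂ := UpperHalfPlane.denom γ τ₀ with hdendef
    have hden : den = (γ 1 0 : ℂ) * τ₀ + γ 1 1 := by simp [hdendef, UpperHalfPlane.denom]
    have hn : 0 < ‖den‖ := norm_pos_iff.mpr (UpperHalfPlane.denom_ne_zero _ _)
    have him₀ : τ₀.im = τ.im := by rw [← UpperHalfPlane.coe_im, hx]; simp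
    have hw : w.im = τ.im / ‖den‖ ^ 2 := by
      rw [show w.im = τ₀.im / Complex.normSq den from ModularGroup.im_smul_eq_div_normSq γ τ₀,
        Complex.normSq_eq_norm_sq, him₀]
    have hlow : τ.im ≤ ‖den‖ := by
      refine le_trans ?_ (Complex.abs_im_le_norm den)
      rw [hden, hx]
      simp only [Complex.add_im, Complex.mul_im, Complex.intCast_re, Complex.intCast_im,
        Complex.ofReal_im, Complex.I_im, Complex.ofReal_re, Complex.I_re, mul_zero, mul_one,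
        zero_mul, zero_add, add_zero, abs_mul, abs_of_pos hy0]
      exact le_mul_of_one_le_left hy0.le hc1
    have hup : ‖den‖ ≤ C * τ.im := by
      rw [hden, hx]
      refine (norm_add_le _ _).trans ?_
      rw [norm_mul, Complex.norm_intCast, Complex.norm_intCast]
      have h1 : ‖(x : ℂ) + τ.im * I‖ ≤ (1 + N) * τ.im := by
        refine (norm_add_le _ _).trans ?_
        rw [Complex.norm_real, norm_mul, Complex.norm_real, Complex.norm_I, mul_one,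
          Real.norm_eq_abs, Real.norm_eq_abs, abs_of_nonneg hx0, abs_of_pos hy0]
        nlinarith
      rw [hC, add_mul]
      refine add_le_add ?_ (le_mul_of_one_le_right (abs_nonneg _) hy1)
      rw [mul_assoc]
      exact mul_le_mul_of_nonneg_left h1 (abs_nonneg _)
    have hsmall : 2 * π * w.im / e ≤ 1 := by
      have he0 : (0 : ℝ) < e := Nat.cast_pos.mpr (NeZero.pos e)
      rw [hw, mul_div_assoc', div_div, div_le_one (by positivity)]
      have h2 := mul_le_mul_of_nonneg_left hlow hy0.le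
      have h3 : τ.im * τ.im ≤ ‖den‖ ^ 2 := by nlinarith
      rw [div_le_iff₀ (by exact_mod_cast NeZero.pos e)] at hy2
      nlinarith [mul_le_mul_of_nonneg_right h3 (Nat.cast_nonneg (α := ℝ) e),
        mul_le_mul_of_nonneg_right hy2 hy0.le]
    have hb := hK w hsmall
    rw [norm_mul, norm_inv, norm_mul]
    refine le_trans (mul_le_mul_of_nonneg_right hb (by positivity)) ?_
    have hsq : Real.sqrt w.im = Real.sqrt τ.im / ‖den‖ := by
      rw [hw, Real.sqrt_div hy0.le, Real.sqrt_sq hn.le]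
    rw [hsq, hw]
    calc K / (τ.im / ‖den‖ ^ 2 * (Real.sqrt τ.im / ‖den‖)) * (‖den‖ * ‖den‖)⁻¹
        = K * ‖den‖ / (τ.im * Real.sqrt τ.im) := by field_simp
      _ ≤ |K| * (C * τ.im) / (τ.im * Real.sqrt τ.im) := by
          gcongr
          exact le_abs_self K
      _ = |K| * C / Real.sqrt τ.im := by field_simp
      _ ≤ ε := by
          rw [div_le_iff₀ (Real.sqrt_pos.mpr hy0)]
          rw [div_le_iff₀ hε] at hy3
          linarith
  refine ⟨{
      toFun := latSum D e wt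
      slash_action_eq' := ?_
      holo' := hq.mdiff one_pos
      zero_at_cusps' := ?_ }, fun n => ?_⟩
  · rintro _ ⟨γ, hγ, rfl⟩
    exact hinv γ hγ
  · intro c hc
    rw [Subgroup.IsArithmetic.isCusp_iff_isCusp_SL2Z] at hc
    exact (OnePoint.isZeroAt_iff_forall_SL2Z hc).mpr fun γ _ => hz γ
  · show PowerSeries.coeff n (UpperHalfPlane.qExpansion 1 (latSum D e wt)) = _
    rw [hq.qExpansion_eq one_pos, PowerSeries.coeff_mk]

/-- **The form of a function on `ℤ²`** periodic modulo `M`. -/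
theorem exists_latForm_of_periodic (hM : M = e * M') (w : ℤ → ℤ → ℂ)
    (hper : ∀ a b s t : ℤ, w (a + M * s) (b + M * t) = w a b)
    (hsupp : ∀ v : ℤ × ℤ, w v.1 v.2 ≠ 0 → (e : ℤ) ∣ latQ D v)
    (hw : ∀ d : ℕ, d.Coprime (2 * D * M) → ∀ a b : ℤ,
      w (d * a) (d * b) = (jacobiSym (-(D : ℤ)) d : ℂ) * w a b) :
    ∃ f : CuspForm (Gamma0 (4 * D * M * M')) 2, ∀ n : ℕ, ModularFormClass.qCoeff f n =
      ∑ v ∈ latSet D e n, w v.1 v.2 * latLam D ((v.1 : ℂ), (v.2 : ℂ)) := by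
  set wt : ZMod M × ZMod M → ℂ := fun r => w r.1.val r.2.val with hwt
  have hval : ∀ a : ℤ, ∃ s : ℤ, a = ((a : ZMod M).val : ℤ) + M * s := fun a => by
    obtain ⟨s, hs⟩ : (M : ℤ) ∣ a - ((a : ZMod M).val : ℤ) := by
      refine (ZMod.intCast_zmod_eq_zero_iff_dvd _ M).mp ?_
      push_cast
      rw [ZMod.natCast_zmod_val, sub_self]
    exact ⟨s, by linarith⟩
  have hwt' : ∀ a b : ℤ, wt ((a : ZMod M), (b : ZMod M)) = w a b := fun a b => by
    obtain ⟨s, hs⟩ := hval a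
    obtain ⟨t, ht⟩ := hval b
    conv_rhs => rw [hs, ht, hper]
  obtain ⟨f, hf⟩ := exists_latForm wt hM (fun v hv => hsupp v (by rwa [hwt'] at hv))
    fun d hd v => by
      rw [show ((d : ZMod M) * v.1, (d : ZMod M) * v.2) =
          ((((d : ℤ) * v.1.val : ℤ) : ZMod M), (((d : ℤ) * v.2.val : ℤ) : ZMod M)) by simp,
        hwt', hw d hd]
  exact ⟨f, fun n => by simp only [hf, latCoeff, hwt']⟩

end FA.CM

end
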