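import Fermat.Agent.Frob.Trace
import Fermat.Agent.Frob.Charpoly
import Mathlib.NumberTheory.LegendreSymbol.Basic

/-!
# An endomorphism with integral square and the trace of Frobenius

If `e ∘ e = c` for an additive map `e` anticommuting with Frobenius the trace vanishes; if it
commutes, `t² - 4 l` is no nonzero square modulo a prime modulo which `c` is no square.
-/

set_option autoImplicit false
set_option linter.unusedSectionVars false

noncomputable section

open WeierstrassCurve FA.Frob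

namespace FA.CM.EndoSquare

/-- A commuting square root of a non-square forces scalars. -/
theorem scalar_of_commute {A : Type*} [AddCommGroup A] {m : ℕ} [Fact m.Prime] {T : Set A}
    (hT : Nat.card T = m ^ 2) (hTm : ∀ P ∈ T, (m : ℤ) • P = 0)
    (hTadd : ∀ P ∈ T, ∀ Q ∈ T, ∀ i j : ℤ, i • P + j • Q ∈ T)
    (e G : A →+ A) (heT : ∀ P ∈ T, e P ∈ T) (hGT : ∀ P ∈ T, G P ∈ T)
    (hc : ∀ P ∈ T, G (e P) = e (G P)) (hno : ∀ P ∈ T, P ≠ 0 → ∀ n : ℤ, e P ≠ n • P) {δ : ℤ} (hG : ∀ P ∈ T, G (G P) = (δ * δ) • P) :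
    ∃ ε : ℤ, ∀ P ∈ T, G P = ε • P := by
  by_cases hall : ∀ P ∈ T, G P = δ • P
  · exact ⟨δ, hall⟩
  push Not at hall
  obtain ⟨P₀, hP₀, hne⟩ := hall
  set A₀ := G P₀ + (-δ) • P₀ with hA
  have hA0 : A₀ ≠ 0 := fun h0 => hne (by rw [hA, neg_zsmul, ← sub_eq_add_neg, sub_eq_zero] at h0; exact h0)
  have hAT : A₀ ∈ T := by simpa [hA] using hTadd _ (hGT _ hP₀) _ hP₀ 1 (-δ)
  have hGA : G A₀ = (-δ) • A₀ := by
    rw [hA, map_add, map_zsmul, hG P₀ hP₀, zsmul_add, smul_smul, neg_mul_neg, add_comm]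
  clear_value A₀
  clear hA
  refine ⟨-δ, fun P hP => ?_⟩
  have hzero : ∀ n : ℤ, n • A₀ = 0 → (m : ℤ) ∣ n := fun n hn => by
    by_contra hd
    obtain ⟨u, v, huv⟩ := ((Nat.prime_iff_prime_int.mp (Fact.out : m.Prime)).coprime_iff_not_dvd).mpr hd
    refine hA0 ?_
    rw [← one_zsmul A₀, ← huv, add_smul, mul_smul, mul_smul, hTm _ hAT, hn, smul_zero, smul_zero,
      add_zero]
  have hind : ∀ i j : ℤ, i • A₀ + j • e A₀ = 0 → (m : ℤ) ∣ i ∧ (m : ℤ) ∣ j := by
    intro i j hij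
    have hj : (m : ℤ) ∣ j := by
      by_contra hd
      obtain ⟨u, v, huv⟩ :=
        ((Nat.prime_iff_prime_int.mp (Fact.out : m.Prime)).coprime_iff_not_dvd).mpr hd
      refine hno A₀ hAT hA0 (-(v * i)) ?_
      rw [← one_zsmul (e A₀), ← huv, add_smul, mul_smul, mul_smul, hTm _ (heT _ hAT), smul_zero,
        zero_add, eq_neg_of_add_eq_zero_right hij, smul_neg, ← neg_smul, smul_smul, neg_mul]
    obtain ⟨t, ht⟩ := hj
    have hj0 : j • e A₀ = 0 := by rw [ht, mul_comm, mul_smul, hTm _ (heT _ hAT), smul_zero]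
    rw [hj0, add_zero] at hij
    exact ⟨hzero _ hij, ⟨t, ht⟩⟩
  have hm := (Fact.out : m.Prime)
  have : Finite T := Nat.finite_of_card_ne_zero (by rw [hT]; exact pow_ne_zero 2 hm.ne_zero)
  let g : ZMod m × ZMod m → T := fun v =>
    ⟨(v.1.val : ℤ) • A₀ + (v.2.val : ℤ) • e A₀, hTadd _ hAT _ (heT _ hAT) _ _⟩
  have hg : Function.Injective g := fun v v' hv => by
    have hv' := congrArg Subtype.val hv
    obtain ⟨h1, h2⟩ := hind ((v.1.val : ℤ) - v'.1.val) ((v.2.val : ℤ) - v'.2.val) (by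
      simp only [g] at hv'
      rw [sub_smul, sub_smul, sub_add_sub_comm, hv', sub_self])
    rw [← ZMod.intCast_zmod_eq_zero_iff_dvd] at h1 h2
    push_cast [ZMod.natCast_zmod_val, sub_eq_zero] at h1 h2
    exact Prod.ext h1 h2
  obtain ⟨v, hv⟩ := (hg.bijective_of_nat_card_le (by simp [hT, pow_two])).2 ⟨P, hP⟩
  have hv' := congrArg Subtype.val hv
  simp only [g] at hv'
  rw [← hv', map_add, map_zsmul, map_zsmul, hc _ hAT, hGA, map_zsmul, smul_add, smul_smul, smul_smul,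
    smul_smul, smul_smul, mul_comm (-δ), mul_comm (-δ)]

/-- `s^l = (c / l) s` for a square root `s` of an integer `c`. -/
theorem frobenius_sqrt {k : Type*} [Field k] {l : ℕ} [Fact l.Prime] [CharP k l] (hl2 : l ≠ 2)
    {c : ℤ} (h0 : (c : ZMod l) ≠ 0) {s : k} (hs : s ^ 2 = (c : k)) :
    (IsSquare (c : ZMod l) → frobenius k l s = s) ∧
      (¬ IsSquare (c : ZMod l) → frobenius k l s = -s) := by
  have hl := (Fact.out : l.Prime)
  set f : ZMod l →+* k := ZMod.castHom dvd_rfl k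
  have hpow : frobenius k l s = f ((c : ZMod l) ^ (l / 2)) * s := by
    have hodd : l = 2 * (l / 2) + 1 := by
      have := Nat.odd_iff.mp (hl.odd_of_ne_two hl2); omega
    conv_lhs => rw [frobenius_def, hodd, pow_succ, pow_mul, hs]
    rw [map_pow, map_intCast]
  constructor
  · intro h
    rw [hpow, (ZMod.euler_criterion l h0).mp h, map_one, one_mul]
  · intro h
    rw [hpow, (ZMod.pow_div_two_eq_neg_one_or_one l h0).resolve_left
      fun e => h ((ZMod.euler_criterion l h0).mpr e), map_neg, map_one, neg_one_mul]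

open scoped Classical in
/-- The trace of an integral model is the trace of Frobenius of its reduction over an algebraic
closure. -/
theorem apOfModel_eq_trEnd {k : Type} [Field k] [IsAlgClosed k] {l : ℕ} [Fact l.Prime] [CharP k l]
    (W : WeierstrassCurve ℤ) (V : WeierstrassCurve k) [V.IsElliptic]
    (hV : W.map (Int.castRingHom k) = V) (hF : V.map (frobenius k l) = V) :
    W.apOfModel l = trEnd V hF := by
  set f : ZMod l →+* k := ZMod.castHom dvd_rfl k
  have hmap : (W.reductionMod l).map f = V := by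
    rw [← hV, reductionMod, WeierstrassCurve.map_map]
    congr 1
    exact RingHom.ext_int _ _
  have : (W.reductionMod l).IsElliptic := ⟨by
    have h0 := V.isUnit_Δ.ne_zero
    rw [← hmap, map_Δ, _root_.map_ne_zero] at h0
    exact h0.isUnit⟩
  have : ((W.reductionMod l).map f).IsElliptic := hmap ▸ inferInstance
  rw [apOfModel, ← trEnd_map (W.reductionMod l) f]
  exact FA.Frob.trEnd_congr hmap (map_frobenius_map _ f) hF

variable {k : Type} [Field k] {l : ℕ} [Fact l.Prime] [CharP k l] [IsAlgClosed k] [DecidableEq k]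
  (W : WeierstrassCurve k) [W.IsElliptic] [DecidableEq (FF W)] (hW : W.map (frobenius k l) = W)

local notation "π" => frobEnd W hW
local notation "tr" => trEnd W hW

include hW

/-- A square root of an integer anticommuting with Frobenius kills the trace. -/
theorem trEnd_eq_zero_of_anticommute {c : ℤ} (hc : c ≠ 0) (e : W.toAffine.Point →+ W.toAffine.Point)
    (hFe : ∀ P, π (e P) = -e (π P)) (hee : ∀ P, e (e P) = c • P) : tr = 0 := by
  set a := tr
  -- `14 a` kills every point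
  have key : ∀ P : W.toAffine.Point, (2 * c * a) • π P = 0 := by
    intro P
    have h1 := congrArg e (frobEnd_quadratic W hW P)
    have h2 := frobEnd_quadratic W hW (e P)
    rw [hFe, map_neg, hFe, neg_neg] at h2
    simp only [map_add, map_sub, map_zero, map_zsmul] at h1
    have h3 : (2 * a) • e (π P) = 0 := by
      rw [two_mul, add_smul]
      calc a • e (π P) + a • e (π P)
          = (e (π (π P)) - a • -e (π P) + (l : ℤ) • e P) -
            (e (π (π P)) - a • e (π P) + (l : ℤ) • e P) := by rw [zsmul_neg]; abel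
        _ = 0 := by rw [h2, h1, sub_zero]
    have h4 := congrArg e h3
    rw [map_zero, map_zsmul, hee, smul_smul] at h4
    rw [show 2 * c * a = 2 * a * c by ring, h4]
  by_contra ha
  obtain ⟨m, hm, hmp⟩ := Nat.exists_infinite_primes ((2 * c * a).natAbs + l + 1)
  have hmk : (m : k) ≠ 0 := fun h0 => by
    rw [CharP.cast_eq_zero_iff k l, Nat.prime_dvd_prime_iff_eq Fact.out hmp] at h0
    omega
  have : Finite {P : W.toAffine.Point // m • P = 0} := Nat.finite_of_card_ne_zero (by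
    rw [FA.EC.natCard_nsmul_eq_zero _ hmk]; exact pow_ne_zero 2 hmp.ne_zero)
  have : Nontrivial {P : W.toAffine.Point // m • P = 0} :=
    Finite.one_lt_card_iff_nontrivial.mp (by
      rw [FA.EC.natCard_nsmul_eq_zero _ hmk]; exact Nat.one_lt_pow two_ne_zero hmp.one_lt)
  obtain ⟨⟨P, hP⟩, hne⟩ := exists_ne
    (⟨0, smul_zero m⟩ : {P : W.toAffine.Point // m • P = 0})
  have hP0 : P ≠ 0 := fun h0 => hne (Subtype.ext h0)
  have hcop : IsCoprime (2 * c * a) (m : ℤ) := by
    refine ((Nat.prime_iff_prime_int.mp hmp).coprime_iff_not_dvd.mpr fun hd => ?_).symm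
    have h1 := Nat.le_of_dvd (Int.natAbs_pos.mpr (mul_ne_zero (mul_ne_zero two_ne_zero hc) ha))
      (Int.natCast_dvd.mp hd)
    omega
  obtain ⟨u, v, huv⟩ := hcop
  refine hP0 (FA.Frob.mapHom_injective _ hW ?_)
  have hm0 : (m : ℤ) • π P = 0 := by rw [natCast_zsmul, ← map_nsmul, hP, map_zero]
  rw [map_zero, ← one_zsmul (mapHom _ hW P), ← huv, add_smul, mul_smul u, mul_smul v]
  rw [show mapHom _ hW P = π P from rfl, key P, hm0, smul_zero, smul_zero, add_zero]

/-- `(2 π - t) ² = t² - 4 l`. -/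
theorem twistedFrob_sq (P : W.toAffine.Point) :
    ((2 : ℤ) • π - tr • AddMonoidHom.id _ : W.toAffine.Point →+ W.toAffine.Point)
        (((2 : ℤ) • π - tr • AddMonoidHom.id _ : W.toAffine.Point →+ W.toAffine.Point) P) =
      (tr ^ 2 - 4 * (l : ℤ)) • P := by
  set a := tr
  show (2 : ℤ) • π ((2 : ℤ) • π P - a • P) - a • ((2 : ℤ) • π P - a • P) = _
  have hq := congrArg (fun Q => (4 : ℤ) • Q) (frobEnd_quadratic W hW P)
  simp only [smul_zero, smul_add, smul_sub, smul_smul] at hq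
  simp only [map_sub, map_zsmul, smul_sub, smul_smul]
  rw [sub_smul, show a ^ 2 = a * a by ring, ← sub_eq_zero]
  norm_num
  rw [← hq, show (4 : ℤ) * a = 2 * a + 2 * a by ring, add_smul, mul_comm a 2]
  abel

/-- An endomorphism without eigenvectors modulo `m` commuting with Frobenius. -/
theorem disc_dvd_of_noEigen (e : W.toAffine.Point →+ W.toAffine.Point)
    (hFe : ∀ P, π (e P) = e (π P)) {m : ℕ} [Fact m.Prime]
    (hml : m ≠ l) (hm2 : m ≠ 2)
    (hno : ∀ P : W.toAffine.Point, (m : ℤ) • P = 0 → P ≠ 0 → ∀ n : ℤ, e P ≠ n • P)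
    (hsq : IsSquare ((tr ^ 2 - 4 * (l : ℤ) : ℤ) : ZMod m)) : (m : ℤ) ∣ tr ^ 2 - 4 * (l : ℤ) := by
  have hm := (Fact.out : m.Prime)
  have hmk : (m : k) ≠ 0 := fun h0 => by
    rw [CharP.cast_eq_zero_iff k l, Nat.prime_dvd_prime_iff_eq Fact.out hm] at h0
    exact hml h0.symm
  set a := tr
  set T : AddSubgroup W.toAffine.Point := (zsmulAddGroupHom (m : ℤ)).ker with hTdef
  have hTm : ∀ P, P ∈ T ↔ (m : ℤ) • P = 0 := fun P => AddMonoidHom.mem_ker
  have hcard : Nat.card T = m ^ 2 := by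
    rw [← FA.EC.natCard_nsmul_eq_zero W hmk]
    exact Nat.card_congr (Equiv.subtypeEquivRight fun P => by rw [hTm, natCast_zsmul])
  set G : W.toAffine.Point →+ W.toAffine.Point :=
    (2 : ℤ) • π - a • AddMonoidHom.id _ with hG
  have hGv : ∀ P, G P = (2 : ℤ) • π P - a • P := fun P => rfl
  obtain ⟨r, hr⟩ := hsq
  obtain ⟨ε, hε⟩ := scalar_of_commute (A := W.toAffine.Point) (m := m) (T := (T : Set _))
    hcard (fun P hP => (hTm P).mp hP)
    (fun P hP Q hQ i j => T.add_mem (T.zsmul_mem hP i) (T.zsmul_mem hQ j)) e G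
    (fun P hP => (hTm _).mpr (by rw [← map_zsmul, (hTm P).mp hP, map_zero]))
    (fun P hP => (hTm _).mpr (by rw [← map_zsmul, (hTm P).mp hP, map_zero]))
    (fun P _ => by simp only [hGv, hFe, map_sub, map_zsmul])
    (fun P hP => hno P ((hTm P).mp hP)) (δ := (r.val : ℤ)) fun P hP => by
      obtain ⟨c, hc⟩ : (m : ℤ) ∣ a ^ 2 - 4 * (l : ℤ) - (r.val : ℤ) * r.val := by
        rw [← ZMod.intCast_zmod_eq_zero_iff_dvd, Int.cast_sub, hr]
        push_cast [ZMod.natCast_zmod_val]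
        ring
      have h0 : G (G P) = (a ^ 2 - 4 * (l : ℤ)) • P := twistedFrob_sq W hW P
      rw [h0, show a ^ 2 - 4 * (l : ℤ) = (r.val : ℤ) * r.val + c * m by linear_combination hc,
        add_smul, mul_smul c, (hTm P).mp hP, smul_zero, add_zero]
  obtain ⟨n, hn⟩ := hm.odd_of_ne_two hm2
  set c₀ := (a + ε) * ((n : ℤ) + 1) with hc₀
  have hscal : ∀ P ∈ T, π P = c₀ • P := fun P hP => by
    have h1 : (2 : ℤ) • π P = (a + ε) • P := by rw [add_smul, ← hε P hP, hGv]; abel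
    have h2 : (m : ℤ) • π P = 0 := by rw [← map_zsmul, (hTm P).mp hP, map_zero]
    rw [hc₀, mul_comm (a + ε), mul_smul, ← h1, smul_smul,
      show ((n : ℤ) + 1) * 2 = (m : ℤ) + 1 by rw [hn]; push_cast; ring, add_smul, h2, one_smul,
      zero_add]
  have hlp := Nat.prime_iff_prime_int.mp (Fact.out : l.Prime)
  have hdvd : ∀ c : ℤ, (m : ℤ) ∣ c - c₀ → ¬ (l : ℤ) ∣ c → (m : ℤ) ^ 2 ∣ c ^ 2 - a * c + l := by
    intro c hc hcl
    rw [← natCard_ker_sub W hW hcl, ← Nat.cast_pow, Int.natCast_dvd_natCast, ← hcard]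
    refine AddSubgroup.card_dvd_of_le fun P hP => AddMonoidHom.mem_ker.mpr ?_
    obtain ⟨t, ht⟩ := hc
    show c • P - π P = 0
    rw [hscal P hP, ← sub_smul, ht, mul_comm, mul_smul, (hTm P).mp hP, smul_zero]
  have hlm : ¬ (l : ℤ) ∣ m := fun h0 => hml
    ((Nat.prime_dvd_prime_iff_eq Fact.out hm).mp (Int.natCast_dvd_natCast.mp h0)).symm
  obtain ⟨c₁, hc₁, hc₁l⟩ : ∃ c, (m : ℤ) ∣ c - c₀ ∧ ¬ (l : ℤ) ∣ c := by
    by_cases hd : (l : ℤ) ∣ c₀
    · exact ⟨c₀ + m, ⟨1, by ring⟩, fun h0 => hlm ((Int.dvd_add_right hd).mp h0)⟩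
    · exact ⟨c₀, ⟨0, by ring⟩, hd⟩
  obtain ⟨u, hu⟩ := hdvd c₁ hc₁ hc₁l
  obtain ⟨v, hv⟩ := hdvd (c₁ + l * m) (by
      obtain ⟨t, ht⟩ := hc₁; exact ⟨t + l, by linear_combination ht⟩)
    fun h0 => hc₁l ((Int.dvd_add_left (dvd_mul_right _ _)).mp h0)
  have hd : (m : ℤ) ∣ (l : ℤ) * (2 * c₁ - a) := by
    refine ⟨v - u - (l : ℤ) * l, mul_left_cancel₀ (show (m : ℤ) ≠ 0 by exact_mod_cast hm.ne_zero) ?_⟩
    linear_combination hv - hu
  obtain ⟨w, hw⟩ := ((Nat.prime_iff_prime_int.mp hm).dvd_mul.mp hd).resolve_left fun h0 => hml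
    ((Nat.prime_dvd_prime_iff_eq hm Fact.out).mp (Int.natCast_dvd_natCast.mp h0))
  exact ⟨w * (2 * c₁ - a) - 4 * m * u, by linear_combination (2 * c₁ - a) * hw - 4 * hu⟩

/-- A square root of a non-square commuting with Frobenius. -/
theorem disc_dvd_of_commute {c : ℤ} (e : W.toAffine.Point →+ W.toAffine.Point)
    (hFe : ∀ P, π (e P) = e (π P)) (hee : ∀ P, e (e P) = c • P) {m : ℕ} [Fact m.Prime]
    (hml : m ≠ l) (hm2 : m ≠ 2) (hns : ¬ IsSquare ((c : ℤ) : ZMod m))
    (hsq : IsSquare ((tr ^ 2 - 4 * (l : ℤ) : ℤ) : ZMod m)) : (m : ℤ) ∣ tr ^ 2 - 4 * (l : ℤ) := by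
  refine disc_dvd_of_noEigen W hW e hFe hml hm2 (fun P hmP hP n hn => hns ⟨(n : ZMod m), ?_⟩) hsq
  rw [← sub_eq_zero, ← Int.cast_mul, ← Int.cast_sub, ZMod.intCast_zmod_eq_zero_iff_dvd]
  by_contra hd
  obtain ⟨u, v, huv⟩ :=
    ((Nat.prime_iff_prime_int.mp (Fact.out : m.Prime)).coprime_iff_not_dvd).mpr hd
  have h0 : (c - n * n) • P = 0 := by
    rw [sub_smul, ← hee, hn, map_zsmul, hn, smul_smul, sub_self]
  exact hP (by rw [← one_zsmul P, ← huv, add_smul, mul_smul, mul_smul, hmP, h0, smul_zero,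
    smul_zero, add_zero])

end FA.CM.EndoSquare

end
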