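import Fermat.Agent.Twists.KroneckerChar
import Mathlib.NumberTheory.LSeries.PrimesInAP

/-!
# Primes with two prescribed symbols

For a prime `p ≡ 3 (mod 4)` and a non-square `N` there are arbitrarily large primes `m` modulo which
neither `-p` nor `N` is a square.
-/

set_option autoImplicit false

namespace FA.CM.PrimeSymbols

open FA.Twists

variable {p : ℕ} [Fact p.Prime]

omit [Fact p.Prime] in
/-- `(-p / n) = (n / p)` for odd `n`. -/
theorem jacobiSym_neg_prime (hp : p % 4 = 3) {n : ℕ} (hn : Odd n) :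
    jacobiSym (-(p : ℤ)) n = jacobiSym n p := by
  have hpo : Odd p := Nat.odd_iff.mpr (by omega)
  rw [jacobiSym.neg _ hn]
  rcases Nat.odd_mod_four_iff.mp (Nat.odd_iff.mp hn) with h | h
  · rw [ZMod.χ₄_nat_one_mod_four h, one_mul]
    exact jacobiSym.quadratic_reciprocity_one_mod_four' hpo h
  · rw [ZMod.χ₄_nat_three_mod_four h, neg_one_mul,
      jacobiSym.quadratic_reciprocity_three_mod_four hp h, neg_neg]

/-- A number with both symbols `-1`. -/
theorem exists_symbols_eq_neg_one (hp : p % 4 = 3) {S : ℕ} (hS : Squarefree S) (h1 : S ≠ 1) :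
    ∃ n : ℕ, n % 4 = 1 ∧ jacobiSym n p = -1 ∧ jacobiSym S n = -1 := by
  have hpp : p.Prime := Fact.out
  have hp2 : p ≠ 2 := fun e => by omega
  have hp8 : ¬ p ∣ 8 := fun h =>
    hp2 ((Nat.prime_dvd_prime_iff_eq hpp Nat.prime_two).mp (hpp.dvd_of_dvd_pow (n := 3) h))
  obtain ⟨α, R, hR, hSR⟩ : ∃ α R : ℕ, Odd R ∧ S = 2 ^ α * R := by
    obtain ⟨α, R, hR, e⟩ := Nat.exists_eq_pow_mul_and_not_dvd hS.ne_zero 2 (by norm_num)
    exact ⟨α, R, Nat.odd_iff.mpr (by omega), e⟩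
  have hRsq : Squarefree R := hS.squarefree_of_dvd (hSR ▸ dvd_mul_left R _)
  have hval : ∀ n : ℕ, n % 8 = 1 → jacobiSym S n = jacobiSym n R := fun n hn => by
    have hno : Odd n := Nat.odd_iff.mpr (by omega)
    rw [hSR, Nat.cast_mul, jacobiSym.mul_left, Nat.cast_pow, jacobiSym.pow_left, Nat.cast_ofNat,
      jacobiSym.at_two hno, ZMod.χ₈_nat_eq_if_mod_eight, if_neg (by omega), if_pos (Or.inl hn),
      one_pow, one_mul]
    exact jacobiSym.quadratic_reciprocity_one_mod_four' hR (by omega)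
  have h8 : ∀ {n c : ℕ}, ((8 * c : ℕ) : ℤ) ∣ (n : ℤ) - 1 → n % 8 = 1 := fun {n c} h => by
    have : ((8 : ℕ) : ℤ) ∣ (n : ℤ) - 1 := (Int.natCast_dvd_natCast.mpr (dvd_mul_right 8 c)).trans h
    omega
  by_cases hpR : p ∣ R
  · obtain ⟨r, rfl⟩ := hpR
    obtain ⟨n, hn, hs⟩ := exists_nonresidue (p := p) hp2 (b := 8 * r) (fun h => by
      rcases hpp.dvd_mul.mp h with h | ⟨t, rfl⟩
      · exact hp8 h
      · exact hpp.not_isUnit (hRsq p ⟨t, by ring⟩))
    refine ⟨n, by have := h8 hn; omega, hs, ?_⟩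
    rw [hval n (h8 hn), jacobiSym.mul_right' _ hpp.ne_zero (right_ne_zero_of_mul hRsq.ne_zero), hs,
      jacobiSym_eq_one_of_dvd ((Int.natCast_dvd_natCast.mpr (dvd_mul_left r 8)).trans hn), mul_one]
  rcases eq_or_ne R 1 with rfl | hR1
  · rw [mul_one] at hSR
    obtain rfl : α = 1 := by
      rcases α with _ | _ | α
      · exact absurd hSR h1
      · rfl
      · exact absurd (hS 2 ⟨2 ^ α, by rw [hSR]; ring⟩) (by norm_num)
    subst hSR
    obtain ⟨a, ha, has⟩ := exists_nonresidue (p := p) hp2 (b := 8) hp8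
    obtain ⟨b, hb, hb'⟩ := Nat.chineseRemainder
      ((Nat.Prime.coprime_iff_not_dvd hpp).mpr hp8) 1 5
    have hb8 : b % 8 = 5 := hb'
    have hn : a * b % 8 = 5 := by rw [Nat.mul_mod, h8 (c := 1) ha, hb8]
    refine ⟨a * b, by omega, ?_, ?_⟩
    · rw [Nat.cast_mul, jacobiSym.mul_left, has,
        jacobiSym_eq_one_of_dvd (by simpa using Nat.modEq_iff_dvd.mp hb.symm), mul_one]
    · rw [pow_one, Nat.cast_ofNat, jacobiSym.at_two (Nat.odd_iff.mpr (by omega)),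
        ZMod.χ₈_nat_eq_if_mod_eight, if_neg (by omega), if_neg (by omega)]
  obtain ⟨q, hq, hqR⟩ := Nat.exists_prime_and_dvd hR1
  have := Fact.mk hq
  have hq2 : q ≠ 2 := by
    rintro rfl; exact absurd (hR.of_dvd_nat hqR) (by decide)
  obtain ⟨n₁, hn₁, hs₁⟩ := exists_symbol_eq_neg_one (c := 8 * p) hR hRsq hqR (fun h => by
    rcases hq.dvd_mul.mp (show q ∣ 2 ^ 3 * p from h) with h | h
    · exact hq2 ((Nat.prime_dvd_prime_iff_eq hq Nat.prime_two).mp (hq.dvd_of_dvd_pow h))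
    · exact hpR ((Nat.prime_dvd_prime_iff_eq hq hpp).mp h ▸ hqR))
  obtain ⟨n₂, hn₂, hs₂⟩ := exists_nonresidue (p := p) hp2 (b := 8 * R) (fun h => by
    rcases hpp.dvd_mul.mp h with h | h
    · exact hp8 h
    · exact hpR h)
  have h8p : ((8 * p : ℕ) : ℤ) ∣ (n₁ : ℤ) - 1 :=
    (Int.natCast_dvd_natCast.mpr (dvd_mul_right _ _)).trans hn₁
  have hn8 : n₁ * n₂ % 8 = 1 := by rw [Nat.mul_mod, h8 h8p, h8 hn₂]
  refine ⟨n₁ * n₂, by omega, ?_, ?_⟩
  · rw [Nat.cast_mul, jacobiSym.mul_left, hs₂,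
      jacobiSym_eq_one_of_dvd ((Int.natCast_dvd_natCast.mpr (dvd_mul_left p 8)).trans h8p),
      one_mul]
  · rw [hval _ hn8, Nat.cast_mul, jacobiSym.mul_left, hs₁,
      jacobiSym_eq_one_of_dvd ((Int.natCast_dvd_natCast.mpr (dvd_mul_left R 8)).trans hn₂), mul_one]

/-- **Primes modulo which neither `-p` nor a given non-square is a square.** -/
theorem exists_prime_symbols (hp : p % 4 = 3) {N : ℕ} (hN : ¬ IsSquare N) (B : ℕ) :
    ∃ m : ℕ, B < m ∧ m.Prime ∧ jacobiSym (-(p : ℤ)) m = -1 ∧ jacobiSym N m = -1 := by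
  have hpp : p.Prime := Fact.out
  have hN0 : 0 < N := Nat.pos_of_ne_zero fun e => hN ⟨0, by simpa using e⟩
  obtain ⟨S, t, -, ht, hst, hS⟩ := Nat.sq_mul_squarefree_of_pos hN0
  have hS1 : S ≠ 1 := fun e => hN ⟨t, by rw [← hst, e]; ring⟩
  obtain ⟨n, hn4, hnp, hnS⟩ := exists_symbols_eq_neg_one hp hS hS1
  have hno : Odd n := Nat.odd_iff.mpr (by omega)
  have hcp : n.Coprime p := by
    by_contra h
    rw [jacobiSym.eq_zero_iff_not_coprime.mpr
      (show Int.gcd (n : ℤ) (p : ℤ) ≠ 1 by rwa [Int.gcd_natCast_natCast])] at hnp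
    norm_num at hnp
  have hcS : n.Coprime S := by
    by_contra h
    have : NeZero n := ⟨hno.pos.ne'⟩
    rw [jacobiSym.eq_zero_iff_not_coprime.mpr (by
      rw [Int.gcd_natCast_natCast]; exact fun e => h (Nat.coprime_comm.mp e))] at hnS
    norm_num at hnS
  have hc4 : n.Coprime (4 * (p * S)) :=
    ((Nat.coprime_two_right.mpr hno).pow_right 2).mul_right (hcp.mul_right hcS)
  obtain ⟨m, hm, hmp, hmod⟩ := Nat.forall_exists_prime_gt_and_modEq (max B (t + 2))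
    (q := 4 * (p * S)) (a := n) (by have := hS.ne_zero; have := hpp.pos; positivity) hc4
  have hmo : Odd m := hmp.odd_of_ne_two (by omega)
  have := Fact.mk hmp
  refine ⟨m, by omega, hmp, ?_, ?_⟩
  · rw [jacobiSym.mod_right _ hmo, show (-(p : ℤ)).natAbs = p by simp,
      show m % (4 * p) = n % (4 * p) from
        Nat.ModEq.of_dvd (show 4 * p ∣ 4 * (p * S) from Dvd.intro S (by ring)) hmod]
    have e := jacobiSym.mod_right (-(p : ℤ)) hno
    rw [show (-(p : ℤ)).natAbs = p by simp] at e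
    rw [← e, jacobiSym_neg_prime hp hno, hnp]
  · rw [← hst, Nat.cast_mul, Nat.cast_pow, jacobiSym.mul_left, jacobiSym.sq_one' (by
      rw [Int.gcd_natCast_natCast]
      exact ((Nat.Prime.coprime_iff_not_dvd hmp).mpr fun h =>
        absurd (Nat.le_of_dvd ht h) (by omega)).symm), one_mul, jacobiSym.mod_right _ hmo,
      Int.natAbs_natCast, show m % (4 * S) = n % (4 * S) from
        Nat.ModEq.of_dvd (show 4 * S ∣ 4 * (p * S) from Dvd.intro p (by ring)) hmod]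
    have e := jacobiSym.mod_right (S : ℤ) hno
    rw [Int.natAbs_natCast] at e
    rw [← e, hnS]

/-- If `a² - 4 l` is no nonzero square modulo a prime inert in `ℚ (√-p)`, then `4 l - a²` is `p`
times a square. -/
theorem exists_four_mul_eq (hp : p % 4 = 3) {l : ℕ} {a : ℤ} (hle : a ^ 2 ≤ 4 * (l : ℤ))
    (hdvd : (p : ℤ) ∣ 4 * (l : ℤ) - a ^ 2)
    (hdisc : ∀ m : ℕ, ∀ [Fact m.Prime], m ≠ l → m ≠ 2 → ¬ IsSquare ((-(p : ℤ) : ℤ) : ZMod m) →
      IsSquare ((a ^ 2 - 4 * (l : ℤ) : ℤ) : ZMod m) → (m : ℤ) ∣ a ^ 2 - 4 * (l : ℤ)) :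
    ∃ b : ℤ, 4 * (l : ℤ) = a ^ 2 + p * b ^ 2 := by
  have hpp : p.Prime := Fact.out
  obtain ⟨t, ht⟩ := hdvd
  obtain ⟨N, rfl⟩ : ∃ N : ℕ, t = N := Int.eq_ofNat_of_zero_le
    (nonneg_of_mul_nonneg_right (show 0 ≤ (p : ℤ) * t by linarith) (by exact_mod_cast hpp.pos))
  suffices hsq : IsSquare N by
    obtain ⟨b, rfl⟩ := hsq
    exact ⟨b, by push_cast at ht; linear_combination ht⟩
  by_contra hNsq
  obtain ⟨m, hmB, hmp, hmP, hmN⟩ := exists_prime_symbols hp hNsq (l + N + p)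
  have := Fact.mk hmp
  have hΔ : a ^ 2 - 4 * (l : ℤ) = -(p : ℤ) * (N : ℤ) := by linarith
  have hd := hdisc m (by omega) (by have := hpp.two_le; omega)
    (ZMod.nonsquare_of_jacobiSym_eq_neg_one hmP) (ZMod.isSquare_of_jacobiSym_eq_one
      (by rw [hΔ, jacobiSym.mul_left, hmP, hmN]; norm_num))
  rw [hΔ, neg_mul, Int.dvd_neg, ← Int.natCast_mul, Int.natCast_dvd_natCast] at hd
  rcases hmp.dvd_mul.mp hd with h0 | h0
  · have := Nat.le_of_dvd hpp.pos h0; omega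
  · rcases Nat.eq_zero_or_pos N with rfl | hpos
    · exact hNsq ⟨0, rfl⟩
    · have := Nat.le_of_dvd hpos h0; omega

end FA.CM.PrimeSymbols
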