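import Fermat.Agent.CM.CongruentCurves
import Fermat.Agent.Root.SummaryTwistParity

/-!
# The central value of the congruent number curves

For squarefree `m ≡ 5, 6, 7` modulo `8` the root number of `y² = x³ - m² x` is `-1`, so its entire
L-function vanishes at `s = 1`.
-/

set_option autoImplicit false

noncomputable section

open Filter
open scoped Topology

namespace FA.Summary

/-- **The central zero**: for squarefree `m ≡ 5, 6, 7` modulo `8` the L-series of
`y² = x³ - m² x` has an entire continuation, it is unique, and it vanishes at `1` to odd order. -/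
theorem congruentCurve_central_zero {m : ℕ} (hm : Squarefree m)
    (h8 : m % 8 = 5 ∨ m % 8 = 6 ∨ m % 8 = 7) :
    ∃ g : ℂ → ℂ, Differentiable ℂ g ∧
      (∀ s : ℂ, 3 / 2 < s.re →
        g s = (⟨0, 0, 0, -(m : ℚ) ^ 2, 0⟩ : WeierstrassCurve ℚ).LSeries s) ∧
      (∀ g' : ℂ → ℂ, Differentiable ℂ g' → (∀ s : ℂ, 3 / 2 < s.re →
        g' s = (⟨0, 0, 0, -(m : ℚ) ^ 2, 0⟩ : WeierstrassCurve ℚ).LSeries s) → g' = g) ∧
      g 1 = 0 ∧ ∃ r : ℕ, Odd r ∧ analyticOrderAt g 1 = r := by
  obtain ⟨Λ, hΛ, hs, hfe⟩ :=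
    functionalEquation_congruentCurve hm (n := (m : ℚ)) one_ne_zero (by rw [one_pow, one_mul])
  have hM : (if Odd m then 32 * m ^ 2 else 16 * m ^ 2) ≠ 0 := by
    have := hm.ne_zero
    split_ifs <;> positivity
  obtain ⟨g, hg, hgs, -, hg1, r, hord, hε⟩ := FA.Parity.exists_parity _ hM hΛ hs hfe
  rw [if_neg (by omega), Int.cast_neg, Int.cast_one] at hε hg1
  refine ⟨g, hg, hgs, fun g' hg' hs' => ?_, hg1 rfl, r, ?_, hord⟩
  · refine AnalyticOnNhd.eq_of_eventuallyEq (z₀ := 2) (fun z _ => hg'.analyticAt z)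
      (fun z _ => hg.analyticAt z) ?_
    have h2 : {s : ℂ | 3 / 2 < s.re} ∈ 𝓝 (2 : ℂ) :=
      (isOpen_lt continuous_const Complex.continuous_re).mem_nhds
        (by show (3 / 2 : ℝ) < (2 : ℂ).re; norm_num)
    filter_upwards [h2] with s h
    rw [hs' s h, hgs s h]
  · rcases Nat.even_or_odd r with h | h
    · rw [h.neg_one_pow] at hε; norm_num at hε
    · exact h

end FA.Summary

end
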