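import Fermat.Agent.CM.Count
import Mathlib.RingTheory.IntegralDomain
import Mathlib.FieldTheory.Finite.Basic

/-!
# The points of `y² + y = x³` over `𝔽_p`

For `p ≡ 2 (mod 3)` there are `p + 1`; for `p ≡ 1 (mod 3)` there are `p + 1 - A` with
`4 p = A² + 27 B²` and `A ≡ 2 (mod 3)`.
-/

set_option autoImplicit false
set_option linter.unusedSectionVars false

noncomputable section

open WeierstrassCurve

namespace FA.CM

/-- `y² + y = x³`. -/
def curve27 {R : Type*} [CommRing R] : WeierstrassCurve R := ⟨0, 0, 1, 0, 0⟩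

theorem curve27_map {R S : Type*} [CommRing R] [CommRing S] (f : R →+* S) :
    (curve27 : WeierstrassCurve R).map f = curve27 := by
  ext <;> simp [curve27]

theorem curve27_Δ {R : Type*} [CommRing R] : (curve27 : WeierstrassCurve R).Δ = -27 := by
  simp only [curve27, WeierstrassCurve.Δ, b₂, b₄, b₆, b₈]; ring

theorem curve27_c₄ {R : Type*} [CommRing R] : (curve27 : WeierstrassCurve R).c₄ = 0 := by
  simp only [curve27, c₄, b₂, b₄]; ring

theorem curve27_equation {R : Type*} [CommRing R] (x y : R) :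
    (curve27 : WeierstrassCurve R).toAffine.Equation x y ↔ y ^ 2 + y = x ^ 3 := by
  rw [Affine.equation_iff]
  simp only [curve27]
  constructor <;> intro hxy <;> linear_combination hxy

variable {F : Type*} [Field F] [Fintype F] [DecidableEq F]

/-- The affine points as a sigma type. -/
def pointEquiv27 (hΔ : (curve27 : WeierstrassCurve F).Δ ≠ 0) :
    (curve27 : WeierstrassCurve F).toAffine.Point ≃
      Option (Σ x : F, {y : F // y ^ 2 + y = x ^ 3}) where
  toFun P := match P with
    | .zero => none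
    | .some x y hxy => some ⟨x, y, (curve27_equation x y).1 hxy.1⟩
  invFun o := match o with
    | none => .zero
    | some ⟨x, y, hxy⟩ => .some x y ((Affine.equation_iff_nonsingular_of_Δ_ne_zero hΔ).1
        ((curve27_equation x y).2 hxy))
  left_inv P := by rcases P with _ | ⟨x, y, hxy⟩ <;> rfl
  right_inv o := by rcases o with _ | ⟨x, y, hxy⟩ <;> rfl

/-- `∑ χ(x³ + k)`. -/
def cubicSum (k : F) : ℤ := ∑ x : F, quadraticChar F (x ^ 3 + k)

/-- `χ(k) ∑ χ(x³ + k)`, which depends on the class of `k` modulo cubes. -/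
def cubicTwist (k : F) : ℤ := quadraticChar F k * cubicSum k

theorem natCard_point_27 (hF : ringChar F ≠ 2) (hΔ : (curve27 : WeierstrassCurve F).Δ ≠ 0) :
    (Nat.card (curve27 : WeierstrassCurve F).toAffine.Point : ℤ) =
      Fintype.card F + 1 + cubicSum ((1 : F) / 4) := by
  have h2 : (2 : F) ≠ 0 := Ring.two_ne_zero hF
  rw [FA.Twists.natCard_point_eq_sum hF _ hΔ, cubicSum]
  congr 1
  refine Finset.sum_congr rfl fun x _ => ?_
  rw [← one_mul (quadraticChar F (x ^ 3 + _)), ← quadraticChar_sq_one' h2, ← map_mul]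
  congr 1
  simp only [curve27, b₂, b₄, b₆]
  have h4 : (4 : F) ≠ 0 := by rw [show (4 : F) = 2 * 2 by norm_num]; exact mul_ne_zero h2 h2
  linear_combination -mul_inv_cancel₀ h4

theorem cubicSum_zero (hF : ringChar F ≠ 2) : cubicSum (0 : F) = 0 := by
  rw [cubicSum, ← quadraticChar_sum_zero hF]
  refine Finset.sum_congr rfl fun x _ => ?_
  rw [add_zero]
  rcases eq_or_ne x 0 with rfl | hx
  · simp
  · rw [pow_succ, map_mul, quadraticChar_sq_one' hx, one_mul]

theorem cubicTwist_cube_mul (k : F) {d : F} (hd : d ≠ 0) :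
    cubicTwist (d ^ 3 * k) = cubicTwist k := by
  have hd3 : quadraticChar F (d ^ 3) = quadraticChar F d := by
    rw [pow_succ, map_mul, quadraticChar_sq_one' hd, one_mul]
  have h : cubicSum (d ^ 3 * k) = quadraticChar F d * cubicSum k := by
    rw [cubicSum, cubicSum, Finset.mul_sum]
    refine (Fintype.sum_equiv (Equiv.mulLeft₀ d hd) _ _ fun x => ?_).symm
    rw [show Equiv.mulLeft₀ d hd x = d * x from rfl,
      show (d * x) ^ 3 + d ^ 3 * k = d ^ 3 * (x ^ 3 + k) by ring, map_mul, hd3]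
  rw [cubicTwist, cubicTwist, h, map_mul, hd3]
  linear_combination quadraticChar F k * cubicSum k * quadraticChar_sq_one hd

theorem sum_cubicTwist (hF : ringChar F ≠ 2) : ∑ k : F, cubicTwist k = 0 := by
  classical
  calc ∑ k : F, cubicTwist k
      = ∑ x : F, ∑ k : F, quadraticChar F ((0 - k) * (-x ^ 3 - k)) := by
        simp only [cubicTwist, cubicSum, Finset.mul_sum]
        rw [Finset.sum_comm]
        refine Finset.sum_congr rfl fun x _ => Finset.sum_congr rfl fun k _ => ?_
        rw [← map_mul]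
        congr 1
        ring
    _ = 0 := by
        simp only [sum_char_shift hF]
        simp only [eq_comm (a := (0 : F)), neg_eq_zero, pow_eq_zero_iff (by norm_num : 3 ≠ 0)]
        rw [Finset.sum_sub_distrib, Finset.sum_ite_eq']
        simp

theorem card_cube_fibre {w : F} (h3 : (3 : F) ≠ 0) (hw : w ^ 2 + w + 1 = 0) (x : F) :
    (Finset.univ.filter fun y : F => -x ^ 3 = -y ^ 3).card = if x = 0 then 1 else 3 := by
  classical
  have hw1 : w ≠ 1 := fun h => h3 (by subst h; linear_combination hw)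
  have hw2 : w ^ 2 ≠ 1 := fun h => h3 (by linear_combination h - (w - 2) * (hw - h))
  have hw0 : w ≠ 0 := fun h => one_ne_zero (α := F) (by subst h; linear_combination hw)
  rw [show Finset.univ.filter (fun y : F => -x ^ 3 = -y ^ 3) = {x, w * x, w ^ 2 * x} by
    ext y
    simp only [Finset.mem_filter, Finset.mem_univ, true_and, Finset.mem_insert,
      Finset.mem_singleton, neg_inj]
    rw [← sub_eq_zero, ← sub_eq_zero (a := y) (b := x), ← sub_eq_zero (a := y) (b := w * x),
      ← sub_eq_zero (a := y) (b := w ^ 2 * x), ← mul_eq_zero, ← mul_eq_zero, ← neg_eq_zero,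
      show -(x ^ 3 - y ^ 3) = (y - x) * ((y - w * x) * (y - w ^ 2 * x)) by
        linear_combination (x * y ^ 2 - w * x ^ 2 * y + (w - 1) * x ^ 3) * hw]]
  split_ifs with hx
  · simp [hx]
  · rw [Finset.card_insert_of_notMem, Finset.card_pair]
    · exact fun h => hw1 (mul_left_cancel₀ hw0 (mul_right_cancel₀ hx (by linear_combination -h)))
    · simp only [Finset.mem_insert, Finset.mem_singleton, not_or]
      exact ⟨fun h => hw1 (mul_right_cancel₀ hx (by rw [one_mul, ← h])),
        fun h => hw2 (mul_right_cancel₀ hx (by rw [one_mul, ← h]))⟩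

theorem sum_cubicSum_sq (hF : ringChar F ≠ 2) {w : F} (h3 : (3 : F) ≠ 0)
    (hw : w ^ 2 + w + 1 = 0) :
    ∑ k : F, cubicSum k ^ 2 = 2 * (Fintype.card F : ℤ) * (Fintype.card F - 1) := by
  classical
  calc ∑ k : F, cubicSum k ^ 2
      = ∑ x : F, ∑ y : F, ∑ k : F, quadraticChar F ((-x ^ 3 - k) * (-y ^ 3 - k)) := by
        simp only [cubicSum, sq, Finset.sum_mul, Finset.mul_sum]
        rw [Finset.sum_comm]
        refine Finset.sum_congr rfl fun x _ => ?_
        rw [Finset.sum_comm]
        refine Finset.sum_congr rfl fun y _ => Finset.sum_congr rfl fun k _ => ?_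
        rw [← map_mul]
        congr 1
        ring
    _ = ∑ x : F, (Fintype.card F : ℤ) * ((if x = 0 then 1 else 3) - 1) := by
        refine Finset.sum_congr rfl fun x _ => ?_
        simp only [sum_char_shift hF, Finset.sum_sub_distrib, ← Finset.sum_filter,
          Finset.sum_const, card_cube_fibre h3 hw x, Finset.card_univ, nsmul_eq_mul, mul_one]
        split_ifs <;> push_cast <;> ring
    _ = _ := by
        have e : ∀ x ∈ Finset.univ.erase (0 : F), (if x = 0 then (1 : ℤ) else 3) - 1 = 2 :=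
          fun x hx => by rw [if_neg (Finset.ne_of_mem_erase hx)]; norm_num
        rw [← Finset.mul_sum, ← Finset.add_sum_erase _ _ (Finset.mem_univ (0 : F)),
          Finset.sum_congr rfl e, if_pos rfl]
        simp [Finset.card_erase_of_mem, Nat.cast_sub (Fintype.card_pos (α := F))]
        ring

theorem sum_range_mod_three (f : ℕ → ℤ) (m : ℕ) :
    ∑ n ∈ Finset.range (3 * m), f (n % 3) = m * (f 0 + f 1 + f 2) := by
  induction m with
  | zero => simp
  | succ m ih =>
    rw [show 3 * (m + 1) = 3 * m + 1 + 1 + 1 by ring, Finset.sum_range_succ, Finset.sum_range_succ,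
      Finset.sum_range_succ, ih, show 3 * m % 3 = 0 by omega, show (3 * m + 1) % 3 = 1 by omega,
      show (3 * m + 1 + 1) % 3 = 2 by omega]
    push_cast
    ring

/-- A function on the classes modulo cubes summed over the units. -/
theorem sum_classes_three {g : Fˣ} (hg : ∀ x, x ∈ Subgroup.zpowers g) {m : ℕ}
    (hm : Fintype.card F = 3 * m + 1) (G : F → ℤ)
    (hG : ∀ (k d : F), d ≠ 0 → G (d ^ 3 * k) = G k) {k₀ : F} (hk₀ : k₀ ≠ 0) :
    ∑ k : F, G k = G 0 + m * (G k₀ + G (k₀ * g) + G (k₀ * g ^ 2)) := by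
  classical
  have ho : orderOf g = 3 * m := by
    rw [orderOf_eq_card_of_forall_mem_zpowers hg, Nat.card_eq_fintype_card, Fintype.card_units, hm]
    rfl
  rw [← Finset.add_sum_erase _ _ (Finset.mem_univ (0 : F))]
  congr 1
  rw [← Finset.sum_bij (s := Finset.range (3 * m)) (f := fun n => G (k₀ * (g : F) ^ (n % 3)))
    (fun n _ => k₀ * (g : F) ^ n) (fun n _ => ?_) (fun a ha b hb h => ?_) (fun k hk => ?_)
    (fun n _ => ?_)]
  · rw [sum_range_mod_three fun i => G (k₀ * (g : F) ^ i)]
    simp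
  · simp [hk₀]
  · rw [← ho] at ha hb
    refine pow_injOn_Iio_orderOf (Finset.mem_range.mp ha) (Finset.mem_range.mp hb) (Units.ext ?_)
    simpa using mul_left_cancel₀ hk₀ h
  · have hk0 : k ≠ 0 := Finset.ne_of_mem_erase hk
    let x : Fˣ := Units.mk0 (k / k₀) (div_ne_zero hk0 hk₀)
    have hx : x ∈ Submonoid.powers g := mem_powers_iff_mem_zpowers.mpr (hg x)
    rw [mem_powers_iff_mem_range_orderOf, ho, Finset.mem_image] at hx
    obtain ⟨n, hn, he⟩ := hx
    refine ⟨n, hn, ?_⟩
    rw [← Units.val_pow_eq_pow_val, he]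
    exact mul_div_cancel₀ k hk₀
  · rw [show k₀ * (g : F) ^ n = ((g : F) ^ (n / 3)) ^ 3 * (k₀ * (g : F) ^ (n % 3)) by
      rw [← pow_mul, mul_left_comm, ← pow_add, Nat.div_add_mod'],
      hG _ _ (pow_ne_zero _ g.ne_zero)]

/-- If `ω` is in the field the points contain a group of order `9`. -/
theorem nine_dvd_natCard (h3 : (3 : F) ≠ 0) (hΔ : (curve27 : WeierstrassCurve F).Δ ≠ 0) {w : F}
    (hw : w ^ 2 + w + 1 = 0) :
    9 ∣ Nat.card (curve27 : WeierstrassCurve F).toAffine.Point := by
  classical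
  set W : WeierstrassCurve F := curve27 with hW
  have hns : ∀ x y : F, y ^ 2 + y = x ^ 3 → W.toAffine.Nonsingular x y := fun x y h =>
    (Affine.equation_iff_nonsingular_of_Δ_ne_zero hΔ).1 ((curve27_equation x y).2 h)
  have hnegY : ∀ x y : F, W.toAffine.negY x y = -y - 1 := fun x y => by
    simp [Affine.negY, hW, curve27]
  let T : W.toAffine.Point := .some 0 0 (hns _ _ (by ring))
  let Q : W.toAffine.Point := .some (-1) w (hns _ _ (by linear_combination hw))
  have hT0 : (0 : F) ≠ W.toAffine.negY 0 0 := by rw [hnegY]; simp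
  have hQ0 : w ≠ W.toAffine.negY (-1) w := fun h => h3 (by
    rw [hnegY] at h
    linear_combination 4 * hw - (2 * w + 1) * h)
  have hTT : T + T = -T := by
    refine (Affine.Point.add_self_of_Y_ne hT0).trans ?_
    rw [Affine.Point.neg_some]
    simp only [Affine.Point.some.injEq]
    simp [Affine.addX, Affine.addY, Affine.negAddY, Affine.negY, hW, curve27]
  have hQQ : Q + Q = -Q := by
    refine (Affine.Point.add_self_of_Y_ne hQ0).trans ?_
    rw [Affine.Point.neg_some]
    simp only [Affine.Point.some.injEq]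
    have hd : w - W.toAffine.negY (-1) w ≠ 0 := sub_ne_zero.mpr hQ0
    set s := W.toAffine.slope (-1) (-1) w w with hs
    have hs' : s * (w - W.toAffine.negY (-1) w) = 3 := by
      rw [hs, Affine.slope_of_Y_ne rfl hQ0, div_mul_cancel₀ _ hd]
      simp only [hW, curve27]
      ring
    rw [hnegY] at hs'
    have hs2 : s ^ 2 = -3 := mul_left_cancel₀ h3 (by
      linear_combination -(s * (2 * w + 1) + 3) * hs' + 4 * s ^ 2 * hw)
    constructor <;> simp only [Affine.addX, Affine.addY, Affine.negAddY, Affine.negY, hW, curve27]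
    · linear_combination hs2
    · linear_combination -s * hs2
  have hT3 : (3 : ℤ) • T = 0 := by
    rw [show (3 : ℤ) = 2 + 1 from rfl, add_zsmul, two_zsmul, one_zsmul, hTT, neg_add_cancel]
  have hQ3 : (3 : ℤ) • Q = 0 := by
    rw [show (3 : ℤ) = 2 + 1 from rfl, add_zsmul, two_zsmul, one_zsmul, hQQ, neg_add_cancel]
  let f : ZMod 3 →+ W.toAffine.Point := ZMod.lift 3 ⟨zmultiplesHom _ T, by simpa using hT3⟩
  let g : ZMod 3 →+ W.toAffine.Point := ZMod.lift 3 ⟨zmultiplesHom _ Q, by simpa using hQ3⟩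
  let φ : ZMod 3 × ZMod 3 →+ W.toAffine.Point := f.coprod g
  have hf1 : f 1 = T := by
    rw [show (1 : ZMod 3) = ((1 : ℤ) : ZMod 3) by norm_num]
    exact (ZMod.lift_coe _ _ _).trans (one_zsmul T)
  have hg1 : g 1 = Q := by
    rw [show (1 : ZMod 3) = ((1 : ℤ) : ZMod 3) by norm_num]
    exact (ZMod.lift_coe _ _ _).trans (one_zsmul Q)
  have hf2 : f 2 = -T := by rw [show (2 : ZMod 3) = -1 from rfl, map_neg, hf1]
  have hg2 : g 2 = -Q := by rw [show (2 : ZMod 3) = -1 from rfl, map_neg, hg1]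
  have hTne : T ≠ 0 := Affine.Point.some_ne_zero _
  have hQne : Q ≠ 0 := Affine.Point.some_ne_zero _
  have hQT : Q ≠ T := fun h => by
    simp only [Q, T, Affine.Point.some.injEq] at h
    exact one_ne_zero (α := F) (by linear_combination -h.1)
  have hQnT : Q ≠ -T := fun h => by
    rw [Affine.Point.neg_some] at h
    simp only [Q, Affine.Point.some.injEq] at h
    exact one_ne_zero (α := F) (by linear_combination -h.1)
  have hinj : Function.Injective φ := by
    refine (injective_iff_map_eq_zero φ).mpr fun v => ?_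
    obtain ⟨a, b⟩ := v
    intro hv
    change f a + g b = 0 at hv
    rcases (by decide : ∀ a : ZMod 3, a = 0 ∨ a = 1 ∨ a = 2) a with rfl | rfl | rfl <;>
      rcases (by decide : ∀ a : ZMod 3, a = 0 ∨ a = 1 ∨ a = 2) b with rfl | rfl | rfl <;>
      simp only [map_zero, hf1, hf2, hg1, hg2, zero_add, add_zero, neg_eq_zero] at hv
    · rfl
    · exact absurd hv hQne
    · exact absurd hv hQne
    · exact absurd hv hTne
    · exact absurd (eq_neg_of_add_eq_zero_right hv) hQnT
    · exact absurd (sub_eq_zero.mp (by rwa [← sub_eq_add_neg] at hv)).symm hQT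
    · exact absurd hv hTne
    · exact absurd (by simpa using eq_neg_of_add_eq_zero_right hv) hQT
    · exact absurd (neg_inj.mp (eq_neg_of_add_eq_zero_right hv)) (by simpa using hQnT)
  have h9 : Nat.card φ.range = 9 := by
    rw [← Nat.card_congr (AddMonoidHom.ofInjective hinj).toEquiv]
    simp
  exact h9 ▸ AddSubgroup.card_addSubgroup_dvd_card _

section prime

variable {p : ℕ} [hp : Fact p.Prime]

theorem curve27_Δ_ne_zero (hp3 : p ≠ 3) : (curve27 : WeierstrassCurve (ZMod p)).Δ ≠ 0 := by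
  rw [curve27_Δ, neg_ne_zero, show (27 : ZMod p) = ((3 ^ 3 : ℕ) : ZMod p) by norm_num, Ne,
    ZMod.natCast_eq_zero_iff]
  exact fun h => hp3 ((Nat.prime_dvd_prime_iff_eq hp.out Nat.prime_three).mp
    (hp.out.dvd_of_dvd_pow h))

/-- For `p ≡ 2 (mod 3)` cubing is bijective. -/
theorem apOfModel_curve27_two (h : p % 3 = 2) :
    (curve27 : WeierstrassCurve ℤ).apOfModel p = 0 := by
  classical
  have hΔ := curve27_Δ_ne_zero (p := p) (by omega)
  obtain ⟨j, hj⟩ : ∃ j, 3 * j = 2 * p - 1 := ⟨(2 * p - 1) / 3, by omega⟩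
  have hroot : ∀ x : ZMod p, (x ^ 3) ^ j = x := fun x => by
    rw [← pow_mul, hj]
    rcases eq_or_ne x 0 with rfl | hx
    · rw [zero_pow]; have := hp.out.two_le; omega
    · have e := ZMod.pow_card_sub_one_eq_one hx
      rw [show 2 * p - 1 = (p - 1) + (p - 1) + 1 by have := hp.out.two_le; omega, pow_succ, pow_add,
        e, one_mul, one_mul]
  have hinj : Function.Injective fun x : ZMod p => x ^ 3 := fun a b hab => by
    have := congrArg (· ^ j) hab
    simpa [hroot] using this
  let c : ZMod p ≃ ZMod p := Equiv.ofBijective _ (Finite.injective_iff_bijective.mp hinj)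
  have hc : ∀ x, c x = x ^ 3 := fun x => rfl
  let e : (Σ x : ZMod p, {y : ZMod p // y ^ 2 + y = x ^ 3}) ≃ ZMod p :=
    { toFun := fun v => v.2.1
      invFun := fun y => ⟨c.symm (y ^ 2 + y), y, by rw [← hc, c.apply_symm_apply]⟩
      left_inv := fun ⟨x, y, hxy⟩ => by
        have hx : c.symm (y ^ 2 + y) = x := by rw [c.symm_apply_eq, hc, hxy]
        subst hx
        rfl
      right_inv := fun y => rfl }
  rw [apOfModel, reductionMod, curve27_map, traceOfFrobenius, WeierstrassCurve.card,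
    Nat.card_congr ((pointEquiv27 hΔ).trans e.optionCongr), Nat.card_eq_fintype_card,
    Nat.card_eq_fintype_card, Fintype.card_option]
  push_cast
  ring

/-- **Gauss**: the trace at `p ≡ 1 (mod 3)`. -/
theorem exists_apOfModel_curve27 (hp1 : p % 3 = 1) :
    ∃ A B : ℤ, 4 * (p : ℤ) = A ^ 2 + 27 * B ^ 2 ∧ A % 3 = 2 ∧
      (curve27 : WeierstrassCurve ℤ).apOfModel p = A := by
  classical
  have hp2 : p ≠ 2 := by omega
  have hp3 : p ≠ 3 := by omega
  have hF : ringChar (ZMod p) ≠ 2 := (ZMod.ringChar_zmod_n p).trans_ne hp2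
  have h2 : (2 : ZMod p) ≠ 0 := Ring.two_ne_zero hF
  have h3 : (3 : ZMod p) ≠ 0 := by
    rw [show (3 : ZMod p) = ((3 : ℕ) : ZMod p) by norm_num, Ne,
      ZMod.natCast_eq_zero_iff, Nat.prime_dvd_prime_iff_eq hp.out Nat.prime_three]
    exact hp3
  have hΔ := curve27_Δ_ne_zero (p := p) hp3
  obtain ⟨g, hg⟩ := IsCyclic.exists_generator (α := (ZMod p)ˣ)
  obtain ⟨m, hm⟩ : ∃ m, p = 3 * m + 1 := ⟨p / 3, by omega⟩
  have hm0 : 0 < m := by have := hp.out.two_le; omega
  have hcard : Fintype.card (ZMod p) = 3 * m + 1 := (ZMod.card p).trans hm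
  have ho : orderOf g = 3 * m := by
    rw [orderOf_eq_card_of_forall_mem_zpowers hg, Nat.card_eq_fintype_card, Fintype.card_units,
      hcard]
    rfl
  set w : ZMod p := (g : ZMod p) ^ m with hwdef
  have hw : w ^ 2 + w + 1 = 0 := by
    have hw1 : w ≠ 1 := fun h => pow_ne_one_of_lt_orderOf (x := g) hm0.ne' (by omega)
      (Units.ext (by simpa using h))
    have hw3 : w ^ 3 = 1 := by
      rw [hwdef, ← pow_mul, ← Units.val_pow_eq_pow_val, show m * 3 = orderOf g by omega,
        pow_orderOf_eq_one, Units.val_one]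
    have : (w - 1) * (w ^ 2 + w + 1) = 0 := by linear_combination hw3
    exact (mul_eq_zero.mp this).resolve_left (sub_ne_zero.mpr hw1)
  have h4 : (1 / 4 : ZMod p) ≠ 0 := one_div_ne_zero (by
    rw [show (4 : ZMod p) = 2 * 2 by norm_num]; exact mul_ne_zero h2 h2)
  have hχ : quadraticChar (ZMod p) (1 / 4) = 1 :=
    (quadraticChar_one_iff_isSquare h4).mpr ⟨1 / 2, by rw [div_mul_div_comm, mul_one]; norm_num⟩
  have hsum := sum_classes_three hg hcard cubicTwist
    (fun k d hd => cubicTwist_cube_mul k hd) h4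
  have hsq := sum_classes_three hg hcard (fun k => cubicTwist k ^ 2)
    (fun k d hd => by simp only [cubicTwist_cube_mul k hd]) h4
  rw [sum_cubicTwist hF] at hsum
  have hsame : ∑ k : ZMod p, cubicTwist k ^ 2 = 2 * (p : ℤ) * (p - 1) := by
    have h := sum_cubicSum_sq hF h3 hw
    rw [ZMod.card] at h
    rw [← h]
    refine Finset.sum_congr rfl fun k _ => ?_
    rcases eq_or_ne k 0 with rfl | hk
    · rw [cubicTwist, cubicSum_zero hF, mul_zero]
    · rw [cubicTwist, mul_pow, quadraticChar_sq_one hk, one_mul]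
  rw [hsame] at hsq
  rw [show cubicTwist (0 : ZMod p) = 0 by rw [cubicTwist, cubicSum_zero hF, mul_zero]] at hsum hsq
  set T0 := cubicTwist (1 / 4 : ZMod p) with hT0
  set T1 := cubicTwist ((1 / 4 : ZMod p) * g)
  set T2 := cubicTwist ((1 / 4 : ZMod p) * (g : ZMod p) ^ 2)
  have hmz : (m : ℤ) ≠ 0 := by exact_mod_cast hm0.ne'
  have hT : T0 + T1 + T2 = 0 := mul_left_cancel₀ hmz (by linear_combination -hsum)
  have hT2 : T2 = -T0 - T1 := by linarith
  have hq : 6 * (p : ℤ) = T0 ^ 2 + T1 ^ 2 + T2 ^ 2 := mul_left_cancel₀ hmz (by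
    have : (p : ℤ) = 3 * m + 1 := by exact_mod_cast hm
    linear_combination hsq - 2 * (p : ℤ) * this)
  obtain ⟨r, hr⟩ := Int.natCast_dvd_natCast.mpr (nine_dvd_natCard h3 hΔ hw)
  rw [natCard_point_27 hF hΔ, ZMod.card] at hr
  have hap : (curve27 : WeierstrassCurve ℤ).apOfModel p = -T0 := by
    rw [apOfModel, reductionMod, curve27_map, traceOfFrobenius, WeierstrassCurve.card,
      natCard_point_27 hF hΔ, Nat.card_eq_fintype_card, hT0, cubicTwist, hχ]
    ring
  have hS : cubicSum (1 / 4 : ZMod p) = T0 := by rw [hT0, cubicTwist, hχ, one_mul]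
  rw [hS] at hr
  push_cast at hr
  have hpm : (p : ℤ) = 3 * m + 1 := by exact_mod_cast hm
  have h12 : 12 * (p : ℤ) = 3 * T0 ^ 2 + (T0 + 2 * T1) ^ 2 := by
    rw [hT2] at hq; linear_combination 2 * hq
  obtain ⟨b, hb⟩ : (3 : ℤ) ∣ T0 + 2 * T1 := Int.prime_three.dvd_of_dvd_pow (n := 2)
    ⟨4 * p - T0 ^ 2, by linarith⟩
  have h4p : 4 * (p : ℤ) = T0 ^ 2 + 3 * b ^ 2 := by
    rw [hb] at h12; linarith [show (3 * b) ^ 2 = 9 * b ^ 2 by ring]
  obtain ⟨B, rfl⟩ : (3 : ℤ) ∣ b := Int.prime_three.dvd_of_dvd_pow (n := 2) (by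
    have e : T0 = 9 * r - 3 * (m : ℤ) - 2 := by linarith
    refine ⟨-(9 * r ^ 2 - 2 * r * (3 * (m : ℤ) + 2) + (m : ℤ) ^ 2), ?_⟩
    rw [e, hpm] at h4p
    linarith [show (9 * r - 3 * (m : ℤ) - 2) ^ 2 =
      9 * (9 * r ^ 2 - 2 * r * (3 * (m : ℤ) + 2) + (m : ℤ) ^ 2) + 12 * m + 4 by ring])
  exact ⟨-T0, B, by rw [h4p]; ring, by omega, hap⟩

end prime

end FA.CM

end
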