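import Fermat.Agent.CM.Curve27
import Fermat.Agent.CM.Common

/-!
# The quadratic twists of `y² + y = x³`

These are the curves `y² = x³ + 16 d³`, equally `y² = x³ - 432 d³`. At `3` all of them have additive
reduction, so all coefficients of their L-functions are those of twists of `η(3z)² η(9z)²`.
-/

set_option autoImplicit false

noncomputable section

open WeierstrassCurve CongruenceSubgroup
open FA.Period FA.Twists

namespace FA.CM

/-- The discriminant of a twist. -/
theorem twist27_Δ {K : Type*} [Field K] [CharZero K] (E : WeierstrassCurve K) {z : K}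
    (h4 : E.c₄ = 0) (h6 : E.c₆ = -216 * z ^ 3) : E.Δ = -27 * z ^ 6 := by
  refine mul_left_cancel₀ (show (1728 : K) ≠ 0 by norm_num) ?_
  rw [E.c_relation, h4, h6]
  ring

/-- The coefficients of a twist at the powers of `3`. -/
theorem LFunction_three_pow_of_twist27 (E : WeierstrassCurve ℚ) {z : ℚ} (hz : z ≠ 0)
    (h4 : E.c₄ = 0) (h6 : E.c₆ = -216 * z ^ 3) (k : ℕ) :
    E.LFunction (3 ^ (k + 1)) = 0 :=
  LFunction_prime_pow_of_exponents Nat.prime_three E hz (A := 0) (B := -1) (β := 3)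
    (by decide) (by decide) (Or.inl rfl) (by rw [h4]; simp)
    (by rw [twist27_Δ E h4 h6]; push_cast; ring) k

theorem curve27_c₆ {R : Type*} [CommRing R] : (curve27 : WeierstrassCurve R).c₆ = -216 := by
  simp only [curve27, c₆, b₂, b₄, b₆]; ring

/-- The coefficients of the twist by the class `D`. -/
theorem LFunction_twist27 (E : WeierstrassCurve ℚ) {t : ℚ} {D : ℤ} (hD : Squarefree D) (ht : t ≠ 0)
    (h4 : E.c₄ = 0) (h6 : E.c₆ = -216 * (t ^ 2 * D) ^ 3) {q : ℕ} (ψ : DirichletCharacter ℂ q)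
    (hψ : ∀ l : ℕ, l.Prime → ψ (l : ZMod q) = (twistSign D l : ℂ)) (k : ℕ) :
    (E.LFunction k : ℂ) = ψ (k : ZMod q) * ModularFormClass.qCoeff form27 k := by
  rw [qCoeff_form27_eq_LFunction]
  have hE := FA.Root.isMultiplicative_LFunction E
  have hF := FA.Root.isMultiplicative_LFunction (curve27 : WeierstrassCurve ℚ)
  induction k using Nat.recOnPosPrimePosCoprime with
  | prime_pow l r hl hr =>
    rcases eq_or_ne l 3 with rfl | hl3
    · obtain ⟨r, rfl⟩ : ∃ r', r = r' + 1 := ⟨r - 1, by omega⟩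
      rw [LFunction_three_pow_of_twist27 E
        (mul_ne_zero (pow_ne_zero 2 ht) (Int.cast_ne_zero.mpr hD.ne_zero)) h4 h6,
        LFunction_three_pow, if_neg (Nat.succ_ne_zero r)]
      simp
    rw [LFunction_twist_prime_pow (W := curve27) (D := D) isIntegralModelOf_curve27
      (by rw [curve27_Δ]; norm_num) hD ht
      (by rw [h4, curve27_c₄]; simp)
      (by rw [h6, curve27_c₆]; push_cast; ring)
      hl (fun h => absurd h (good_curve27 hl hl3)) r,
      show ((l ^ r : ℕ) : ZMod q) = (l : ZMod q) ^ r from Nat.cast_pow l r, map_pow ψ, hψ l hl]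
    push_cast
    rfl
  | zero => simp
  | one => rw [hE.map_one, hF.map_one, Nat.cast_one, map_one, Int.cast_one, one_mul]
  | coprime a b _ _ hab iha ihb =>
    rw [hE.map_mul_of_coprime hab, hF.map_mul_of_coprime hab, Int.cast_mul, Int.cast_mul,
      Nat.cast_mul, map_mul, iha, ihb]
    ring

/-- **The form of a twist of `y² + y = x³`.** -/
theorem exists_twist27_form (E : WeierstrassCurve ℚ) {z : ℚ} (hz : z ≠ 0) (h4 : E.c₄ = 0)
    (h6 : E.c₆ = -216 * z ^ 3) :
    ∃ (N : ℕ) (f : CuspForm (Gamma0 N) 2), 0 < N ∧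
      ∀ k : ℕ, ModularFormClass.qCoeff f k = (E.LFunction k : ℂ) := by
  obtain ⟨D, t, hD, ht, rfl⟩ := exists_squarefree_mul_sq hz
  obtain ⟨q, ψ, -, hq, hsq, -, hval⟩ := exists_twistSign_char hD
  have : NeZero q := ⟨hq.ne'⟩
  refine ⟨27 * q ^ 2, toCuspForm' (twistTwo ψ ⇑form27)
    (twistTwo_mem (coe_mem_cuspForms form27) hsq), Nat.mul_pos (by norm_num) (pow_pos hq 2),
    fun k => ?_⟩
  rw [LFunction_twist27 E hD ht h4 h6 ψ hval k]
  exact qExp_twistTwo (coe_mem_cuspForms form27) hsq k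

theorem mordell_invariants (k : ℚ) :
    (⟨0, 0, 0, 0, k⟩ : WeierstrassCurve ℚ).c₄ = 0 ∧
      (⟨0, 0, 0, 0, k⟩ : WeierstrassCurve ℚ).c₆ = -864 * k := by
  refine ⟨?_, ?_⟩ <;> simp only [c₄, c₆, b₂, b₄, b₆] <;> ring

end FA.CM

namespace FA.Summary

/-- **Every quadratic twist of `y² + y = x³` is modular**: all coefficients of its L-function are
those of a cusp form of weight two. The twists are the curves with `c₄ = 0` and `c₆ = -216 z³`. -/
theorem modularity_twist_27a (E : WeierstrassCurve ℚ) {z : ℚ} (hz : z ≠ 0) (h4 : E.c₄ = 0)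
    (h6 : E.c₆ = -216 * z ^ 3) :
    ∃ (N : ℕ) (f : CuspForm (CongruenceSubgroup.Gamma0 N) 2), 0 < N ∧
      ∀ k : ℕ, (UpperHalfPlane.qExpansion 1 f).coeff k = (E.LFunction k : ℂ) :=
  FA.CM.exists_twist27_form E hz h4 h6

/-- Its L-series is entire. -/
theorem entire_continuation_twist_27a (E : WeierstrassCurve ℚ) {z : ℚ} (hz : z ≠ 0)
    (h4 : E.c₄ = 0) (h6 : E.c₆ = -216 * z ^ 3) :
    ∃ g : ℂ → ℂ, Differentiable ℂ g ∧ ∀ s : ℂ, 3 / 2 < s.re → E.LSeries s = g s := by
  obtain ⟨N, f, hN, hf⟩ := FA.CM.exists_twist27_form E hz h4 h6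
  exact FA.CM.exists_entire_of_qCoeff E hN f hf

/-- The curves `y² = x³ + 16 d³` are modular. -/
theorem modularity_sixteen_cube (d : ℚ) (hd : d ≠ 0) :
    ∃ (N : ℕ) (f : CuspForm (CongruenceSubgroup.Gamma0 N) 2), 0 < N ∧
      ∀ k : ℕ, (UpperHalfPlane.qExpansion 1 f).coeff k =
        ((⟨0, 0, 0, 0, 16 * d ^ 3⟩ : WeierstrassCurve ℚ).LFunction k : ℂ) :=
  modularity_twist_27a _ (z := 4 * d) (mul_ne_zero (by norm_num) hd) (FA.CM.mordell_invariants _).1
    (by rw [(FA.CM.mordell_invariants _).2]; ring)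

/-- Their L-series are entire. -/
theorem entire_continuation_sixteen_cube (d : ℚ) (hd : d ≠ 0) :
    ∃ g : ℂ → ℂ, Differentiable ℂ g ∧ ∀ s : ℂ, 3 / 2 < s.re →
      (⟨0, 0, 0, 0, 16 * d ^ 3⟩ : WeierstrassCurve ℚ).LSeries s = g s :=
  entire_continuation_twist_27a _ (z := 4 * d) (mul_ne_zero (by norm_num) hd)
    (FA.CM.mordell_invariants _).1 (by rw [(FA.CM.mordell_invariants _).2]; ring)

/-- The curves `y² = x³ - 432 d³`, are modular. -/
theorem modularity_neg_432_cube (d : ℚ) (hd : d ≠ 0) :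
    ∃ (N : ℕ) (f : CuspForm (CongruenceSubgroup.Gamma0 N) 2), 0 < N ∧
      ∀ k : ℕ, (UpperHalfPlane.qExpansion 1 f).coeff k =
        ((⟨0, 0, 0, 0, -432 * d ^ 3⟩ : WeierstrassCurve ℚ).LFunction k : ℂ) :=
  modularity_twist_27a _ (z := -12 * d) (mul_ne_zero (by norm_num) hd)
    (FA.CM.mordell_invariants _).1 (by rw [(FA.CM.mordell_invariants _).2]; ring)

/-- Their L-series are entire. -/
theorem entire_continuation_neg_432_cube (d : ℚ) (hd : d ≠ 0) :
    ∃ g : ℂ → ℂ, Differentiable ℂ g ∧ ∀ s : ℂ, 3 / 2 < s.re →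
      (⟨0, 0, 0, 0, -432 * d ^ 3⟩ : WeierstrassCurve ℚ).LSeries s = g s :=
  entire_continuation_twist_27a _ (z := -12 * d) (mul_ne_zero (by norm_num) hd)
    (FA.CM.mordell_invariants _).1 (by rw [(FA.CM.mordell_invariants _).2]; ring)

end FA.Summary

end
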