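import Fermat.Agent.CM.Eigen27
import Fermat.Agent.CM.Count27
import Fermat.Agent.CM.Common

/-!
# Modularity of `y² + y = x³`

All coefficients of the L-function of this curve with complex multiplication by `ℤ[ω]` are those
of `η(3z)² η(9z)²`, so the curve is modular of level 27 and its L-series is entire.
-/

set_option autoImplicit false

noncomputable section

open WeierstrassCurve IsDedekindDomain NumberField
open Rat.HeightOneSpectrum (primesEquiv)

namespace FA.CM

open IsLocalRing IsDedekindDomain.HeightOneSpectrum in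
/-- The reduction at `3` is additive. -/
theorem localPolynomial_curve27 {R K : Type*} [CommRing R] [IsDomain R]
    [IsDiscreteValuationRing R] [Field K] [Algebra R K] [IsFractionRing R K]
    (h3 : ¬ IsUnit (3 : R)) (hdvd : ∀ x : R, ¬ IsUnit x → (3 : R) ∣ x)
    (E : WeierstrassCurve K) (C : VariableChange K)
    (hC : C • E = (curve27 : WeierstrassCurve K)) : E.localPolynomial R = 1 := by
  obtain ⟨D, hD⟩ := FA.Root.exists_change_minimal (R := R) (curve27 : WeierstrassCurve ℤ) E C
    (by rw [curve27_map]; exact hC)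
  rw [curve27_map, curve27_map] at hD
  set w : K := ((D.u⁻¹ : Kˣ) : K) with hw
  have hΔ : (E.minimal R).Δ = w ^ 12 * -27 := by rw [← hD, variableChange_Δ, curve27_Δ]
  have hc₄ : (E.minimal R).c₄ = 0 := by rw [← hD, variableChange_c₄, curve27_c₄, mul_zero]
  obtain ⟨b, hb⟩ : ∃ b : R, algebraMap R K b = w := by
    by_contra hne
    -- otherwise `w⁻¹` is divisible by `3` in `R` and the discriminant is not integral
    obtain ⟨x, hx⟩ : ∃ x : R, algebraMap R K x = w⁻¹ := by
      rcases ValuationRing.isInteger_or_isInteger R w with ⟨x, hx⟩ | ⟨x, hx⟩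
      · exact absurd ⟨x, hx⟩ hne
      · exact ⟨x, hx⟩
    have hw0 : w ≠ 0 := Units.ne_zero _
    have hxu : ¬ IsUnit x := fun ⟨u, hu⟩ => hne ⟨((u⁻¹ : Rˣ) : R), by
      rw [map_units_inv, hu, hx, inv_inv]⟩
    obtain ⟨y, rfl⟩ := hdvd x hxu
    have hi := integralModel_Δ_eq R (E.minimal R)
    rw [hΔ] at hi
    refine h3 (isUnit_of_dvd_one ⟨-3 ^ 8 * (integralModel R (E.minimal R)).Δ * y ^ 12, ?_⟩)
    apply IsFractionRing.injective R K
    simp only [map_mul, map_neg, map_pow, map_ofNat, map_one] at hx ⊢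
    rw [hi]
    have e : ((3 : K) * algebraMap R K y) * w = 1 := by rw [hx, inv_mul_cancel₀ hw0]
    have e12 : ((3 : K) * algebraMap R K y) ^ 12 * w ^ 12 = 1 := by rw [← mul_pow, e, one_pow]
    linear_combination -e12
  have hnd : ¬ (E.minimal R).HasGoodReduction R := fun h => by
    have e := ((hasGoodReduction_iff R _).mp h).2
    rw [hΔ, ← hb, show (-27 : K) = algebraMap R K (-27) by rw [map_neg, map_ofNat], ← map_pow,
      ← map_mul] at e
    refine ((valuation_lt_one_iff_mem _ _).mpr ((mem_maximalIdeal _).mpr fun hu => h3 ?_)).ne e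
    exact isUnit_of_dvd_unit (dvd_mul_of_dvd_right ⟨-9, by norm_num⟩ _) hu
  have hnm : ¬ (E.minimal R).HasMultiplicativeReduction R := fun h => by
    have e := ((hasMultiplicativeReduction_iff R _).mp h).2.2
    rw [hc₄, map_zero] at e
    exact zero_ne_one e
  rw [localPolynomial, if_neg hnd, if_neg (fun h => hnm ((hasSplitMultiplicativeReduction_iff R _).mp h).1),
    if_neg hnm]

theorem isIntegralModelOf_curve27 :
    (curve27 : WeierstrassCurve ℤ).IsIntegralModelOf (curve27 : WeierstrassCurve ℚ) :=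
  ⟨1, by rw [one_smul, curve27_map]⟩

theorem good_curve27 {p : ℕ} (hp : p.Prime) (hp3 : p ≠ 3) :
    ¬ (p : ℤ) ∣ (curve27 : WeierstrassCurve ℤ).Δ := by
  rw [curve27_Δ, Int.dvd_neg]
  intro h
  have h' : p ∣ 3 ^ 3 := by exact_mod_cast h
  exact hp3 ((Nat.prime_dvd_prime_iff_eq hp Nat.prime_three).mp (hp.dvd_of_dvd_pow h'))

/-- The L-function at the powers of `3`. -/
theorem LFunction_three_pow (k : ℕ) :
    (curve27 : WeierstrassCurve ℚ).LFunction (3 ^ k) = if k = 0 then 1 else 0 := by
  obtain ⟨v, hv⟩ : ∃ v : HeightOneSpectrum (𝓞 ℚ), (primesEquiv v : ℕ) = 3 :=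
    ⟨primesEquiv.symm (⟨3, Nat.prime_three⟩ : Nat.Primes),
      congrArg Subtype.val (primesEquiv.apply_symm_apply (⟨3, Nat.prime_three⟩ : Nat.Primes))⟩
  rw [← hv, FA.Root.LFunction_apply_prime_pow, localPowerSeries]
  have := Fact.mk (primesEquiv v).2
  let e := (Rat.HeightOneSpectrum.adicCompletionIntegers.padicIntEquiv v).toRingEquiv
  have hmax : ∀ x : v.adicCompletionIntegers ℚ, ¬ IsUnit x ↔ ((primesEquiv v : ℕ) :
      v.adicCompletionIntegers ℚ) ∣ x := fun x => by
    have h := Ideal.ext_iff.mp (PadicInt.maximalIdeal_eq_span_p (p := (primesEquiv v : ℕ))) (e x)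
    rw [IsLocalRing.mem_maximalIdeal, mem_nonunits_iff, Ideal.mem_span_singleton] at h
    rw [← map_dvd_iff e (a := ((primesEquiv v : ℕ) : v.adicCompletionIntegers ℚ)), map_natCast, ← h,
      isUnit_map_iff]
  simp only [hv, Nat.cast_ofNat] at hmax
  rw [localPolynomial_curve27 ((hmax 3).mpr dvd_rfl) (fun x hx => (hmax x).mp hx)
    _ 1 (by rw [one_smul]; exact curve27_map _)]
  have h := FA.Root.coeff_invOfUnit_linear 0 k
  rw [map_zero, zero_mul, sub_zero] at h
  rw [h, zero_pow_eq]

/-- **Every coefficient**: the L-function of `y² + y = x³` is `η(3z)² η(9z)²`. -/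
theorem qCoeff_form27_eq_LFunction (n : ℕ) :
    ModularFormClass.qCoeff form27 n = ((curve27 : WeierstrassCurve ℚ).LFunction n : ℂ) := by
  set E : WeierstrassCurve ℚ := curve27
  have hf := form27_isNormalizedEigenform
  have hL := FA.Root.isMultiplicative_LFunction E
  have hpow : ∀ p : ℕ, p.Prime → ∀ k : ℕ,
      ModularFormClass.qCoeff form27 (p ^ k) = (E.LFunction (p ^ k) : ℂ) := by
    intro p hp k
    rcases eq_or_ne p 3 with rfl | hp3
    · rw [LFunction_three_pow]
      rcases k with _ | k
      · rw [pow_zero, hf.qCoeff_one]; simp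
      · rw [if_neg (Nat.succ_ne_zero k), qCoeff_form27, coeff27_eq_zero]
        have : 3 ∣ 3 ^ (k + 1) := dvd_pow_self 3 (Nat.succ_ne_zero k)
        omega
    have := Fact.mk hp
    have hgood := good_curve27 hp hp3
    have hpN : ¬ p ∣ 27 := fun h => hp3 ((Nat.prime_dvd_prime_iff_eq hp Nat.prime_three).mp
      (hp.dvd_of_dvd_pow (show p ∣ 3 ^ 3 from h)))
    have h1 : ModularFormClass.qCoeff form27 p = (E.LFunction p : ℂ) := by
      rw [FA.Root.LFunction_apply_prime E curve27 isIntegralModelOf_curve27 hp hgood, qCoeff_form27]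
      congr 1
      rcases (show p % 3 = 1 ∨ p % 3 = 2 by
        have : ¬ 3 ∣ p := fun h => hp3 ((Nat.prime_dvd_prime_iff_eq Nat.prime_three hp).mp h).symm
        omega) with h | h
      · obtain ⟨A, B, hAB, hA, hap⟩ := exists_apOfModel_curve27 h
        rw [hap, coeff27_prime hp hAB hA]
      · rw [apOfModel_curve27_two h, coeff27_eq_zero (by omega)]
    induction k using Nat.twoStepInduction with
    | zero => rw [pow_zero, hf.qCoeff_one, hL.map_one, Int.cast_one]
    | one => rwa [pow_one]
    | more r ih₀ ih₁ =>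
      rw [hf.qCoeff_prime_pow_of_not_dvd p r hp hpN, h1, ih₀, ih₁,
        FA.Root.LFunction_apply_prime_pow_good E curve27 isIntegralModelOf_curve27 hp hgood r,
        FA.Root.LFunction_apply_prime E curve27 isIntegralModelOf_curve27 hp hgood]
      push_cast
      ring
  induction n using Nat.recOnPosPrimePosCoprime with
  | prime_pow p k hp _ => exact hpow p hp k
  | zero => rw [FA.Root.qCoeff_zero_cuspForm, ArithmeticFunction.map_zero, Int.cast_zero]
  | one => rw [hf.qCoeff_one, hL.map_one, Int.cast_one]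
  | coprime a b _ _ hab iha ihb =>
    rw [hf.qCoeff_mul_of_coprime a b hab, iha, ihb, hL.map_mul_of_coprime hab, Int.cast_mul]

/-- The curve is modular of level 27. -/
theorem isModularModelOfLevel_curve27 :
    (curve27 : WeierstrassCurve ℤ).IsModularModelOfLevel 27 :=
  ⟨form27, form27_isNormalizedEigenform, fun p hp hgood _ => by
    rw [qCoeff_form27_eq_LFunction,
      FA.Root.LFunction_apply_prime _ curve27 isIntegralModelOf_curve27 hp hgood]⟩

end FA.CM

namespace FA.Summary

open FA.CM

/-- **Modularity of `y² + y = x³`**: `WeierstrassCurve.LFunction` of this curve with complex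
multiplication has the coefficients of a normalised eigenform of weight two on `Γ₀(27)`. -/
theorem modularity_27a :
    ∃ f : CuspForm (CongruenceSubgroup.Gamma0 27) 2, f.IsNormalizedEigenform ∧
      ∀ n : ℕ, ModularFormClass.qCoeff f n =
        ((⟨0, 0, 1, 0, 0⟩ : WeierstrassCurve ℚ).LFunction n : ℂ) :=
  ⟨form27, form27_isNormalizedEigenform, qCoeff_form27_eq_LFunction⟩

/-- `y² + y = x³` is modular. -/
theorem isModular_27a : (⟨0, 0, 1, 0, 0⟩ : WeierstrassCurve ℚ).IsModular :=
  ⟨curve27, isIntegralModelOf_curve27, 27, by norm_num, isModularModelOfLevel_curve27⟩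

/-- Its L-series, absolutely convergent for `3/2 < re s`, is entire. -/
theorem entire_continuation_27a :
    ∃ g : ℂ → ℂ, Differentiable ℂ g ∧ ∀ s : ℂ, 3 / 2 < s.re →
      (⟨0, 0, 1, 0, 0⟩ : WeierstrassCurve ℚ).LSeries s = g s := by
  exact exists_entire_of_qCoeff _ (by norm_num) form27 qCoeff_form27_eq_LFunction

end FA.Summary

end
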