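import Fermat.Agent.CM.Form27
import Fermat.Agent.Deform.EigenLift
import Fermat.Agent.S20
import Fermat.Prelude.Def_ModularCurve_GenusNumerics

/-!
# The form of level 27 is an eigenform

The space is one dimensional, so the form is an eigenvector of every Hecke operator.
-/

set_option autoImplicit false

noncomputable section

open CongruenceSubgroup FA.Deform

namespace FA.CM

theorem genusFormula_27 : ModularCurve.genusFormula 27 = 1 := by
  have n9 : ¬ Squarefree 9 := fun h => absurd (h 3 (by norm_num)) (by simp)
  have n27 : ¬ Squarefree 27 := fun h => absurd (h 3 (by norm_num)) (by simp)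
  have s3 : Squarefree 3 := Nat.prime_three.prime.squarefree
  simp only [ModularCurve.genusFormula, ModularCurve.nuTwo, ModularCurve.nuThree,
    ModularCurve.cuspCount, ModularCurve.dedekindPsi, Nat.card_eq_fintype_card]
  rw [show Fintype.card {x : ZMod 27 // x ^ 2 + 1 = 0} = 0 from rfl,
    show Fintype.card {x : ZMod 27 // x ^ 2 + x + 1 = 0} = 0 from rfl,
    show Nat.divisors 27 = {1, 3, 9, 27} by decide]
  simp [Finset.sum_filter, s3, n9, n27, Nat.totient_prime Nat.prime_three]
  norm_num

theorem finrank_cuspForm_27 : Module.finrank ℂ (CuspForm (Gamma0 27) 2) = 1 :=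
  Nat.cast_inj.mp ((Fermat.Agent.S20.result 27).trans (by exact_mod_cast genusFormula_27))

theorem form27_ne_zero : form27 ≠ 0 := fun h => by
  have h1 := qCoeff_form27 1
  rw [h, ← qLin_apply, map_zero, Pi.zero_apply, coeff27_one, Int.cast_one] at h1
  exact zero_ne_one h1

theorem exists_eigenvalue_27 (T : Module.End ℂ (CuspForm (Gamma0 27) 2)) :
    ∃ x : ℂ, T form27 = x • form27 := by
  obtain ⟨x, hx⟩ :=
    (finrank_eq_one_iff_of_nonzero' form27 form27_ne_zero).mp finrank_cuspForm_27 (T form27)
  exact ⟨x, hx.symm⟩

/-- The Hecke recursion. -/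
theorem form27_rec {p : ℕ} (hp : p.Prime) (n : ℕ) :
    qLin 27 form27 (n * p) + (if p ∣ n then cor 27 p * qLin 27 form27 (n / p) else 0) =
      qLin 27 form27 p * qLin 27 form27 n := by
  have key : ∀ (T : Module.End ℂ (CuspForm (Gamma0 27) 2)) (A : ℕ → ℂ),
      (∀ m, qLin 27 (T form27) m = A m) → A n = A 1 * qLin 27 form27 n := fun T A hA => by
    obtain ⟨x, hx⟩ := exists_eigenvalue_27 T
    have h : ∀ m, A m = x * qLin 27 form27 m := fun m => by
      rw [← hA, hx, map_smul, Pi.smul_apply, smul_eq_mul]
    rw [h n, h 1, show qLin 27 form27 1 = 1 by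
      rw [qLin_apply, qCoeff_form27, coeff27_one, Int.cast_one], mul_one]
  by_cases hpN : p ∣ 27
  · have h := key (CuspForm.heckeULin 2 hpN) (fun m => qLin 27 form27 (m * p))
      (fun m => qLin_heckeU hp hpN form27 m)
    simp only [one_mul] at h
    simp [cor, hpN, h]
  · have h := key (CuspForm.heckeTLin 2 hp hpN)
      (fun m => qLin 27 form27 (m * p) + if p ∣ m then (p : ℂ) * qLin 27 form27 (m / p) else 0)
      (fun m => qLin_heckeT hp hpN form27 m)
    rw [one_mul, if_neg (fun h => hp.ne_one (Nat.dvd_one.mp h)), add_zero] at h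
    simpa [cor, hpN] using h

/-- **The form of level 27 is a normalised eigenform.** -/
theorem form27_isNormalizedEigenform : form27.IsNormalizedEigenform := by
  have h1 : ModularFormClass.qCoeff form27 1 = 1 := by
    rw [qCoeff_form27, coeff27_one, Int.cast_one]
  have hpow : ∀ p r : ℕ, p.Prime → ModularFormClass.qCoeff form27 (p ^ (r + 2)) =
      ModularFormClass.qCoeff form27 p * ModularFormClass.qCoeff form27 (p ^ (r + 1)) -
        cor 27 p * ModularFormClass.qCoeff form27 (p ^ r) := fun p r hp => by
    have e := form27_rec hp (p ^ (r + 1))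
    rw [if_pos (dvd_pow_self p (Nat.succ_ne_zero r)), pow_succ p r,
      Nat.mul_div_cancel _ hp.pos] at e
    simp only [qLin_apply] at e
    rw [show p ^ (r + 2) = p ^ r * p * p by ring, pow_succ p r]
    linear_combination e
  refine ⟨h1, mul_of_coprime_of_rec (c := fun n => ModularFormClass.qCoeff form27 n)
    (qLin_zero_apply form27) h1 (fun p hp n => by simpa only [qLin_apply] using form27_rec hp n),
    fun p r hp hpN => ?_, fun p r hp hpN => ?_⟩
  · simpa [cor, hpN] using hpow p r hp
  · simpa [cor, hpN] using hpow p r hp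

end FA.CM

end
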