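import Fermat.Agent.CM.HexTheta

/-!
# `η(3z)² η(9z)²` as a theta series of `ℤ[ω]`

The four ratios `R(τ/3)`, `R((τ+j)/9)` of the two functions are permuted by the translation and
the inversion, so the product of the `R - 1` is invariant and tends to `0`; hence `R = 1`.
-/

set_option autoImplicit false

noncomputable section

namespace FA.CM

open UpperHalfPlane hiding I
open Complex Filter Topology ModularForm
open scoped Real

local notation "ℍₒ" => UpperHalfPlane.upperHalfPlaneSet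

/-! ### The ratios -/

/-- `η(3z)² η(9z)²`. -/
def hexEta (z : ℂ) : ℂ := η ((3 : ℝ) * z) ^ 2 * η ((9 : ℝ) * z) ^ 2

theorem hexEta_ne_zero {z : ℂ} (hz : 0 < z.im) : hexEta z ≠ 0 :=
  mul_ne_zero (pow_ne_zero 2 (eta_mul_ne_zero (by norm_num) hz))
    (pow_ne_zero 2 (eta_mul_ne_zero (by norm_num) hz))

/-- The ratio of the two. -/
def hexRatio (z : ℂ) : ℂ := hexG z / hexEta z

theorem hexRatio_fricke {z : ℂ} (hz : 0 < z.im) : hexRatio (-1 / (27 * z)) = hexRatio z := by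
  have hz0 : z ≠ 0 := fun h => by simp [h] at hz
  have h3 : η ((3 : ℝ) * (-1 / (27 * z))) ^ 2 =
      -I * (((9 : ℝ) : ℂ) * z) * η (((9 : ℝ) : ℂ) * z) ^ 2 := by
    rw [← eta_S_sq (im_smul_pos (by norm_num) hz)]
    congr 2
    push_cast
    field_simp
    ring
  have h9 : η ((9 : ℝ) * (-1 / (27 * z))) ^ 2 =
      -I * (((3 : ℝ) : ℂ) * z) * η (((3 : ℝ) : ℂ) * z) ^ 2 := by
    rw [← eta_S_sq (im_smul_pos (by norm_num) hz)]
    congr 2
    push_cast
    field_simp
    ring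
  rw [hexRatio, hexRatio, hexG_fricke hz, hexEta, hexEta, h3, h9]
  have := hexEta_ne_zero hz
  rw [hexEta] at this
  obtain ⟨a, b⟩ := mul_ne_zero_iff.mp this
  push_cast
  field_simp
  rw [Complex.I_sq]
  ring

theorem hexE_add_third (z : ℂ) (l u : ℤ) :
    hexE (z + 1 / 3) (3 * l + 1) (3 * u) = omega3 * hexE z (3 * l + 1) (3 * u) := by
  rw [hexE, hexE, omega3, ← Complex.exp_add, hexQ,
    show 2 * (π : ℂ) * I * (z + 1 / 3) * ((((3 * l + 1) ^ 2 + (3 * l + 1) * (3 * u) +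
      (3 * u) ^ 2 : ℤ)) : ℂ) = 2 * π * I / 3 + 2 * π * I * z * ((((3 * l + 1) ^ 2 +
      (3 * l + 1) * (3 * u) + (3 * u) ^ 2 : ℤ)) : ℂ) +
      ((3 * l ^ 2 + 2 * l + (3 * l + 1) * u + 3 * u ^ 2 : ℤ) : ℂ) * (2 * π * I) by push_cast; ring,
    Complex.exp_add, Complex.exp_int_mul_two_pi_mul_I, mul_one]

theorem hexRatio_add_third (z : ℂ) : hexRatio (z + 1 / 3) = hexRatio z := by
  have hg : hexG (z + 1 / 3) = omega3 * hexG z := by
    rw [hexG, hexG, ← tsum_mul_left]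
    refine tsum_congr fun v => ?_
    rw [hexE_add_third]
    ring
  have hf : hexEta (z + 1 / 3) = omega3 * hexEta z := by
    rw [hexEta, hexEta,
      show ((3 : ℝ) : ℂ) * (z + 1 / 3) = ((3 : ℝ) : ℂ) * z + ((1 : ℕ) : ℂ) by push_cast; ring,
      show ((9 : ℝ) : ℂ) * (z + 1 / 3) = ((9 : ℝ) : ℂ) * z + ((3 : ℕ) : ℂ) by push_cast; ring,
      eta_add_nat, eta_add_nat, pow_one]
    have e : omega3 = cexp (2 * π * I / 24) ^ 8 := by
      rw [omega3, ← Complex.exp_nat_mul]; congr 1; push_cast; ring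
    rw [e]
    ring
  rw [hexRatio, hexRatio, hg, hf, mul_div_mul_left _ _ omega3_ne_zero]

theorem admissible_linear (r : ℤ) {e : ℤ → ℤ} (he : ∀ n, 0 ≤ e n)
    (hle : ∀ n : ℤ, (n : ℝ) ^ 2 - |(n : ℝ)| ≤ e n) :
    Admissible (fun n => ((6 * n + r : ℤ) : ℂ)) e := by
  have h1 := admissible_of_le he hle 1 6 (a := fun n : ℤ => (6 * n : ℂ)) fun n => by simp
  have h0 := admissible_of_le he hle 0 ‖(r : ℂ)‖ (a := fun _ : ℤ => (r : ℂ)) fun n => by simp
  refine ⟨he, fun T hT => Summable.of_nonneg_of_le (fun n => by positivity) (fun n => ?_)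
    ((h1.2 T hT).add (h0.2 T hT))⟩
  rw [← add_mul]
  push_cast
  exact mul_le_mul_of_nonneg_right (norm_add_le _ _) (Real.exp_pos _).le

theorem admissible_hex {r c₀ : ℤ} (hr : r = 2 ∨ r = 5) (hc : c₀ = if r = 2 then 4 else 1) :
    Admissible (fun n => ((6 * n + r : ℤ) : ℂ)) (fun n => (6 * n + r) ^ 2 - c₀) := by
  refine admissible_linear r (fun n => ?_) fun n => ?_
  · rcases hr with rfl | rfl <;> simp at hc <;> subst hc <;>
      rcases le_or_gt 0 n with h | h <;> nlinarith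
  · rcases le_or_gt 0 n with h | h
    · have : (0 : ℝ) ≤ n := by exact_mod_cast h
      rw [abs_of_nonneg this]
      rcases hr with rfl | rfl <;> simp at hc <;> subst hc <;> push_cast <;> nlinarith
    · have : (n : ℝ) ≤ -1 := by exact_mod_cast (show n ≤ -1 by omega)
      rw [abs_of_neg (by linarith)]
      rcases hr with rfl | rfl <;> simp at hc <;> subst hc <;> push_cast <;> nlinarith

theorem admissible_cst {s c₀ : ℤ} (h : (s = 0 ∧ c₀ = 0) ∨ (s = 1 ∧ c₀ = 3)) :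
    Admissible (fun _ => 1) (fun n => 27 * (2 * n + s) ^ 2 - c₀) := by
  refine admissible_of_le (fun n => ?_) (fun n => ?_) 0 1 fun n => by simp
  · rcases h with ⟨rfl, rfl⟩ | ⟨rfl, rfl⟩ <;> rcases le_or_gt 0 n with h' | h' <;> nlinarith
  · rcases h with ⟨rfl, rfl⟩ | ⟨rfl, rfl⟩ <;> rcases le_or_gt 0 n with h' | h'
    all_goals push_cast
    · have : (0 : ℝ) ≤ n := by exact_mod_cast h'
      rw [abs_of_nonneg this]; nlinarith
    · have : (n : ℝ) ≤ -1 := by exact_mod_cast (show n ≤ -1 by omega)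
      rw [abs_of_neg (by linarith)]; nlinarith
    · have : (0 : ℝ) ≤ n := by exact_mod_cast h'
      rw [abs_of_nonneg this]; nlinarith
    · have : (n : ℝ) ≤ -1 := by exact_mod_cast (show n ≤ -1 by omega)
      rw [abs_of_neg (by linarith)]; nlinarith

/-- `hexG / q` as a combination of series in nonnegative powers. -/
def hexTail (z : ℂ) : ℂ :=
  (qSum (fun n => ((6 * n + 2 : ℤ) : ℂ)) (fun n => (6 * n + 2) ^ 2 - 4) (z / 2) *
      qSum (fun _ => 1) (fun n => 27 * (2 * n + 0) ^ 2 - 0) (z / 2) +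
    qSum (fun n => ((6 * n + 5 : ℤ) : ℂ)) (fun n => (6 * n + 5) ^ 2 - 1) (z / 2) *
      qSum (fun _ => 1) (fun n => 27 * (2 * n + 1) ^ 2 - 3) (z / 2)) / 2

theorem hexG_eq_tail {z : ℂ} (hz : 0 < z.im) : hexG z = cexp (2 * π * I * z) * hexTail z := by
  have hl : ∀ r c₀ : ℤ, linSum r z = cexp (π * I * z * c₀ / 2) *
      qSum (fun n => ((6 * n + r : ℤ) : ℂ)) (fun n => (6 * n + r) ^ 2 - c₀) (z / 2) := fun r c₀ => by
    rw [linSum, qSum, ← tsum_mul_left]
    refine tsum_congr fun n => ?_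
    rw [show π * I * z * ((6 * n + r : ℤ) : ℂ) ^ 2 / 2 = π * I * z * c₀ / 2 +
        π * I * (z / 2) * (((6 * n + r) ^ 2 - c₀ : ℤ) : ℂ) by push_cast; ring, Complex.exp_add]
    ring
  have hc : ∀ s c₀ : ℤ, cstSum s z = cexp (π * I * z * c₀ / 2) *
      qSum (fun _ => 1) (fun n => 27 * (2 * n + s) ^ 2 - c₀) (z / 2) := fun s c₀ => by
    rw [cstSum, qSum, ← tsum_mul_left]
    refine tsum_congr fun n => ?_
    rw [one_mul, ← Complex.exp_add]
    congr 1
    push_cast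
    ring
  rw [hexG_eq_products hz, hl 2 4, hl 5 1, hc 0 0, hc 1 3, hexTail]
  have e1 : cexp (π * I * z * ((4 : ℤ) : ℂ) / 2) * cexp (π * I * z * ((0 : ℤ) : ℂ) / 2) =
      cexp (2 * π * I * z) := by rw [← Complex.exp_add]; congr 1; push_cast; ring
  have e2 : cexp (π * I * z * ((1 : ℤ) : ℂ) / 2) * cexp (π * I * z * ((3 : ℤ) : ℂ) / 2) =
      cexp (2 * π * I * z) := by rw [← Complex.exp_add]; congr 1; push_cast; ring
  linear_combination
    (qSum (fun n => ((6 * n + 2 : ℤ) : ℂ)) (fun n => (6 * n + 2) ^ 2 - 4) (z / 2) *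
      qSum (fun _ => 1) (fun n => 27 * (2 * n + 0) ^ 2 - 0) (z / 2) / 2) * e1 +
    (qSum (fun n => ((6 * n + 5 : ℤ) : ℂ)) (fun n => (6 * n + 5) ^ 2 - 1) (z / 2) *
      qSum (fun _ => 1) (fun n => 27 * (2 * n + 1) ^ 2 - 3) (z / 2) / 2) * e2

theorem differentiableOn_hexG : DifferentiableOn ℂ hexG ℍₒ := by
  have hm : Set.MapsTo (fun z : ℂ => z / 2) ℍₒ ℍₒ := fun z hz => by
    simpa using half_pos (show 0 < z.im from hz)
  have hq : ∀ {a : ℤ → ℂ} {e : ℤ → ℤ}, Admissible a e →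
      DifferentiableOn ℂ (fun z => qSum a e (z / 2)) ℍₒ := fun h =>
    (differentiableOn_qSum h).comp (by fun_prop) hm
  refine DifferentiableOn.congr (f := fun z => cexp (2 * π * I * z) * hexTail z) ?_
    fun z hz => hexG_eq_tail hz
  refine DifferentiableOn.mul (by fun_prop) (DifferentiableOn.div_const ?_ 2)
  exact ((hq (admissible_hex (Or.inl rfl) rfl)).mul (hq (admissible_cst (Or.inl ⟨rfl, rfl⟩)))).add
    ((hq (admissible_hex (Or.inr rfl) rfl)).mul (hq (admissible_cst (Or.inr ⟨rfl, rfl⟩))))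

theorem differentiableOn_hexRatio : DifferentiableOn ℂ hexRatio ℍₒ :=
  differentiableOn_hexG.div
    (((differentiableOn_eta_mul (by norm_num)).pow 2).mul
      ((differentiableOn_eta_mul (by norm_num)).pow 2))
    fun _ hz => hexEta_ne_zero hz

/-- `τ / 2`. -/
def halfUHP (τ : ℍ) : ℍ := ⟨(τ : ℂ) / 2, by simpa using half_pos τ.im_pos⟩

theorem tendsto_halfUHP : Tendsto halfUHP atImInfty atImInfty := by
  refine Filter.tendsto_comap_iff.mpr
    ((Filter.tendsto_comap.atTop_div_const two_pos).congr fun τ => ?_)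
  show _ = ((τ : ℂ) / 2).im
  simp

theorem coe_halfUHP (τ : ℍ) : ((halfUHP τ : ℍ) : ℂ) = (τ : ℂ) / 2 := rfl

theorem tendsto_qSum_half {a : ℤ → ℂ} {e : ℤ → ℤ} (h : Admissible a e) {L : ℂ}
    (hL : (∑' n, if e n = 0 then a n else 0) = L) :
    Tendsto (fun τ : ℍ => qSum a e ((τ : ℂ) / 2)) atImInfty (𝓝 L) :=
  hL ▸ ((tendsto_qSum h).comp tendsto_halfUHP).congr fun τ => by
    rw [Function.comp_apply, coe_halfUHP]

theorem tsum_lin_zero :
    (∑' n : ℤ, if (6 * n + 2) ^ 2 - 4 = 0 then ((6 * n + 2 : ℤ) : ℂ) else 0) = 2 := by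
  rw [tsum_eq_single 0 fun n hn => if_neg fun h => ?_]
  · norm_num
  · have : n * (3 * n + 2) = 0 := by linarith
    rcases mul_eq_zero.mp this with h' | h' <;> omega

theorem tsum_cst_zero : (∑' n : ℤ, if 27 * (2 * n + 0) ^ 2 - 0 = 0 then (1 : ℂ) else 0) = 1 := by
  rw [tsum_eq_single 0 fun n hn => if_neg fun h => hn ?_]
  · simp
  · have : n ^ 2 = 0 := by linarith
    simpa using this

theorem tsum_cst_one : (∑' n : ℤ, if 27 * (2 * n + 1) ^ 2 - 3 = 0 then (1 : ℂ) else 0) = 0 := by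
  rw [tsum_eq_single 0 fun n _ => if_neg fun h => ?_]
  · norm_num
  · have : (2 * n + 1) ^ 2 * 9 = 1 := by linarith
    omega

theorem tendsto_hexTail : Tendsto (fun τ : ℍ => hexTail τ) atImInfty (𝓝 1) := by
  have a := tendsto_qSum_half (admissible_hex (r := 2) (c₀ := 4) (Or.inl rfl) rfl) tsum_lin_zero
  have b := tendsto_qSum_half (admissible_cst (s := 0) (c₀ := 0) (Or.inl ⟨rfl, rfl⟩)) tsum_cst_zero
  have c := tendsto_qSum_half (admissible_hex (r := 5) (c₀ := 1) (Or.inr rfl) rfl) rfl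
  have d := tendsto_qSum_half (admissible_cst (s := 1) (c₀ := 3) (Or.inr ⟨rfl, rfl⟩)) tsum_cst_one
  have h := ((a.mul b).add (c.mul d)).div_const 2
  rw [mul_one, mul_zero, add_zero, div_self two_ne_zero] at h
  exact h

theorem hexRatio_eq_tail {z : ℂ} (hz : 0 < z.im) :
    hexRatio z = hexTail z / (etaP ((3 : ℝ) * z) ^ 2 * etaP ((9 : ℝ) * z) ^ 2) := by
  have he : cexp (π * I * (((3 : ℝ) : ℂ) * z) / 12) ^ 2 *
      cexp (π * I * (((9 : ℝ) : ℂ) * z) / 12) ^ 2 = cexp (2 * π * I * z) := by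
    rw [← Complex.exp_nat_mul, ← Complex.exp_nat_mul, ← Complex.exp_add]
    congr 1
    push_cast
    ring
  rw [hexRatio, hexG_eq_tail hz, hexEta, eta_eq_exp_mul (((3 : ℝ) : ℂ) * z),
    eta_eq_exp_mul (((9 : ℝ) : ℂ) * z), mul_pow, mul_pow, mul_mul_mul_comm (cexp _ ^ 2), he,
    mul_div_mul_left _ _ (Complex.exp_ne_zero _)]

theorem tendsto_hexRatio : Tendsto (fun τ : ℍ => hexRatio τ) atImInfty (𝓝 1) := by
  have h3 := (tendsto_etaP (show (0 : ℝ) < 3 by norm_num)).pow 2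
  have h9 := (tendsto_etaP (show (0 : ℝ) < 9 by norm_num)).pow 2
  have h4 := tendsto_hexTail.div (h3.mul h9) (by norm_num)
  rw [one_pow, mul_one, div_one] at h4
  exact h4.congr fun τ => (hexRatio_eq_tail τ.im_pos).symm

/-- `R(τ/3)`. -/
def hexInf (τ : ℂ) : ℂ := hexRatio (τ / 3)

/-- `R((τ+j)/9)`. -/
def hexCusp (j : ℕ) (τ : ℂ) : ℂ := hexRatio ((τ + (j : ℂ)) / 9)

theorem hexInf_S {τ : ℂ} (hτ : 0 < τ.im) : hexInf (-1 / τ) = hexCusp 0 τ := by
  have hτ0 : τ ≠ 0 := fun h => by simp [h] at hτ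
  rw [hexInf, hexCusp, Nat.cast_zero, add_zero, ← hexRatio_fricke (z := τ / 9) (by simpa using hτ)]
  congr 1
  field_simp
  ring

theorem neg_one_div_neg_one_div {τ : ℂ} : -1 / (-1 / τ) = τ := by
  rw [div_div_eq_mul_div, neg_one_mul, neg_div_neg_eq, div_one]

theorem hexCusp_zero_S {τ : ℂ} (hτ : 0 < τ.im) : hexCusp 0 (-1 / τ) = hexInf τ := by
  rw [← hexInf_S (im_neg_one_div hτ), neg_one_div_neg_one_div]

theorem hexCusp_one_S {τ : ℂ} (hτ : 0 < τ.im) : hexCusp 1 (-1 / τ) = hexCusp 2 τ := by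
  have hτ0 : τ ≠ 0 := fun h => by simp [h] at hτ
  have hm : 0 < (τ - 1).im := by simpa using hτ
  have hm0 : τ - 1 ≠ 0 := fun h => by simp [h] at hm
  have h1 : 0 < ((-1 / τ + 1) / 9).im := by simpa using im_neg_one_div hτ
  have h2 : 0 < ((τ - 1) / 9).im := by simpa using hτ
  have e : -1 / (27 * ((-1 / τ + 1) / 9)) = -1 / (27 * ((τ - 1) / 9)) - 1 / 3 := by
    rw [show -1 / τ + 1 = (τ - 1) / τ by field_simp; ring]
    field_simp
    ring
  rw [hexCusp, hexCusp, Nat.cast_one, ← hexRatio_fricke h1, e,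
    ← hexRatio_add_third (-1 / (27 * ((τ - 1) / 9)) - 1 / 3), sub_add_cancel, hexRatio_fricke h2,
    ← hexRatio_add_third]
  congr 1
  push_cast
  ring

theorem hexCusp_two_S {τ : ℂ} (hτ : 0 < τ.im) : hexCusp 2 (-1 / τ) = hexCusp 1 τ := by
  rw [← hexCusp_one_S (im_neg_one_div hτ), neg_one_div_neg_one_div]

theorem hexInf_T (τ : ℂ) : hexInf (τ + 1) = hexInf τ := by
  rw [hexInf, hexInf, add_div, hexRatio_add_third]

theorem hexCusp_T (j : ℕ) (τ : ℂ) : hexCusp j (τ + 1) = hexCusp (j + 1) τ := by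
  rw [hexCusp, hexCusp]
  congr 1
  push_cast
  ring

theorem hexCusp_three (τ : ℂ) : hexCusp 3 τ = hexCusp 0 τ := by
  rw [hexCusp, hexCusp, Nat.cast_zero, add_zero, ← hexRatio_add_third (τ / 9)]
  congr 1
  push_cast
  ring

theorem differentiableOn_hexRatio_affine {c : ℝ} {d : ℂ} (hc : 0 < c) (hd : d.im = 0) :
    DifferentiableOn ℂ (fun τ => hexRatio ((τ + d) / (c : ℂ))) ℍₒ := by
  refine differentiableOn_hexRatio.comp (by fun_prop) fun τ hτ => ?_
  show 0 < ((τ + d) / (c : ℂ)).im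
  simpa [Complex.div_ofReal_im, hd] using div_pos (show 0 < τ.im from hτ) hc

theorem tendsto_hexRatio_affine {c : ℝ} {d : ℂ} (hc : 0 < c) (hd : d.im = 0) :
    Tendsto (fun τ : ℍ => hexRatio (((τ : ℂ) + d) / (c : ℂ))) atImInfty (𝓝 1) := by
  let φ : ℍ → ℍ := fun τ => ⟨((τ : ℂ) + d) / (c : ℂ), by
    simpa [Complex.div_ofReal_im, hd] using div_pos τ.im_pos hc⟩
  have hφ : Tendsto φ atImInfty atImInfty := by
    refine Filter.tendsto_comap_iff.mpr
      ((Filter.tendsto_comap.atTop_div_const hc).congr fun τ => ?_)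
    show _ = (((τ : ℂ) + d) / (c : ℂ)).im
    simp [Complex.div_ofReal_im, hd]
  have hcoe : ∀ τ, ((φ τ : ℍ) : ℂ) = ((τ : ℂ) + d) / (c : ℂ) := fun τ => rfl
  refine (tendsto_hexRatio.comp hφ).congr fun τ => ?_
  rw [Function.comp_apply, hcoe]

theorem differentiableOn_hexInf : DifferentiableOn ℂ hexInf ℍₒ :=
  (differentiableOn_hexRatio_affine (c := 3) (d := 0) (by norm_num) rfl).congr fun τ _ => by
    simp [hexInf]

theorem differentiableOn_hexCusp (j : ℕ) : DifferentiableOn ℂ (hexCusp j) ℍₒ :=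
  (differentiableOn_hexRatio_affine (c := 9) (d := (j : ℂ)) (by norm_num)
    (Complex.natCast_im j)).congr fun τ _ => by simp [hexCusp]

theorem tendsto_hexInf : Tendsto (fun τ : ℍ => hexInf τ) atImInfty (𝓝 1) :=
  (tendsto_hexRatio_affine (c := 3) (d := 0) (by norm_num) rfl).congr fun τ => by simp [hexInf]

theorem tendsto_hexCusp (j : ℕ) : Tendsto (fun τ : ℍ => hexCusp j τ) atImInfty (𝓝 1) :=
  (tendsto_hexRatio_affine (c := 9) (d := (j : ℂ)) (by norm_num) (Complex.natCast_im j)).congr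
    fun τ => by simp [hexCusp]

/-- The product of the four `R - 1`. -/
def hexProd (τ : ℂ) : ℂ :=
  (hexInf τ - 1) * (hexCusp 0 τ - 1) * ((hexCusp 1 τ - 1) * (hexCusp 2 τ - 1))

theorem hexProd_eq_zero {τ : ℂ} (hτ : 0 < τ.im) : hexProd τ = 0 := by
  have hd : DifferentiableOn ℂ hexProd ℍₒ :=
    ((differentiableOn_hexInf.sub_const 1).mul ((differentiableOn_hexCusp 0).sub_const 1)).mul
      (((differentiableOn_hexCusp 1).sub_const 1).mul ((differentiableOn_hexCusp 2).sub_const 1))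
  refine eq_of_invariant hd (fun w _ => ?_) (fun w hw => ?_) ?_ hτ
  · rw [hexProd, hexProd, hexInf_T, hexCusp_T, hexCusp_T, hexCusp_T, hexCusp_three]
    ring
  · rw [hexProd, hexProd, hexInf_S hw, hexCusp_zero_S hw, hexCusp_one_S hw, hexCusp_two_S hw]
    ring
  · have h := ((tendsto_hexInf.sub_const 1).mul ((tendsto_hexCusp 0).sub_const 1)).mul
      (((tendsto_hexCusp 1).sub_const 1).mul ((tendsto_hexCusp 2).sub_const 1))
    simp only [sub_self, mul_zero] at h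
    exact h.congr fun τ => by rw [hexProd]

/-- **The identity**. -/
theorem hexG_eq_hexEta {z : ℂ} (hz : 0 < z.im) : hexG z = hexEta z := by
  have a0 := analyticOnNhd_of_diff (differentiableOn_hexInf.sub_const 1)
  have aP := fun j => analyticOnNhd_of_diff ((differentiableOn_hexCusp j).sub_const 1)
  have hP : ∀ j : ℕ, (∀ τ ∈ ℍₒ, hexCusp j τ - 1 = 0) → ∀ w : ℂ, 0 < w.im → hexRatio w = 1 :=
    fun j h w hw => by
      have := sub_eq_zero.mp (h (9 * w - j) (show 0 < (9 * w - (j : ℂ)).im by simpa using hw))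
      simpa [hexCusp] using this
  have key : ∀ w : ℂ, 0 < w.im → hexRatio w = 1 := by
    rcases (a0.mul (aP 0)).eq_zero_or_eq_zero_of_mul_eq_zero ((aP 1).mul (aP 2))
      (fun τ hτ => hexProd_eq_zero (show 0 < τ.im from hτ)) isPreconnected_uhp with h | h
    · rcases a0.eq_zero_or_eq_zero_of_mul_eq_zero (aP 0) h isPreconnected_uhp with h' | h'
      · intro w hw
        have := sub_eq_zero.mp (h' (3 * w) (show 0 < (3 * w).im by simpa using hw))
        simpa [hexInf] using this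
      · exact hP 0 h'
    · rcases (aP 1).eq_zero_or_eq_zero_of_mul_eq_zero (aP 2) h isPreconnected_uhp with h' | h'
      · exact hP 1 h'
      · exact hP 2 h'
  exact (div_eq_one_iff_eq (hexEta_ne_zero hz)).mp (key z hz)

end FA.CM

end
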