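import Fermat.Agent.CM.Form32
import Fermat.Agent.CM.HexEta

/-!
# The cusp form `η(3z)² η(9z)²` of level 27

Its cube and its fourth power are exactly invariant under `Γ₀(27)`, so it is invariant; its
`q`-series is that of the elements of `ℤ[ω]` congruent to `1` modulo `3`.
-/

set_option autoImplicit false
set_option linter.style.haveILetI false

noncomputable section

namespace FA.CM

open UpperHalfPlane hiding I
open Complex Filter Topology CongruenceSubgroup ModularForm FA.ModField FA.ModField.EtaQ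
open scoped Real MatrixGroups Manifold

local notation "𝕢" => Function.Periodic.qParam

/-- `η(3z)² η(9z)²`. -/
def cm27 (z : ℍ) : ℂ := η (scaleH 3 z : ℂ) ^ 2 * η (scaleH 9 z : ℂ) ^ 2

theorem cm27_pow (w : ℕ) (z : ℍ) :
    cm27 z ^ w = etaPow w (scaleH 3 z) * etaPow w (scaleH 9 z) := by
  rw [cm27, etaPow, etaPow, mul_pow, ← pow_mul, ← pow_mul]

theorem cm27_ne_zero (z : ℍ) : cm27 z ≠ 0 :=
  mul_ne_zero (pow_ne_zero 2 (eta_ne_zero (scaleH 3 z).im_pos))
    (pow_ne_zero 2 (eta_ne_zero (scaleH 9 z).im_pos))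

theorem cm27_eq_hexEta (z : ℍ) : cm27 z = hexEta (z : ℂ) := by
  rw [cm27, hexEta, coe_scaleH, coe_scaleH]
  norm_num

theorem exists_scaled_of_dvd {N d : ℕ} [NeZero d] (hd : d ∣ N) {g : SL(2, ℤ)}
    (hg : g ∈ Gamma0 N) :
    ∃ g' : SL(2, ℤ), ∃ c : ℤ, g 1 0 = d * c ∧
      (g' : Matrix (Fin 2) (Fin 2) ℤ) = !![g 0 0, (d : ℤ) * g 0 1; c, g 1 1] ∧
      ∀ z : ℍ, scaleH d (g • z) = g' • scaleH d z ∧ denom g' (scaleH d z) = denom g z := by
  rw [Gamma0_mem, ZMod.intCast_zmod_eq_zero_iff_dvd] at hg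
  have hdet : g 0 0 * g 1 1 - g 0 1 * g 1 0 = 1 := by
    have := g.det_coe; rwa [Matrix.det_fin_two] at this
  obtain ⟨c, hc⟩ := (Int.natCast_dvd_natCast.2 hd).trans hg
  obtain ⟨g', hg'⟩ : ∃ g' : SL(2, ℤ),
      (g' : Matrix (Fin 2) (Fin 2) ℤ) = !![g 0 0, (d : ℤ) * g 0 1; c, g 1 1] :=
    ⟨⟨_, by rw [Matrix.det_fin_two_of]; linear_combination hdet + g 0 1 * hc⟩, rfl⟩
  have hc' : ((g 1 0 : ℤ) : ℂ) = (d : ℂ) * c := by exact_mod_cast hc
  refine ⟨g', c, hc, hg', fun z => ⟨?_, ?_⟩⟩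
  · ext
    rw [coe_scaleH, coe_smul_int, coe_smul_int, hg']
    simp only [Matrix.of_apply, Matrix.cons_val', Matrix.cons_val_zero, Matrix.cons_val_one,
      Matrix.empty_val', Matrix.cons_val_fin_one, coe_scaleH, Int.cast_mul, Int.cast_natCast, hc']
    rw [← mul_div_assoc]
    congr 1 <;> ring
  · rw [denom_SL, denom_SL, hg']
    simp only [Matrix.of_apply, Matrix.cons_val', Matrix.cons_val_zero, Matrix.cons_val_one,
      Matrix.empty_val', Matrix.cons_val_fin_one, coe_scaleH, hc']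
    ring

theorem four27 : ∀ a b k d : ZMod 4, a * d + b * k = 1 →
    formula4 a (-b) k d + formula4 a b (-k) d = 0 := by
  decide +kernel

/-- The transformation of the cube and the fourth power. -/
theorem cm27_pow_smul {g : SL(2, ℤ)} (hg : g ∈ Gamma0 27) (z : ℍ) :
    cm27 (g • z) ^ 3 = (denom g z ^ 2 * cm27 z) ^ 3 ∧
      cm27 (g • z) ^ 4 = (denom g z ^ 2 * cm27 z) ^ 4 := by
  obtain ⟨ga, ca, hca, hga, ha⟩ := exists_scaled_of_dvd (d := 3) ⟨9, rfl⟩ hg
  obtain ⟨gb, cb, hcb, hgb, hb⟩ := exists_scaled_of_dvd (d := 9) ⟨3, rfl⟩ hg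
  obtain ⟨k, hk⟩ : (27 : ℤ) ∣ g 1 0 := by
    rw [Gamma0_mem, ZMod.intCast_zmod_eq_zero_iff_dvd] at hg; exact hg
  have hca9 : ca = 9 * k := by push_cast at hca; omega
  have hcb3 : cb = 3 * k := by push_cast at hcb; omega
  have hdet : g 0 0 * g 1 1 - g 0 1 * g 1 0 = 1 := by
    have := g.det_coe; rwa [Matrix.det_fin_two] at this
  have hI : I⁻¹ ^ 4 = 1 := by rw [inv_pow, Complex.I_pow_four, inv_one]
  obtain ⟨a1, a2, a3, a4, a5⟩ := formula_four
  obtain ⟨b1, b2, b3, b4, b5⟩ := formula_three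
  constructor
  · let h : SL(2, ZMod 4) → ZMod 4 := fun x => formula4 (x 0 0) (x 0 1) (x 1 0) (x 1 1)
    have hall : ∀ γ, Good 3 4 h γ := by
      refine good_all 3 4 (by simpa [h] using a1) ⟨fun x => ?_, fun z => ?_⟩ ⟨fun x => ?_, fun z => ?_⟩
      · have hd : x 0 0 * x 1 1 - x 0 1 * x 1 0 = 1 := by
          have := x.det_coe; rwa [Matrix.det_fin_two] at this
        simpa [h, redMod, ModularGroup.S, Matrix.mul_apply, Fin.sum_univ_two] using a3 _ _ _ _ hd
      · rw [etaPow_S, show h (redMod 4 ModularGroup.S) = 1 by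
          simp [h, redMod, ModularGroup.S]; exact a5, denom_SL]
        rw [show (1 : ZMod 4).val = 1 from rfl, pow_one, rootC,
          show (2 : ℂ) * π * I / ((4 : ℕ) : ℂ) = π / 2 * I by push_cast; ring,
          Complex.exp_pi_div_two_mul_I, inv_pow, show (3 : ℕ) = 2 + 1 from rfl, pow_succ,
          Complex.I_sq]
        simp [ModularGroup.S]
      · have hd : x 0 0 * x 1 1 - x 0 1 * x 1 0 = 1 := by
          have := x.det_coe; rwa [Matrix.det_fin_two] at this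
        simpa [h, redMod, ModularGroup.T, Matrix.mul_apply, Fin.sum_univ_two] using a2 _ _ _ _ hd
      · rw [etaPow_T 3 4 rfl, show h (redMod 4 ModularGroup.T) = 1 by
          simp [h, redMod, ModularGroup.T]; exact a4, denom_SL]
        simp [ModularGroup.T, show (1 : ZMod 4).val = 1 from rfl]
    rw [cm27_pow, mul_pow, cm27_pow, (ha z).1, (hb z).1, (hall ga).2, (hall gb).2, (ha z).2,
      (hb z).2]
    have e : h (redMod 4 ga) + h (redMod 4 gb) = 0 := by
      have h27 : (27 : ZMod 4) = -1 := rfl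
      have hd' : ((g 0 0 : ℤ) : ZMod 4) * ((g 1 1 : ℤ) : ZMod 4) +
          ((g 0 1 : ℤ) : ZMod 4) * (k : ZMod 4) = 1 := by
        have := congrArg (Int.cast : ℤ → ZMod 4) hdet
        rw [hk] at this
        push_cast at this
        rw [h27] at this
        linear_combination this
      simpa [h, redMod, hga, hgb, hca9, hcb3, show (9 : ZMod 4) = 1 from rfl,
        show (3 : ZMod 4) = -1 from rfl] using four27 _ _ _ _ hd'
    have hr := rootC_pow_add 4 (h (redMod 4 ga)) (h (redMod 4 gb))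
    rw [e, ZMod.val_zero, pow_zero] at hr
    linear_combination -(denom g z ^ 6 * etaPow 3 (scaleH 3 z) * etaPow 3 (scaleH 9 z)) * hr
  · let h : SL(2, ZMod 3) → ZMod 3 := fun x =>
      (x 0 0 + x 1 1) * x 1 0 - x 0 1 * x 1 1 * (x 1 0 * x 1 0 - 1)
    have hall : ∀ γ, Good 4 3 h γ := by
      refine good_all 4 3 (by simp [h]) ⟨fun x => ?_, fun z => ?_⟩ ⟨fun x => ?_, fun z => ?_⟩
      · have hd : x 0 0 * x 1 1 - x 0 1 * x 1 0 = 1 := by
          have := x.det_coe; rwa [Matrix.det_fin_two] at this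
        simpa [h, redMod, ModularGroup.S, Matrix.mul_apply, Fin.sum_univ_two] using b3 _ _ _ _ hd
      · rw [etaPow_S, hI, show h (redMod 3 ModularGroup.S) = 0 by
          simp [h, redMod, ModularGroup.S], denom_SL]
        simp [ModularGroup.S]
      · have hd : x 0 0 * x 1 1 - x 0 1 * x 1 0 = 1 := by
          have := x.det_coe; rwa [Matrix.det_fin_two] at this
        simpa [h, redMod, ModularGroup.T, Matrix.mul_apply, Fin.sum_univ_two] using b2 _ _ _ _ hd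
      · rw [etaPow_T 4 3 rfl, show h (redMod 3 ModularGroup.T) = 1 by
          simp [h, redMod, ModularGroup.T], denom_SL]
        simp [ModularGroup.T, show (1 : ZMod 3).val = 1 from rfl]
    rw [cm27_pow, mul_pow, cm27_pow, (ha z).1, (hb z).1, (hall ga).2, (hall gb).2, (ha z).2,
      (hb z).2]
    have e : h (redMod 3 ga) + h (redMod 3 gb) = 0 := by
      simp [h, redMod, hga, hgb, hca9, hcb3, show (9 : ZMod 3) = 0 from rfl,
        show (3 : ZMod 3) = 0 from rfl]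
    have hr := rootC_pow_add 3 (h (redMod 3 ga)) (h (redMod 3 gb))
    rw [e, ZMod.val_zero, pow_zero] at hr
    linear_combination -(denom g z ^ 8 * etaPow 4 (scaleH 3 z) * etaPow 4 (scaleH 9 z)) * hr

theorem cm27_slash {g : SL(2, ℤ)} (hg : g ∈ Gamma0 27) : cm27 ∣[(2 : ℤ)] g = cm27 := by
  funext z
  obtain ⟨h3, h4⟩ := cm27_pow_smul hg z
  have hd : denom g z ≠ 0 := denom_ne_zero _ _
  have h0 : (denom g z ^ 2 * cm27 z) ^ 3 ≠ 0 :=
    pow_ne_zero 3 (mul_ne_zero (pow_ne_zero 2 hd) (cm27_ne_zero z))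
  have h : cm27 (g • z) = denom g z ^ 2 * cm27 z :=
    mul_left_cancel₀ h0 (by rw [← pow_succ]; exact (h3 ▸ pow_succ (cm27 (g • z)) 3).symm.trans h4)
  rw [ModularForm.SL_slash_apply, h, zpow_neg, zpow_two]
  field_simp

theorem mdiff_cm27 : MDifferentiable 𝓘(ℂ) 𝓘(ℂ) cm27 := by
  rw [UpperHalfPlane.mdifferentiable_iff]
  refine DifferentiableOn.congr (f := hexEta)
    (((differentiableOn_eta_mul (by norm_num)).pow 2).mul
      ((differentiableOn_eta_mul (by norm_num)).pow 2)) fun z hz => ?_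
  simp [cm27_eq_hexEta, ofComplex_apply_of_im_pos hz]

/-- It vanishes at every cusp. -/
theorem cm27_isZero (γ : SL(2, ℤ)) : IsZeroAtImInfty (cm27 ∣[(2 : ℤ)] γ) := by
  obtain ⟨Fa, hFa, hA⟩ := exists_tendsto_scaled 3 γ
  obtain ⟨Fb, hFb, hB⟩ := exists_tendsto_scaled 9 γ
  have hpow : ∀ z, (cm27 ∣[(2 : ℤ)] γ) z ^ 12 = Fa z * Fb z := fun z => by
    have hd : denom γ z ≠ 0 := denom_ne_zero _ _
    rw [ModularForm.SL_slash_apply, mul_pow, cm27_pow, hA, hB, zpow_neg, zpow_two, inv_pow]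
    field_simp
  have h : Tendsto (fun z => ‖(cm27 ∣[(2 : ℤ)] γ) z‖ ^ 12) atImInfty (𝓝 0) := by
    simp only [← norm_pow, hpow]
    simpa using (hFa.mul hFb).norm
  show Tendsto _ _ _
  rw [tendsto_zero_iff_norm_tendsto_zero]
  have := h.rpow_const (p := ((12 : ℕ) : ℝ)⁻¹) (Or.inr (by positivity))
  rw [Real.zero_rpow (by norm_num)] at this
  exact this.congr fun z => Real.pow_rpow_inv_natCast (norm_nonneg _) (by norm_num)

/-- **The cusp form of level 27.** -/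
def form27 : CuspForm (Gamma0 27) 2 where
  toFun := cm27
  slash_action_eq' := by
    rintro _ ⟨M, hM, rfl⟩
    exact cm27_slash hM
  holo' := mdiff_cm27
  zero_at_cusps' := fun hc => by
    rw [Subgroup.IsArithmetic.isCusp_iff_isCusp_SL2Z] at hc
    exact (OnePoint.isZeroAt_iff_forall_SL2Z hc).mpr fun M _ => cm27_isZero M

theorem coe_form27 : ⇑form27 = cm27 := rfl

/-! ### The `q`-series -/

/-- `n² + nt + t²` at `n = 3l+1`, `t = 3u`. -/
def hexN (v : ℤ × ℤ) : ℕ := (hexQ (3 * v.1 + 1) (3 * v.2)).toNat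

theorem hexQ_nonneg (n t : ℤ) : 0 ≤ hexQ n t := by
  rw [hexQ]; nlinarith [sq_nonneg (2 * n + t), sq_nonneg t]

theorem cast_hexN (v : ℤ × ℤ) : (hexN v : ℤ) = hexQ (3 * v.1 + 1) (3 * v.2) :=
  Int.toNat_of_nonneg (hexQ_nonneg _ _)

theorem four_mul_hexN (v : ℤ × ℤ) :
    4 * (hexN v : ℤ) = (6 * v.1 + 2 + 3 * v.2) ^ 2 + 27 * v.2 ^ 2 := by
  rw [cast_hexN, hexQ]; ring

theorem finite_hexN (N : ℕ) : {v : ℤ × ℤ | hexN v = N}.Finite := by
  refine ((Set.finite_Icc (-(2 * N : ℤ) - 1) (2 * N)).prod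
    (Set.finite_Icc (-(2 * N : ℤ) - 1) (2 * N))).subset fun v hv => ?_
  have h : (N : ℤ) = hexQ (3 * v.1 + 1) (3 * v.2) := by
    rw [← cast_hexN]; exact_mod_cast hv.symm
  rw [hexQ] at h
  simp only [Set.mem_prod, Set.mem_Icc]
  refine ⟨⟨?_, ?_⟩, ?_, ?_⟩ <;>
    nlinarith [sq_nonneg (3 * v.1 + 1 + 3 * v.2), sq_nonneg (3 * v.1 + 1), sq_nonneg (3 * v.2)]

/-- The coefficient of `q^N`. -/
def coeff27 (N : ℕ) : ℤ := ∑ v ∈ (finite_hexN N).toFinset, (3 * v.1 + 1)

theorem hasSum_cm27 (z : ℍ) :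
    HasSum (fun v : ℤ × ℤ => ((3 * v.1 + 1 : ℤ) : ℂ) * 𝕢 1 z ^ hexN v) (cm27 z) := by
  rw [cm27_eq_hexEta, ← hexG_eq_hexEta z.im_pos]
  refine (hasSum_hexG z.im_pos).congr_fun fun v => ?_
  congr 1
  rw [hexE, Function.Periodic.qParam, ← Complex.exp_nat_mul, ← Int.cast_natCast (hexN v), cast_hexN]
  congr 1
  push_cast
  ring

theorem hasQ_cm27 : FA.Eis.HasQ 1 cm27 (PowerSeries.mk fun N => (coeff27 N : ℂ)) := by
  intro τ
  refine ((Equiv.sigmaFiberEquiv hexN).hasSum_iff.mpr (hasSum_cm27 τ)).sigma fun N => ?_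
  have : Fintype {v // hexN v = N} := (finite_hexN N).fintype
  convert hasSum_fintype (fun v : {v // hexN v = N} =>
    ((3 * v.1.1 + 1 : ℤ) : ℂ) * 𝕢 1 (τ : ℂ) ^ hexN v.1) using 1
  · rfl
  rw [PowerSeries.coeff_mk, coeff27, Int.cast_sum, Finset.sum_mul]
  refine (Finset.sum_congr rfl fun v hv => ?_).trans
    (Finset.sum_subtype (F := this) (finite_hexN N).toFinset
      (fun v => Set.Finite.mem_toFinset _)
      (fun v : ℤ × ℤ => ((3 * v.1 + 1 : ℤ) : ℂ) * 𝕢 1 (τ : ℂ) ^ hexN v))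
  rw [(Set.Finite.mem_toFinset _).mp hv]

/-- The coefficients of the form. -/
theorem qCoeff_form27 (N : ℕ) : ModularFormClass.qCoeff form27 N = (coeff27 N : ℂ) := by
  show PowerSeries.coeff N (UpperHalfPlane.qExpansion 1 cm27) = _
  rw [hasQ_cm27.qExpansion_eq one_pos, PowerSeries.coeff_mk]

theorem coeff27_one : coeff27 1 = 1 := by
  have h : (finite_hexN 1).toFinset = {(0, 0)} := by
    ext ⟨l, u⟩
    rw [Set.Finite.mem_toFinset, Set.mem_ofPred_eq, Finset.mem_singleton, Prod.mk.injEq]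
    constructor
    · intro hv
      have h' : (4 : ℤ) = (6 * l + 2 + 3 * u) ^ 2 + 27 * u ^ 2 := by
        rw [← four_mul_hexN (l, u), hv]; norm_num
      have hu : u = 0 := by nlinarith [sq_nonneg (6 * l + 2 + 3 * u)]
      subst hu
      have : l * (3 * l + 2) = 0 := by linarith
      rcases mul_eq_zero.mp this with h | h
      · exact ⟨h, rfl⟩
      · omega
    · rintro ⟨rfl, rfl⟩; simp [hexN, hexQ]
  rw [coeff27, h, Finset.sum_singleton]
  norm_num

/-- All values are `1` modulo `3`. -/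
theorem coeff27_eq_zero {N : ℕ} (h : N % 3 ≠ 1) : coeff27 N = 0 := by
  refine Finset.sum_eq_zero fun v hv => absurd ?_ h
  have hv' : (N : ℤ) = hexQ (3 * v.1 + 1) (3 * v.2) := by
    rw [← cast_hexN]
    exact_mod_cast ((Set.Finite.mem_toFinset _).mp hv).symm
  have : (N : ℤ) = 3 * (3 * v.1 ^ 2 + 2 * v.1 + 3 * v.1 * v.2 + v.2 + 3 * v.2 ^ 2) + 1 := by
    rw [hv', hexQ]; ring
  omega

theorem sq_eq_sq_of_dvd {p : ℕ} (hp : p.Prime) {A B a b : ℤ}
    (h : 4 * (p : ℤ) = A ^ 2 + 27 * B ^ 2) (h' : 4 * (p : ℤ) = a ^ 2 + 27 * b ^ 2) :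
    a ^ 2 = A ^ 2 ∧ b ^ 2 = B ^ 2 := by
  have hfac : (A * b - a * B) * (A * b + a * B) = 4 * p * (b ^ 2 - B ^ 2) := by
    linear_combination B ^ 2 * h' - b ^ 2 * h
  have e : ∀ s : ℤ, s = 1 ∨ s = -1 →
      16 * (p : ℤ) ^ 2 = (A * a + 27 * s * B * b) ^ 2 + 27 * (A * b - s * (a * B)) ^ 2 := by
    intro s hs
    rw [show (16 : ℤ) * (p : ℤ) ^ 2 = (4 * (p : ℤ)) * (4 * (p : ℤ)) by ring]
    nth_rewrite 1 [h]
    rw [h']
    rcases hs with rfl | rfl <;> ring
  have hp0 : (0 : ℤ) < p := by exact_mod_cast hp.pos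
  have hsmall : ∀ x y : ℤ, 16 * (p : ℤ) ^ 2 = y ^ 2 + 27 * x ^ 2 → (p : ℤ) ∣ x → x = 0 := by
    intro x y he hd
    by_contra hx
    obtain ⟨t, rfl⟩ := hd
    have ht : t ≠ 0 := fun h0 => hx (by rw [h0, mul_zero])
    have h1 : 1 ≤ t ^ 2 := sq_pos_of_ne_zero ht
    nlinarith [sq_nonneg y, pow_pos hp0 2]
  have hz : (A * b) ^ 2 = (a * B) ^ 2 := by
    have hd : (p : ℤ) ∣ (A * b - a * B) * (A * b + a * B) := ⟨4 * (b ^ 2 - B ^ 2), by
      rw [hfac]; ring⟩
    rcases (Nat.prime_iff_prime_int.mp hp).dvd_or_dvd hd with hd | hd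
    · have := hsmall _ _ (e 1 (Or.inl rfl)) (by simpa using hd)
      linear_combination (A * b + a * B) * this
    · have := hsmall _ _ (e (-1) (Or.inr rfl)) (by simpa using hd)
      linear_combination (A * b - a * B) * this
  have hb : b ^ 2 = B ^ 2 := by
    have h0 : (4 * p : ℤ) * (b ^ 2 - B ^ 2) = 0 := by rw [← hfac]; linear_combination hz
    exact sub_eq_zero.mp ((mul_eq_zero.mp h0).resolve_left (by positivity))
  exact ⟨by linarith, hb⟩

/-- At a prime `(A² + 27 B²)/4` with `A ≡ 2 (mod 3)` the coefficient is `A`. -/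
theorem coeff27_prime {p : ℕ} (hp : p.Prime) {A B : ℤ}
    (h : 4 * (p : ℤ) = A ^ 2 + 27 * B ^ 2) (hA : A % 3 = 2) : coeff27 p = A := by
  have hpar : (A + B) % 2 = 0 := by
    rw [← Int.even_iff]
    have : Even (A ^ 2 + 27 * B ^ 2) := ⟨2 * p, by rw [← h]; ring⟩
    simpa [Int.even_add, Int.even_pow, Int.even_mul, show ¬ Even (27 : ℤ) by decide] using this
  obtain ⟨l, hl⟩ : ∃ l : ℤ, A = 6 * l + 2 - 3 * B := ⟨(A + 3 * B - 2) / 6, by omega⟩
  obtain ⟨u, rfl⟩ : ∃ u, B = -u := ⟨-B, (neg_neg B).symm⟩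
  have hu : u ≠ 0 := by
    rintro rfl
    refine (Nat.prime_iff_prime_int.mp hp).not_isSquare ⟨3 * l + 1, ?_⟩
    rw [hl] at h
    linarith [show (6 * l + 2 - 3 * -0 : ℤ) ^ 2 = 4 * ((3 * l + 1) * (3 * l + 1)) by ring]
  have hset : (finite_hexN p).toFinset = {(l, u), (l + u, -u)} := by
    ext ⟨m, w⟩
    rw [Set.Finite.mem_toFinset, Set.mem_ofPred_eq]
    simp only [Finset.mem_insert, Finset.mem_singleton, Prod.mk.injEq]
    constructor
    · intro hv
      have h' : 4 * (p : ℤ) = (6 * m + 2 + 3 * w) ^ 2 + 27 * w ^ 2 := by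
        rw [← four_mul_hexN (m, w), hv]
      obtain ⟨ha, hb⟩ := sq_eq_sq_of_dvd hp h h'
      rcases eq_or_eq_neg_of_sq_eq_sq _ _ ha with ha | ha <;>
        rcases eq_or_eq_neg_of_sq_eq_sq _ _ hb with hb | hb <;> omega
    · have hval : ∀ x y : ℤ, 6 * x + 2 + 3 * y = A → y ^ 2 = u ^ 2 → hexN (x, y) = p := by
        intro x y e1 e2
        have := four_mul_hexN (x, y)
        simp only at this
        rw [e1, e2, ← neg_sq u, ← h] at this
        omega
      rintro (⟨rfl, rfl⟩ | ⟨rfl, rfl⟩)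
      · exact hval _ _ (by omega) rfl
      · exact hval _ _ (by omega) (neg_sq u)
  rw [coeff27, hset, Finset.sum_pair (by simp; omega)]
  omega

end FA.CM

end
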