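import Fermat.Agent.CM.ThetaEta
import Fermat.Agent.ModField.Semistable.Mono.Eta.Quot
import Fermat.Agent.Eisenstein.QExp

/-!
# The cusp form `η(4z)² η(8z)²` of level 32

Its cube and its fourth power are exactly invariant under `Γ₀(32)`, so it is invariant; its
`q`-series is that of the Gaussian integers congruent to `1` modulo `2 + 2i`.
-/

set_option autoImplicit false
set_option linter.style.haveILetI false

noncomputable section

namespace FA.CM

open UpperHalfPlane hiding I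
open Complex Filter Topology CongruenceSubgroup ModularForm FA.ModField FA.ModField.EtaQ
open scoped Real MatrixGroups Manifold

local notation "𝕢" => Function.Periodic.qParam

/-- `η(4z)² η(8z)²`. -/
def cm32 (z : ℍ) : ℂ := η (scaleH 4 z : ℂ) ^ 2 * η (scaleH 8 z : ℂ) ^ 2

theorem cm32_pow (w : ℕ) (z : ℍ) :
    cm32 z ^ w = etaPow w (scaleH 4 z) * etaPow w (scaleH 8 z) := by
  rw [cm32, etaPow, etaPow, mul_pow, ← pow_mul, ← pow_mul]

theorem cm32_ne_zero (z : ℍ) : cm32 z ≠ 0 :=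
  mul_ne_zero (pow_ne_zero 2 (eta_ne_zero (scaleH 4 z).im_pos))
    (pow_ne_zero 2 (eta_ne_zero (scaleH 8 z).im_pos))

theorem exists_scaled {d : ℕ} [NeZero d] (hd : d ∣ 32) {g : SL(2, ℤ)} (hg : g ∈ Gamma0 32) :
    ∃ g' : SL(2, ℤ), ∃ c : ℤ, g 1 0 = d * c ∧
      (g' : Matrix (Fin 2) (Fin 2) ℤ) = !![g 0 0, (d : ℤ) * g 0 1; c, g 1 1] ∧
      ∀ z : ℍ, scaleH d (g • z) = g' • scaleH d z ∧ denom g' (scaleH d z) = denom g z := by
  rw [Gamma0_mem, ZMod.intCast_zmod_eq_zero_iff_dvd] at hg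
  have hdet : g 0 0 * g 1 1 - g 0 1 * g 1 0 = 1 := by
    have := g.det_coe; rwa [Matrix.det_fin_two] at this
  obtain ⟨c, hc⟩ := (Int.natCast_dvd_natCast.2 hd).trans hg
  obtain ⟨g', hg'⟩ : ∃ g' : SL(2, ℤ),
      (g' : Matrix (Fin 2) (Fin 2) ℤ) = !![g 0 0, (d : ℤ) * g 0 1; c, g 1 1] :=
    ⟨⟨_, by rw [Matrix.det_fin_two_of]; linear_combination hdet + g 0 1 * hc⟩, rfl⟩
  have hc' : ((g 1 0 : ℤ) : ℂ) = (d : ℂ) * c := by exact_mod_cast hc
  refine ⟨g', c, hc, hg', fun z => ⟨?_, ?_⟩⟩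
  · ext
    rw [coe_scaleH, coe_smul_int, coe_smul_int, hg']
    simp only [Matrix.of_apply, Matrix.cons_val', Matrix.cons_val_zero, Matrix.cons_val_one,
      Matrix.empty_val', Matrix.cons_val_fin_one, coe_scaleH, Int.cast_mul, Int.cast_natCast, hc']
    rw [← mul_div_assoc]
    congr 1 <;> ring
  · rw [denom_SL, denom_SL, hg']
    simp only [Matrix.of_apply, Matrix.cons_val', Matrix.cons_val_zero, Matrix.cons_val_one,
      Matrix.empty_val', Matrix.cons_val_fin_one, coe_scaleH, hc']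
    ring

theorem four_ok : ∀ a d : ZMod 4, a * d = 1 →
    formula4 a 0 0 d + formula4 a 0 0 d = 0 := by
  decide +kernel

/-- The transformation of the cube and the fourth power. -/
theorem cm32_pow_smul {g : SL(2, ℤ)} (hg : g ∈ Gamma0 32) (z : ℍ) :
    cm32 (g • z) ^ 3 = (denom g z ^ 2 * cm32 z) ^ 3 ∧
      cm32 (g • z) ^ 4 = (denom g z ^ 2 * cm32 z) ^ 4 := by
  obtain ⟨ga, ca, hca, hga, ha⟩ := exists_scaled (d := 4) ⟨8, rfl⟩ hg
  obtain ⟨gb, cb, hcb, hgb, hb⟩ := exists_scaled (d := 8) ⟨4, rfl⟩ hg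
  have hcab : ca = 2 * cb := by push_cast at hca hcb; omega
  obtain ⟨k, hk⟩ : (32 : ℤ) ∣ g 1 0 := by
    rw [Gamma0_mem, ZMod.intCast_zmod_eq_zero_iff_dvd] at hg; exact hg
  have hcb4 : cb = 4 * k := by push_cast at hcb; omega
  have hdet : g 0 0 * g 1 1 - g 0 1 * g 1 0 = 1 := by
    have := g.det_coe; rwa [Matrix.det_fin_two] at this
  have hI : I⁻¹ ^ 4 = 1 := by rw [inv_pow, Complex.I_pow_four, inv_one]
  obtain ⟨a1, a2, a3, a4, a5⟩ := formula_four
  obtain ⟨-, b2, b3, -, -⟩ := formula_three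
  constructor
  · let h : SL(2, ZMod 4) → ZMod 4 := fun x => formula4 (x 0 0) (x 0 1) (x 1 0) (x 1 1)
    have hall : ∀ γ, Good 3 4 h γ := by
      refine good_all 3 4 (by simpa [h] using a1) ⟨fun x => ?_, fun z => ?_⟩ ⟨fun x => ?_, fun z => ?_⟩
      · have hd : x 0 0 * x 1 1 - x 0 1 * x 1 0 = 1 := by
          have := x.det_coe; rwa [Matrix.det_fin_two] at this
        simpa [h, redMod, ModularGroup.S, Matrix.mul_apply, Fin.sum_univ_two] using a3 _ _ _ _ hd
      · rw [etaPow_S, show h (redMod 4 ModularGroup.S) = 1 by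
          simp [h, redMod, ModularGroup.S]; exact a5, denom_SL]
        rw [show (1 : ZMod 4).val = 1 from rfl, pow_one, rootC,
          show (2 : ℂ) * π * I / ((4 : ℕ) : ℂ) = π / 2 * I by push_cast; ring,
          Complex.exp_pi_div_two_mul_I, inv_pow, show (3 : ℕ) = 2 + 1 from rfl, pow_succ,
          Complex.I_sq]
        simp [ModularGroup.S]
      · have hd : x 0 0 * x 1 1 - x 0 1 * x 1 0 = 1 := by
          have := x.det_coe; rwa [Matrix.det_fin_two] at this
        simpa [h, redMod, ModularGroup.T, Matrix.mul_apply, Fin.sum_univ_two] using a2 _ _ _ _ hd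
      · rw [etaPow_T 3 4 rfl, show h (redMod 4 ModularGroup.T) = 1 by
          simp [h, redMod, ModularGroup.T]; exact a4, denom_SL]
        simp [ModularGroup.T, show (1 : ZMod 4).val = 1 from rfl]
    rw [cm32_pow, mul_pow, cm32_pow, (ha z).1, (hb z).1, (hall ga).2, (hall gb).2, (ha z).2,
      (hb z).2]
    have e : h (redMod 4 ga) + h (redMod 4 gb) = 0 := by
      have hd' : ((g 0 0 : ℤ) : ZMod 4) * ((g 1 1 : ℤ) : ZMod 4) = 1 := by
        have := congrArg (Int.cast : ℤ → ZMod 4) hdet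
        rw [hk] at this
        push_cast at this
        rw [show (32 : ZMod 4) = 0 from rfl] at this
        linear_combination this
      simpa [h, redMod, hga, hgb, hcab, hcb4, show (8 : ZMod 4) = 0 from rfl,
        show (4 : ZMod 4) = 0 from rfl] using four_ok _ _ hd'
    have hr := rootC_pow_add 4 (h (redMod 4 ga)) (h (redMod 4 gb))
    rw [e, ZMod.val_zero, pow_zero] at hr
    linear_combination -(denom g z ^ 6 * etaPow 3 (scaleH 4 z) * etaPow 3 (scaleH 8 z)) * hr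
  · let h : SL(2, ZMod 3) → ZMod 3 := fun x =>
      (x 0 0 + x 1 1) * x 1 0 - x 0 1 * x 1 1 * (x 1 0 * x 1 0 - 1)
    have hall : ∀ γ, Good 4 3 h γ := by
      refine good_all 4 3 (by simp [h]) ⟨fun x => ?_, fun z => ?_⟩ ⟨fun x => ?_, fun z => ?_⟩
      · have hd : x 0 0 * x 1 1 - x 0 1 * x 1 0 = 1 := by
          have := x.det_coe; rwa [Matrix.det_fin_two] at this
        simpa [h, redMod, ModularGroup.S, Matrix.mul_apply, Fin.sum_univ_two] using b3 _ _ _ _ hd
      · rw [etaPow_S, hI, show h (redMod 3 ModularGroup.S) = 0 by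
          simp [h, redMod, ModularGroup.S], denom_SL]
        simp [ModularGroup.S]
      · have hd : x 0 0 * x 1 1 - x 0 1 * x 1 0 = 1 := by
          have := x.det_coe; rwa [Matrix.det_fin_two] at this
        simpa [h, redMod, ModularGroup.T, Matrix.mul_apply, Fin.sum_univ_two] using b2 _ _ _ _ hd
      · rw [etaPow_T 4 3 rfl, show h (redMod 3 ModularGroup.T) = 1 by
          simp [h, redMod, ModularGroup.T], denom_SL]
        simp [ModularGroup.T, show (1 : ZMod 3).val = 1 from rfl]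
    rw [cm32_pow, mul_pow, cm32_pow, (ha z).1, (hb z).1, (hall ga).2, (hall gb).2, (ha z).2,
      (hb z).2]
    have e : h (redMod 3 ga) + h (redMod 3 gb) = 0 := by
      simp [h, redMod, hga, hgb, hcab, show (4 : ZMod 3) = 1 from rfl,
        show (8 : ZMod 3) = -1 from rfl, show (2 : ZMod 3) = -1 from rfl]
    have hr := rootC_pow_add 3 (h (redMod 3 ga)) (h (redMod 3 gb))
    rw [e, ZMod.val_zero, pow_zero] at hr
    linear_combination -(denom g z ^ 8 * etaPow 4 (scaleH 4 z) * etaPow 4 (scaleH 8 z)) * hr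

theorem cm32_slash {g : SL(2, ℤ)} (hg : g ∈ Gamma0 32) : cm32 ∣[(2 : ℤ)] g = cm32 := by
  funext z
  obtain ⟨h3, h4⟩ := cm32_pow_smul hg z
  have hd : denom g z ≠ 0 := denom_ne_zero _ _
  have h0 : (denom g z ^ 2 * cm32 z) ^ 3 ≠ 0 :=
    pow_ne_zero 3 (mul_ne_zero (pow_ne_zero 2 hd) (cm32_ne_zero z))
  have h : cm32 (g • z) = denom g z ^ 2 * cm32 z :=
    mul_left_cancel₀ h0 (by rw [← pow_succ]; exact (h3 ▸ pow_succ (cm32 (g • z)) 3).symm.trans h4)
  rw [ModularForm.SL_slash_apply, h, zpow_neg, zpow_two]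
  field_simp

theorem mdiff_cm32 : MDifferentiable 𝓘(ℂ) 𝓘(ℂ) cm32 := by
  rw [UpperHalfPlane.mdifferentiable_iff]
  refine DifferentiableOn.congr (f := fun z : ℂ =>
    η (((4 : ℝ) : ℂ) * z) ^ 2 * η (((8 : ℝ) : ℂ) * z) ^ 2)
    (((differentiableOn_eta_mul (by norm_num)).pow 2).mul
      ((differentiableOn_eta_mul (by norm_num)).pow 2)) fun z hz => ?_
  simp [cm32, ofComplex_apply_of_im_pos hz]

theorem discriminant_smul (g : SL(2, ℤ)) (w : ℍ) :
    discriminant (g • w) = denom g w ^ 12 * discriminant w := by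
  have h := congrFun (SlashInvariantForm.slash_action_generators_SL2Z (k := (12 : ℤ))
    discriminant_S_invariant discriminant_T_invariant g) w
  rw [ModularForm.SL_slash_apply, zpow_neg] at h
  have hd : denom g w ≠ 0 := denom_ne_zero _ _
  conv_rhs => rw [← h]
  rw [show (12 : ℤ) = ((12 : ℕ) : ℤ) from rfl, zpow_natCast]
  field_simp

theorem exists_tendsto_scaled (d : ℕ) [NeZero d] (γ : SL(2, ℤ)) :
    ∃ F : ℍ → ℂ, Tendsto F atImInfty (𝓝 0) ∧
      ∀ z : ℍ, etaPow 12 (scaleH d (γ • z)) = denom γ z ^ 12 * F z := by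
  obtain ⟨a, δ, b, g, ha, haδ, hu⟩ := exists_upper_smul d γ
  choose u hu1 hu2 hu3 using hu
  have hδ : 0 < δ := Nat.pos_of_ne_zero fun h => NeZero.ne d (by rw [← haδ, h, mul_zero])
  have hm : Tendsto u atImInfty atImInfty := by
    refine Filter.tendsto_comap_iff.mpr ?_
    refine (Filter.tendsto_comap.const_mul_atTop
      (show (0 : ℝ) < (a : ℝ) / δ by positivity)).congr fun z => ?_
    show _ = (u z : ℂ).im
    rw [hu1, Complex.div_natCast_im]
    simp only [Complex.add_im, Complex.mul_im, Complex.natCast_re, Complex.natCast_im, zero_mul,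
      add_zero, Complex.intCast_im]
    exact div_mul_eq_mul_div _ _ _
  refine ⟨fun z => ((δ : ℂ) ^ 12)⁻¹ * discriminant (u z), ?_, fun z => ?_⟩
  · simpa using ((discriminant_isZeroAtImInfty).comp hm).const_mul ((δ : ℂ) ^ 12)⁻¹
  · have hδC : (δ : ℂ) ≠ 0 := Nat.cast_ne_zero.2 hδ.ne'
    rw [etaPow_twelve, hu2, discriminant_smul, denom_SL γ z, ← hu3 z, mul_pow]
    field_simp

/-- It vanishes at every cusp. -/
theorem cm32_isZero (γ : SL(2, ℤ)) : IsZeroAtImInfty (cm32 ∣[(2 : ℤ)] γ) := by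
  obtain ⟨Fa, hFa, hA⟩ := exists_tendsto_scaled 4 γ
  obtain ⟨Fb, hFb, hB⟩ := exists_tendsto_scaled 8 γ
  have hpow : ∀ z, (cm32 ∣[(2 : ℤ)] γ) z ^ 12 = Fa z * Fb z := fun z => by
    have hd : denom γ z ≠ 0 := denom_ne_zero _ _
    rw [ModularForm.SL_slash_apply, mul_pow, cm32_pow, hA, hB, zpow_neg, zpow_two, inv_pow]
    field_simp
  have h : Tendsto (fun z => ‖(cm32 ∣[(2 : ℤ)] γ) z‖ ^ 12) atImInfty (𝓝 0) := by
    simp only [← norm_pow, hpow]
    simpa using (hFa.mul hFb).norm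
  show Tendsto _ _ _
  rw [tendsto_zero_iff_norm_tendsto_zero]
  have := h.rpow_const (p := ((12 : ℕ) : ℝ)⁻¹) (Or.inr (by positivity))
  rw [Real.zero_rpow (by norm_num)] at this
  exact this.congr fun z => Real.pow_rpow_inv_natCast (norm_nonneg _) (by norm_num)

/-- **The cusp form of level 32.** -/
def form32 : CuspForm (Gamma0 32) 2 where
  toFun := cm32
  slash_action_eq' := by
    rintro _ ⟨M, hM, rfl⟩
    exact cm32_slash hM
  holo' := mdiff_cm32
  zero_at_cusps' := fun hc => by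
    rw [Subgroup.IsArithmetic.isCusp_iff_isCusp_SL2Z] at hc
    exact (OnePoint.isZeroAt_iff_forall_SL2Z hc).mpr fun M _ => cm32_isZero M

/-! ### The `q`-series -/

/-- `(2n+1)² + 4m²`. -/
def gaussN (v : ℤ × ℤ) : ℕ := ((2 * v.1 + 1) ^ 2 + 4 * v.2 ^ 2).toNat

theorem cast_gaussN (v : ℤ × ℤ) : (gaussN v : ℤ) = (2 * v.1 + 1) ^ 2 + 4 * v.2 ^ 2 :=
  Int.toNat_of_nonneg (by positivity)

theorem finite_gaussN (N : ℕ) : {v : ℤ × ℤ | gaussN v = N}.Finite := by
  refine ((Set.finite_Icc (-(N : ℤ) - 1) N).prod (Set.finite_Icc (-(N : ℤ) - 1) N)).subset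
    fun v hv => ?_
  have h : (N : ℤ) = (2 * v.1 + 1) ^ 2 + 4 * v.2 ^ 2 := by
    rw [← cast_gaussN]; exact_mod_cast hv.symm
  simp only [Set.mem_prod, Set.mem_Icc]
  refine ⟨⟨?_, ?_⟩, ?_, ?_⟩ <;> nlinarith [sq_nonneg (2 * v.1 + 1), sq_nonneg v.2]

/-- The coefficient of `q^N`. -/
def coeff32 (N : ℕ) : ℤ :=
  ∑ v ∈ (finite_gaussN N).toFinset, (-1) ^ (v.1 + v.2).natAbs * v.1

theorem neg_one_zpow_natAbs (k : ℤ) : (-1 : ℂ) ^ k = (-1 : ℂ) ^ k.natAbs := by
  rcases Int.natAbs_eq k with h | h <;> conv_lhs => rw [h]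
  · rw [zpow_natCast]
  · rw [zpow_neg, zpow_natCast, ← inv_pow]; norm_num

theorem hasSum_cm32 (z : ℍ) :
    HasSum (fun v : ℤ × ℤ => ((((-1) ^ (v.1 + v.2).natAbs * v.1 : ℤ)) : ℂ) * 𝕢 1 z ^ gaussN v)
      (cm32 z) := by
  set τ : ℂ := (scaleH 8 z : ℂ) with hτd
  have hτ : 0 < τ.im := (scaleH 8 z).im_pos
  have h1 := (admissible_der.summable hτ)
  have h2 := (admissible_four.summable hτ)
  have hp := summable_mul_of_summable_norm h1.norm h2.norm
  have hS : HasSum (fun v : ℤ × ℤ => (derA v.1 * cexp (π * I * τ * triE v.1)) *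
      (altA v.2 * cexp (π * I * τ * sqE v.2))) (qSum derA triE τ * qSum altA sqE τ) :=
    (h1.hasSum.mul h2.hasSum hp)
  have hval : cm32 z =
      cexp (π * I * τ / 4) / 2 * (qSum derA triE τ * qSum altA sqE τ) := by
    have e1 := qSum_der_eq hτ
    have e2 := qSum_four_eq hτ
    have hη : η τ ≠ 0 := eta_ne_zero hτ
    have e4 : (((1 / 2 : ℝ)) : ℂ) * τ = (scaleH 4 z : ℂ) := by
      rw [hτd, coe_scaleH, coe_scaleH]; push_cast; ring
    rw [e4] at e2
    refine mul_right_cancel₀ hη ?_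
    rw [cm32, ← e2, ← hτd]
    linear_combination (-(qSum altA sqE τ * η τ) / 2) * e1
  rw [hval]
  refine (hS.mul_left _).congr_fun fun v => ?_
  have e : 𝕢 1 (z : ℂ) ^ gaussN v =
      cexp (π * I * τ / 4) * cexp (π * I * τ * triE v.1) * cexp (π * I * τ * sqE v.2) := by
    rw [Function.Periodic.qParam, ← Complex.exp_nat_mul, ← Complex.exp_add, ← Complex.exp_add,
      ← Int.cast_natCast (gaussN v), cast_gaussN, hτd, coe_scaleH, triE, sqE]
    congr 1
    push_cast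
    ring
  rw [e]
  push_cast
  rw [← neg_one_zpow_natAbs, zpow_add₀ (by norm_num), derA, altA]
  ring

theorem hasQ_cm32 : FA.Eis.HasQ 1 cm32 (PowerSeries.mk fun N => (coeff32 N : ℂ)) := by
  intro τ
  refine ((Equiv.sigmaFiberEquiv gaussN).hasSum_iff.mpr (hasSum_cm32 τ)).sigma fun N => ?_
  have : Fintype {v // gaussN v = N} := (finite_gaussN N).fintype
  convert hasSum_fintype (fun v : {v // gaussN v = N} =>
    ((((-1) ^ (v.1.1 + v.1.2).natAbs * v.1.1 : ℤ)) : ℂ) * 𝕢 1 (τ : ℂ) ^ gaussN v.1) using 1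
  · rfl
  rw [PowerSeries.coeff_mk, coeff32, Int.cast_sum, Finset.sum_mul]
  refine (Finset.sum_congr rfl fun v hv => ?_).trans
    (Finset.sum_subtype (F := this) (finite_gaussN N).toFinset
      (fun v => Set.Finite.mem_toFinset _)
      (fun v : ℤ × ℤ => ((((-1) ^ (v.1 + v.2).natAbs * v.1 : ℤ)) : ℂ) * 𝕢 1 (τ : ℂ) ^ gaussN v))
  rw [(Set.Finite.mem_toFinset _).mp hv]

/-- The coefficients of the form. -/
theorem qCoeff_form32 (N : ℕ) : ModularFormClass.qCoeff form32 N = (coeff32 N : ℂ) := by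
  show PowerSeries.coeff N (UpperHalfPlane.qExpansion 1 cm32) = _
  rw [hasQ_cm32.qExpansion_eq one_pos, PowerSeries.coeff_mk]

theorem coeff32_one : coeff32 1 = 1 := by
  have h : (finite_gaussN 1).toFinset = {(0, 0), (-1, 0)} := by
    ext ⟨n, m⟩
    rw [Set.Finite.mem_toFinset, Set.mem_ofPred_eq, Finset.mem_insert, Finset.mem_singleton,
      Prod.mk.injEq, Prod.mk.injEq]
    constructor
    · intro hv
      have h' : (1 : ℤ) = (2 * n + 1) ^ 2 + 4 * m ^ 2 := by
        rw [← cast_gaussN (n, m)]; exact_mod_cast hv.symm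
      have hm : m = 0 := by nlinarith [sq_nonneg (2 * n + 1)]
      subst hm
      have : n * (n + 1) = 0 := by linarith
      rcases mul_eq_zero.mp this with h | h
      · exact Or.inl ⟨h, rfl⟩
      · exact Or.inr ⟨by omega, rfl⟩
    · rintro (⟨rfl, rfl⟩ | ⟨rfl, rfl⟩) <;> simp [gaussN]
  rw [coeff32, h]
  decide

/-- No value is `3` modulo `4` or even. -/
theorem coeff32_eq_zero {N : ℕ} (h : N % 4 ≠ 1) : coeff32 N = 0 := by
  refine Finset.sum_eq_zero fun v hv => absurd ?_ h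
  have hv' : (N : ℤ) = (2 * v.1 + 1) ^ 2 + 4 * v.2 ^ 2 := by
    rw [← cast_gaussN]
    exact_mod_cast ((Set.Finite.mem_toFinset _).mp hv).symm
  have : (N : ℤ) = 4 * (v.1 ^ 2 + v.1 + v.2 ^ 2) + 1 := by rw [hv']; ring
  omega

/-- At a prime `(2k+1)² + 4b²` the coefficient is `±2 (2k+1)`. -/
theorem coeff32_prime {p : ℕ} (hp : p.Prime) {k b : ℤ}
    (h : (p : ℤ) = (2 * k + 1) ^ 2 + 4 * b ^ 2) :
    coeff32 p = 2 * (-1) ^ (k + b).natAbs * (2 * k + 1) := by
  have hb : b ≠ 0 := by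
    rintro rfl
    refine (Nat.prime_iff_prime_int.mp hp).not_isSquare ⟨2 * k + 1, ?_⟩
    rw [h]; ring
  have hset : (finite_gaussN p).toFinset =
      {(k, b), (k, -b), (-1 - k, b), (-1 - k, -b)} := by
    ext ⟨n, m⟩
    rw [Set.Finite.mem_toFinset, Set.mem_ofPred_eq]
    simp only [Finset.mem_insert, Finset.mem_singleton, Prod.mk.injEq]
    constructor
    · intro hv
      have h' : (p : ℤ) = (2 * n + 1) ^ 2 + 4 * m ^ 2 := by
        rw [← cast_gaussN (n, m)]; exact_mod_cast hv.symm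
      set a := 2 * k + 1
      set c := 2 * n + 1 with hc
      have hfac : (a * m - b * c) * (a * m + b * c) = p * (m ^ 2 - b ^ 2) := by
        linear_combination b ^ 2 * h' - m ^ 2 * h
      have e1 : (p : ℤ) ^ 2 = (a * c + 4 * b * m) ^ 2 + 4 * (a * m - b * c) ^ 2 := by
        rw [pow_two]
        nth_rewrite 1 [h]
        rw [h']; ring
      have e2 : (p : ℤ) ^ 2 = (a * c - 4 * b * m) ^ 2 + 4 * (a * m + b * c) ^ 2 := by
        rw [pow_two]
        nth_rewrite 1 [h]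
        rw [h']; ring
      have hp0 : (0 : ℤ) < p := by exact_mod_cast hp.pos
      have hsmall : ∀ x y : ℤ, (p : ℤ) ^ 2 = y ^ 2 + 4 * x ^ 2 → (p : ℤ) ∣ x → x = 0 := by
        intro x y he hd
        by_contra hx
        obtain ⟨t, rfl⟩ := hd
        have : 0 < t ^ 2 := sq_pos_of_ne_zero (fun h0 => hx (by rw [h0, mul_zero]))
        nlinarith [sq_nonneg y]
      have hz : (a * m) ^ 2 = (b * c) ^ 2 := by
        rcases (Nat.prime_iff_prime_int.mp hp).dvd_or_dvd ⟨_, hfac⟩ with hd | hd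
        · linear_combination (a * m + b * c) * hsmall _ _ e1 hd
        · linear_combination (a * m - b * c) * hsmall _ _ e2 hd
      have hmb : m ^ 2 = b ^ 2 := by
        have : (p : ℤ) * (m ^ 2 - b ^ 2) = 0 := by rw [← hfac]; linear_combination hz
        have := (mul_eq_zero.mp this).resolve_left hp0.ne'
        linarith
      have hca : c ^ 2 = a ^ 2 := by linarith
      rcases eq_or_eq_neg_of_sq_eq_sq _ _ hmb with rfl | rfl <;>
        rcases eq_or_eq_neg_of_sq_eq_sq _ _ hca with hh | hh <;> simp only [hc, a] at hh <;>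
        simp <;> omega
    · have hval : ∀ x y : ℤ, (2 * x + 1) ^ 2 + 4 * y ^ 2 = p → gaussN (x, y) = p := fun x y e =>
        Nat.cast_inj.mp ((cast_gaussN (x, y)).trans e)
      rintro (⟨e₁, e₂⟩ | ⟨e₁, e₂⟩ | ⟨e₁, e₂⟩ | ⟨e₁, e₂⟩) <;> refine hval _ _ ?_ <;>
        rw [h, e₁, e₂] <;> ring
  have hne : k ≠ -1 - k := by omega
  have hb' : b ≠ -b := by omega
  rw [coeff32, hset, Finset.sum_insert (by simp [hb', hne]), Finset.sum_insert (by simp [hne]),
    Finset.sum_insert (by simp [hb']), Finset.sum_singleton]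
  have e : ∀ x y : ℤ, Even (x - y) → (-1 : ℤ) ^ x.natAbs = (-1) ^ y.natAbs := fun x y hxy => by
    rw [neg_one_pow_eq_pow_mod_two, neg_one_pow_eq_pow_mod_two (n := y.natAbs)]
    congr 1
    obtain ⟨t, ht⟩ := hxy
    omega
  have e' : ∀ x y : ℤ, Odd (x - y) → (-1 : ℤ) ^ x.natAbs = -(-1) ^ y.natAbs := fun x y hxy => by
    rw [show -(-1 : ℤ) ^ y.natAbs = (-1) ^ (y.natAbs + 1) by ring, neg_one_pow_eq_pow_mod_two,
      neg_one_pow_eq_pow_mod_two (n := y.natAbs + 1)]
    congr 1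
    obtain ⟨t, ht⟩ := hxy
    omega
  rw [e (k + -b) (k + b) ⟨-b, by ring⟩, e' (-1 - k + b) (k + b) ⟨-1 - k, by ring⟩,
    e' (-1 - k + -b) (k + b) ⟨-1 - k - b, by ring⟩]
  ring

end FA.CM

end
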