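import Fermat.Agent.CM.ThetaEta

/-!
# The theta series of `ℤ[ω]`

`∑ (3l+1) q^(n²+nt+t²)`, over `n = 3l+1`, `t = 3u`, is a combination of products of one-variable
theta series, and Jacobi inversion of these shows that `z ↦ -1/(27z)` takes it to `-27 z²` times
itself.
-/

set_option autoImplicit false

noncomputable section

namespace FA.CM

open UpperHalfPlane hiding I
open Complex Filter Topology ModularForm
open scoped Real

local notation "ℍₒ" => UpperHalfPlane.upperHalfPlaneSet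

/-- `n² + n t + t²`. -/
def hexQ (n t : ℤ) : ℤ := n ^ 2 + n * t + t ^ 2

/-- `q^(n²+nt+t²)`. -/
def hexE (z : ℂ) (n t : ℤ) : ℂ := cexp (2 * π * I * z * (hexQ n t : ℂ))

/-- The series `∑ (3l+1) q^(n²+nt+t²)`. -/
def hexG (z : ℂ) : ℂ := ∑' v : ℤ × ℤ, ((3 * v.1 + 1 : ℤ) : ℂ) * hexE z (3 * v.1 + 1) (3 * v.2)

/-- `∑_k (6k+r) e^(π i z (6k+r)²/2)`. -/
def linSum (r : ℤ) (z : ℂ) : ℂ :=
  ∑' k : ℤ, ((6 * k + r : ℤ) : ℂ) * cexp (π * I * z * ((6 * k + r : ℤ) : ℂ) ^ 2 / 2)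

/-- `∑_j e^(27 π i z (2j+s)²/2)`. -/
def cstSum (s : ℤ) (z : ℂ) : ℂ :=
  ∑' j : ℤ, cexp (27 * π * I * z * ((2 * j + s : ℤ) : ℂ) ^ 2 / 2)

theorem im_smul_pos {c : ℝ} (hc : 0 < c) {z : ℂ} (hz : 0 < z.im) : 0 < ((c : ℂ) * z).im := by
  simpa using mul_pos hc hz

theorem hasSum_lin (r : ℤ) {z : ℂ} (hz : 0 < z.im) :
    HasSum (fun k : ℤ => ((6 * k + r : ℤ) : ℂ) * cexp (π * I * z * ((6 * k + r : ℤ) : ℂ) ^ 2 / 2))
      (cexp (π * I * z * (r : ℂ) ^ 2 / 2) * (6 / (2 * π * I) * jacobiTheta₂' (3 * r * z) (18 * z) +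
        r * jacobiTheta₂ (3 * r * z) (18 * z))) := by
  have h18 : 0 < (18 * z : ℂ).im := by simpa using hz
  refine ((((hasSum_jacobiTheta₂'_term (3 * r * z) h18).mul_left (6 / (2 * π * I))).add
    ((hasSum_jacobiTheta₂_term (3 * r * z) h18).mul_left (r : ℂ))).mul_left _).congr_fun fun k => ?_
  have hpi : (2 * π * I : ℂ) ≠ 0 := Complex.two_pi_I_ne_zero
  rw [jacobiTheta₂'_term, jacobiTheta₂_term, show π * I * z * ((6 * k + r : ℤ) : ℂ) ^ 2 / 2 =
      π * I * z * (r : ℂ) ^ 2 / 2 + (2 * π * I * k * (3 * r * z) + π * I * k ^ 2 * (18 * z)) by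
    push_cast; ring, Complex.exp_add]
  push_cast
  field_simp

theorem hasSum_cst (s : ℤ) {z : ℂ} (hz : 0 < z.im) :
    HasSum (fun j : ℤ => cexp (27 * π * I * z * ((2 * j + s : ℤ) : ℂ) ^ 2 / 2))
      (cexp (27 * π * I * z * (s : ℂ) ^ 2 / 2) * jacobiTheta₂ (27 * s * z) (54 * z)) := by
  have h54 : 0 < (54 * z : ℂ).im := by simpa using hz
  refine ((hasSum_jacobiTheta₂_term (27 * s * z) h54).mul_left _).congr_fun fun j => ?_
  rw [jacobiTheta₂_term, ← Complex.exp_add]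
  congr 1
  push_cast
  ring

/-- Splitting the second coordinate into classes. -/
theorem tsum_classes (N : ℕ) [NeZero N] {F : ℤ × ℤ → ℂ} (hF : Summable F) :
    ∑' v, F v = ∑ c : Fin N, ∑' v : ℤ × ℤ, F (v.1, v.2 * N + (c : ℕ)) := by
  let e : Fin N × (ℤ × ℤ) ≃ ℤ × ℤ :=
    ((Equiv.prodAssoc ℤ ℤ (Fin N)).symm.trans (Equiv.prodComm _ _)).symm.trans
      ((Equiv.refl ℤ).prodCongr (Int.divModEquiv N).symm)
  have he : ∀ x, e x = (x.2.1, x.2.2 * N + (x.1 : ℕ)) := fun x => by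
    simp [e, Int.divModEquiv]
  have h : Summable fun x => F (e x) := e.summable_iff.mpr hF
  rw [← e.tsum_eq, h.tsum_prod, tsum_fintype]
  simp only [he]

/-- `ω`. -/
def omega3 : ℂ := cexp (2 * π * I / 3)

theorem omega3_pow_three : omega3 ^ 3 = 1 := by
  rw [omega3, ← Complex.exp_nat_mul]
  convert Complex.exp_two_pi_mul_I using 2
  push_cast
  ring

theorem omega3_ne_zero : omega3 ≠ 0 := Complex.exp_ne_zero _

theorem omega3_sub_sq : omega3 - omega3 ^ 2 = (Real.sqrt 3 : ℂ) * I := by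
  have h1 : omega3 = -cexp (-(π * I / 3)) := by
    rw [omega3, show ∀ x : ℂ, -cexp x = cexp (x + π * I) from fun x => by
      rw [Complex.exp_add, Complex.exp_pi_mul_I]; ring]
    congr 1
    ring
  have h2 : omega3 ^ 2 = -cexp (π * I / 3) := by
    rw [omega3, ← Complex.exp_nat_mul, show ∀ x : ℂ, -cexp x = cexp (x + π * I) from fun x => by
      rw [Complex.exp_add, Complex.exp_pi_mul_I]; ring]
    congr 1
    push_cast
    ring
  rw [h2, h1, show -(π * I / 3 : ℂ) = (-(π / 3) : ℝ) * I by push_cast; ring,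
    show (π * I / 3 : ℂ) = ((π / 3 : ℝ) : ℂ) * I by push_cast; ring, Complex.exp_mul_I,
    Complex.exp_mul_I, ← Complex.ofReal_cos, ← Complex.ofReal_sin, ← Complex.ofReal_cos,
    ← Complex.ofReal_sin, Real.cos_neg, Real.sin_neg, Real.cos_pi_div_three,
    Real.sin_pi_div_three]
  push_cast
  ring

theorem omega3_zpow (l : ℤ) (c : ℕ) : omega3 ^ (l * 3 + (c : ℤ)) = omega3 ^ c := by
  rw [zpow_add₀ omega3_ne_zero, zpow_natCast, mul_comm l, zpow_mul,
    show omega3 ^ (3 : ℤ) = 1 by exact_mod_cast omega3_pow_three, one_zpow, one_mul]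

theorem omega3_zpow_two (l : ℤ) : omega3 ^ (l * 3 + 2) = omega3 ^ 2 := by
  exact_mod_cast omega3_zpow l 2

section sums

variable {z : ℂ}

/-- The terms of the product of the two dual series. -/
def dualTerm (z : ℂ) (v : ℤ × ℤ) : ℂ :=
  (v.1 : ℂ) * cexp (3 * π * I * z * (v.1 : ℂ) ^ 2 / 2) * cexp (π * I * z * (v.2 : ℂ) ^ 2 / 2)

theorem summable_norm_dualTerm (hz : 0 < z.im) : Summable fun v => ‖dualTerm z v‖ := by
  have h1 : 0 < (3 * z / 2 : ℂ).im := by simpa using hz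
  have h2 : 0 < (z / 2 : ℂ).im := by simpa using hz
  refine (summable_mul_of_summable_norm
    (hasSum_jacobiTheta₂'_term 0 h1).summable.norm.norm
    (hasSum_jacobiTheta₂_term 0 h2).summable.norm.norm).norm.mul_left (‖(2 * π * I : ℂ)‖⁻¹)
    |>.congr fun v => ?_
  have hpi : ‖(2 * π * I : ℂ)‖ ≠ 0 := norm_ne_zero_iff.mpr Complex.two_pi_I_ne_zero
  simp only [jacobiTheta₂'_term, jacobiTheta₂_term, mul_zero, zero_add, norm_mul, norm_norm,
    dualTerm]
  rw [show π * I * (v.1 : ℂ) ^ 2 * (3 * z / 2) = 3 * π * I * z * (v.1 : ℂ) ^ 2 / 2 by ring,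
    show π * I * (v.2 : ℂ) ^ 2 * (z / 2) = π * I * z * (v.2 : ℂ) ^ 2 / 2 by ring]
  simp only [norm_mul] at hpi
  field_simp

theorem hexE_eq (z : ℂ) (n t : ℤ) : hexE z n t =
    cexp (3 * π * I * z * (n : ℂ) ^ 2 / 2) * cexp (π * I * z * ((n + 2 * t : ℤ) : ℂ) ^ 2 / 2) := by
  rw [hexE, ← Complex.exp_add, hexQ]
  congr 1
  push_cast
  ring

theorem hexE_symm (z : ℂ) (n t : ℤ) : hexE z t n = hexE z n t := by
  rw [hexE, hexE, hexQ, hexQ]; ring_nf

theorem injective_shear : Function.Injective fun v : ℤ × ℤ => (v.1, v.1 + 2 * v.2) := by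
  rintro ⟨a, b⟩ ⟨c, d⟩ h
  simp only [Prod.mk.injEq] at h ⊢
  omega

theorem summable_fst_hexE (hz : 0 < z.im) :
    Summable fun v : ℤ × ℤ => ‖(v.1 : ℂ) * hexE z v.1 v.2‖ :=
  ((summable_norm_dualTerm hz).comp_injective injective_shear).congr fun v => by
    simp only [Function.comp_apply, dualTerm]
    rw [mul_assoc, ← hexE_eq]

theorem summable_snd_hexE (hz : 0 < z.im) :
    Summable fun v : ℤ × ℤ => ‖(v.2 : ℂ) * hexE z v.1 v.2‖ :=
  ((summable_fst_hexE hz).comp_injective Prod.swap_injective).congr fun v => by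
    simp only [Function.comp_apply, Prod.fst_swap, Prod.snd_swap, hexE_symm]

theorem injective_three : Function.Injective fun v : ℤ × ℤ => (3 * v.1 + 1, 3 * v.2) := by
  rintro ⟨a, b⟩ ⟨c, d⟩ h
  simp only [Prod.mk.injEq] at h ⊢
  omega

theorem hasSum_hexG (hz : 0 < z.im) :
    HasSum (fun v : ℤ × ℤ => ((3 * v.1 + 1 : ℤ) : ℂ) * hexE z (3 * v.1 + 1) (3 * v.2)) (hexG z) :=
  (((summable_fst_hexE hz).comp_injective injective_three).of_norm).hasSum

theorem summable_snd_three (hz : 0 < z.im) :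
    Summable fun v : ℤ × ℤ => ((3 * v.2 : ℤ) : ℂ) * hexE z (3 * v.1 + 1) (3 * v.2) :=
  ((summable_snd_hexE hz).comp_injective injective_three).of_norm

/-- The same series as a combination of products of one-variable series. -/
theorem hexG_eq_products (hz : 0 < z.im) :
    hexG z = (linSum 2 z * cstSum 0 z + linSum 5 z * cstSum 1 z) / 2 := by
  have h1 := hasSum_hexG hz
  have h2 := summable_snd_three hz
  have hodd : ∑' v : ℤ × ℤ, ((3 * v.2 : ℤ) : ℂ) * hexE z (3 * v.1 + 1) (3 * v.2) = 0 := by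
    let e : ℤ × ℤ ≃ ℤ × ℤ :=
      { toFun := fun v => (v.1 + v.2, -v.2)
        invFun := fun v => (v.1 + v.2, -v.2)
        left_inv := fun v => by ext <;> simp
        right_inv := fun v => by ext <;> simp }
    have h := e.tsum_eq fun v : ℤ × ℤ => ((3 * v.2 : ℤ) : ℂ) * hexE z (3 * v.1 + 1) (3 * v.2)
    have he : ∀ v : ℤ × ℤ, ((3 * (e v).2 : ℤ) : ℂ) * hexE z (3 * (e v).1 + 1) (3 * (e v).2) =
        -(((3 * v.2 : ℤ) : ℂ) * hexE z (3 * v.1 + 1) (3 * v.2)) := fun v => by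
      simp only [e, Equiv.coe_fn_mk, hexE, hexQ]
      push_cast
      ring_nf
    rw [tsum_congr he, tsum_neg] at h
    linear_combination (-1 / 2 : ℂ) * h
  -- the terms with the symmetric weight `6 l + 2 + 3 u`
  set F : ℤ × ℤ → ℂ := fun v =>
    ((6 * v.1 + 2 + 3 * v.2 : ℤ) : ℂ) * hexE z (3 * v.1 + 1) (3 * v.2) with hFdef
  have hFs : Summable F := ((h1.summable.mul_left 2).add h2).congr fun v => by
    simp only [hFdef]; push_cast; ring
  have hF : ∑' v, F v = 2 * hexG z := by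
    rw [tsum_congr fun v => show F v = 2 * (((3 * v.1 + 1 : ℤ) : ℂ) * hexE z (3 * v.1 + 1)
        (3 * v.2)) + ((3 * v.2 : ℤ) : ℂ) * hexE z (3 * v.1 + 1) (3 * v.2) by
          simp only [hFdef]; push_cast; ring,
      (h1.summable.mul_left 2).tsum_add h2, tsum_mul_left, hodd, add_zero, h1.tsum_eq]
  let e : ℤ × ℤ ≃ ℤ × ℤ :=
    { toFun := fun v => (v.1 - v.2, v.2)
      invFun := fun v => (v.1 + v.2, v.2)
      left_inv := fun v => by ext <;> simp
      right_inv := fun v => by ext <;> simp }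
  have key : ∀ r s : ℤ, r = 2 + 3 * s →
      ∑' v : ℤ × ℤ, F (v.1, v.2 * 2 + s) = linSum r z * cstSum s z := by
    intro r s hrs
    have hl := (hasSum_lin r hz).summable
    have hc := (hasSum_cst s hz).summable
    rw [linSum, cstSum, hl.tsum_mul_tsum hc (summable_mul_of_summable_norm hl.norm hc.norm),
      ← e.tsum_eq]
    refine tsum_congr fun v => ?_
    simp only [e, Equiv.coe_fn_mk, hFdef]
    rw [mul_assoc, ← Complex.exp_add, hexE, hexQ, hrs]
    congr 1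
    · push_cast; ring
    · congr 1; push_cast; ring
  rw [tsum_classes 2 hFs, Fin.sum_univ_two] at hF
  simp only [Fin.val_zero, Fin.val_one, Nat.cast_zero, Nat.cast_one, Nat.cast_ofNat] at hF
  rw [key 2 0 (by norm_num), key 5 1 (by norm_num)] at hF
  linear_combination (-1 / 2 : ℂ) * hF

/-- The sum over all `n`, `t` with the weight `n ω^n`. -/
theorem dual_sum_eq (hz : 0 < z.im) :
    ∑' v : ℤ × ℤ, omega3 ^ v.1 * ((v.1 : ℂ) * hexE z v.1 v.2) =
      (omega3 - omega3 ^ 2) * (2 * hexG z) := by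
  have hnorm : ∀ n : ℤ, ‖omega3 ^ n‖ = 1 := fun n => by
    rw [norm_zpow, omega3, Complex.norm_exp]
    simp
  have hs : Summable fun v : ℤ × ℤ => (v.1 : ℂ) * hexE z v.1 v.2 := (summable_fst_hexE hz).of_norm
  have hsw : Summable fun v : ℤ × ℤ => omega3 ^ v.1 * ((v.1 : ℂ) * hexE z v.1 v.2) :=
    ((summable_fst_hexE hz).congr fun v => by rw [norm_mul (omega3 ^ v.1), hnorm, one_mul]).of_norm
  -- the classes of `n`
  let A : ℕ → ℂ := fun c => ∑' v : ℤ × ℤ, ((v.2 * 3 + c : ℤ) : ℂ) * hexE z (v.2 * 3 + c) v.1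
  have hswap := hsw.comp_injective Prod.swap_injective
  rw [← (Equiv.prodComm ℤ ℤ).tsum_eq]
  simp only [Equiv.prodComm_apply, Prod.fst_swap, Prod.snd_swap]
  rw [tsum_classes 3 (F := fun v : ℤ × ℤ => omega3 ^ v.2 * ((v.2 : ℂ) * hexE z v.2 v.1))
    hswap, Fin.sum_univ_three]
  simp only [Fin.val_zero, Fin.val_one, Fin.val_two, Nat.cast_ofNat, omega3_zpow, omega3_zpow_two, tsum_mul_left]
  rw [show (∑' v : ℤ × ℤ, ((v.2 * 3 + ((0 : ℕ) : ℤ) : ℤ) : ℂ) *
      hexE z (v.2 * 3 + ((0 : ℕ) : ℤ)) v.1) = 0 from ?_]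
  rotate_left
  · let e : ℤ × ℤ ≃ ℤ × ℤ :=
      { toFun := fun v => (v.1 + 3 * v.2, -v.2)
        invFun := fun v => (v.1 + 3 * v.2, -v.2)
        left_inv := fun v => by ext <;> simp
        right_inv := fun v => by ext <;> simp }
    have h := e.tsum_eq fun v : ℤ × ℤ => ((v.2 * 3 + ((0 : ℕ) : ℤ) : ℤ) : ℂ) *
      hexE z (v.2 * 3 + ((0 : ℕ) : ℤ)) v.1
    rw [tsum_congr fun v => show _ = -(((v.2 * 3 + ((0 : ℕ) : ℤ) : ℤ) : ℂ) *
        hexE z (v.2 * 3 + ((0 : ℕ) : ℤ)) v.1) by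
      simp only [e, Equiv.coe_fn_mk, hexE, hexQ]; push_cast; ring_nf, tsum_neg] at h
    linear_combination (-1 / 2 : ℂ) * h
  have h2 : A 2 = -A 1 := by
    let e : ℤ × ℤ ≃ ℤ × ℤ :=
      { toFun := fun v => (v.1 + 3 * v.2 + 1, -v.2 - 1)
        invFun := fun v => (v.1 + 3 * v.2 + 2, -v.2 - 1)
        left_inv := fun v => by ext <;> (dsimp only; ring)
        right_inv := fun v => by ext <;> (dsimp only; ring) }
    simp only [A]
    rw [← e.tsum_eq, ← tsum_neg]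
    refine tsum_congr fun v => ?_
    simp only [e, Equiv.coe_fn_mk, hexE, hexQ]
    push_cast
    ring_nf
  -- the classes of `t` for `n ≡ 1`
  set G : ℤ × ℤ → ℂ := fun v => ((3 * v.1 + 1 : ℤ) : ℂ) * hexE z (3 * v.1 + 1) v.2 with hGdef
  have hG : Summable G := by
    refine (hs.comp_injective (i := fun v : ℤ × ℤ => (3 * v.1 + 1, v.2)) ?_).congr fun v => rfl
    rintro ⟨a, b⟩ ⟨c, d⟩ h
    simp only [Prod.mk.injEq] at h ⊢
    omega
  have h1 : A 1 = 2 * hexG z := by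
    have hA : A 1 = ∑' v, G v := by
      simp only [A]
      rw [← (Equiv.prodComm ℤ ℤ).tsum_eq]
      refine tsum_congr fun v => ?_
      simp only [hGdef, Equiv.prodComm_apply, Prod.fst_swap, Prod.snd_swap, Nat.cast_one]
      ring_nf
    rw [hA, tsum_classes 3 hG, Fin.sum_univ_three]
    simp only [Fin.val_zero, Fin.val_one, Fin.val_two, Nat.cast_ofNat, Nat.cast_zero, Nat.cast_one,
      add_zero]
    have h0 : (∑' v : ℤ × ℤ, G (v.1, v.2 * 3)) = hexG z := by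
      refine tsum_congr fun v => ?_
      simp only [hGdef]; ring_nf
    have h20 : (∑' v : ℤ × ℤ, G (v.1, v.2 * 3 + 2)) = hexG z := by
      let e : ℤ × ℤ ≃ ℤ × ℤ :=
        { toFun := fun v => (v.1, -v.1 - v.2 - 1)
          invFun := fun v => (v.1, -v.1 - v.2 - 1)
          left_inv := fun v => by ext <;> (dsimp only <;> ring)
          right_inv := fun v => by ext <;> (dsimp only <;> ring) }
      rw [← e.tsum_eq, hexG]
      refine tsum_congr fun v => ?_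
      simp only [e, Equiv.coe_fn_mk, hGdef, hexE, hexQ]
      push_cast
      ring_nf
    have h10 : (∑' v : ℤ × ℤ, G (v.1, v.2 * 3 + 1)) = 0 := by
      set H : ℤ × ℤ → ℂ := fun v => G (v.1, v.2 * 3 + 1) with hHdef
      have hH : Summable H := hG.comp_injective (i := fun v : ℤ × ℤ => (v.1, v.2 * 3 + 1)) (by
        rintro ⟨a, b⟩ ⟨c, d⟩ h
        simp only [Prod.mk.injEq] at h ⊢
        omega)
      let ρ : ℤ × ℤ ≃ ℤ × ℤ :=
        { toFun := fun v => (v.2, -v.1 - v.2 - 1)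
          invFun := fun v => (-v.1 - v.2 - 1, v.1)
          left_inv := fun v => by ext <;> (dsimp only <;> ring)
          right_inv := fun v => by ext <;> (dsimp only <;> ring) }
      have hzero : ∀ v, H v + H (ρ v) + H (ρ (ρ v)) = 0 := fun v => by
        simp only [hHdef, hGdef, ρ, Equiv.coe_fn_mk, hexE, hexQ]
        push_cast
        ring_nf
      have hρ : Summable fun v => H (ρ v) := ρ.summable_iff.mpr hH
      have hρρ : Summable fun v => H (ρ (ρ v)) := ρ.summable_iff.mpr hρ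
      have h : ∑' v, (H v + H (ρ v) + H (ρ (ρ v))) = ∑' _ : ℤ × ℤ, (0 : ℂ) := tsum_congr hzero
      rw [tsum_zero, (hH.add hρ).tsum_add hρρ, hH.tsum_add hρ, ρ.tsum_eq fun v => H (ρ v),
        ρ.tsum_eq] at h
      linear_combination (1 / 3 : ℂ) * h
    rw [h0, h10, h20]
    ring
  simp only [A] at h1 h2
  push_cast at h1 h2 ⊢
  rw [h2, h1]
  ring

end sums

theorem cpow_half_three_mul {w : ℂ} (hw : w ≠ 0) :
    ((3 : ℂ) * w) ^ (1 / 2 : ℂ) = (Real.sqrt 3 : ℂ) * w ^ (1 / 2 : ℂ) := by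
  have h : ((3 : ℝ) : ℂ) ^ (1 / 2 : ℂ) = (Real.sqrt 3 : ℂ) := by
    rw [Real.sqrt_eq_rpow, Complex.ofReal_cpow (by norm_num)]
    norm_num
  rw [← h, show (3 : ℂ) = ((3 : ℝ) : ℂ) by norm_num,
    Complex.cpow_def_of_ne_zero (mul_ne_zero (by norm_num) hw),
    Complex.cpow_def_of_ne_zero (by norm_num), Complex.cpow_def_of_ne_zero hw,
    Complex.log_ofReal_mul (by norm_num) hw, Complex.ofReal_log (by norm_num : (0 : ℝ) ≤ 3),
    ← Complex.exp_add, add_mul]

theorem linSum_inversion (r : ℤ) {w : ℂ} (hw : 0 < w.im) :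
    linSum r w = 6 / (18 * w) / (-I * (18 * w)) ^ (1 / 2 : ℂ) *
      (jacobiTheta₂' ((r : ℂ) / 6) (-1 / (18 * w)) / (2 * π * I)) := by
  have hw0 : w ≠ 0 := fun h => by simp [h] at hw
  have hc : (-I * (18 * w)) ^ (1 / 2 : ℂ) ≠ 0 := by
    rw [Complex.cpow_def_of_ne_zero (by simp [hw0])]
    exact Complex.exp_ne_zero _
  have hpi : (π : ℂ) ≠ 0 := Complex.ofReal_ne_zero.mpr Real.pi_ne_zero
  rw [linSum, (hasSum_lin r hw).tsum_eq, jacobiTheta₂_functional_equation (3 * r * w),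
    jacobiTheta₂'_functional_equation,
    show 3 * (r : ℂ) * w / (18 * w) = (r : ℂ) / 6 by field_simp; ring,
    show -(π : ℂ) * I * (3 * r * w) ^ 2 / (18 * w) = -(π * I * w * (r : ℂ) ^ 2 / 2) by
      field_simp; ring, Complex.exp_neg]
  have hE := Complex.exp_ne_zero (π * I * w * (r : ℂ) ^ 2 / 2)
  generalize cexp (π * I * w * (r : ℂ) ^ 2 / 2) = E at hE ⊢
  generalize (-I * (18 * w)) ^ (1 / 2 : ℂ) = c at hc ⊢
  generalize jacobiTheta₂' ((r : ℂ) / 6) (-1 / (18 * w)) = A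
  generalize jacobiTheta₂ ((r : ℂ) / 6) (-1 / (18 * w)) = B
  have := I_ne_zero
  field_simp
  ring

theorem cstSum_inversion (s : ℤ) {w : ℂ} (hw : 0 < w.im) :
    cstSum s w = 1 / ((Real.sqrt 3 : ℂ) * (-I * (18 * w)) ^ (1 / 2 : ℂ)) *
      jacobiTheta₂ ((s : ℂ) / 2) (-1 / (54 * w)) := by
  have hw0 : w ≠ 0 := fun h => by simp [h] at hw
  rw [cstSum, (hasSum_cst s hw).tsum_eq, jacobiTheta₂_functional_equation,
    show 27 * (s : ℂ) * w / (54 * w) = (s : ℂ) / 2 by field_simp; ring,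
    show -(π : ℂ) * I * (27 * s * w) ^ 2 / (54 * w) = -(27 * π * I * w * (s : ℂ) ^ 2 / 2) by
      field_simp; ring,
    show -I * (54 * w) = 3 * (-I * (18 * w)) by ring, cpow_half_three_mul (by simp [hw0]),
    Complex.exp_neg]
  have := Complex.exp_ne_zero (27 * π * I * w * (s : ℂ) ^ 2 / 2)
  generalize cexp (27 * π * I * w * (s : ℂ) ^ 2 / 2) = E at this ⊢
  generalize (-I * (18 * w)) ^ (1 / 2 : ℂ) = c
  generalize jacobiTheta₂ ((s : ℂ) / 2) (-1 / (54 * w)) = A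
  field_simp

theorem hasSum_mul_prod {f g : ℤ → ℂ} {a b : ℂ} (hf : HasSum f a) (hg : HasSum g b) :
    HasSum (fun v : ℤ × ℤ => f v.1 * g v.2) (a * b) :=
  hf.mul hg (summable_mul_of_summable_norm hf.summable.norm hg.summable.norm)

theorem dual_prod_term (r s z : ℂ) (v : ℤ × ℤ) :
    cexp (2 * π * I * v.1 * r) * cexp (2 * π * I * v.2 * s) * dualTerm z v =
      jacobiTheta₂'_term v.1 r (3 * z / 2) / (2 * π * I) * jacobiTheta₂_term v.2 s (z / 2) := by
  simp only [jacobiTheta₂'_term, jacobiTheta₂_term, dualTerm, Complex.exp_add]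
  rw [show π * I * (v.1 : ℂ) ^ 2 * (3 * z / 2) = 3 * π * I * z * (v.1 : ℂ) ^ 2 / 2 by ring,
    show π * I * (v.2 : ℂ) ^ 2 * (z / 2) = π * I * z * (v.2 : ℂ) ^ 2 / 2 by ring]
  have hpi : (2 * π * I : ℂ) ≠ 0 := Complex.two_pi_I_ne_zero
  generalize cexp (2 * π * I * v.1 * r) = A
  generalize cexp (2 * π * I * v.2 * s) = B
  generalize cexp (3 * π * I * z * (v.1 : ℂ) ^ 2 / 2) = C
  generalize cexp (π * I * z * (v.2 : ℂ) ^ 2 / 2) = D
  field_simp

theorem hasSum_dual_prod {z : ℂ} (hz : 0 < z.im) (r s : ℤ) : HasSum (fun v : ℤ × ℤ =>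
      cexp (2 * π * I * v.1 * ((r : ℂ) / 6)) * cexp (2 * π * I * v.2 * ((s : ℂ) / 2)) * dualTerm z v)
      (jacobiTheta₂' ((r : ℂ) / 6) (3 * z / 2) / (2 * π * I) *
        jacobiTheta₂ ((s : ℂ) / 2) (z / 2)) := by
  have h32 : 0 < (3 * z / 2 : ℂ).im := by simpa using hz
  have h12 : 0 < (z / 2 : ℂ).im := by simpa using hz
  exact (hasSum_mul_prod ((hasSum_jacobiTheta₂'_term ((r : ℂ) / 6) h32).div_const (2 * π * I))
    (hasSum_jacobiTheta₂_term ((s : ℂ) / 2) h12)).congr_fun fun v => dual_prod_term _ _ z v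

theorem dual_pair_eq {z : ℂ} (hz : 0 < z.im) :
    jacobiTheta₂' (((2 : ℤ) : ℂ) / 6) (3 * z / 2) / (2 * π * I) *
        jacobiTheta₂ (((0 : ℤ) : ℂ) / 2) (z / 2) +
      jacobiTheta₂' (((5 : ℤ) : ℂ) / 6) (3 * z / 2) / (2 * π * I) *
        jacobiTheta₂ (((1 : ℤ) : ℂ) / 2) (z / 2) =
      2 * ((omega3 - omega3 ^ 2) * (2 * hexG z)) := by
  have h := (hasSum_dual_prod hz 2 0).add (hasSum_dual_prod hz 5 1)
  rw [← h.tsum_eq, ← dual_sum_eq hz, ← tsum_mul_left]
  have hterm : ∀ v : ℤ × ℤ,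
      cexp (2 * π * I * v.1 * (((2 : ℤ) : ℂ) / 6)) * cexp (2 * π * I * v.2 * (((0 : ℤ) : ℂ) / 2)) *
          dualTerm z v +
        cexp (2 * π * I * v.1 * (((5 : ℤ) : ℂ) / 6)) *
          cexp (2 * π * I * v.2 * (((1 : ℤ) : ℂ) / 2)) * dualTerm z v =
      omega3 ^ v.1 * (1 + (-1) ^ (v.1 + v.2)) * dualTerm z v := fun v => by
    have e1 : cexp (2 * π * I * v.1 * (((2 : ℤ) : ℂ) / 6)) = omega3 ^ v.1 := by
      rw [omega3, ← Complex.exp_int_mul]; congr 1; push_cast; ring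
    have e2 : cexp (2 * π * I * v.1 * (((5 : ℤ) : ℂ) / 6)) = omega3 ^ v.1 * (-1) ^ v.1 := by
      rw [omega3, ← Complex.exp_int_mul, ← Complex.exp_pi_mul_I, ← Complex.exp_int_mul,
        ← Complex.exp_add]
      congr 1; push_cast; ring
    have e3 : cexp (2 * π * I * v.2 * (((1 : ℤ) : ℂ) / 2)) = (-1) ^ v.2 := by
      rw [← Complex.exp_pi_mul_I, ← Complex.exp_int_mul]; congr 1; push_cast; ring
    rw [e1, e2, e3, zpow_add₀ (by norm_num : (-1 : ℂ) ≠ 0),
      show cexp (2 * π * I * v.2 * (((0 : ℤ) : ℂ) / 2)) = 1 by simp]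
    ring
  rw [tsum_congr hterm]
  refine (injective_shear.tsum_eq fun v hv => ?_).symm.trans (tsum_congr fun v => ?_)
  · rcases Int.even_or_odd (v.1 + v.2) with ⟨k, hk⟩ | hodd
    · exact ⟨(v.1, k - v.1), Prod.ext rfl (by dsimp only; omega)⟩
    · exact absurd (show omega3 ^ v.1 * (1 + (-1) ^ (v.1 + v.2)) * dualTerm z v = 0 by
        rw [hodd.neg_one_zpow]; ring) hv
  · have he : Even (v.1 + (v.1 + 2 * v.2)) := ⟨v.1 + v.2, by ring⟩
    simp only [he.neg_one_zpow, dualTerm]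
    rw [hexE_eq]
    ring

theorem fricke_algebra {z w c P1 P2 Q1 Q2 G : ℂ} {s3 : ℂ} (hz : z ≠ 0) (hs : s3 ≠ 0)
    (hw : w = -1 / (27 * z)) (hc2 : c ^ 2 = -I * (18 * w))
    (h : P1 * Q1 + P2 * Q2 = 2 * (s3 * I * (2 * G))) :
    (6 / (18 * w) / c * P1 * (1 / (s3 * c) * Q1) + 6 / (18 * w) / c * P2 * (1 / (s3 * c) * Q2)) / 2 =
      -27 * z ^ 2 * G := by
  have e : (6 / (18 * w) / c * P1 * (1 / (s3 * c) * Q1) +
      6 / (18 * w) / c * P2 * (1 / (s3 * c) * Q2)) / 2 =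
      6 / (18 * w) / (c ^ 2 * (2 * s3)) * (P1 * Q1 + P2 * Q2) := by
    simp only [div_eq_mul_inv, mul_inv, one_mul, pow_two]
    ring
  rw [e, h, hc2, hw]
  have := I_ne_zero
  field_simp
  ring

/-- The image under the Fricke involution. -/
theorem hexG_fricke {z : ℂ} (hz : 0 < z.im) :
    hexG (-1 / (27 * z)) = -27 * z ^ 2 * hexG z := by
  have hz0 : z ≠ 0 := fun h => by simp [h] at hz
  have hwim : 0 < (-1 / (27 * z)).im := im_neg_one_div (by simpa using hz)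
  have h := dual_pair_eq hz
  rw [omega3_sub_sq] at h
  rw [hexG_eq_products hwim, linSum_inversion 2 hwim, linSum_inversion 5 hwim,
    cstSum_inversion 0 hwim, cstSum_inversion 1 hwim,
    show -1 / (18 * (-1 / (27 * z))) = 3 * z / 2 by field_simp; ring,
    show -1 / (54 * (-1 / (27 * z))) = z / 2 by field_simp; ring]
  refine fricke_algebra hz0 (Complex.ofReal_ne_zero.mpr (Real.sqrt_ne_zero'.mpr (by norm_num)))
    rfl ?_ h
  rw [one_div, Complex.cpow_ofNat_inv_pow]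

end FA.CM

end
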