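import Fermat.Agent.Twists.LocalFactors

/-!
# Two-isogenous curves have equally many points

Over a finite field of odd characteristic `y² = x³ + a x² + b x` and `y² = x³ - 2 a x² + (a² - 4 b) x`
have the same character sum: substitute `u = x + b / x` and count the solutions by `u² - 4 b`.
-/

set_option autoImplicit false

noncomputable section

open WeierstrassCurve

namespace FA.CM

variable {F : Type} [Field F] [Fintype F] [DecidableEq F]

/-- The number of `x` with `x + b / x = u`. -/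
theorem card_fibre_add_div (hF : ringChar F ≠ 2) {b : F} (hb : b ≠ 0) (u : F) :
    ((Finset.univ.filter fun x : F => x ≠ 0 ∧ x + b / x = u).card : ℤ) =
      quadraticChar F (u ^ 2 - 4 * b) + 1 := by
  have h2 : (2 : F) ≠ 0 := Ring.two_ne_zero hF
  rw [← quadraticChar_card_sqrts hF, Nat.cast_inj]
  refine Finset.card_bij' (fun x _ => 2 * x - u) (fun y _ => (y + u) / 2) (fun x hx => ?_)
    (fun y hy => ?_) (fun x _ => by field_simp; ring) fun y _ => by field_simp; ring
  · simp only [Finset.mem_filter, Finset.mem_univ, true_and] at hx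
    simp only [Set.mem_toFinset, Set.mem_ofPred_eq]
    have h := hx.2
    field_simp [hx.1] at h
    linear_combination 4 * h
  · simp only [Set.mem_toFinset, Set.mem_ofPred_eq] at hy
    have hp : (y + u) * (u - y) = 4 * b := by linear_combination -hy
    have hy0 : y + u ≠ 0 := fun e => by
      rw [e, zero_mul] at hp
      exact mul_ne_zero (show (4 : F) ≠ 0 by
        rw [show (4 : F) = 2 * 2 by norm_num]; exact mul_ne_zero h2 h2) hb hp.symm
    simp only [Finset.mem_filter, Finset.mem_univ, true_and]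
    refine ⟨div_ne_zero hy0 h2, ?_⟩
    field_simp
    linear_combination -hp

/-- The character sums of the two cubics agree. -/
theorem sum_char_two_isogeny (hF : ringChar F ≠ 2) (a : F) {b : F} (hb : b ≠ 0) :
    ∑ x : F, quadraticChar F (x ^ 3 + a * x ^ 2 + b * x) =
      ∑ x : F, quadraticChar F (x ^ 3 - 2 * a * x ^ 2 + (a ^ 2 - 4 * b) * x) := by
  set χ := quadraticChar F
  have e1 : ∑ x : F, χ (x ^ 3 + a * x ^ 2 + b * x) =
      ∑ x ∈ Finset.univ.filter (fun x : F => x ≠ 0), χ (x + b / x + a) := by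
    rw [← Finset.sum_filter_add_sum_filter_not Finset.univ (fun x : F => x ≠ 0),
      Finset.sum_eq_zero (s := Finset.univ.filter fun x : F => ¬ x ≠ 0) fun x hx => ?_, add_zero]
    · refine Finset.sum_congr rfl fun x hx => ?_
      have hx0 : x ≠ 0 := (Finset.mem_filter.mp hx).2
      rw [show x ^ 3 + a * x ^ 2 + b * x = x ^ 2 * (x + b / x + a) by field_simp; ring, map_mul,
        quadraticChar_sq_one' hx0, one_mul]
    · obtain rfl : x = 0 := by simpa using (Finset.mem_filter.mp hx).2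
      simp [χ]
  rw [e1, ← Finset.sum_fiberwise _ (fun x : F => x + b / x)]
  have e2 : ∀ u : F, ∑ x ∈ (Finset.univ.filter fun x : F => x ≠ 0).filter
      (fun x => x + b / x = u), χ (x + b / x + a) =
        χ ((u + a) * (u ^ 2 - 4 * b)) + χ (u + a) := fun u => by
    rw [Finset.filter_filter, Finset.sum_congr rfl fun x hx => by
      rw [(Finset.mem_filter.mp hx).2.2], Finset.sum_const, nsmul_eq_mul,
      card_fibre_add_div hF hb, map_mul]
    ring
  have h0 : ∑ u : F, χ (u + a) = 0 :=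
    (Fintype.sum_equiv (Equiv.addRight a) _ _ fun _ => rfl).trans (quadraticChar_sum_zero hF)
  rw [Finset.sum_congr rfl fun u _ => e2 u, Finset.sum_add_distrib, h0, add_zero]
  refine Fintype.sum_equiv (Equiv.addRight a) _ _ fun u => ?_
  rw [Equiv.coe_addRight]
  congr 1
  ring

theorem natCard_point_two_isogeny (hF : ringChar F ≠ 2) (a b : F)
    (h : (⟨0, a, 0, b, 0⟩ : WeierstrassCurve F).Δ ≠ 0)
    (h' : (⟨0, -2 * a, 0, a ^ 2 - 4 * b, 0⟩ : WeierstrassCurve F).Δ ≠ 0) :
    Nat.card (⟨0, a, 0, b, 0⟩ : WeierstrassCurve F).toAffine.Point =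
      Nat.card (⟨0, -2 * a, 0, a ^ 2 - 4 * b, 0⟩ : WeierstrassCurve F).toAffine.Point := by
  have hb : b ≠ 0 := fun e => h (by simp [e, WeierstrassCurve.Δ, b₂, b₄, b₆, b₈])
  have h2 : (2 : F) ≠ 0 := Ring.two_ne_zero hF
  have h4 : ∀ (r s x : F), quadraticChar F (4 * x ^ 3 + (⟨0, r, 0, s, 0⟩ :
      WeierstrassCurve F).b₂ * x ^ 2 + 2 * (⟨0, r, 0, s, 0⟩ : WeierstrassCurve F).b₄ * x +
        (⟨0, r, 0, s, 0⟩ : WeierstrassCurve F).b₆) =
      quadraticChar F (x ^ 3 + r * x ^ 2 + s * x) := fun r s x => by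
    simp only [b₂, b₄, b₆]
    rw [show 4 * x ^ 3 + (0 ^ 2 + 4 * r) * x ^ 2 + 2 * (2 * s + 0 * 0) * x + (0 ^ 2 + 4 * 0) =
      2 ^ 2 * (x ^ 3 + r * x ^ 2 + s * x) by ring, map_mul, quadraticChar_sq_one' h2, one_mul]
  rw [← Nat.cast_inj (R := ℤ), FA.Twists.natCard_point_eq_sum hF _ h,
    FA.Twists.natCard_point_eq_sum hF _ h']
  simp only [h4]
  rw [sum_char_two_isogeny hF a hb]
  congr 1
  refine Finset.sum_congr rfl fun x _ => ?_
  congr 1
  ring

/-- The traces at an odd good prime of two-isogenous integral models agree. -/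
theorem apOfModel_two_isogeny {l : ℕ} [Fact l.Prime] (hl2 : l ≠ 2) (a b : ℤ)
    (h : ¬ (l : ℤ) ∣ (⟨0, a, 0, b, 0⟩ : WeierstrassCurve ℤ).Δ)
    (h' : ¬ (l : ℤ) ∣ (⟨0, -2 * a, 0, a ^ 2 - 4 * b, 0⟩ : WeierstrassCurve ℤ).Δ) :
    (⟨0, a, 0, b, 0⟩ : WeierstrassCurve ℤ).apOfModel l =
      (⟨0, -2 * a, 0, a ^ 2 - 4 * b, 0⟩ : WeierstrassCurve ℤ).apOfModel l := by
  have e : ∀ r s : ℤ, (⟨0, r, 0, s, 0⟩ : WeierstrassCurve ℤ).reductionMod l =
      ⟨0, (r : ZMod l), 0, (s : ZMod l), 0⟩ := fun r s => by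
    ext <;> simp [reductionMod]
  have hΔ : ∀ r s : ℤ, ¬ (l : ℤ) ∣ (⟨0, r, 0, s, 0⟩ : WeierstrassCurve ℤ).Δ →
      (⟨0, (r : ZMod l), 0, (s : ZMod l), 0⟩ : WeierstrassCurve (ZMod l)).Δ ≠ 0 := fun r s hd => by
    rw [← e, reductionMod, map_Δ, eq_intCast]
    exact fun h0 => hd ((ZMod.intCast_zmod_eq_zero_iff_dvd _ _).mp h0)
  have h1 := natCard_point_two_isogeny ((ZMod.ringChar_zmod_n l).trans_ne hl2) (a : ZMod l) b
    (hΔ a b h) (by have := hΔ _ _ h'; push_cast at this; exact this)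
  rw [apOfModel, apOfModel, e, e, traceOfFrobenius, traceOfFrobenius, WeierstrassCurve.card,
    WeierstrassCurve.card]
  push_cast
  rw [h1]

end FA.CM

namespace FA.Summary

/-- **Two-isogenous curves have equally many points** over a finite field of odd characteristic. -/
theorem pointCount_two_isogeny {F : Type} [Field F] [Fintype F] (hF : ringChar F ≠ 2) (a b : F)
    (h : (⟨0, a, 0, b, 0⟩ : WeierstrassCurve F).Δ ≠ 0)
    (h' : (⟨0, -2 * a, 0, a ^ 2 - 4 * b, 0⟩ : WeierstrassCurve F).Δ ≠ 0) :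
    Nat.card (⟨0, a, 0, b, 0⟩ : WeierstrassCurve F).toAffine.Point =
      Nat.card (⟨0, -2 * a, 0, a ^ 2 - 4 * b, 0⟩ : WeierstrassCurve F).toAffine.Point := by
  classical
  exact FA.CM.natCard_point_two_isogeny hF a b h h'

end FA.Summary

end
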