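import Fermat.Agent.CM.CongruentCurves
import Fermat.Agent.CM.Isogeny
import Fermat.Agent.CM.Common

/-!
# Curves two-isogenous to congruent number curves

The twists of `y² = x³ + 4 x` and of `y² = x³ - 11 x - 14`, the latter being all curves with
`j = 66³`, that is with multiplication by `ℤ[2i]`, are two-isogenous to congruent number curves and
have the same L-functions. So they are modular and their L-series are entire.
-/

set_option autoImplicit false

noncomputable section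

open WeierstrassCurve
open FA.Twists

namespace FA.CM

/-- The coefficients at the powers of `2` of a curve with the invariants `528 z²` and `512 z⁶`. -/
theorem LFunction_two_pow_of_order (E : WeierstrassCurve ℚ) {z : ℚ} (hz : z ≠ 0)
    (h4 : E.c₄ = z ^ 2 * 528) (hΔ : E.Δ = z ^ 6 * 512) (k : ℕ) :
    E.LFunction (2 ^ (k + 1)) = 0 :=
  LFunction_prime_pow_of_exponents Nat.prime_two E hz (A := 528) (B := 1) (β := 9)
    (by decide) (by decide) (Or.inr ⟨4, 33, by norm_num, by decide, by norm_num⟩)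
    (by rw [h4]; norm_num) (by rw [hΔ]; norm_num) k

/-- **The L-function is that of a congruent number curve**: for a twist of `y² = x³ + a x² + b x`,
two-isogenous to a model of `y² = x³ - x` and with trivial factor at `2`. -/
theorem LFunction_eq_congruentCurve (a b : ℤ) {i j : ℕ}
    (hΔ : (⟨0, a, 0, b, 0⟩ : WeierstrassCurve ℤ).Δ.natAbs = 2 ^ i)
    (hΔ' : (⟨0, -2 * a, 0, a ^ 2 - 4 * b, 0⟩ : WeierstrassCurve ℤ).Δ.natAbs = 2 ^ j)
    {w : ℚ} (hw : w ≠ 0)
    (h4' : ((⟨0, -2 * a, 0, a ^ 2 - 4 * b, 0⟩ : WeierstrassCurve ℤ).c₄ : ℚ) = w ^ 4 * 48)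
    (h6' : (⟨0, -2 * a, 0, a ^ 2 - 4 * b, 0⟩ : WeierstrassCurve ℤ).c₆ = 0)
    {E : WeierstrassCurve ℚ} {D : ℤ} (hD : Squarefree D) {x : ℚ} (hx : x ≠ 0)
    (h4 : E.c₄ = x ^ 4 * (D : ℚ) ^ 2 * ((⟨0, a, 0, b, 0⟩ : WeierstrassCurve ℤ).c₄ : ℚ))
    (h6 : E.c₆ = x ^ 6 * (D : ℚ) ^ 3 * ((⟨0, a, 0, b, 0⟩ : WeierstrassCurve ℤ).c₆ : ℚ))
    (h2 : ∀ k : ℕ, E.LFunction (2 ^ (k + 1)) = 0) (n : ℕ) :
    E.LFunction n = (congruentCurve (D : ℚ)).LFunction n := by
  set W : WeierstrassCurve ℤ := ⟨0, a, 0, b, 0⟩ with hWdef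
  set W' : WeierstrassCurve ℤ := ⟨0, -2 * a, 0, a ^ 2 - 4 * b, 0⟩ with hW'def
  set B : WeierstrassCurve ℚ := W.map (Int.castRingHom ℚ)
  have hgood : ∀ {V : WeierstrassCurve ℤ} {r : ℕ}, V.Δ.natAbs = 2 ^ r →
      ∀ {l : ℕ}, l.Prime → l ≠ 2 → ¬ (l : ℤ) ∣ V.Δ := fun hV l hl hl2 h => hl2
    ((Nat.prime_dvd_prime_iff_eq hl Nat.prime_two).mp
      (hl.dvd_of_dvd_pow (hV ▸ Int.natCast_dvd.mp h)))
  have hWB : W.IsIntegralModelOf B := ⟨1, by rw [one_smul]⟩
  have hc6 : ((curve32 : WeierstrassCurve ℚ)).c₆ = 0 := by simp [curve32, c₆, b₂, b₄, b₆]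
  have hW' : W'.IsIntegralModelOf (curve32 : WeierstrassCurve ℚ) :=
    isIntegralModelOf_of_invariants hw (by rw [h4', curve32_c₄]) (by rw [h6', hc6]; simp)
  obtain ⟨e4, e6⟩ := congruentCurve_invariants (D : ℚ)
  have hE := FA.Root.isMultiplicative_LFunction E
  have hF := FA.Root.isMultiplicative_LFunction (congruentCurve (D : ℚ))
  induction n using Nat.recOnPosPrimePosCoprime with
  | prime_pow l r hl hr =>
    rcases eq_or_ne l 2 with rfl | hl2
    · obtain ⟨r, rfl⟩ : ∃ r', r = r' + 1 := ⟨r - 1, by omega⟩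
      rw [h2, LFunction_two_pow_of_c₆ _ e6]
    have := Fact.mk hl
    have g := hgood hΔ hl hl2
    have g' := hgood hΔ' hl hl2
    have g32 := good_curve32 hl hl2
    have hΔ0 : W.Δ ≠ 0 := fun e => g (e ▸ dvd_zero _)
    rw [LFunction_twist_prime_pow hWB hΔ0 hD hx h4 h6 hl (fun h => absurd h g) r,
      LFunction_twist_prime_pow (W := curve32) (x := 1) isIntegralModelOf_curve32
        (by rw [curve32_Δ]; norm_num) hD one_ne_zero (E := congruentCurve (D : ℚ))
        (by rw [e4, curve32_c₄]; push_cast; ring)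
        (by rw [e6, show (curve32 : WeierstrassCurve ℤ).c₆ = 0 by simp [curve32, c₆, b₂, b₄, b₆]]
            simp)
        hl (fun h => absurd h g32) r,
      prime_pow_of_model (E := B) (U := W) isIntegralModelOf_curve32 hWB
        (by rw [curve32_Δ]; norm_num) hΔ0 hl (fun h => absurd h g32)
        (iff_of_false g g32) (fun h => absurd h g32) (ε := 1) (one_pow 2) (fun _ => ?_)
        (fun h => absurd h g32) r, one_pow, one_mul]
    rw [one_mul, hWdef, apOfModel_two_isogeny hl2 a b g g', ← hW'def,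
      ← FA.Root.LFunction_apply_prime _ W' hW' hl g',
      FA.Root.LFunction_apply_prime _ curve32 isIntegralModelOf_curve32 hl g32]
  | zero => simp
  | one => rw [hE.map_one, hF.map_one]
  | coprime p q _ _ hpq ihp ihq =>
    rw [hE.map_mul_of_coprime hpq, hF.map_mul_of_coprime hpq, ihp, ihq]

/-- A curve with `j = 66³` has the L-function of a congruent number curve. -/
theorem exists_congruentCurve_of_j_eq (E : WeierstrassCurve ℚ) [E.IsElliptic]
    (hj : E.j = 287496) :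
    ∃ m : ℚ, m ≠ 0 ∧ ∀ n, E.LFunction n = (congruentCurve m).LFunction n := by
  obtain ⟨z, hz0, h4, h6, hΔ⟩ := exists_scaling_of_j E ⟨0, -6, 0, 1, 0⟩
    (by norm_num [c₄, b₂, b₄]) (by norm_num [c₆, b₂, b₄, b₆])
    (by rw [hj]; norm_num [c₄, WeierstrassCurve.Δ, b₂, b₄, b₆, b₈])
  obtain ⟨D, t, hD, ht, hzt⟩ := exists_squarefree_mul_sq hz0
  refine ⟨D, Int.cast_ne_zero.mpr hD.ne_zero, LFunction_eq_congruentCurve (-6) 1 (i := 9) (j := 18)
    (by norm_num [WeierstrassCurve.Δ, b₂, b₄, b₆, b₈])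
    (by norm_num [WeierstrassCurve.Δ, b₂, b₄, b₆, b₈]) (w := 2) two_ne_zero
    (by norm_num [c₄, b₂, b₄]) (by norm_num [c₆, b₂, b₄, b₆]) hD ht
    (by rw [h4, hzt]; ring) (by rw [h6, hzt]; ring)
    (LFunction_two_pow_of_order E hz0 (by rw [h4]; norm_num [c₄, b₂, b₄])
      (by rw [hΔ]; norm_num [WeierstrassCurve.Δ, b₂, b₄, b₆, b₈]))⟩

/-- `y² = x³ + 4 n² x` has the L-function of a congruent number curve. -/
theorem exists_congruentCurve_four_sq (n : ℚ) (hn : n ≠ 0) :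
    ∃ m : ℚ, m ≠ 0 ∧ ∀ k, (⟨0, 0, 0, 4 * n ^ 2, 0⟩ : WeierstrassCurve ℚ).LFunction k =
      (congruentCurve m).LFunction k := by
  obtain ⟨D, t, hD, ht, rfl⟩ := exists_squarefree_mul_sq hn
  exact ⟨D, Int.cast_ne_zero.mpr hD.ne_zero, LFunction_eq_congruentCurve 0 4 (i := 12) (j := 18)
    (by norm_num [WeierstrassCurve.Δ, b₂, b₄, b₆, b₈])
    (by norm_num [WeierstrassCurve.Δ, b₂, b₄, b₆, b₈]) (w := 2) two_ne_zero
    (by norm_num [c₄, b₂, b₄]) (by norm_num [c₆, b₂, b₄, b₆]) hD ht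
    (by norm_num [c₄, b₂, b₄]; ring) (by norm_num [c₆, b₂, b₄, b₆])
    (LFunction_two_pow_of_c₆ _ (by norm_num [c₆, b₂, b₄, b₆]))⟩

end FA.CM

namespace FA.Summary

/-- **Every curve with multiplication by `ℤ[2i]`** is modular: all coefficients of its L-function
are those of a cusp form of weight two. -/
theorem modularity_of_j_eq_287496 (E : WeierstrassCurve ℚ) [E.IsElliptic] (hj : E.j = 287496) :
    ∃ (N : ℕ) (f : CuspForm (CongruenceSubgroup.Gamma0 N) 2), 0 < N ∧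
      ∀ n : ℕ, (UpperHalfPlane.qExpansion 1 f).coeff n = (E.LFunction n : ℂ) := by
  obtain ⟨m, hm, h⟩ := FA.CM.exists_congruentCurve_of_j_eq E hj
  simp only [h]
  exact congruentCurve_modular m hm

/-- Its L-series is entire. -/
theorem entire_continuation_of_j_eq_287496 (E : WeierstrassCurve ℚ) [E.IsElliptic]
    (hj : E.j = 287496) :
    ∃ g : ℂ → ℂ, Differentiable ℂ g ∧ ∀ s : ℂ, 3 / 2 < s.re → E.LSeries s = g s := by
  obtain ⟨m, hm, h⟩ := FA.CM.exists_congruentCurve_of_j_eq E hj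
  have e : E.LFunction = (FA.CM.congruentCurve m).LFunction := ArithmeticFunction.ext h
  simp only [WeierstrassCurve.LSeries, e]
  exact entire_continuation_congruentCurve m hm

/-- The curves `y² = x³ + 4 n² x` are modular. -/
theorem modularity_four_sq (n : ℚ) (hn : n ≠ 0) :
    ∃ (N : ℕ) (f : CuspForm (CongruenceSubgroup.Gamma0 N) 2), 0 < N ∧
      ∀ k : ℕ, (UpperHalfPlane.qExpansion 1 f).coeff k =
        ((⟨0, 0, 0, 4 * n ^ 2, 0⟩ : WeierstrassCurve ℚ).LFunction k : ℂ) := by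
  obtain ⟨m, hm, h⟩ := FA.CM.exists_congruentCurve_four_sq n hn
  simp only [h]
  exact congruentCurve_modular m hm

/-- Their L-series are entire. -/
theorem entire_continuation_four_sq (n : ℚ) (hn : n ≠ 0) :
    ∃ g : ℂ → ℂ, Differentiable ℂ g ∧ ∀ s : ℂ, 3 / 2 < s.re →
      (⟨0, 0, 0, 4 * n ^ 2, 0⟩ : WeierstrassCurve ℚ).LSeries s = g s := by
  obtain ⟨m, hm, h⟩ := FA.CM.exists_congruentCurve_four_sq n hn
  have e : (⟨0, 0, 0, 4 * n ^ 2, 0⟩ : WeierstrassCurve ℚ).LFunction =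
      (FA.CM.congruentCurve m).LFunction := ArithmeticFunction.ext h
  simp only [WeierstrassCurve.LSeries, e]
  exact entire_continuation_congruentCurve m hm

end FA.Summary

end
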