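import Fermat.Agent.Twists.LocalFactors
import Mathlib.FieldTheory.IsAlgClosed.AlgebraicClosure
import Mathlib.FieldTheory.Finite.Basic

/-!
# Three-isogenous curves have equally many points

Over a finite field of odd characteristic the cubics `x³ + a (x - b)²` and
`X³ + a X² + 18 a b X + 16 a² b - 27 a b²` have the same character sum. The substitution is
`X = x - 4 a b / x + 4 a b² / x²`: its fibres are cut out by cubics of discriminant `16 a b² g (X)`,
so they have one point when `a g (X)` is no square, and the total number of points is known.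
-/

set_option autoImplicit false
set_option linter.unusedSectionVars false

noncomputable section

open WeierstrassCurve

namespace FA.CM.ThreeIsogeny

variable {F : Type} [Field F]

/-- The roots of a cubic of which two are known. -/
theorem cubic_of_two_roots {A B C x x' : F} (hx : x ^ 3 + A * x ^ 2 + B * x + C = 0)
    (hx' : x' ^ 3 + A * x' ^ 2 + B * x' + C = 0) (h : x ≠ x') :
    B = x * x' + (x + x') * (-A - x - x') ∧ C = -(x * x' * (-A - x - x')) ∧
      ∀ y, y ^ 3 + A * y ^ 2 + B * y + C = 0 → y = x ∨ y = x' ∨ y = -A - x - x' := by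
  have hB : B = x * x' + (x + x') * (-A - x - x') :=
    mul_left_cancel₀ (sub_ne_zero.mpr h) (by linear_combination hx - hx')
  have hC : C = -(x * x' * (-A - x - x')) := by linear_combination hx - x * hB
  refine ⟨hB, hC, fun y hy => ?_⟩
  have e : (y - x) * (y - x') * (y - (-A - x - x')) = 0 := by
    linear_combination hy - y * hB - hC
  rcases mul_eq_zero.mp e with e | e
  · rcases mul_eq_zero.mp e with e | e
    exacts [Or.inl (sub_eq_zero.mp e), Or.inr (Or.inl (sub_eq_zero.mp e))]
  · exact Or.inr (Or.inr (sub_eq_zero.mp e))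

/-- The first cubic. -/
def cubA (a b x : F) : F := x ^ 3 + a * (x - b) ^ 2

/-- The second cubic. -/
def cubB (a b u : F) : F := u ^ 3 + a * u ^ 2 + 18 * a * b * u + (16 * a ^ 2 * b - 27 * a * b ^ 2)

/-- The substitution. -/
def isog (a b x : F) : F := (x ^ 3 - 4 * a * b * x + 4 * a * b ^ 2) / x ^ 2

/-- `x⁴` times the derivative of the substitution, divided by `x`. -/
def isogDer (a b x : F) : F := x ^ 3 + 4 * a * b * x - 8 * a * b ^ 2

theorem cubB_isog {a b x : F} (hx : x ≠ 0) :
    cubB a b (isog a b x) * x ^ 6 = cubA a b x * isogDer a b x ^ 2 := by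
  simp only [cubA, cubB, isog, isogDer]
  field_simp
  ring

theorem isog_root {a b x : F} (hx : x ≠ 0) :
    x ^ 3 + -isog a b x * x ^ 2 + -4 * a * b * x + 4 * a * b ^ 2 = 0 := by
  simp only [isog]
  field_simp
  ring

theorem isog_eq_of_root {a b x u : F} (hx : x ≠ 0)
    (h : x ^ 3 + -u * x ^ 2 + -4 * a * b * x + 4 * a * b ^ 2 = 0) : isog a b x = u := by
  simp only [isog]
  field_simp
  linear_combination h

/-- The discriminant of a fibre. -/
theorem disc_fibre {a b u x x' : F} (hx : x ^ 3 + -u * x ^ 2 + -4 * a * b * x + 4 * a * b ^ 2 = 0)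
    (hx' : x' ^ 3 + -u * x' ^ 2 + -4 * a * b * x' + 4 * a * b ^ 2 = 0) (h : x ≠ x') :
    ((x - x') * (x' - (u - x - x')) * (u - x - x' - x)) ^ 2 = 16 * a * b ^ 2 * cubB a b u := by
  obtain ⟨hB, hC, -⟩ := cubic_of_two_roots hx hx' h
  rw [neg_neg] at hB hC
  generalize ht : u - x - x' = t at hB hC ⊢
  obtain rfl : u = x + x' + t := by linear_combination ht
  simp only [cubB]
  generalize hp : -4 * a * b = p at hB
  generalize hq : 4 * a * b ^ 2 = q at hC
  rw [show 16 * a * b ^ 2 * ((x + x' + t) ^ 3 + a * (x + x' + t) ^ 2 + 18 * a * b * (x + x' + t) +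
      (16 * a ^ 2 * b - 27 * a * b ^ 2)) = (x + x' + t) ^ 2 * p ^ 2 - 4 * p ^ 3 +
        4 * (x + x' + t) ^ 3 * q - 27 * q ^ 2 - 18 * (x + x' + t) * p * q by
    rw [← hp, ← hq]; ring, hB, hC]
  ring

variable [Fintype F] [DecidableEq F]

local notation "χ" => quadraticChar F

variable {a b : F}

theorem cubA_of_isogDer {x : F} (h : isogDer a b x = 0) : cubA a b x = a * (x - 3 * b) ^ 2 := by
  simp only [cubA, isogDer] at *
  linear_combination h

/-- The two cubics of a fibre have no common root. -/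
theorem isogDer_ne_zero_of_root {K : Type} [Field K] {a b x : K} (hdisc : 4 * a + 27 * b ≠ 0)
    (ha : a ≠ 0) (hb : b ≠ 0) (hf : cubA a b x = 0) : isogDer a b x ≠ 0 := fun h => by
  simp only [cubA, isogDer] at hf h
  have e : a * (x - 3 * b) ^ 2 = 0 := by linear_combination hf - h
  have e' : x = 3 * b := sub_eq_zero.mp (pow_eq_zero_iff two_ne_zero |>.mp
    ((mul_eq_zero.mp e).resolve_left ha))
  subst e'
  exact mul_ne_zero (pow_ne_zero 2 hb) hdisc (by linear_combination hf)

theorem ne_zero_of_root {K : Type} [Field K] {a b x : K} (ha : a ≠ 0) (hb : b ≠ 0)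
    (hf : cubA a b x = 0) : x ≠ 0 := fun e => by
  simp [cubA, e, ha, hb] at hf

/-- The substitution is injective on the roots. -/
theorem isog_injOn {K : Type} [Field K] {a b x x' : K} (hdisc : 4 * a + 27 * b ≠ 0) (ha : a ≠ 0)
    (hb : b ≠ 0) (hx : cubA a b x = 0) (hx' : cubA a b x' = 0)
    (h : isog a b x = isog a b x') : x = x' := by
  by_contra hne
  have x0 := ne_zero_of_root ha hb hx
  have x0' := ne_zero_of_root ha hb hx'
  have r := isog_root (a := a) (b := b) x0
  have r' := isog_root (a := a) (b := b) x0'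
  rw [← h] at r'
  have hd := disc_fibre r r' hne
  have hg : cubB a b (isog a b x) = 0 := by
    have := cubB_isog (a := a) (b := b) x0
    rw [hx, zero_mul] at this
    exact (mul_eq_zero.mp this).resolve_right (pow_ne_zero 6 x0)
  rw [hg, mul_zero] at hd
  obtain ⟨hB, -, -⟩ := cubic_of_two_roots r r' hne
  rw [neg_neg] at hB
  generalize isog a b x = u at hB hd r r'
  rcases mul_eq_zero.mp (pow_eq_zero_iff two_ne_zero |>.mp hd) with e | e
  · -- `x'` is the double root
    refine isogDer_ne_zero_of_root hdisc ha hb hx' ?_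
    have e' := (mul_eq_zero.mp e).resolve_left (sub_ne_zero.mpr hne)
    simp only [isogDer]
    linear_combination -2 * r' + x' * hB + x' * (x' - x) * e'
  · refine isogDer_ne_zero_of_root hdisc ha hb hx ?_
    simp only [isogDer]
    linear_combination -2 * r + x * hB + x * (x' - x) * e

variable (hF : ringChar F ≠ 2)
include hF

local notation "K" => AlgebraicClosure F
local notation "ι" => algebraMap F (AlgebraicClosure F)

theorem exists_eq_of_frobenius_fixed {x : K} (h : x ^ Fintype.card F = x) : ∃ c : F, ι c = x := by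
  classical
  have hq : 1 < Fintype.card F := Fintype.one_lt_card
  set P : Polynomial K := Polynomial.X ^ Fintype.card F - Polynomial.X with hP
  have hP0 : P ≠ 0 := FiniteField.X_pow_card_sub_X_ne_zero K hq
  have hsub : (Finset.univ.image ι) ⊆ P.roots.toFinset := fun y hy => by
    obtain ⟨c, -, rfl⟩ := Finset.mem_image.mp hy
    rw [Multiset.mem_toFinset, Polynomial.mem_roots hP0]
    simp [hP, ← map_pow, FiniteField.pow_card]
  have heq := Finset.eq_of_subset_of_card_le hsub (by
    rw [Finset.card_image_of_injective _ (algebraMap F K).injective, Finset.card_univ]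
    refine (Multiset.toFinset_card_le _).trans ((Polynomial.card_roots' P).trans ?_)
    rw [hP, FiniteField.X_pow_card_sub_X_natDegree_eq K hq])
  have hx : x ∈ P.roots.toFinset := by
    rw [Multiset.mem_toFinset, Polynomial.mem_roots hP0]
    simp [hP, h]
  rw [← heq] at hx
  obtain ⟨c, -, hc⟩ := Finset.mem_image.mp hx
  exact ⟨c, hc⟩

theorem four_ne_zero' : (4 : F) ≠ 0 := by
  rw [show (4 : F) = 2 ^ 2 by norm_num]; exact pow_ne_zero 2 (Ring.two_ne_zero hF)

/-- The fibre over `u` has one point when `a g (u)` is no square. -/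
theorem card_fibre (ha : a ≠ 0) (hb : b ≠ 0) {u : F} (hu : χ (a * cubB a b u) = -1) :
    (Finset.univ.filter fun x : F => x ≠ 0 ∧ isog a b x = u).card = 1 := by
  classical
  have hns : ∀ d : F, d ^ 2 ≠ 16 * a * b ^ 2 * cubB a b u := fun d hd => by
    refine quadraticChar_neg_one_iff_not_isSquare.mp hu ⟨d / (4 * b), ?_⟩
    have := four_ne_zero' hF
    field_simp
    linear_combination -hd
  have hmem : ∀ x : F, x ∈ (Finset.univ.filter fun x : F => x ≠ 0 ∧ isog a b x = u) ↔
      x ^ 3 + -u * x ^ 2 + -4 * a * b * x + 4 * a * b ^ 2 = 0 := fun x => by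
    rw [Finset.mem_filter]
    refine ⟨fun ⟨_, h0, h⟩ => h ▸ isog_root h0, fun h => ?_⟩
    have h0 : x ≠ 0 := fun e => by
      simp [e, ha, hb, four_ne_zero' hF] at h
    exact ⟨Finset.mem_univ x, h0, isog_eq_of_root h0 h⟩
  have hle : ∀ x y : F, x ^ 3 + -u * x ^ 2 + -4 * a * b * x + 4 * a * b ^ 2 = 0 →
      y ^ 3 + -u * y ^ 2 + -4 * a * b * y + 4 * a * b ^ 2 = 0 → x = y := fun x y hx hy => by
    by_contra hne
    exact hns _ (disc_fibre hx hy hne)
  obtain ⟨x, hx⟩ : ∃ x : F, x ^ 3 + -u * x ^ 2 + -4 * a * b * x + 4 * a * b ^ 2 = 0 := by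
    by_contra hno
    push Not at hno
    set P : K → K := fun y =>
      y ^ 3 + -ι u * y ^ 2 + -4 * ι a * ι b * y + 4 * ι a * ι b ^ 2 with hP
    obtain ⟨r, hr⟩ : ∃ r : K, P r = 0 := by
      obtain ⟨r, hr⟩ := IsAlgClosed.exists_root (Polynomial.C (1 : K) * Polynomial.X ^ 3 +
        Polynomial.C (-ι u) * Polynomial.X ^ 2 + Polynomial.C (-4 * ι a * ι b) * Polynomial.X +
          Polynomial.C (4 * ι a * ι b ^ 2)) (by
        rw [Polynomial.degree_cubic one_ne_zero]; decide)
      exact ⟨r, by simpa [hP] using hr⟩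
    set σ := FiniteField.frobeniusAlgHom F K
    have hσP : ∀ y, P y = 0 → P (σ y) = 0 := fun y hy => by
      have := congrArg σ hy
      simpa [hP, map_add, map_mul, map_pow, map_neg, map_ofNat, AlgHom.commutes] using this
    have hnofix : ∀ y, P y = 0 → σ y ≠ y := fun y hy h => by
      obtain ⟨c, rfl⟩ := exists_eq_of_frobenius_fixed hF (x := y)
        (by rwa [FiniteField.coe_frobeniusAlgHom] at h)
      refine hno c ((algebraMap F K).injective ?_)
      simpa [hP, map_ofNat] using hy
    have hinj : Function.Injective σ := σ.toRingHom.injective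
    set r' := σ r with hr'
    have hr'0 : P r' = 0 := hσP r hr
    have hrr : r ≠ r' := (hnofix r hr).symm
    obtain ⟨-, -, hall⟩ := cubic_of_two_roots hr hr'0 hrr
    rw [neg_neg] at hall
    set t := ι u - r - r' with ht
    have hswap : σ r' ≠ r := fun e => by
      have htfix : σ t = t := by
        rw [ht, map_sub, map_sub, AlgHom.commutes, e, ← hr']; ring
      refine hnofix t ?_ htfix
      obtain ⟨hB, hC, -⟩ := cubic_of_two_roots hr hr'0 hrr
      rw [neg_neg, ← ht] at hB hC
      simp only [hP]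
      rw [hB, hC, show ι u = r + r' + t by rw [ht]; ring]
      ring
    have hr'' : σ r' = t := by
      rcases hall _ (hσP r' hr'0) with e | e | e
      exacts [absurd e hswap, absurd e (hnofix r' hr'0), e]
    have ht0 : P t = 0 := hr'' ▸ hσP r' hr'0
    have hr3 : σ t = r := by
      rcases hall _ (hσP t ht0) with e | e | e
      exacts [e, absurd (hr''.trans (hinj (e.trans hr'))) hswap, absurd e (hnofix t ht0)]
    set δ := (r - r') * (r' - t) * (t - r) with hδ
    obtain ⟨d, hd⟩ := exists_eq_of_frobenius_fixed hF (x := δ) (by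
      rw [← congrFun (FiniteField.coe_frobeniusAlgHom F K) δ]
      show σ δ = δ
      rw [hδ, map_mul, map_mul, map_sub σ r r', map_sub σ r' t, map_sub σ t r, ← hr', hr'', hr3]
      ring)
    refine hns d ((algebraMap F K).injective ?_)
    rw [map_pow, hd, hδ, ht, disc_fibre hr hr'0 hrr]
    simp [cubB, map_ofNat]
  exact Finset.card_eq_one.mpr ⟨x, Finset.eq_singleton_iff_unique_mem.mpr
    ⟨(hmem x).mpr hx, fun y hy => hle y x ((hmem y).mp hy) hx⟩⟩

/-- The two cubics have equally many roots. -/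
theorem card_roots (hdisc : 4 * a + 27 * b ≠ 0) (ha : a ≠ 0) (hb : b ≠ 0) :
    (Finset.univ.filter fun x : F => cubA a b x = 0).card =
      (Finset.univ.filter fun u : F => cubB a b u = 0).card := by
  classical
  refine Finset.card_bij (fun x _ => isog a b x) (fun x hx => ?_) (fun x hx x' hx' h => ?_)
    (fun u hu => ?_)
  · rw [Finset.mem_filter] at hx ⊢
    refine ⟨Finset.mem_univ _, ?_⟩
    have x0 := ne_zero_of_root ha hb hx.2
    have := cubB_isog (a := a) (b := b) x0
    rw [hx.2, zero_mul] at this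
    exact (mul_eq_zero.mp this).resolve_right (pow_ne_zero 6 x0)
  · exact isog_injOn hdisc ha hb (Finset.mem_filter.mp hx).2 (Finset.mem_filter.mp hx').2 h
  rw [Finset.mem_filter] at hu
  -- over the algebraic closure the first cubic has three roots
  have hA : ι a ≠ 0 := by simpa using ha
  have hB : ι b ≠ 0 := by simpa using hb
  have hD : 4 * ι a + 27 * ι b ≠ 0 := fun h => hdisc ((algebraMap F K).injective (by
    simpa [map_ofNat] using h))
  have h2 : (2 : K) ≠ 0 := by
    rw [← map_ofNat ι 2]; simpa using Ring.two_ne_zero hF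
  have hf : ∀ y : K, cubA (ι a) (ι b) y = 0 ↔
      y ^ 3 + ι a * y ^ 2 + -2 * ι a * ι b * y + ι a * ι b ^ 2 = 0 := fun y => by
    simp only [cubA]; ring_nf
  obtain ⟨r₁, hr₁⟩ : ∃ r : K, cubA (ι a) (ι b) r = 0 := by
    obtain ⟨r, hr⟩ := IsAlgClosed.exists_root (Polynomial.C (1 : K) * Polynomial.X ^ 3 +
      Polynomial.C (ι a) * Polynomial.X ^ 2 + Polynomial.C (-2 * ι a * ι b) * Polynomial.X +
        Polynomial.C (ι a * ι b ^ 2)) (by rw [Polynomial.degree_cubic one_ne_zero]; decide)
    exact ⟨r, (hf r).mpr (by simpa using hr)⟩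
  -- none of them is a double root
  have hsep : ∀ y : K, cubA (ι a) (ι b) y = 0 → 3 * y ^ 2 + 2 * ι a * (y - ι b) ≠ 0 := by
    intro y hy h
    simp only [cubA] at hy
    have e : ι a * (y - ι b) * (y - 3 * ι b) = 0 := by linear_combination 3 * hy - y * h
    rcases mul_eq_zero.mp e with e | e
    · obtain rfl : y = ι b := sub_eq_zero.mp ((mul_eq_zero.mp e).resolve_left hA)
      exact pow_ne_zero 3 hB (by linear_combination hy)
    · obtain rfl : y = 3 * ι b := sub_eq_zero.mp e
      exact mul_ne_zero (pow_ne_zero 2 hB) hD (by linear_combination hy)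
  obtain ⟨r₂, hr₂, h12⟩ : ∃ r : K, cubA (ι a) (ι b) r = 0 ∧ r₁ ≠ r := by
    obtain ⟨r, hr⟩ := IsAlgClosed.exists_root (Polynomial.C (1 : K) * Polynomial.X ^ 2 +
      Polynomial.C (ι a + r₁) * Polynomial.X +
        Polynomial.C (r₁ ^ 2 + ι a * r₁ - 2 * ι a * ι b))
      (by rw [Polynomial.degree_quadratic one_ne_zero]; decide)
    have e : r ^ 2 + (ι a + r₁) * r + (r₁ ^ 2 + ι a * r₁ - 2 * ι a * ι b) = 0 := by simpa using hr
    have hr1' := hr₁
    simp only [cubA] at hr1'
    refine ⟨r, by simp only [cubA]; linear_combination hr1' + (r - r₁) * e, fun h => hsep r₁ hr₁ ?_⟩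
    rw [← h] at e
    linear_combination e
  obtain ⟨hB2, hC2, -⟩ := cubic_of_two_roots ((hf r₁).mp hr₁) ((hf r₂).mp hr₂) h12
  set r₃ := -ι a - r₁ - r₂ with hr3def
  have hr₃ : cubA (ι a) (ι b) r₃ = 0 := by
    rw [hf, hB2, hC2, hr3def]; ring
  have hd3 : ∀ {y : K}, cubA (ι a) (ι b) y = 0 → (y = r₁ ∨ y = r₂) → r₃ ≠ y := by
    intro y hy hcases e
    refine hsep y hy ?_
    rcases hcases with rfl | rfl
    · linear_combination hB2 + (r₂ - y) * (e - hr3def)
    · linear_combination hB2 + (r₁ - y) * (e - hr3def)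
  have h31 := hd3 hr₁ (Or.inl rfl)
  have h32 := hd3 hr₂ (Or.inr rfl)
  have himg : ∀ {y : K}, cubA (ι a) (ι b) y = 0 →
      isog (ι a) (ι b) y ^ 3 + ι a * isog (ι a) (ι b) y ^ 2 + 18 * ι a * ι b * isog (ι a) (ι b) y +
        (16 * ι a ^ 2 * ι b - 27 * ι a * ι b ^ 2) = 0 := fun {y} hy => by
    have y0 := ne_zero_of_root hA hB hy
    have := cubB_isog (a := ι a) (b := ι b) y0
    rw [hy, zero_mul] at this
    exact (mul_eq_zero.mp this).resolve_right (pow_ne_zero 6 y0)
  obtain ⟨r, hr, hru⟩ : ∃ r : K, cubA (ι a) (ι b) r = 0 ∧ isog (ι a) (ι b) r = ι u := by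
    obtain ⟨-, -, hall⟩ := cubic_of_two_roots (himg hr₁) (himg hr₂)
      (fun e => h12 (isog_injOn hD hA hB hr₁ hr₂ e))
    have h3 : isog (ι a) (ι b) r₃ = -ι a - isog (ι a) (ι b) r₁ - isog (ι a) (ι b) r₂ := by
      rcases hall _ (himg hr₃) with e | e | e
      exacts [absurd (isog_injOn hD hA hB hr₃ hr₁ e) h31,
        absurd (isog_injOn hD hA hB hr₃ hr₂ e) h32, e]
    rcases hall (ι u) (by
      have := congrArg ι hu.2
      simpa [cubB, map_ofNat] using this) with e | e | e
    exacts [⟨r₁, hr₁, e.symm⟩, ⟨r₂, hr₂, e.symm⟩, ⟨r₃, hr₃, h3.trans e.symm⟩]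
  set σ := FiniteField.frobeniusAlgHom F K
  have hσ : σ r = r := by
    refine isog_injOn hD hA hB ?_ hr ?_
    · have := congrArg σ hr
      simpa [cubA, AlgHom.commutes, map_ofNat] using this
    · have := congrArg σ hru
      simp only [isog, map_div₀, map_add, map_sub, map_mul, map_pow, map_ofNat,
        AlgHom.commutes] at this
      rw [hru]
      exact this
  obtain ⟨c, rfl⟩ := exists_eq_of_frobenius_fixed hF (x := r)
    (by rwa [FiniteField.coe_frobeniusAlgHom] at hσ)
  refine ⟨c, Finset.mem_filter.mpr ⟨Finset.mem_univ c, (algebraMap F K).injective ?_⟩,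
    (algebraMap F K).injective ?_⟩
  · simpa [cubA, map_ofNat] using hr
  · rw [← hru]; simp [isog, map_ofNat]

/-- **The character sums agree.** -/
theorem sum_char_three_isogeny (hdisc : 4 * a + 27 * b ≠ 0) (ha : a ≠ 0) (hb : b ≠ 0) :
    ∑ x : F, χ (cubA a b x) = ∑ u : F, χ (cubB a b u) := by
  classical
  set s := Finset.univ.filter fun x : F => x ≠ 0
  have hs : (s.card : ℤ) = Fintype.card F - 1 := by
    rw [show s = Finset.univ.erase 0 from Finset.filter_ne' _ _, Finset.card_erase_of_mem
      (Finset.mem_univ _), Finset.card_univ, Nat.cast_sub Fintype.card_pos, Nat.cast_one]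
  have hpt : ∀ x ∈ s, χ (cubA a b x) = χ (cubB a b (isog a b x)) + χ a *
      ((if cubB a b (isog a b x) = 0 then 1 else 0) - if cubA a b x = 0 then 1 else 0) := by
    intro x hx
    have x0 : x ≠ 0 := (Finset.mem_filter.mp hx).2
    have hid := cubB_isog (a := a) (b := b) x0
    by_cases hg : cubB a b (isog a b x) = 0
    · rw [hg, zero_mul] at hid
      rw [if_pos hg, hg, quadraticChar_zero, zero_add]
      rcases eq_or_ne (cubA a b x) 0 with hf | hf
      · simp [hf]
      rw [if_neg hf, sub_zero, mul_one]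
      have hd := pow_eq_zero_iff two_ne_zero |>.mp ((mul_eq_zero.mp hid.symm).resolve_left hf)
      rw [cubA_of_isogDer hd] at hf ⊢
      rw [map_mul, quadraticChar_sq_one' (fun e => hf (by rw [e]; ring)), mul_one]
    · have hf : cubA a b x ≠ 0 := fun e => by
        rw [e, zero_mul] at hid
        exact mul_ne_zero hg (pow_ne_zero 6 x0) hid
      have hd : isogDer a b x ≠ 0 := fun e => by
        rw [e, zero_pow two_ne_zero, mul_zero] at hid
        exact mul_ne_zero hg (pow_ne_zero 6 x0) hid
      rw [if_neg hg, if_neg hf, sub_self, mul_zero, add_zero]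
      have := congrArg χ hid
      rw [map_mul, map_mul, show x ^ 6 = (x ^ 3) ^ 2 by ring, quadraticChar_sq_one'
        (pow_ne_zero 3 x0), quadraticChar_sq_one' hd, mul_one, mul_one] at this
      exact this.symm
  have hchi : χ a * χ a = 1 := by rw [← pow_two]; exact quadraticChar_sq_one ha
  -- fibre by fibre
  have hfib : ∀ u : F, (∑ x ∈ s.filter fun x => isog a b x = u, χ (cubB a b (isog a b x))) =
      χ a * (∑ x ∈ s.filter fun x => isog a b x = u,
        (1 - if cubB a b (isog a b x) = 0 then (1 : ℤ) else 0)) -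
      χ a * (1 - (if cubB a b u = 0 then 1 else 0) - χ (a * cubB a b u)) := by
    intro u
    rw [Finset.sum_congr rfl fun x hx => show χ (cubB a b (isog a b x)) = χ (cubB a b u) by
        rw [(Finset.mem_filter.mp hx).2],
      Finset.sum_congr rfl fun x hx => show (1 - if cubB a b (isog a b x) = 0 then (1 : ℤ) else 0) =
          1 - if cubB a b u = 0 then (1 : ℤ) else 0 by rw [(Finset.mem_filter.mp hx).2],
      Finset.sum_const, Finset.sum_const, nsmul_eq_mul, nsmul_eq_mul]
    by_cases hg : cubB a b u = 0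
    · simp [hg]
    rw [if_neg hg, map_mul]
    rcases quadraticChar_dichotomy (mul_ne_zero ha hg) with h | h
    · rw [map_mul] at h
      have e : χ (cubB a b u) = χ a := by linear_combination χ a * h - χ (cubB a b u) * hchi
      rw [h, e]; ring
    · have hc := card_fibre hF ha hb h
      rw [map_mul] at h
      have e : χ (cubB a b u) = -χ a := by linear_combination χ a * h - χ (cubB a b u) * hchi
      rw [h, e, show s.filter (fun x => isog a b x = u) =
        Finset.univ.filter (fun x : F => x ≠ 0 ∧ isog a b x = u) from Finset.filter_filter .., hc]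
      ring
  have hG : ∑ x ∈ s, χ (cubB a b (isog a b x)) =
      χ a * ∑ x ∈ s, (1 - if cubB a b (isog a b x) = 0 then (1 : ℤ) else 0) -
      χ a * ∑ u : F, (1 - (if cubB a b u = 0 then 1 else 0) - χ (a * cubB a b u)) := by
    rw [← Finset.sum_fiberwise s (isog a b), Finset.sum_congr rfl fun u _ => hfib u,
      Finset.sum_sub_distrib, ← Finset.mul_sum, ← Finset.mul_sum,
      Finset.sum_fiberwise s (isog a b) fun x => (1 - if cubB a b (isog a b x) = 0 then (1 : ℤ) else 0)]
  have hroots : (∑ x ∈ s, if cubA a b x = 0 then (1 : ℤ) else 0) =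
      ∑ u : F, if cubB a b u = 0 then (1 : ℤ) else 0 := by
    rw [Finset.sum_boole, Finset.sum_boole, ← card_roots hF hdisc ha hb, Finset.filter_filter]
    congr 2
    ext x
    simp only [Finset.mem_filter, Finset.mem_univ, true_and, and_iff_right_iff_imp]
    exact ne_zero_of_root ha hb
  rw [← Finset.sum_filter_add_sum_filter_not Finset.univ (fun x : F => x ≠ 0),
    show Finset.univ.filter (fun x : F => ¬ x ≠ 0) = {0} by ext; simp, Finset.sum_singleton,
    Finset.sum_congr rfl hpt, Finset.sum_add_distrib, hG,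
    show χ (cubA a b 0) = χ a by
      rw [show cubA a b 0 = a * b ^ 2 by simp [cubA], map_mul, quadraticChar_sq_one' hb, mul_one]]
  simp only [← Finset.mul_sum, Finset.sum_sub_distrib, map_mul, Finset.sum_const, Finset.card_univ,
    nsmul_one]
  rw [hs, hroots]
  linear_combination (∑ u : F, χ (cubB a b u)) * hchi

omit hF

theorem natCard_point_three_isogeny (hF : ringChar F ≠ 2) (a b : F)
    (h : (⟨0, a, 0, -2 * a * b, a * b ^ 2⟩ : WeierstrassCurve F).Δ ≠ 0)
    (h' : (⟨0, a, 0, 18 * a * b, 16 * a ^ 2 * b - 27 * a * b ^ 2⟩ : WeierstrassCurve F).Δ ≠ 0) :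
    Nat.card (⟨0, a, 0, -2 * a * b, a * b ^ 2⟩ : WeierstrassCurve F).toAffine.Point =
      Nat.card (⟨0, a, 0, 18 * a * b,
        16 * a ^ 2 * b - 27 * a * b ^ 2⟩ : WeierstrassCurve F).toAffine.Point := by
  have hΔ : (⟨0, a, 0, -2 * a * b, a * b ^ 2⟩ : WeierstrassCurve F).Δ =
      -16 * a ^ 2 * b ^ 3 * (4 * a + 27 * b) := by
    simp only [WeierstrassCurve.Δ, b₂, b₄, b₆, b₈]; ring
  have ha : a ≠ 0 := fun e => h (by rw [hΔ, e]; ring)
  have hb : b ≠ 0 := fun e => h (by rw [hΔ, e]; ring)
  have hd : 4 * a + 27 * b ≠ 0 := fun e => h (by rw [hΔ, e]; ring)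
  have h2 : (2 : F) ≠ 0 := Ring.two_ne_zero hF
  have h4 : ∀ (r s t x : F), χ (4 * x ^ 3 + (⟨0, r, 0, s, t⟩ : WeierstrassCurve F).b₂ * x ^ 2 +
      2 * (⟨0, r, 0, s, t⟩ : WeierstrassCurve F).b₄ * x + (⟨0, r, 0, s, t⟩ : WeierstrassCurve F).b₆) =
      χ (x ^ 3 + r * x ^ 2 + s * x + t) := fun r s t x => by
    simp only [b₂, b₄, b₆]
    rw [show 4 * x ^ 3 + (0 ^ 2 + 4 * r) * x ^ 2 + 2 * (2 * s + 0 * 0) * x + (0 ^ 2 + 4 * t) =
      2 ^ 2 * (x ^ 3 + r * x ^ 2 + s * x + t) by ring, map_mul, quadraticChar_sq_one' h2, one_mul]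
  rw [← Nat.cast_inj (R := ℤ), FA.Twists.natCard_point_eq_sum hF _ h,
    FA.Twists.natCard_point_eq_sum hF _ h']
  simp only [h4]
  rw [Finset.sum_congr rfl fun x _ => show χ (x ^ 3 + a * x ^ 2 + -2 * a * b * x + a * b ^ 2) =
      χ (cubA a b x) by congr 1; simp only [cubA]; ring, sum_char_three_isogeny hF hd ha hb]
  rfl

end FA.CM.ThreeIsogeny

namespace FA.Summary

/-- **Three-isogenous curves have equally many points** over a finite field of odd
characteristic. -/
theorem pointCount_three_isogeny {F : Type} [Field F] [Fintype F] (hF : ringChar F ≠ 2) (a b : F)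
    (h : (⟨0, a, 0, -2 * a * b, a * b ^ 2⟩ : WeierstrassCurve F).Δ ≠ 0)
    (h' : (⟨0, a, 0, 18 * a * b, 16 * a ^ 2 * b - 27 * a * b ^ 2⟩ : WeierstrassCurve F).Δ ≠ 0) :
    Nat.card (⟨0, a, 0, -2 * a * b, a * b ^ 2⟩ : WeierstrassCurve F).toAffine.Point =
      Nat.card (⟨0, a, 0, 18 * a * b,
        16 * a ^ 2 * b - 27 * a * b ^ 2⟩ : WeierstrassCurve F).toAffine.Point := by
  classical
  exact FA.CM.ThreeIsogeny.natCard_point_three_isogeny hF a b h h'

end FA.Summary

end
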