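import Fermat.Agent.CM.Twist27
import Fermat.Agent.CM.ThreeIsogeny
import Fermat.Agent.CM.Common

/-!
# Curves with `j = -12288000`

They are the curves with multiplication by `ℤ[3 ω]`, the quadratic twists of
`y² + y = x³ - 30 x + 63`, which is three-isogenous to `y² + y = x³`. So their L-functions are
those of twists of `y² + y = x³`.
-/

set_option autoImplicit false

noncomputable section

open WeierstrassCurve
open FA.Twists

namespace FA.CM

/-- `y² + y = x³ - 30 x + 63`. -/
def curve27Order {R : Type*} [CommRing R] : WeierstrassCurve R := ⟨0, 0, 1, -30, 63⟩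

theorem curve27Order_invariants {R : Type*} [CommRing R] :
    (curve27Order : WeierstrassCurve R).c₄ = 1440 ∧
      (curve27Order : WeierstrassCurve R).c₆ = -54648 ∧
        (curve27Order : WeierstrassCurve R).Δ = -243 := by
  refine ⟨?_, ?_, ?_⟩ <;>
    simp only [curve27Order, c₄, c₆, WeierstrassCurve.Δ, b₂, b₄, b₆, b₈] <;> ring

theorem curve27Order_map {R S : Type*} [CommRing R] [CommRing S] (f : R →+* S) :
    (curve27Order : WeierstrassCurve R).map f = curve27Order := by
  ext <;> simp [curve27Order, map_ofNat]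

theorem good_curve27Order {l : ℕ} (hl : l.Prime) (hl3 : l ≠ 3) :
    ¬ (l : ℤ) ∣ (curve27Order : WeierstrassCurve ℤ).Δ := by
  rw [curve27Order_invariants.2.2, Int.dvd_neg]
  intro h
  have h' : l ∣ 3 ^ 5 := by exact_mod_cast h
  exact hl3 ((Nat.prime_dvd_prime_iff_eq hl Nat.prime_three).mp (hl.dvd_of_dvd_pow h'))

/-- The traces of the two curves agree. -/
theorem apOfModel_curve27Order {l : ℕ} (hl : l.Prime) (hl3 : l ≠ 3) :
    (curve27Order : WeierstrassCurve ℤ).apOfModel l = (curve27 : WeierstrassCurve ℤ).apOfModel l := by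
  have := Fact.mk hl
  have h1 := good_curve27Order hl hl3
  have h2 := good_curve27 hl hl3
  rw [apOfModel, apOfModel, reductionMod, reductionMod, curve27Order_map, curve27_map]
  have hΔ1 : (curve27Order : WeierstrassCurve (ZMod l)).Δ ≠ 0 := fun h => h1 (by
    rw [← ZMod.intCast_zmod_eq_zero_iff_dvd, curve27Order_invariants.2.2]
    rw [curve27Order_invariants.2.2] at h
    simpa using h)
  have hΔ2 : (curve27 : WeierstrassCurve (ZMod l)).Δ ≠ 0 := fun h => h2 (by
    rw [← ZMod.intCast_zmod_eq_zero_iff_dvd, curve27_Δ]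
    rw [curve27_Δ] at h
    simpa using h)
  rcases eq_or_ne l 2 with rfl | hl2
  · rw [traceOfFrobenius_two _ hΔ1, traceOfFrobenius_two _ hΔ2,
      show countTwo (curve27Order : WeierstrassCurve (ZMod 2)) = countTwo curve27 by
        simp only [countTwo, curve27Order, curve27]; decide]
  classical
  have hF : ringChar (ZMod l) ≠ 2 := (ZMod.ringChar_zmod_n l).trans_ne hl2
  have t2 : (2 : ZMod l) ≠ 0 := Ring.two_ne_zero hF
  have hl4 : (4 : ZMod l) ≠ 0 := by
    rw [show (4 : ZMod l) = 2 * 2 by norm_num]; exact mul_ne_zero t2 t2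
  -- both sums in the variable `4 x + 4`
  have key : ∀ p q : ZMod l, ∑ x : ZMod l, quadraticChar (ZMod l) (4 * x ^ 3 + p * x + q) =
      ∑ x : ZMod l, quadraticChar (ZMod l) ((x - 4) ^ 3 + 4 * p * (x - 4) + 16 * q) := fun p q => by
    refine Fintype.sum_equiv ((Equiv.mulLeft₀ 4 hl4).trans (Equiv.addRight 4)) _ _ fun x => ?_
    rw [show ((Equiv.mulLeft₀ 4 hl4).trans (Equiv.addRight 4)) x = 4 * x + 4 from rfl,
      show (4 * x + 4 - 4) ^ 3 + 4 * p * (4 * x + 4 - 4) + 16 * q =
        4 ^ 2 * (4 * x ^ 3 + p * x + q) by ring, map_mul, quadraticChar_sq_one' hl4, one_mul]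
  rw [traceOfFrobenius, traceOfFrobenius, WeierstrassCurve.card, WeierstrassCurve.card,
    natCard_point_eq_sum hF _ hΔ1, natCard_point_eq_sum hF _ hΔ2]
  congr 2
  have e1 : ∀ x : ZMod l, 4 * x ^ 3 + (curve27Order : WeierstrassCurve (ZMod l)).b₂ * x ^ 2 +
      2 * (curve27Order : WeierstrassCurve (ZMod l)).b₄ * x +
        (curve27Order : WeierstrassCurve (ZMod l)).b₆ = 4 * x ^ 3 + -120 * x + 253 := fun x => by
    simp only [curve27Order, b₂, b₄, b₆]; ring
  have e2 : ∀ x : ZMod l, 4 * x ^ 3 + (curve27 : WeierstrassCurve (ZMod l)).b₂ * x ^ 2 +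
      2 * (curve27 : WeierstrassCurve (ZMod l)).b₄ * x + (curve27 : WeierstrassCurve (ZMod l)).b₆ =
        4 * x ^ 3 + 0 * x + 1 := fun x => by
    simp only [curve27, b₂, b₄, b₆]; ring
  simp only [e1, e2, key]
  have h3 : (3 : ZMod l) ≠ 0 := fun h => h2 (by
    rw [← ZMod.intCast_zmod_eq_zero_iff_dvd, curve27_Δ, Int.cast_neg]
    rw [show ((27 : ℤ) : ZMod l) = 3 ^ 3 by norm_num, h]; ring)
  have h := ThreeIsogeny.sum_char_three_isogeny (F := ZMod l) (a := -12) (b := 2) hF
    (by rw [show (4 : ZMod l) * -12 + 27 * 2 = 2 * 3 by ring]; exact mul_ne_zero t2 h3)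
    (by rw [show (-12 : ZMod l) = -(2 * 2 * 3) by ring]
        exact neg_ne_zero.mpr (mul_ne_zero (mul_ne_zero t2 t2) h3)) t2
  refine Eq.trans (Finset.sum_congr rfl fun x _ => ?_) (h.symm.trans (Finset.sum_congr rfl fun x _ => ?_))
  · congr 1; simp only [ThreeIsogeny.cubB]; ring
  · congr 1; simp only [ThreeIsogeny.cubA]; ring

/-- A curve with `j = -12288000` has the L-function of a twist of `y² + y = x³`. -/
theorem exists_twist27_of_j_eq (E : WeierstrassCurve ℚ) [E.IsElliptic] (hj : E.j = -12288000) :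
    ∃ (E' : WeierstrassCurve ℚ) (z : ℚ), z ≠ 0 ∧ E'.c₄ = 0 ∧ E'.c₆ = -216 * z ^ 3 ∧
      ∀ n, E.LFunction n = E'.LFunction n := by
  obtain ⟨e4, e6, eΔ⟩ := curve27Order_invariants (R := ℤ)
  obtain ⟨z, hz0, h4, h6, hΔ⟩ := exists_scaling_of_j E curve27Order
    (by rw [e4]; norm_num) (by rw [e6]; norm_num) (by rw [hj, e4, eΔ]; norm_num)
  rw [e4] at h4; rw [e6] at h6; rw [eΔ] at hΔ
  obtain ⟨D, t, hD, ht, hzt⟩ := exists_squarefree_mul_sq hz0
  set E' : WeierstrassCurve ℚ := ⟨0, 0, 0, 0, z ^ 3 / 4⟩ with hE'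
  have h4' : E'.c₄ = 0 := (mordell_invariants _).1
  have h6' : E'.c₆ = -216 * z ^ 3 := by rw [hE', (mordell_invariants _).2]; ring
  refine ⟨E', z, hz0, h4', h6', fun n => ?_⟩
  have hL := FA.Root.isMultiplicative_LFunction E
  have hL' := FA.Root.isMultiplicative_LFunction E'
  have hW : (curve27Order : WeierstrassCurve ℤ).IsIntegralModelOf
      (curve27Order : WeierstrassCurve ℚ) := ⟨1, by rw [one_smul, curve27Order_map]⟩
  induction n using Nat.recOnPosPrimePosCoprime with
  | prime_pow l r hl hr =>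
    rcases eq_or_ne l 3 with rfl | hl3
    · obtain ⟨r, rfl⟩ : ∃ r', r = r' + 1 := ⟨r - 1, by omega⟩
      rw [LFunction_three_pow_of_twist27 E' hz0 h4' h6',
        LFunction_prime_pow_of_exponents Nat.prime_three E hz0 (A := 1440) (B := -1) (β := 5)
          (by decide) (by decide) (Or.inr ⟨2, 160, by norm_num, by decide, by norm_num⟩)
          (by rw [h4]) (by rw [hΔ]; norm_num)]
    have := Fact.mk hl
    rw [LFunction_twist_prime_pow (W := curve27Order) (D := D) hW
        (by rw [curve27Order_invariants.2.2]; norm_num) hD ht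
        (by rw [h4, hzt, curve27Order_invariants.1]; push_cast; ring)
        (by rw [h6, hzt, curve27Order_invariants.2.1]; push_cast; ring)
        hl (fun h => absurd h (good_curve27Order hl hl3)) r,
      LFunction_twist_prime_pow (W := curve27) (D := D) (E := E') isIntegralModelOf_curve27
        (by rw [curve27_Δ]; norm_num) hD ht
        (by rw [h4', curve27_c₄]; simp)
        (by rw [h6', hzt, curve27_c₆]; push_cast; ring)
        hl (fun h => absurd h (good_curve27 hl hl3)) r,
      prime_pow_of_model (E := (curve27Order : WeierstrassCurve ℚ)) (U := curve27Order)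
        isIntegralModelOf_curve27 hW (by rw [curve27_Δ]; norm_num)
        (by rw [curve27Order_invariants.2.2]; norm_num) hl
        (fun h => absurd h (good_curve27 hl hl3))
        (iff_of_false (good_curve27Order hl hl3) (good_curve27 hl hl3))
        (fun h => absurd h (good_curve27 hl hl3)) (ε := 1) (one_pow 2)
        (fun _ => by rw [one_mul, apOfModel_curve27Order hl hl3])
        (fun h => absurd h (good_curve27 hl hl3)) r, one_pow, one_mul]
  | zero => simp
  | one => rw [hL.map_one, hL'.map_one]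
  | coprime p q _ _ hpq ihp ihq =>
    rw [hL.map_mul_of_coprime hpq, hL'.map_mul_of_coprime hpq, ihp, ihq]

end FA.CM

namespace FA.Summary

/-- **Every curve with multiplication by `ℤ[3 ω]`** is modular: all coefficients of its L-function
are those of a cusp form of weight two. -/
theorem modularity_of_j_eq_neg_12288000 (E : WeierstrassCurve ℚ) [E.IsElliptic]
    (hj : E.j = -12288000) :
    ∃ (N : ℕ) (f : CuspForm (CongruenceSubgroup.Gamma0 N) 2), 0 < N ∧
      ∀ n : ℕ, (UpperHalfPlane.qExpansion 1 f).coeff n = (E.LFunction n : ℂ) := by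
  obtain ⟨E', z, hz, h4, h6, h⟩ := FA.CM.exists_twist27_of_j_eq E hj
  simp only [h]
  exact modularity_twist_27a E' hz h4 h6

/-- Its L-series is entire. -/
theorem entire_continuation_of_j_eq_neg_12288000 (E : WeierstrassCurve ℚ) [E.IsElliptic]
    (hj : E.j = -12288000) :
    ∃ g : ℂ → ℂ, Differentiable ℂ g ∧ ∀ s : ℂ, 3 / 2 < s.re → E.LSeries s = g s := by
  obtain ⟨E', z, hz, h4, h6, h⟩ := FA.CM.exists_twist27_of_j_eq E hj
  have e : E.LFunction = E'.LFunction := ArithmeticFunction.ext h
  simp only [WeierstrassCurve.LSeries, e]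
  exact entire_continuation_twist_27a E' hz h4 h6

end FA.Summary

end
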