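import Fermat.Agent.CM.OrderThree
import Fermat.Agent.CM.Isogeny
import Fermat.Agent.CM.Cubic.ModularJZero

/-!
# Curves with `j = 54000`

They are the curves with multiplication by `ℤ[√-3]`, two-isogenous to the curves `y² = x³ + d³`,
with which they share all coefficients of the L-function; so they are modular.
-/

set_option autoImplicit false

noncomputable section

open WeierstrassCurve
open FA.Twists

namespace FA.CM

/-- A curve with `j = 54000` has the L-function of some `y² = x³ + d³`. -/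
theorem exists_mordell_of_j_eq_54000 (E : WeierstrassCurve ℚ) [E.IsElliptic] (hj : E.j = 54000) :
    ∃ d : ℚ, d ≠ 0 ∧ ∀ n, E.LFunction n =
      (⟨0, 0, 0, 0, d ^ 3⟩ : WeierstrassCurve ℚ).LFunction n := by
  obtain ⟨z, hz0, h4, h6, hΔ⟩ := exists_scaling_of_j E ⟨0, -2 * -3, 0, (-3) ^ 2 - 4 * 3, 0⟩
    (by norm_num [c₄, b₂, b₄]) (by norm_num [c₆, b₂, b₄, b₆])
    (by rw [hj]; norm_num [c₄, WeierstrassCurve.Δ, b₂, b₄, b₆, b₈])
  obtain ⟨D, t, hD, ht, hzt⟩ := exists_squarefree_mul_sq hz0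
  set E' : WeierstrassCurve ℚ := ⟨0, 0, 0, 0, z ^ 3⟩ with hE'
  obtain ⟨h4', h6'⟩ := mordell_invariants (z ^ 3)
  rw [← hE'] at h4' h6'
  have hΔ' : E'.Δ = z ^ 6 * -432 := by
    refine mul_left_cancel₀ (show (1728 : ℚ) ≠ 0 by norm_num) ?_
    rw [E'.c_relation, h4', h6']; ring
  set W : WeierstrassCurve ℤ := ⟨0, -2 * -3, 0, (-3) ^ 2 - 4 * 3, 0⟩ with hWdef
  set W' : WeierstrassCurve ℤ := ⟨0, -3, 0, 3, 0⟩ with hW'def
  have eW : W.c₄ = 720 ∧ W.c₆ = -19008 ∧ W.Δ = 6912 := by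
    refine ⟨?_, ?_, ?_⟩ <;> norm_num [hWdef, c₄, c₆, WeierstrassCurve.Δ, b₂, b₄, b₆, b₈]
  have eW' : W'.c₄ = 0 ∧ W'.c₆ = -864 ∧ W'.Δ = -432 := by
    refine ⟨?_, ?_, ?_⟩ <;> norm_num [hW'def, c₄, c₆, WeierstrassCurve.Δ, b₂, b₄, b₆, b₈]
  have hgood : ∀ {l : ℕ}, l.Prime → l ≠ 2 → l ≠ 3 → ¬ (l : ℤ) ∣ W.Δ ∧ ¬ (l : ℤ) ∣ W'.Δ := by
    intro l hl h2 h3
    have key : ∀ i j : ℕ, ¬ l ∣ 2 ^ i * 3 ^ j := fun i j h => by
      rcases hl.dvd_mul.mp h with h | h
      · exact h2 ((Nat.prime_dvd_prime_iff_eq hl Nat.prime_two).mp (hl.dvd_of_dvd_pow h))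
      · exact h3 ((Nat.prime_dvd_prime_iff_eq hl Nat.prime_three).mp (hl.dvd_of_dvd_pow h))
    rw [eW.2.2, eW'.2.2, Int.dvd_neg]
    exact ⟨fun h => key 8 3 (by exact_mod_cast h), fun h => key 4 3 (by exact_mod_cast h)⟩
  refine ⟨z, hz0, fun n => ?_⟩
  show E.LFunction n = E'.LFunction n
  have hL := FA.Root.isMultiplicative_LFunction E
  have hL' := FA.Root.isMultiplicative_LFunction E'
  induction n using Nat.recOnPosPrimePosCoprime with
  | prime_pow l r hl hr =>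
    rcases eq_or_ne l 2 with rfl | hl2
    · obtain ⟨r, rfl⟩ : ∃ r', r = r' + 1 := ⟨r - 1, by omega⟩
      rw [LFunction_prime_pow_of_exponents Nat.prime_two E hz0 (A := 720) (B := 27) (β := 8)
          (by decide) (by decide) (Or.inr ⟨4, 45, by norm_num, by decide, by norm_num⟩)
          (by rw [h4, eW.1]) (by rw [hΔ, eW.2.2]; norm_num),
        LFunction_prime_pow_of_exponents Nat.prime_two E' hz0 (A := 0) (B := -27) (β := 4)
          (by decide) (by decide) (Or.inl rfl) (by rw [h4']; simp) (by rw [hΔ']; norm_num)]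
    rcases eq_or_ne l 3 with rfl | hl3
    · obtain ⟨r, rfl⟩ : ∃ r', r = r' + 1 := ⟨r - 1, by omega⟩
      rw [LFunction_prime_pow_of_exponents Nat.prime_three E hz0 (A := 720) (B := 256) (β := 3)
          (by decide) (by decide) (Or.inr ⟨2, 80, by norm_num, by decide, by norm_num⟩)
          (by rw [h4, eW.1]) (by rw [hΔ, eW.2.2]; norm_num),
        LFunction_prime_pow_of_exponents Nat.prime_three E' hz0 (A := 0) (B := -16) (β := 3)
          (by decide) (by decide) (Or.inl rfl) (by rw [h4']; simp) (by rw [hΔ']; norm_num)]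
    have := Fact.mk hl
    obtain ⟨g, g'⟩ := hgood hl hl2 hl3
    have hW : W.IsIntegralModelOf (W.map (Int.castRingHom ℚ)) := ⟨1, by rw [one_smul]⟩
    have hW' : W'.IsIntegralModelOf (W'.map (Int.castRingHom ℚ)) := ⟨1, by rw [one_smul]⟩
    rw [LFunction_twist_prime_pow (W := W) (D := D) hW (by rw [eW.2.2]; norm_num) hD ht
        (by rw [h4, hzt]; ring) (by rw [h6, hzt]; ring)
        hl (fun h => absurd h g) r,
      LFunction_twist_prime_pow (W := W') (D := D) (E := E') hW' (by rw [eW'.2.2]; norm_num) hD ht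
        (by rw [h4', eW'.1]; simp) (by rw [h6', hzt, eW'.2.1]; push_cast; ring)
        hl (fun h => absurd h g') r,
      prime_pow_of_model (U := W) hW' hW (by rw [eW'.2.2]; norm_num) (by rw [eW.2.2]; norm_num) hl
        (fun h => absurd h g') (iff_of_false g g') (fun h => absurd h g') (ε := 1) (one_pow 2)
        (fun _ => by rw [one_mul]; exact (apOfModel_two_isogeny hl2 (-3) 3 g' g).symm)
        (fun h => absurd h g') r, one_pow, one_mul]
  | zero => simp
  | one => rw [hL.map_one, hL'.map_one]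
  | coprime p q _ _ hpq ihp ihq =>
    rw [hL.map_mul_of_coprime hpq, hL'.map_mul_of_coprime hpq, ihp, ihq]

end FA.CM

namespace FA.Summary

/-- **Every curve with multiplication by `ℤ[√-3]`** is modular: all coefficients of its L-function
are those of a cusp form of weight two. -/
theorem modularity_of_j_eq_54000 (E : WeierstrassCurve ℚ) [E.IsElliptic] (hj : E.j = 54000) :
    ∃ (N : ℕ) (f : CuspForm (CongruenceSubgroup.Gamma0 N) 2), 0 < N ∧
      ∀ n : ℕ, (UpperHalfPlane.qExpansion 1 f).coeff n = (E.LFunction n : ℂ) := by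
  obtain ⟨d, hd, h⟩ := FA.CM.exists_mordell_of_j_eq_54000 E hj
  have hΔ : (⟨0, 0, 0, 0, d ^ 3⟩ : WeierstrassCurve ℚ).Δ = -432 * (d ^ 3) ^ 2 := by
    simp only [WeierstrassCurve.Δ, b₂, b₄, b₆, b₈]; ring
  have : (⟨0, 0, 0, 0, d ^ 3⟩ : WeierstrassCurve ℚ).IsElliptic :=
    ⟨isUnit_iff_ne_zero.mpr (by
      rw [hΔ]; exact mul_ne_zero (by norm_num) (pow_ne_zero 2 (pow_ne_zero 3 hd)))⟩
  simp only [h]
  exact modularity_of_j_eq_zero _
    ((WeierstrassCurve.j_eq_zero_iff _).mpr (FA.CM.mordell_invariants _).1)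

/-- Its L-series is entire. -/
theorem entire_continuation_of_j_eq_54000 (E : WeierstrassCurve ℚ) [E.IsElliptic]
    (hj : E.j = 54000) :
    ∃ g : ℂ → ℂ, Differentiable ℂ g ∧ ∀ s : ℂ, 3 / 2 < s.re → E.LSeries s = g s := by
  obtain ⟨d, hd, h⟩ := FA.CM.exists_mordell_of_j_eq_54000 E hj
  have hΔ : (⟨0, 0, 0, 0, d ^ 3⟩ : WeierstrassCurve ℚ).Δ = -432 * (d ^ 3) ^ 2 := by
    simp only [WeierstrassCurve.Δ, b₂, b₄, b₆, b₈]; ring
  have : (⟨0, 0, 0, 0, d ^ 3⟩ : WeierstrassCurve ℚ).IsElliptic :=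
    ⟨isUnit_iff_ne_zero.mpr (by
      rw [hΔ]; exact mul_ne_zero (by norm_num) (pow_ne_zero 2 (pow_ne_zero 3 hd)))⟩
  have e : E.LFunction = (⟨0, 0, 0, 0, d ^ 3⟩ : WeierstrassCurve ℚ).LFunction :=
    ArithmeticFunction.ext h
  simp only [WeierstrassCurve.LSeries, e]
  exact entire_continuation_of_j_eq_zero _
    ((WeierstrassCurve.j_eq_zero_iff _).mpr (FA.CM.mordell_invariants _).1)

end FA.Summary

end
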