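import Mathlib.NumberTheory.ModularForms.Discriminant
import Mathlib.NumberTheory.ModularForms.JacobiTheta.TwoVariable
import Fermat.Agent.ModField.Semistable.Mono.Eta.Multiplier

/-!
# Jacobi's identities for `η³` and for `θ₄`

`∑ (-1)^n (2n+1) e^(π i τ (n + 1/2)²) = 2 η(τ)³` and `∑ (-1)^n e^(π i τ n²) η(τ) = η(τ/2)²`:
the squares of the quotients are invariant (permuted in the second case) under the translation
and the inversion, so are constant.
-/

set_option autoImplicit false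

noncomputable section

namespace FA.CM

open UpperHalfPlane hiding I
open Complex Filter Topology ModularForm
open scoped Real MatrixGroups

local notation "ℍₒ" => UpperHalfPlane.upperHalfPlaneSet

/-- `∑ a_n e^(π i τ e_n)`. -/
def qSum (a : ℤ → ℂ) (e : ℤ → ℤ) (τ : ℂ) : ℂ := ∑' n : ℤ, a n * cexp (π * I * τ * e n)

/-- Summability of the terms for `1 ≤ im τ`, hence for `0 < im τ`. -/
def Admissible (a : ℤ → ℂ) (e : ℤ → ℤ) : Prop :=
  (∀ n, 0 ≤ e n) ∧ ∀ T : ℝ, 0 < T → Summable fun n => ‖a n‖ * Real.exp (-π * T * e n)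

theorem Admissible.summable {a : ℤ → ℂ} {e : ℤ → ℤ} (h : Admissible a e) {τ : ℂ}
    (hτ : 0 < τ.im) : Summable fun n => a n * cexp (π * I * τ * e n) := by
  refine Summable.of_norm ?_
  convert h.2 τ.im hτ using 2 with n
  rw [norm_mul, Complex.norm_exp]
  congr 2
  simp

theorem norm_term_le {a : ℤ → ℂ} {e : ℤ → ℤ} (h : Admissible a e) {τ : ℂ} {T : ℝ} (hτ : T ≤ τ.im)
    (n : ℤ) : ‖a n * cexp (π * I * τ * e n)‖ ≤ ‖a n‖ * Real.exp (-π * T * e n) := by
  rw [norm_mul, Complex.norm_exp]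
  refine mul_le_mul_of_nonneg_left (Real.exp_le_exp.mpr ?_) (norm_nonneg _)
  have : (0 : ℝ) ≤ π * e n := mul_nonneg Real.pi_pos.le (by exact_mod_cast h.1 n)
  simp only [Complex.mul_re, Complex.mul_im, Complex.ofReal_re, Complex.ofReal_im, Complex.I_re,
    Complex.I_im, Complex.intCast_re, Complex.intCast_im]
  nlinarith

theorem differentiableOn_qSum {a : ℤ → ℂ} {e : ℤ → ℤ} (h : Admissible a e) :
    DifferentiableOn ℂ (qSum a e) ℍₒ := by
  intro τ hτ
  have hT : 0 < τ.im / 2 := half_pos hτ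
  have hU : IsOpen {z : ℂ | τ.im / 2 < z.im} := isOpen_lt continuous_const Complex.continuous_im
  have := differentiableOn_tsum_of_summable_norm (h.2 _ hT)
    (fun n => (by fun_prop : DifferentiableOn ℂ (fun z => a n * cexp (π * I * z * e n))
      {z : ℂ | τ.im / 2 < z.im})) hU (fun n z hz => norm_term_le h (le_of_lt hz) n)
  exact (this.differentiableAt (hU.mem_nhds (show τ.im / 2 < τ.im from half_lt_self hτ))).differentiableWithinAt

theorem tendsto_qSum {a : ℤ → ℂ} {e : ℤ → ℤ} (h : Admissible a e) :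
    Tendsto (fun τ : ℍ => qSum a e τ) atImInfty
      (𝓝 (∑' n, if e n = 0 then a n else 0)) := by
  refine tendsto_tsum_of_dominated_convergence (h.2 1 one_pos) (fun n => ?_) ?_
  · rcases eq_or_ne (e n) 0 with h0 | h0
    · simp [h0]
    · rw [if_neg h0, tendsto_zero_iff_norm_tendsto_zero]
      simp only [norm_mul, Complex.norm_exp]
      rw [← mul_zero ‖a n‖]
      refine tendsto_const_nhds.mul (Real.tendsto_exp_atBot.comp ?_)
      have he : (0 : ℝ) < π * e n :=
        mul_pos Real.pi_pos (by exact_mod_cast lt_of_le_of_ne (h.1 n) (Ne.symm h0))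
      refine (tendsto_neg_atTop_atBot.comp (Filter.tendsto_comap.const_mul_atTop he)).congr
        fun τ => ?_
      simp
      ring
  · filter_upwards [atImInfty_mem _ |>.mpr ⟨1, fun z hz => hz⟩] with τ hτ n
    exact norm_term_le h hτ n

/-- Translation by `1`. -/
theorem qSum_add_one {a b : ℤ → ℂ} {e : ℤ → ℤ} (hab : ∀ n, a n * (-1) ^ e n = b n) (τ : ℂ) :
    qSum a e (τ + 1) = qSum b e τ := by
  refine tsum_congr fun n => ?_
  rw [← hab, mul_add, add_mul, Complex.exp_add, mul_one, mul_comm (π * I : ℂ) (e n : ℂ),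
    Complex.exp_int_mul, Complex.exp_pi_mul_I]
  ring

/-! ### The three series -/

/-- The exponents `n²`. -/
def sqE (n : ℤ) : ℤ := n ^ 2

/-- The exponents `n² + n`. -/
def triE (n : ℤ) : ℤ := n ^ 2 + n

theorem even_triE (n : ℤ) : Even (triE n) := by
  rw [triE, sq, ← mul_add_one]
  exact Int.even_mul_succ_self n

theorem triE_nonneg (n : ℤ) : 0 ≤ triE n := by
  rcases le_or_gt 0 n with h | h <;> rw [triE] <;> nlinarith

theorem admissible_of_le {a : ℤ → ℂ} {e : ℤ → ℤ} (he : ∀ n, 0 ≤ e n)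
    (hle : ∀ n : ℤ, (n : ℝ) ^ 2 - |(n : ℝ)| ≤ e n) (k : ℕ) (C : ℝ)
    (ha : ∀ n : ℤ, ‖a n‖ ≤ C * |(n : ℝ)| ^ k) : Admissible a e := by
  refine ⟨he, fun T hT => ?_⟩
  refine Summable.of_nonneg_of_le (fun n => mul_nonneg (norm_nonneg _) (Real.exp_pos _).le)
    (fun n => ?_) ((summable_pow_mul_jacobiTheta₂_term_bound (T / 2) hT k).mul_left C)
  rw [← mul_assoc, Int.cast_abs]
  refine mul_le_mul (ha n) (Real.exp_le_exp.mpr ?_) (Real.exp_pos _).le
    ((norm_nonneg _).trans (ha n))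
  have := mul_le_mul_of_nonneg_left (hle n) (mul_pos Real.pi_pos hT).le
  nlinarith

/-- `(-1)^n`. -/
def altA (n : ℤ) : ℂ := (-1) ^ n

/-- `(-1)^n 2 n`. -/
def derA (n : ℤ) : ℂ := (-1) ^ n * (2 * n)

theorem admissible_four : Admissible altA sqE :=
  admissible_of_le (fun n => sq_nonneg n) (fun n => by simp [sqE, abs_nonneg]) 0 1
    fun n => by simp [altA]

theorem admissible_two : Admissible (fun _ => 1) triE :=
  admissible_of_le triE_nonneg (fun n => by
    simp only [triE]; push_cast; linarith [neg_abs_le (n : ℝ)]) 0 1 fun n => by simp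

theorem admissible_der : Admissible derA triE :=
  admissible_of_le triE_nonneg (fun n => by
    simp only [triE]; push_cast; linarith [neg_abs_le (n : ℝ)]) 1 2 fun n => by simp [derA]

theorem theta_four_eq (τ : ℂ) : jacobiTheta₂ (1 / 2) τ = qSum altA sqE τ := by
  refine tsum_congr fun n => ?_
  rw [jacobiTheta₂_term, Complex.exp_add, altA, sqE,
    show 2 * (π : ℂ) * I * n * (1 / 2) = (n : ℂ) * (π * I) by ring, Complex.exp_int_mul,
    Complex.exp_pi_mul_I]
  push_cast
  ring_nf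

theorem theta_two_eq (τ : ℂ) : jacobiTheta₂ (τ / 2) τ = qSum (fun _ => 1) triE τ := by
  refine tsum_congr fun n => ?_
  rw [jacobiTheta₂_term, triE, one_mul]
  push_cast
  ring_nf

theorem theta_der_eq (τ : ℂ) :
    jacobiTheta₂' ((1 + τ) / 2) τ = π * I * qSum derA triE τ := by
  rw [qSum, ← tsum_mul_left]
  refine tsum_congr fun n => ?_
  rw [jacobiTheta₂'_term, jacobiTheta₂_term, derA, triE,
    show 2 * (π : ℂ) * I * n * ((1 + τ) / 2) + π * I * n ^ 2 * τ =
      (n : ℂ) * (π * I) + π * I * τ * ((n ^ 2 + n : ℤ) : ℂ) by push_cast; ring,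
    Complex.exp_add, Complex.exp_int_mul, Complex.exp_pi_mul_I]
  ring

theorem theta_half_period_eq_zero (τ : ℂ) : jacobiTheta₂ ((1 + τ) / 2) τ = 0 := by
  set z := (1 + τ) / 2 with hz
  have h1 := jacobiTheta₂_add_left' (z - τ) τ
  rw [sub_add_cancel, show -(π : ℂ) * I * (τ + 2 * (z - τ)) = -(π * I) by rw [hz]; ring,
    Complex.exp_neg, Complex.exp_pi_mul_I] at h1
  have h2 := jacobiTheta₂_add_left (-z) τ
  rw [show -z + 1 = z - τ by rw [hz]; ring, jacobiTheta₂_neg_left] at h2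
  rw [h2] at h1
  linear_combination (1 / 2 : ℂ) * h1

/-! ### The behaviour of `η` -/

/-- The product in `η`. -/
def etaP (τ : ℂ) : ℂ := ∏' n, (1 - eta_q n τ)

theorem eta_eq_exp_mul (τ : ℂ) : η τ = cexp (π * I * τ / 12) * etaP τ := by
  rw [ModularForm.eta, etaP, Function.Periodic.qParam]
  congr 2
  push_cast
  ring

theorem tendsto_etaP {c : ℝ} (hc : 0 < c) :
    Tendsto (fun τ : ℍ => etaP (c * (τ : ℂ))) atImInfty (𝓝 1) := by
  have htprod : Tendsto (fun q : ℂ => ∏' n : ℕ, (1 - q ^ (n + 1))) (𝓝 0) (𝓝 1) := by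
    have h := (differentiableOn_tprod_one_sub_pow.differentiableAt
      (Metric.isOpen_ball.mem_nhds (Metric.mem_ball_self one_pos))).continuousAt.tendsto
    simpa using h
  refine (htprod.comp ?_).congr fun τ => rfl
  rw [tendsto_zero_iff_norm_tendsto_zero]
  simp only [Function.Periodic.norm_qParam, div_one]
  refine Real.tendsto_exp_atBot.comp ?_
  refine (tendsto_neg_atTop_atBot.comp (Filter.tendsto_comap.const_mul_atTop
    (by positivity : (0 : ℝ) < 2 * π * c))).congr fun τ => ?_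
  simp
  ring

theorem im_neg_one_div {τ : ℂ} (hτ : 0 < τ.im) : 0 < (-1 / τ).im := by
  have h : τ ≠ 0 := fun h => by simp [h] at hτ
  rw [neg_div, Complex.neg_im, one_div, Complex.inv_im, neg_div, neg_neg]
  exact div_pos hτ (Complex.normSq_pos.mpr h)

theorem eta_S_sq {τ : ℂ} (hτ : 0 < τ.im) : η (-1 / τ) ^ 2 = -I * τ * η τ ^ 2 := by
  have h := FA.ModField.EtaQ.etaPow_S 1 ⟨τ, hτ⟩
  simp only [FA.ModField.EtaQ.etaPow, mul_one, pow_one, inv_I] at h
  rw [UpperHalfPlane.modular_S_smul] at h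
  simp only at h
  rw [← h]
  congr 2
  rw [neg_div, one_div, inv_neg]

theorem differentiableAt_eta {τ : ℂ} (hτ : 0 < τ.im) : DifferentiableAt ℂ η τ :=
  differentiableAt_eta_of_mem_upperHalfPlaneSet hτ

theorem differentiableOn_eta_mul {c : ℝ} (hc : 0 < c) :
    DifferentiableOn ℂ (fun τ => η (c * τ)) ℍₒ := fun τ hτ =>
  ((differentiableAt_eta (τ := c * τ) (by simpa using mul_pos hc hτ)).comp τ
    (by fun_prop)).differentiableWithinAt

theorem eta_mul_ne_zero {c : ℝ} (hc : 0 < c) {τ : ℂ} (hτ : 0 < τ.im) : η (c * τ) ≠ 0 :=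
  eta_ne_zero (by simpa using mul_pos hc hτ)

/-! ### Constancy -/

/-- A function on the upper half plane invariant under the translation and the inversion, with a
limit at infinity, is constant. -/
theorem eq_of_invariant {g : ℂ → ℂ} {c : ℂ} (hd : DifferentiableOn ℂ g ℍₒ)
    (hT : ∀ τ : ℂ, 0 < τ.im → g (τ + 1) = g τ) (hS : ∀ τ : ℂ, 0 < τ.im → g (-1 / τ) = g τ)
    (hlim : Tendsto (fun τ : ℍ => g τ) atImInfty (𝓝 c)) {τ : ℂ} (hτ : 0 < τ.im) : g τ = c := by
  let G : ℍ → ℂ := fun z => g z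
  have hGT : G ∣[(0 : ℤ)] ModularGroup.T = G := by
    funext z
    rw [ModularForm.SL_slash_apply, neg_zero, zpow_zero, mul_one]
    show g _ = g _
    rw [UpperHalfPlane.modular_T_smul, UpperHalfPlane.coe_vadd, add_comm, Complex.ofReal_one,
      hT _ z.im_pos]
  have hGS : G ∣[(0 : ℤ)] ModularGroup.S = G := by
    funext z
    rw [ModularForm.SL_slash_apply, neg_zero, zpow_zero, mul_one]
    show g _ = g _
    rw [UpperHalfPlane.modular_S_smul]
    simp only
    rw [inv_neg, ← one_div, ← neg_div, hS _ z.im_pos]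
  let F : ModularForm 𝒮ℒ 0 :=
    { toFun := G
      slash_action_eq' := fun A hA => by
        obtain ⟨A, rfl⟩ := hA
        exact SlashInvariantForm.slash_action_generators_SL2Z hGS hGT A
      holo' := by
        rw [UpperHalfPlane.mdifferentiable_iff]
        exact hd.congr fun z hz => by
          show g (ofComplex z : ℂ) = g z
          rw [ofComplex_apply_of_im_pos hz]
      bdd_at_cusps' := fun {d} hd' => by
        rw [Subgroup.IsArithmetic.isCusp_iff_isCusp_SL2Z] at hd'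
        rw [OnePoint.isBoundedAt_iff_forall_SL2Z hd']
        intro A _
        rw [SlashInvariantForm.slash_action_generators_SL2Z hGS hGT A]
        exact hlim.isBigO_one ℝ }
  obtain ⟨k, hk⟩ := ModularFormClass.levelOne_weight_zero_const F
  have hG : ∀ z : ℍ, g z = k := fun z => congrFun hk z
  have : k = c := tendsto_nhds_unique (tendsto_const_nhds.congr fun z => (hG z).symm) hlim
  rw [← this]
  exact hG ⟨τ, hτ⟩

theorem analyticOnNhd_of_diff {g : ℂ → ℂ} (hd : DifferentiableOn ℂ g ℍₒ) :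
    AnalyticOnNhd ℂ g ℍₒ :=
  hd.analyticOnNhd isOpen_upperHalfPlaneSet

theorem isPreconnected_uhp : IsPreconnected (ℍₒ : Set ℂ) :=
  (convex_halfSpace_im_gt 0).isPreconnected

/-- A holomorphic function of square one with limit one is one. -/
theorem eq_one_of_sq {r : ℂ → ℂ} (hd : DifferentiableOn ℂ r ℍₒ)
    (hsq : ∀ τ : ℂ, 0 < τ.im → r τ ^ 2 = 1)
    (hlim : Tendsto (fun τ : ℍ => r τ) atImInfty (𝓝 1)) {τ : ℂ} (hτ : 0 < τ.im) : r τ = 1 := by
  rcases (analyticOnNhd_of_diff (hd.sub_const 1)).eq_zero_or_eq_zero_of_mul_eq_zero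
    (analyticOnNhd_of_diff (hd.add_const 1))
    (fun z hz => by linear_combination hsq z hz) isPreconnected_uhp with h | h
  · exact sub_eq_zero.mp (h τ hτ)
  · exfalso
    have h1 : Tendsto (fun τ : ℍ => r τ) atImInfty (𝓝 (-1)) :=
      tendsto_const_nhds.congr fun z => (eq_neg_of_add_eq_zero_left (h z z.im_pos)).symm
    have := tendsto_nhds_unique hlim h1
    norm_num at this

/-! ### `η³` -/

/-- The quotient in the first identity. -/
def ratioDer (τ : ℂ) : ℂ := qSum derA triE τ * cexp (π * I * τ / 4) / (2 * η τ ^ 3)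

theorem tendsto_ratioDer : Tendsto (fun τ : ℍ => ratioDer τ) atImInfty (𝓝 1) := by
  have h1 := tendsto_qSum admissible_der
  have hv : (∑' n, if triE n = 0 then derA n else 0) = 2 := by
    rw [tsum_eq_sum (s := {0, -1}) fun n hn => if_neg fun h => ?_]
    · simp [triE, derA]
    · simp only [Finset.mem_insert, Finset.mem_singleton, not_or] at hn
      have : n * (n + 1) = 0 := by rw [← h, triE]; ring
      rcases mul_eq_zero.mp this with h' | h' <;> omega
  rw [hv] at h1
  have h3 : Tendsto (fun τ : ℍ => qSum derA triE τ / (2 * etaP τ ^ 3)) atImInfty (𝓝 1) := by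
    have h2 := tendsto_etaP one_pos
    simp only [Complex.ofReal_one, one_mul] at h2
    have h := h1.div ((h2.pow 3).const_mul (2 : ℂ)) (by simp)
    rw [one_pow, mul_one, div_self two_ne_zero] at h
    exact h
  refine h3.congr fun τ => ?_
  rw [ratioDer, eta_eq_exp_mul, mul_pow, ← Complex.exp_nat_mul]
  have he := Complex.exp_ne_zero (π * I * (τ : ℂ) / 4)
  have hP : etaP τ ≠ 0 := eta_tprod_ne_zero τ.im_pos
  rw [show ((3 : ℕ) : ℂ) * (π * I * (τ : ℂ) / 12) = π * I * (τ : ℂ) / 4 by push_cast; ring]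
  field_simp

theorem ratioDer_sq_S {τ : ℂ} (hτ : 0 < τ.im) : ratioDer (-1 / τ) ^ 2 = ratioDer τ ^ 2 := by
  have hτ0 : τ ≠ 0 := fun h => by simp [h] at hτ
  have hFE := jacobiTheta₂'_functional_equation ((1 + τ) / 2) τ
  rw [show (1 + τ) / 2 / τ = -((1 + -1 / τ) / 2) + 1 by field_simp; ring,
    jacobiTheta₂'_add_left, jacobiTheta₂'_neg_left, jacobiTheta₂_add_left, jacobiTheta₂_neg_left,
    theta_half_period_eq_zero, theta_der_eq, theta_der_eq, mul_zero, sub_zero] at hFE
  have hc : ((-I * τ) ^ (1 / 2 : ℂ)) ^ 2 = -I * τ := by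
    rw [one_div]; exact Complex.cpow_nat_inv_pow _ two_ne_zero
  set c := (-I * τ) ^ (1 / 2 : ℂ) with hcdef
  have hc0 : c ≠ 0 := fun h => by
    rw [h, zero_pow two_ne_zero] at hc
    exact mul_ne_zero (neg_ne_zero.mpr I_ne_zero) hτ0 hc.symm
  set D := qSum derA triE τ with hDdef
  set D' := qSum derA triE (-1 / τ) with hD'def
  set X := cexp (-π * I * ((1 + τ) / 2) ^ 2 / τ) with hX
  have hD : D * c * τ = -(X * D') := by
    have hpi : (π : ℂ) * I ≠ 0 := mul_ne_zero (Complex.ofReal_ne_zero.mpr Real.pi_ne_zero) I_ne_zero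
    field_simp at hFE
    linear_combination hFE
  have hE : cexp (π * I * (-1 / τ) / 4) ^ 2 = -(cexp (π * I * τ / 4) ^ 2 * X ^ 2) := by
    rw [hX, ← Complex.exp_nat_mul, ← Complex.exp_nat_mul, ← Complex.exp_nat_mul, ← Complex.exp_add,
      show ∀ x : ℂ, -cexp x = cexp (x + π * I) from fun x => by
        rw [Complex.exp_add, Complex.exp_pi_mul_I]; ring]
    congr 1
    push_cast
    field_simp
    ring
  have hη : (η (-1 / τ) ^ 3) ^ 2 = (-I * τ) ^ 3 * (η τ ^ 3) ^ 2 := by
    rw [← pow_mul, show 3 * 2 = 2 * 3 from rfl, pow_mul, eta_S_sq hτ, mul_pow, ← pow_mul, ← pow_mul]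
  have hη0 : η τ ≠ 0 := eta_ne_zero hτ
  simp only [ratioDer, div_pow, mul_pow]
  rw [hE, hη, ← hDdef, ← hD'def]
  have hI : -I * τ ≠ 0 := mul_ne_zero (neg_ne_zero.mpr I_ne_zero) hτ0
  clear_value D D'
  field_simp
  have hD2 := congrArg (· ^ 2) hD
  simp only [mul_pow, neg_sq, hc] at hD2
  linear_combination -hD2 - τ ^ 3 * D ^ 2 * I * Complex.I_sq

/-- **Jacobi**: `∑ (-1)^n 2 n e^(π i τ (n + 1/2)²) = 2 η(τ)³`. -/
theorem qSum_der_eq {τ : ℂ} (hτ : 0 < τ.im) :
    qSum derA triE τ * cexp (π * I * τ / 4) = 2 * η τ ^ 3 := by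
  have hd : DifferentiableOn ℂ ratioDer ℍₒ :=
    ((differentiableOn_qSum admissible_der).mul (by fun_prop)).div
      ((DifferentiableOn.pow (fun z hz => (differentiableAt_eta hz).differentiableWithinAt) 3).const_mul
        2) fun z hz => mul_ne_zero two_ne_zero (pow_ne_zero 3 (eta_ne_zero hz))
  have hsq : ∀ z : ℂ, 0 < z.im → ratioDer z ^ 2 = 1 := fun z hz =>
    eq_of_invariant (hd.pow 2) (fun w hw => by
      simp only [Pi.pow_apply, ratioDer]
      rw [FA.ModField.EtaQ.eta_add_one, qSum_add_one (b := derA) fun n => by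
        rw [(even_triE n).neg_one_zpow, mul_one],
        show π * I * (w + 1) / 4 = π * I * w / 4 + π * I / 4 by ring, Complex.exp_add, mul_pow]
      rw [← Complex.exp_nat_mul (2 * π * I / 24) 3,
        show ((3 : ℕ) : ℂ) * (2 * π * I / 24) = π * I / 4 by push_cast; ring]
      have := Complex.exp_ne_zero (π * I / 4)
      field_simp) (fun w hw => ratioDer_sq_S hw)
      (by simpa using tendsto_ratioDer.pow 2) hz
  have h := eq_one_of_sq hd hsq tendsto_ratioDer hτ
  rw [ratioDer, div_eq_one_iff_eq (mul_ne_zero two_ne_zero (pow_ne_zero 3 (eta_ne_zero hτ)))] at h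
  exact h

/-! ### `θ₄` -/

/-- The quotient in the second identity. -/
def ratioFour (τ : ℂ) : ℂ := qSum altA sqE τ * η τ / η ((1 / 2 : ℝ) * τ) ^ 2

/-- Its image under the inversion, squared. -/
def sqTwo (τ : ℂ) : ℂ :=
  cexp (π * I * τ / 2) * (qSum (fun _ => 1) triE τ * η τ) ^ 2 / (4 * η ((2 : ℝ) * τ) ^ 4)

theorem ratioFour_sq_S {τ : ℂ} (hτ : 0 < τ.im) : ratioFour (-1 / τ) ^ 2 = sqTwo τ := by
  have hτ0 : τ ≠ 0 := fun h => by simp [h] at hτ
  have hFE := jacobiTheta₂_functional_equation (τ / 2) τ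
  rw [show τ / 2 / τ = 1 / 2 by field_simp, theta_two_eq, theta_four_eq,
    show -(π : ℂ) * I * (τ / 2) ^ 2 / τ = -(π * I * τ / 4) by field_simp; ring,
    Complex.exp_neg] at hFE
  have hc : ((-I * τ) ^ (1 / 2 : ℂ)) ^ 2 = -I * τ := by
    rw [one_div]; exact Complex.cpow_nat_inv_pow _ two_ne_zero
  set c := (-I * τ) ^ (1 / 2 : ℂ) with hcdef
  have hc0 : c ≠ 0 := fun h => by
    rw [h, zero_pow two_ne_zero] at hc
    exact mul_ne_zero (neg_ne_zero.mpr I_ne_zero) hτ0 hc.symm
  have h2 : 0 < (((2 : ℝ) : ℂ) * τ).im := by simpa using hτ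
  have hη2 : η (((1 / 2 : ℝ) : ℂ) * (-1 / τ)) ^ 2 =
      -I * (((2 : ℝ) : ℂ) * τ) * η (((2 : ℝ) : ℂ) * τ) ^ 2 := by
    rw [← eta_S_sq h2]
    congr 2
    push_cast
    field_simp
  have hθ : qSum altA sqE (-1 / τ) = c * cexp (π * I * τ / 4) * qSum (fun _ => 1) triE τ := by
    rw [hFE]
    have := Complex.exp_ne_zero (π * I * τ / 4)
    field_simp
  rw [ratioFour, div_pow, mul_pow, eta_S_sq hτ, hθ, hη2, sqTwo]
  simp only [mul_pow, hc, ← pow_mul]
  rw [
    show π * I * τ / 2 = ((2 : ℕ) : ℂ) * (π * I * τ / 4) by push_cast; ring, Complex.exp_nat_mul]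
  have hη0 : η (((2 : ℝ) : ℂ) * τ) ≠ 0 := eta_mul_ne_zero two_pos hτ
  field_simp
  push_cast
  ring

theorem sqTwo_S {τ : ℂ} (hτ : 0 < τ.im) : sqTwo (-1 / τ) = ratioFour τ ^ 2 := by
  rw [← ratioFour_sq_S (im_neg_one_div hτ)]
  congr 2
  field_simp

theorem eta_add_nat (τ : ℂ) (m : ℕ) :
    η (τ + m) = cexp (2 * π * I / 24) ^ m * η τ := by
  induction m with
  | zero => simp
  | succ m ih =>
    rw [Nat.cast_succ, ← add_assoc, FA.ModField.EtaQ.eta_add_one, ih, pow_succ']
    ring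

theorem sqTwo_add_one (τ : ℂ) : sqTwo (τ + 1) = sqTwo τ := by
  rw [sqTwo, sqTwo, qSum_add_one (b := fun _ => 1) (fun n => by
      rw [(even_triE n).neg_one_zpow, mul_one]),
    FA.ModField.EtaQ.eta_add_one,
    show (((2 : ℝ) : ℂ)) * (τ + 1) = ((2 : ℝ) : ℂ) * τ + ((2 : ℕ) : ℂ) by push_cast; ring,
    eta_add_nat, show π * I * (τ + 1) / 2 = π * I * τ / 2 + π * I / 2 by ring, Complex.exp_add,
    show π * I / 2 = ((6 : ℕ) : ℂ) * (2 * π * I / 24) by push_cast; ring, Complex.exp_nat_mul]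
  have := Complex.exp_ne_zero (2 * π * I / 24)
  field_simp

theorem ratioFour_sq_add_two (τ : ℂ) : ratioFour (τ + 2) ^ 2 = ratioFour τ ^ 2 := by
  have h : qSum altA sqE (τ + 2) = qSum altA sqE τ := by
    rw [← theta_four_eq, ← theta_four_eq, jacobiTheta₂_add_right]
  rw [ratioFour, ratioFour, h,
    show (((1 / 2 : ℝ)) : ℂ) * (τ + 2) = ((1 / 2 : ℝ) : ℂ) * τ + ((1 : ℕ) : ℂ) by push_cast; ring,
    show (2 : ℂ) = ((2 : ℕ) : ℂ) by norm_num, eta_add_nat, eta_add_nat]
  have := Complex.exp_ne_zero (2 * π * I / 24)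
  field_simp

theorem ratioFour_sq_add_one_S {τ : ℂ} (hτ : 0 < τ.im) :
    ratioFour (-1 / τ + 1) ^ 2 = ratioFour (τ + 1) ^ 2 := by
  have hτ0 : τ ≠ 0 := fun h => by simp [h] at hτ
  have hm : 0 < (τ - 1).im := by simpa using hτ
  have hm0 : τ - 1 ≠ 0 := fun h => by simp [h] at hm
  -- `(τ - 1) / τ` is the inversion of `x = -1 / (τ - 1) - 1`
  have hx : 0 < (-1 / (τ - 1) - 1).im := by simpa using im_neg_one_div hm
  have e : -1 / (τ - 1) - 1 = -τ / (τ - 1) := by rw [div_sub_one hm0]; ring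
  rw [show -1 / τ + 1 = -1 / (-1 / (τ - 1) - 1) by rw [e]; field_simp; ring, ratioFour_sq_S hx,
    ← sqTwo_add_one, sub_add_cancel, sqTwo_S hm, ← ratioFour_sq_add_two (τ - 1)]
  congr 2
  ring

theorem differentiableOn_ratioFour : DifferentiableOn ℂ ratioFour ℍₒ :=
  ((differentiableOn_qSum admissible_four).mul
    fun z hz => (differentiableAt_eta hz).differentiableWithinAt).div
      ((differentiableOn_eta_mul (by norm_num)).pow 2)
      fun z hz => pow_ne_zero 2 (eta_mul_ne_zero (by norm_num) hz)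

theorem differentiableOn_sqTwo : DifferentiableOn ℂ sqTwo ℍₒ :=
  ((DifferentiableOn.mul (by fun_prop) (((differentiableOn_qSum admissible_two).mul
    fun z hz => (differentiableAt_eta hz).differentiableWithinAt).pow 2))).div
      (((differentiableOn_eta_mul two_pos).pow 4).const_mul 4)
      fun z hz => mul_ne_zero (by norm_num) (pow_ne_zero 4 (eta_mul_ne_zero two_pos hz))

theorem tendsto_ratioFour : Tendsto (fun τ : ℍ => ratioFour τ) atImInfty (𝓝 1) := by
  have h1 := tendsto_qSum admissible_four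
  rw [tsum_eq_single 0 fun n hn => if_neg fun h => hn (by simpa [sqE] using h)] at h1
  simp [sqE, altA] at h1
  have h2 := tendsto_etaP one_pos
  simp only [Complex.ofReal_one, one_mul] at h2
  have h3 := tendsto_etaP (show (0 : ℝ) < 1 / 2 by norm_num)
  have h4 := (h1.mul h2).div (h3.pow 2) (by simp)
  simp only [one_mul, one_pow, div_one] at h4
  refine h4.congr fun τ => ?_
  rw [ratioFour, eta_eq_exp_mul τ, eta_eq_exp_mul (((1 / 2 : ℝ) : ℂ) * τ), mul_pow,
    ← Complex.exp_nat_mul,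
    show ((2 : ℕ) : ℂ) * (π * I * (((1 / 2 : ℝ) : ℂ) * τ) / 12) = π * I * τ / 12 by
      push_cast; ring]
  have := Complex.exp_ne_zero (π * I * (τ : ℂ) / 12)
  simp only [Pi.div_apply]
  field_simp

theorem tendsto_sqTwo : Tendsto (fun τ : ℍ => sqTwo τ) atImInfty (𝓝 1) := by
  have h1 := tendsto_qSum admissible_two
  have hv : (∑' n : ℤ, if triE n = 0 then (1 : ℂ) else 0) = 2 := by
    rw [tsum_eq_sum (s := {0, -1}) fun n hn => if_neg fun h => ?_]
    · simp [triE]; norm_num
    · simp only [Finset.mem_insert, Finset.mem_singleton, not_or] at hn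
      have : n * (n + 1) = 0 := by rw [← h, triE]; ring
      rcases mul_eq_zero.mp this with h' | h' <;> omega
  rw [hv] at h1
  have h2 := tendsto_etaP one_pos
  simp only [Complex.ofReal_one, one_mul] at h2
  have h3 := tendsto_etaP two_pos
  have h4 := ((h1.mul h2).pow 2).div ((h3.pow 4).const_mul (4 : ℂ)) (by simp)
  norm_num at h4
  refine h4.congr fun τ => ?_
  rw [sqTwo, eta_eq_exp_mul τ, eta_eq_exp_mul (((2 : ℝ) : ℂ) * τ)]
  simp only [mul_pow, ← Complex.exp_nat_mul, Pi.div_apply]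
  rw [show ((4 : ℕ) : ℂ) * (π * I * (((2 : ℝ) : ℂ) * τ) / 12) =
      π * I * τ / 2 + ((2 : ℕ) : ℂ) * (π * I * τ / 12) by push_cast; ring, Complex.exp_add]
  have := Complex.exp_ne_zero (π * I * (τ : ℂ) / 2)
  have := Complex.exp_ne_zero (((2 : ℕ) : ℂ) * (π * I * (τ : ℂ) / 12))
  push_cast
  field_simp

/-- **`θ₄`**: `∑ (-1)^n e^(π i τ n²) η(τ) = η(τ/2)²`. -/
theorem qSum_four_eq {τ : ℂ} (hτ : 0 < τ.im) :
    qSum altA sqE τ * η τ = η ((1 / 2 : ℝ) * τ) ^ 2 := by
  set A3 : ℂ → ℂ := fun z => ratioFour (z + 1) ^ 2 with hA3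
  set A4 : ℂ → ℂ := fun z => ratioFour z ^ 2 with hA4
  have hshift : Set.MapsTo (fun z : ℂ => z + 1) ℍₒ ℍₒ := fun z hz => by simpa using hz
  have hd3 : DifferentiableOn ℂ A3 ℍₒ :=
    (differentiableOn_ratioFour.comp (by fun_prop) hshift).pow 2
  have hd4 : DifferentiableOn ℂ A4 ℍₒ := differentiableOn_ratioFour.pow 2
  have hP : ∀ z : ℂ, 0 < z.im → (sqTwo z - 1) * (A3 z - 1) * (A4 z - 1) = 0 := fun z hz => by
    refine eq_of_invariant (((differentiableOn_sqTwo.sub_const 1).mul (hd3.sub_const 1)).mul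
      (hd4.sub_const 1)) (fun w hw => ?_) (fun w hw => ?_) ?_ hz
    · simp only [Pi.mul_apply, hA3, hA4, sqTwo_add_one, add_assoc, one_add_one_eq_two,
        ratioFour_sq_add_two]
      ring
    · simp only [Pi.mul_apply, hA3, hA4, sqTwo_S hw, ratioFour_sq_S hw, ratioFour_sq_add_one_S hw]
      ring
    · have ht : Tendsto (fun τ : ℍ => A3 τ) atImInfty (𝓝 1) := by
        have hmap : Tendsto (fun τ : ℍ => (1 : ℝ) +ᵥ τ) atImInfty atImInfty :=
          Filter.tendsto_comap_iff.mpr (Filter.tendsto_comap.congr fun τ => by simp)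
        simpa [hA3, Function.comp_def, add_comm] using (tendsto_ratioFour.comp hmap).pow 2
      simpa [hA4] using ((tendsto_sqTwo.sub_const 1).mul (ht.sub_const 1)).mul
        ((tendsto_ratioFour.pow 2).sub_const 1)
  -- one of the three factors vanishes identically
  have key : ∀ z : ℂ, 0 < z.im → A4 z = 1 := by
    have h2 := analyticOnNhd_of_diff (differentiableOn_sqTwo.sub_const 1)
    have h3 := analyticOnNhd_of_diff (hd3.sub_const 1)
    have h4 := analyticOnNhd_of_diff (hd4.sub_const 1)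
    rcases (h2.mul h3).eq_zero_or_eq_zero_of_mul_eq_zero h4 hP isPreconnected_uhp with h | h
    · rcases h2.eq_zero_or_eq_zero_of_mul_eq_zero h3 h isPreconnected_uhp with h' | h'
      · intro z hz
        have := sub_eq_zero.mp (h' _ (im_neg_one_div hz))
        rwa [sqTwo_S hz] at this
      · intro z hz
        have := sub_eq_zero.mp (h' (z - 1) (by simpa using hz))
        simpa [hA3, hA4] using this
    · exact fun z hz => sub_eq_zero.mp (h z hz)
  have h := eq_one_of_sq differentiableOn_ratioFour key tendsto_ratioFour hτ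
  rw [ratioFour, div_eq_one_iff_eq (pow_ne_zero 2 (eta_mul_ne_zero (by norm_num) hτ))] at h
  exact h

end FA.CM

end
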